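import Fermat.Agent.GalCoh.KummerUnits
import Fermat.Agent.GalCoh.UnrDual
import Fermat.Agent.TW.Global

/-!
# Finitely many quadratic characters unramified outside a finite set

For a level `H` the continuous characters of order two which are trivial on inertia outside a finite
set of primes form a finite set.
-/

set_option autoImplicit false
set_option linter.unusedSectionVars false

noncomputable section

open scoped Pointwise

namespace FA.Two

open FA.GalCoh

local notation "Qb" => AlgebraicClosure ℚ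

/-- Characters of order two of `H` unramified outside `S₀`. -/
structure IsUnrChar (H : Subgroup GQ) (S₀ : Finset ℕ) (f : H → ZMod 2) : Prop where
  hom : ∀ g h, f (g * h) = f g + f h
  lc : ∃ N : Subgroup GQ, IsOpen (N : Set GQ) ∧ ∀ (g : H) (s : GQ) (hs : s ∈ N) (hsH : s ∈ H),
    f (g * ⟨s, hsH⟩) = f g
  unr : ∀ l : ℕ, l.Prime → l ∉ S₀ → ∀ A : ValuationSubring Qb, A.LiesOverPrime l →
    ∀ σ ∈ A.inertiaSubgroupIn ℚ, ∀ h : σ ∈ H, f ⟨σ, h⟩ = 0

theorem IsUnrChar.mem_Z1 {H : Subgroup GQ} {S₀ : Finset ℕ} {f : H → ZMod 2}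
    (hf : IsUnrChar H S₀ f) : f ∈ Z1 (LQ.sub H) (triv H 2) := by
  obtain ⟨N, hN, h⟩ := hf.lc
  refine ⟨⟨N.subgroupOf H, ⟨N, mem_LQ_iff_isOpen.2 hN, rfl⟩, fun g s hs => h g s.1 hs s.2⟩,
    fun g h => ?_⟩
  rw [hf.hom, add_comm]
  rfl

theorem val_zsmul {Ω : Type} [Field Ω] (n : ℤ) (m : UM Ω) : (n • m).val = m.val ^ n := by
  rcases Int.eq_nat_or_neg n with ⟨k, rfl | rfl⟩
  · rw [natCast_zsmul, UM.val_nsmul, zpow_natCast]
  · rw [neg_zsmul, natCast_zsmul, UM.val_neg, UM.val_nsmul, zpow_neg, zpow_natCast]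

/-- **Finiteness.** -/
theorem finite_unrChar {H : Subgroup GQ} (hH : IsOpen (H : Set GQ)) (S₀ : Finset ℕ)
    (hunr : ∀ l : ℕ, l.Prime → l ∉ S₀ → ∀ A : ValuationSubring Qb, A.LiesOverPrime l →
      A.inertiaSubgroupIn ℚ ≤ H) :
    {f : H → ZMod 2 | IsUnrChar H S₀ f}.Finite := by
  classical
  have : Fact (Nat.Prime 2) := ⟨Nat.prime_two⟩
  have hHL : H ∈ LQ.carrier := mem_LQ_iff_isOpen.2 hH
  have h1 : ∀ s ∈ H, (cycQ 2).χ s = 1 := fun s _ => Subsingleton.elim _ _
  set K := (cycQ 2).kumData H h1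
  obtain ⟨S, -, had⟩ := exists_adapted hHL
  set S' : Finset Nat.Primes := S ∪ S₀.subtype Nat.Prime
  set T := placesOver hHL S'
  have hfg := finite_tUnits hHL T
  have hsq : ∀ a : (nsmulAddMonoidHom (α := ↥(tUnits H T)) 2).ker,
      a.1.1.1.val = 1 ∨ a.1.1.1.val = -1 := fun a => by
    have e : (2 • a.1 : ↥(tUnits H T)) = 0 := a.2
    have e' := congrArg (fun z : ↥(tUnits H T) => z.1.1.val) e
    simp only [AddSubmonoidClass.coe_nsmul, UM.val_nsmul, ZeroMemClass.coe_zero, UM.val_zero] at e'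
    exact sq_eq_one_iff.1 e'
  have hker : Finite (nsmulAddMonoidHom (α := ↥(tUnits H T)) 2).ker := by
    refine Finite.of_injective (fun a => decide (a.1.1.1.val = 1)) fun a b h => ?_
    simp only [decide_eq_decide] at h
    refine Subtype.ext (Subtype.ext (Subtype.ext (UM.ext ?_)))
    rcases hsq a with ha | ha <;> rcases hsq b with hb | hb <;> rw [ha, hb]
    · exact absurd (hb.symm.trans (h.1 ha)) (by norm_num)
    · exact absurd (ha.symm.trans (h.2 hb)) (by norm_num)
  have hfin : Finite (kumUnits K T).range := by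
    refine Nat.finite_of_card_ne_zero ?_
    rw [← AddSubgroup.index_ker, ker_kumUnits, index_nsmul_range_fg two_ne_zero]
    exact mul_ne_zero (pow_ne_zero _ two_ne_zero) Nat.card_pos.ne'
  have key : ∀ T₀ : Finset (Place H), ∀ a : fixUM H Qb,
      (∀ w : Place H, w ∉ T → ∃ j : ℤ, w.absv a.1.val = ‖((w.1 : ℕ) : PadicAlgCl w.1)‖ ^ (2 * j)) →
      (∀ w : Place H, w ∉ T → w ∉ T₀ → w.absv a.1.val = 1) →
      K.kum a ∈ (kumUnits K T).range := by
    intro T₀
    induction T₀ using Finset.induction_on with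
    | empty =>
      intro a _ ha
      exact ⟨⟨a, fun w hw => ha w hw (Finset.notMem_empty _)⟩, rfl⟩
    | insert v T₀ hv ih =>
      intro a heven hsupp
      by_cases hvT : v ∈ T
      · exact ih a heven fun w hw hw0 => hsupp w hw fun h => by
          rcases Finset.mem_insert.1 h with rfl | h
          · exact hw hvT
          · exact hw0 h
      have hvS : v.1 ∉ S := fun h => hvT ((mem_placesOver hHL).2 (Finset.mem_union_left _ h))
      obtain ⟨y, hy, hy0, hyv, hyw⟩ := had v hvS
      obtain ⟨j, hj⟩ := heven v hvT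
      set b : fixUM H Qb := j • mkFix hy hy0 with hb
      have hbv : ∀ w : Place H, w.absv b.1.val = w.absv y ^ j := fun w => by
        rw [hb, AddSubgroupClass.coe_zsmul, Place.absv, val_zsmul, map_zpow₀, norm_zpow]
        rfl
      have hyw' : ∀ w : Place H, w ∉ T → w ≠ v → w.absv y = 1 := fun w hw hne =>
        hyw w (fun h => hw ((mem_placesOver hHL).2 (Finset.mem_union_left _ h))) hne
      have habs : ∀ w : Place H, w.absv (a - 2 • b).1.val = w.absv a.1.val / w.absv y ^ (2 * j) := by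
        intro w
        have e : (a - 2 • b).1.val = a.1.val / b.1.val ^ 2 := by
          rw [AddSubgroupClass.coe_sub, AddSubmonoidClass.coe_nsmul, UM.val_sub, UM.val_nsmul]
        rw [e, Place.absv, map_div₀, map_pow, norm_div, norm_pow, ← Place.absv, ← Place.absv, hbv,
          mul_comm 2 j, zpow_mul]
        norm_cast
      have hkum : K.kum (a - 2 • b) = K.kum a := by
        rw [map_sub, map_nsmul, two_nsmul,
          show K.kum b + K.kum b = 0 by rw [← two_smul (ZMod 2), show (2 : ZMod 2) = 0 from rfl,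
            zero_smul], sub_zero]
      rw [← hkum]
      refine ih _ (fun w hw => ?_) fun w hw hw0 => ?_
      · by_cases hne : w = v
        · subst hne
          exact ⟨0, by rw [habs, hyv, hj, div_self (zpow_ne_zero _ norm_q_pos.ne'), mul_zero,
            zpow_zero]⟩
        · obtain ⟨i, hi⟩ := heven w hw
          exact ⟨i, by rw [habs, hyw' w hw hne, one_zpow, div_one, hi]⟩
      · by_cases hne : w = v
        · subst hne
          rw [habs, hyv, hj, div_self (zpow_ne_zero _ norm_q_pos.ne')]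
        · rw [habs, hyw' w hw hne, one_zpow, div_one]
          exact hsupp w hw fun h => (Finset.mem_insert.1 h).elim hne hw0
  have hmem : ∀ f : H → ZMod 2, ∀ hf : IsUnrChar H S₀ f,
      mk1 (LQ.sub H) (triv H 2) ⟨f, hf.mem_Z1⟩ ∈ (kumUnits K T).range := by
    intro f hf
    obtain ⟨a, ha⟩ := K.kum_surjective (mk1 (LQ.sub H) (triv H 2) ⟨f, hf.mem_Z1⟩)
    obtain ⟨T₀, hT₀⟩ := exists_finset_support hHL a
    rw [← ha]
    refine key T₀ a (fun w hw => ?_) fun w _ hw0 => hT₀ w hw0
    have hfk : K.kc a = f := congrArg Subtype.val (mk1_triv_injective ha)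
    have hl : ((w.1 : ℕ)) ∉ S₀ := fun h => hw ((mem_placesOver hHL).2
      (Finset.mem_union_right _ (Finset.mem_subtype.2 h)))
    set g := w.rep
    set y := g (K.kroot a.1).val
    have hfix : ∀ τ ∈ inertL (w.1 : ℕ), loc (w.1 : ℕ) τ y = y := by
      intro τ hτ
      have hA := liesOverPrime_padicPlace (w.1 : ℕ)
      have hmem : g⁻¹ * loc (w.1 : ℕ) τ * g ∈
          (g⁻¹ • padicPlace (w.1 : ℕ)).inertiaSubgroupIn ℚ := by
        simpa using FA.TW.conj_mem_inertia w.1.2 hA hτ g⁻¹
      have hB := FA.Density.liesOverPrime_smul hA g⁻¹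
      have hH' := hunr _ w.1.2 hl _ hB hmem
      have h0 := hf.unr _ w.1.2 hl _ hB _ hmem hH'
      rw [← hfk] at h0
      have e := K.eps_kc a (K.nsmul_kroot a.1) ⟨_, hH'⟩
      rw [h0, map_zero] at e
      have e' := congrArg UM.val (sub_eq_zero.1 e.symm)
      rw [UM.val_smul] at e'
      change (g⁻¹ * loc (w.1 : ℕ) τ * g) (K.kroot a.1).val = (K.kroot a.1).val at e'
      have e'' := congrArg g e'
      rwa [AlgEquiv.mul_apply, AlgEquiv.mul_apply, AlgEquiv.aut_inv, AlgEquiv.apply_symm_apply]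
        at e''
    obtain ⟨j, hj⟩ := exists_zpow_norm_of_kur hfix
      ((_root_.map_ne_zero _).2 (UM.val_ne_zero _))
    refine ⟨j, ?_⟩
    have e := congrArg UM.val (K.nsmul_kroot a.1)
    rw [UM.val_nsmul] at e
    rw [← e, absv_pow, Place.absv, emb_apply, hj, mul_comm, zpow_mul]
    norm_cast
  exact Set.finite_coe_iff.1 <| Finite.of_injective
    (fun f : {f : H → ZMod 2 | IsUnrChar H S₀ f} =>
      (⟨_, hmem f.1 f.2⟩ : (kumUnits K T).range))
    fun f g h => Subtype.ext (congrArg (fun z : ↥(Z1 (LQ.sub H) (triv H 2)) => z.1)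
      (mk1_triv_injective (congrArg (fun z : (kumUnits K T).range => z.1) h)))

end FA.Two
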