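import Fermat.Agent.Two.AdSplit

/-!
# Two transvections generate `SL₂(ℤ/2ⁿ)`

A unipotent matrix modulo `2ⁿ` with residual image of order two is a transvection; two of them
with different residual lines generate all matrices of determinant one.
-/

set_option autoImplicit false
set_option linter.unusedSectionVars false

noncomputable section

open Matrix

namespace FA.Two

local notation "M2" k:max => Matrix (Fin 2) (Fin 2) k

/-- Reduction of matrices modulo `2`. -/
def mod2 (n : ℕ) : M2 (ZMod (2 ^ (n + 1))) →+* M2 (ZMod 2) :=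
  (ZMod.castHom (dvd_pow_self 2 n.succ_ne_zero) (ZMod 2)).mapMatrix

variable {n : ℕ}

lemma isUnit_of_castHom_ne {x : ZMod (2 ^ (n + 1))}
    (h : ZMod.castHom (dvd_pow_self 2 n.succ_ne_zero) (ZMod 2) x ≠ 0) : IsUnit x := by
  obtain ⟨a, rfl⟩ := ZMod.natCast_zmod_surjective x
  rw [map_natCast, ne_eq, ZMod.natCast_eq_zero_iff] at h
  rw [ZMod.isUnit_iff_coprime]
  exact Nat.Coprime.pow_right _ ((Nat.prime_two.coprime_iff_not_dvd.mpr h).symm)

lemma isUnit_or_of_det {M : M2 (ZMod (2 ^ (n + 1)))} (h : M.det = 1) :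
    IsUnit (M 1 0) ∨ IsUnit (M 0 0) := by
  set π := ZMod.castHom (dvd_pow_self 2 n.succ_ne_zero) (ZMod 2)
  have h' := congrArg π h
  rw [det_fin_two, map_sub, map_mul, map_mul, map_one] at h'
  by_cases hc : π (M 1 0) = 0
  · refine Or.inr (isUnit_of_castHom_ne fun ha => ?_)
    rw [ha, hc, zero_mul, mul_zero, sub_zero] at h'
    exact zero_ne_one h'
  · exact Or.inl (isUnit_of_castHom_ne hc)

/-- Elementary matrices generate the matrices of determinant one. -/
lemma mem_of_elementary (S : Submonoid (M2 (ZMod (2 ^ (n + 1)))))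
    (hU : ∀ z, (!![1, z; 0, 1] : M2 (ZMod (2 ^ (n + 1)))) ∈ S)
    (hL : ∀ z, (!![1, 0; z, 1] : M2 (ZMod (2 ^ (n + 1)))) ∈ S)
    {M : M2 (ZMod (2 ^ (n + 1)))} (h : M.det = 1) : M ∈ S := by
  have unitCase : ∀ M : M2 (ZMod (2 ^ (n + 1))), M.det = 1 → IsUnit (M 1 0) → M ∈ S := by
    intro M h hc
    obtain ⟨c, hc⟩ := hc
    rw [det_fin_two, ← hc] at h
    have key : M = !![1, (M 0 0 - 1) * ↑c⁻¹; 0, 1] * !![1, 0; (c : ZMod (2 ^ (n + 1))), 1] *
        !![1, (M 1 1 - 1) * ↑c⁻¹; 0, 1] := by
      ext i j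
      fin_cases i <;> fin_cases j <;> simp [Matrix.mul_apply, Fin.sum_univ_two]
      · linear_combination (-(↑c⁻¹ : ZMod (2 ^ (n + 1)))) * h -
          M 0 1 * c.inv_mul
      · exact hc.symm
      · linear_combination (-(M 1 1 - 1)) * c.inv_mul
    rw [key]
    exact S.mul_mem (S.mul_mem (hU _) (hL _)) (hU _)
  rcases isUnit_or_of_det h with hc | ha
  · exact unitCase M h hc
  · by_cases hc : IsUnit (M 1 0)
    · exact unitCase M h hc
    · have h1 : IsUnit (((!![1, 0; 1, 1] : M2 (ZMod (2 ^ (n + 1)))) * M) 1 0) := by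
        have : ((!![1, 0; 1, 1] : M2 (ZMod (2 ^ (n + 1)))) * M) 1 0 = M 0 0 + M 1 0 := by
          simp [Matrix.mul_apply, Fin.sum_univ_two]
        rw [this]
        refine isUnit_of_castHom_ne ?_
        set π := ZMod.castHom (dvd_pow_self 2 n.succ_ne_zero) (ZMod 2)
        have hc0 : π (M 1 0) = 0 := by
          by_contra hne
          exact hc (isUnit_of_castHom_ne hne)
        rw [map_add, hc0, add_zero]
        exact (ha.map π).ne_zero
      have key : M = !![1, 0; -1, 1] * (!![1, 0; 1, 1] * M) := by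
        rw [← mul_assoc]
        ext i j
        fin_cases i <;> fin_cases j <;> simp [Matrix.mul_apply, Fin.sum_univ_two]
      rw [key]
      refine S.mul_mem (hL _) (unitCase _ ?_ h1)
      rw [det_mul, h]
      simp [det_fin_two]

/-- A nonzero square zero matrix with the vector in its image. -/
lemma exists_kernel_vector {u : M2 (ZMod (2 ^ (n + 1)))} (hu : (u - 1) ^ 2 = 0)
    (hT : mod2 n u ≠ 1) : ∃ e : Fin 2 → ZMod (2 ^ (n + 1)), (u - 1) *ᵥ e = 0 ∧
      (∃ i, ZMod.castHom (dvd_pow_self 2 n.succ_ne_zero) (ZMod 2) (e i) ≠ 0) ∧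
      (mod2 n u) *ᵥ (fun i => ZMod.castHom (dvd_pow_self 2 n.succ_ne_zero) (ZMod 2) (e i)) =
        fun i => ZMod.castHom (dvd_pow_self 2 n.succ_ne_zero) (ZMod 2) (e i) := by
  classical
  set π := ZMod.castHom (dvd_pow_self 2 n.succ_ne_zero) (ZMod 2)
  obtain ⟨i, j, hij⟩ : ∃ i j, π ((u - 1) i j) ≠ 0 := by
    by_contra hcon
    push Not at hcon
    refine hT (sub_eq_zero.mp ?_)
    rw [← map_one (mod2 n), ← map_sub]
    exact Matrix.ext fun i j => hcon i j
  have h0 : (u - 1) *ᵥ (fun l => (u - 1) l j) = 0 := funext fun l => by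
    have := congrFun (congrFun hu l) j
    rw [pow_two, Matrix.mul_apply] at this
    exact this
  refine ⟨fun l => (u - 1) l j, h0, ⟨i, hij⟩, ?_⟩
  have hl : mod2 n (u - 1) *ᵥ (fun l => π ((u - 1) l j)) = 0 := funext fun l => by
    have := RingHom.map_mulVec π (u - 1) (fun l => (u - 1) l j) l
    rw [h0, Pi.zero_apply, map_zero] at this
    exact this.symm
  rw [map_sub, map_one, Matrix.sub_mulVec, Matrix.one_mulVec, sub_eq_zero] at hl
  exact hl

/-- The upper triangular form of a unipotent. -/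
lemma conj_form {u : M2 (ZMod (2 ^ (n + 1)))} (hu : (u - 1) ^ 2 = 0) (hT : mod2 n u ≠ 1)
    {P P' : M2 (ZMod (2 ^ (n + 1)))} (hP : P * P' = 1) (i : Fin 2)
    (hcol : (u - 1) *ᵥ (fun l => P l i) = 0) :
    ∃ x, IsUnit x ∧ P' * (u - 1) * P = Matrix.of fun a b => if a = i ∧ b ≠ i then x else 0 := by
  classical
  set π := ZMod.castHom (dvd_pow_self 2 n.succ_ne_zero) (ZMod 2)
  set Y := P' * (u - 1) * P with hY
  have hYi : ∀ a, Y a i = 0 := fun a => by
    have h : Y a i = (P' *ᵥ ((u - 1) *ᵥ fun l => P l i)) a := by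
      rw [hY, Matrix.mulVec_mulVec]
      rfl
    rw [h, hcol, Matrix.mulVec_zero]
    rfl
  have hsq : Y * Y = 0 := by
    have h1 : P' * (u - 1) * P * (P' * (u - 1) * P) = P' * ((u - 1) * (P * P') * (u - 1)) * P := by
      simp only [mul_assoc]
    rw [hY, h1, hP, mul_one, ← pow_two, hu, mul_zero, zero_mul]
  obtain ⟨i', hi'⟩ : ∃ i', i' ≠ i := ⟨i + 1, by fin_cases i <;> decide⟩
  have hne : ∀ b, b ≠ i → b = i' := fun b hb => by fin_cases i <;> fin_cases i' <;> fin_cases b <;>
    simp_all
  have e2 : Y i' i' * Y i' i' = 0 := by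
    have := congrFun (congrFun hsq i') i'
    rw [Matrix.mul_apply, Finset.sum_eq_single i' (fun b _ hb => by
      have : b = i := by by_contra hbi; exact hb (hne b hbi)
      rw [this, hYi, zero_mul]) (by simp)] at this
    exact this
  have e1 : Y i i' * Y i' i' = 0 := by
    have := congrFun (congrFun hsq i) i'
    rw [Matrix.mul_apply, Finset.sum_eq_single i' (fun b _ hb => by
      have : b = i := by by_contra hbi; exact hb (hne b hbi)
      rw [this, hYi, zero_mul]) (by simp)] at this
    exact this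
  have hunit : IsUnit (Y i i') := by
    refine isUnit_of_castHom_ne fun h0 => hT ?_
    have h22 : π (Y i' i') = 0 := by
      have := congrArg π e2
      rw [map_mul, map_zero] at this
      exact mul_self_eq_zero.mp this
    have hY0 : mod2 n Y = 0 := Matrix.ext fun a b => by
      show π (Y a b) = 0
      by_cases hb : b = i
      · rw [hb, hYi, map_zero]
      · rw [hne b hb]
        by_cases ha : a = i
        · rw [ha]; exact h0
        · rw [hne a ha]; exact h22
    have hPP : mod2 n P * mod2 n P' = 1 := by rw [← map_mul, hP, map_one]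
    have h1 : mod2 n P * mod2 n Y * mod2 n P' = 0 := by rw [hY0, mul_zero, zero_mul]
    rw [hY, map_mul, map_mul] at h1
    simp only [← mul_assoc] at h1
    rw [hPP, one_mul, mul_assoc, hPP, mul_one, map_sub, map_one, sub_eq_zero] at h1
    exact h1
  refine ⟨_, hunit, Matrix.ext fun a b => ?_⟩
  rw [Matrix.of_apply]
  by_cases hb : b = i
  · rw [hb, hYi, if_neg (fun h => h.2 rfl)]
  · rw [hne b hb]
    by_cases ha : a = i
    · rw [ha, if_pos ⟨rfl, hi'⟩]
    · rw [hne a ha, if_neg (fun h => hi' h.1)]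
      exact hunit.mul_right_eq_zero.mp e1

/-- Transvections have determinant one. -/
lemma det_eq_one_of_transvection {u : M2 (ZMod (2 ^ (n + 1)))} (hu : (u - 1) ^ 2 = 0)
    (hT : mod2 n u ≠ 1) : u.det = 1 := by
  obtain ⟨i, j, hij⟩ : ∃ i j, IsUnit ((u - 1) i j) := by
    by_contra hcon
    push Not at hcon
    refine hT (sub_eq_zero.mp ?_)
    rw [← map_one (mod2 n), ← map_sub]
    refine Matrix.ext fun i j => ?_
    by_contra hne
    exact hcon i j (isUnit_of_castHom_ne hne)
  set N := u - 1 with hN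
  have hsq : N * N = N.trace • N - N.det • (1 : M2 (ZMod (2 ^ (n + 1)))) := by
    ext i j
    fin_cases i <;> fin_cases j <;>
      simp [Matrix.mul_apply, Fin.sum_univ_two, Matrix.trace_fin_two, Matrix.det_fin_two] <;> ring
  have hd : N.det * N.det = 0 := by rw [← Matrix.det_mul, ← pow_two, hu, Matrix.det_zero]
  have ht : N.trace = 0 ∧ N.det = 0 := by
    have h := hu
    rw [pow_two, hsq, sub_eq_zero] at h
    have hdet0 : N.det = 0 := by
      rcases eq_or_ne i j with rfl | hne
      · have h1 := congrFun (congrFun h i) i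
        simp only [Matrix.smul_apply, smul_eq_mul, Matrix.one_apply_eq, mul_one] at h1
        by_contra h0
        have hπ := congrArg (ZMod.castHom (dvd_pow_self 2 n.succ_ne_zero) (ZMod 2)) h1
        have hπd := congrArg (ZMod.castHom (dvd_pow_self 2 n.succ_ne_zero) (ZMod 2)) hd
        rw [map_mul, map_zero, mul_self_eq_zero] at hπd
        rw [map_mul, hπd, mul_eq_zero] at hπ
        have hπt := hπ.resolve_right (hij.map _).ne_zero
        -- the other entries are then units
        have h01 := congrFun (congrFun h 0) 1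
        have h10 := congrFun (congrFun h 1) 0
        simp only [Matrix.smul_apply, smul_eq_mul, Matrix.one_apply_ne zero_ne_one,
          Matrix.one_apply_ne one_ne_zero, mul_zero] at h01 h10
        have hN01 : IsUnit (N 0 1) := by
          refine isUnit_of_castHom_ne fun he => ?_
          rw [Matrix.det_fin_two, map_sub, map_mul, map_mul, he, zero_mul, sub_zero] at hπd
          rw [Matrix.trace_fin_two, map_add] at hπt
          have hu' := (hij.map (ZMod.castHom (dvd_pow_self 2 n.succ_ne_zero) (ZMod 2))).ne_zero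
          fin_cases i <;> simp_all
        refine h0 ?_
        rw [← h1, hN01.mul_left_eq_zero.mp h01, zero_mul]
      · have h1 := congrFun (congrFun h i) j
        simp only [Matrix.smul_apply, smul_eq_mul, Matrix.one_apply_ne hne, mul_zero] at h1
        have h2 := congrFun (congrFun h i) i
        simp only [Matrix.smul_apply, smul_eq_mul, Matrix.one_apply_eq, mul_one] at h2
        rw [← h2, hij.mul_left_eq_zero.mp h1, zero_mul]
    refine ⟨?_, hdet0⟩
    have h1 := congrFun (congrFun h i) j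
    rw [hdet0, zero_smul, Matrix.zero_apply, Matrix.smul_apply, smul_eq_mul] at h1
    exact hij.mul_left_eq_zero.mp h1
  have e : u = N + 1 := by rw [hN, sub_add_cancel]
  rw [e, Matrix.det_fin_two]
  have h1 := ht.1
  have h2 := ht.2
  rw [Matrix.trace_fin_two] at h1
  rw [Matrix.det_fin_two] at h2
  simp only [Matrix.add_apply, Matrix.one_apply_eq, Matrix.one_apply_ne zero_ne_one,
    Matrix.one_apply_ne one_ne_zero, add_zero]
  linear_combination h1 + h2

/-- **Two transvections with different residual lines generate.** -/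
theorem mem_of_transvections (S : Submonoid (M2 (ZMod (2 ^ (n + 1)))))
    {u u' : M2 (ZMod (2 ^ (n + 1)))} (hu : u ∈ S) (hu' : u' ∈ S) (h1 : (u - 1) ^ 2 = 0)
    (h1' : (u' - 1) ^ 2 = 0) (hT : IsTransp (mod2 n u)) (hT' : IsTransp (mod2 n u'))
    (hne : mod2 n u ≠ mod2 n u') {M : M2 (ZMod (2 ^ (n + 1)))} (h : M.det = 1) : M ∈ S := by
  classical
  have : NeZero (2 ^ (n + 1)) := ⟨pow_ne_zero _ two_ne_zero⟩
  set π := ZMod.castHom (dvd_pow_self 2 n.succ_ne_zero) (ZMod 2)
  obtain ⟨e, he, hei, hef⟩ := exists_kernel_vector h1 hT.1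
  obtain ⟨w, hw, hwi, hwf⟩ := exists_kernel_vector h1' hT'.1
  set P : M2 (ZMod (2 ^ (n + 1))) := !![e 0, w 0; e 1, w 1]
  have key : ∀ T T' : M2 (ZMod 2), IsTransp T → IsTransp T' → T ≠ T' → ∀ a b c d : ZMod 2,
      (a ≠ 0 ∨ b ≠ 0) → (c ≠ 0 ∨ d ≠ 0) → T 0 0 * a + T 0 1 * b = a → T 1 0 * a + T 1 1 * b = b →
      T' 0 0 * c + T' 0 1 * d = c → T' 1 0 * c + T' 1 1 * d = d → a * d - c * b = 1 := by
    intro T T' hT hT' hne
    rcases transp_cases hT with rfl | rfl | rfl <;> rcases transp_cases hT' with rfl | rfl | rfl <;>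
      first | exact absurd rfl hne | decide
  have hdet : π P.det = 1 := by
    rw [det_fin_two]
    simp only [P, Matrix.of_apply, Matrix.cons_val', Matrix.cons_val_zero, Matrix.cons_val_one,
      Matrix.empty_val', Matrix.cons_val_fin_one, map_sub, map_mul]
    refine key _ _ hT hT' hne _ _ _ _ ?_ ?_ ?_ ?_ ?_ ?_
    · obtain ⟨i, hi⟩ := hei; fin_cases i <;> tauto
    · obtain ⟨i, hi⟩ := hwi; fin_cases i <;> tauto
    · simpa [π, Matrix.mulVec, dotProduct, Fin.sum_univ_two] using congrFun hef 0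
    · simpa [π, Matrix.mulVec, dotProduct, Fin.sum_univ_two] using congrFun hef 1
    · simpa [π, Matrix.mulVec, dotProduct, Fin.sum_univ_two] using congrFun hwf 0
    · simpa [π, Matrix.mulVec, dotProduct, Fin.sum_univ_two] using congrFun hwf 1
  have hPu : IsUnit P := (Matrix.isUnit_iff_isUnit_det P).mpr
    (isUnit_of_castHom_ne (by rw [hdet]; exact one_ne_zero))
  obtain ⟨U, hU⟩ := hPu
  set P' : M2 (ZMod (2 ^ (n + 1))) := (U⁻¹ : (M2 (ZMod (2 ^ (n + 1))))ˣ).val
  have hPP' : P * P' = 1 := by rw [← hU]; exact U.mul_inv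
  have hP'P : P' * P = 1 := by rw [← hU]; exact U.inv_mul
  -- the conjugated submonoid
  let T : Submonoid (M2 (ZMod (2 ^ (n + 1)))) :=
    { carrier := {X | P * X * P' ∈ S}
      one_mem' := by show P * 1 * P' ∈ S; rw [mul_one, hPP']; exact S.one_mem
      mul_mem' := fun {X Y} hX hY => by
        show P * (X * Y) * P' ∈ S
        have e3 : P * X * P' * (P * Y * P') = P * X * (P' * P) * Y * P' := by
          simp only [mul_assoc]
        rw [hP'P, mul_one] at e3
        rw [← mul_assoc P X Y, ← e3]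
        exact S.mul_mem hX hY }
  have hconj : ∀ v ∈ S, P' * v * P ∈ T := fun v hv => by
    show P * (P' * v * P) * P' ∈ S
    rw [← mul_assoc P, ← mul_assoc P, hPP', one_mul, mul_assoc, hPP', mul_one]
    exact hv
  have hmult : ∀ {x z : ZMod (2 ^ (n + 1))}, IsUnit x → ∃ k : ℕ, (k : ZMod (2 ^ (n + 1))) * x = z :=
    fun {x z} hx => by
      obtain ⟨v, rfl⟩ := hx
      obtain ⟨k, hk⟩ := ZMod.natCast_zmod_surjective (z * (v⁻¹ : (ZMod (2 ^ (n + 1)))ˣ).val)
      exact ⟨k, by rw [hk, Units.inv_mul_cancel_right]⟩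
  obtain ⟨x, hx, hxe⟩ := conj_form h1 hT.1 hPP' 0 (by
    convert he using 2; funext l; fin_cases l <;> rfl)
  obtain ⟨y, hy, hye⟩ := conj_form h1' hT'.1 hPP' 1 (by
    convert hw using 2; funext l; fin_cases l <;> rfl)
  have hA : (!![1, x; 0, 1] : M2 (ZMod (2 ^ (n + 1)))) ∈ T := by
    convert hconj u hu using 1
    have e3 : P' * u * P = P' * (u - 1) * P + 1 := by
      rw [mul_sub, mul_one, sub_mul, hP'P, sub_add_cancel]
    rw [e3, hxe]
    ext a b
    fin_cases a <;> fin_cases b <;> simp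
  have hB : (!![1, 0; y, 1] : M2 (ZMod (2 ^ (n + 1)))) ∈ T := by
    convert hconj u' hu' using 1
    have e3 : P' * u' * P = P' * (u' - 1) * P + 1 := by
      rw [mul_sub, mul_one, sub_mul, hP'P, sub_add_cancel]
    rw [e3, hye]
    ext a b
    fin_cases a <;> fin_cases b <;> simp
  have hpA : ∀ k : ℕ, (!![1, (k : ZMod (2 ^ (n + 1))) * x; 0, 1] : M2 (ZMod (2 ^ (n + 1)))) ∈ T ∧
      (!![1, 0; (k : ZMod (2 ^ (n + 1))) * y, 1] : M2 (ZMod (2 ^ (n + 1)))) ∈ T := by
    intro k
    induction k with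
    | zero => simp [← Matrix.one_fin_two, T.one_mem]
    | succ k ih =>
      refine ⟨?_, ?_⟩
      · convert T.mul_mem ih.1 hA using 1
        ext a b
        fin_cases a <;> fin_cases b <;> simp [Matrix.mul_apply, Fin.sum_univ_two]
        ring
      · convert T.mul_mem ih.2 hB using 1
        ext a b
        fin_cases a <;> fin_cases b <;> simp [Matrix.mul_apply, Fin.sum_univ_two]
        ring
  have hmem : P' * M * P ∈ T := mem_of_elementary T
    (fun z => by obtain ⟨k, rfl⟩ := hmult hx (z := z); exact (hpA k).1)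
    (fun z => by obtain ⟨k, rfl⟩ := hmult hy (z := z); exact (hpA k).2) (by
      rw [det_mul, det_mul, h, mul_one, ← det_mul, hP'P, det_one])
  change P * (P' * M * P) * P' ∈ S at hmem
  rwa [← mul_assoc P, ← mul_assoc P, hPP', one_mul, mul_assoc, hPP', mul_one] at hmem

end FA.Two
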