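import Fermat.Agent.Two.VPair
import Fermat.Agent.Two.Transvection
import Fermat.Agent.Two.CharFinite
import Fermat.Agent.TW.Primes
import Fermat.Agent.Density.Places

/-!
# Killing the two dimensional part by auxiliary primes

A class which is not zero on the kernel of the residual representation is detected by the value at
a Frobenius element with image a transposition; adding that prime to the auxiliary set makes the
finite set of restrictions strictly smaller, by the reciprocity law.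
-/

set_option autoImplicit false
set_option linter.unusedSectionVars false

noncomputable section

open Matrix FA.GalCoh
open scoped Pointwise

namespace FA.Two

local notation "Qb" => AlgebraicClosure ℚ
local notation "M2" k:max => Matrix (Fin 2) (Fin 2) k

variable {k : Type} [Field k] [Fintype k] [CharP k 2] [Algebra (ZMod 2) k] {S : Setting k}

namespace Setting

/-- The restrictions of the classes to the kernel. -/
def restrictions (S : Setting k) (Q : Finset ℕ) : Set (S.r0.ker → M2 k) :=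
  {f | ∃ z, S.IsV Q z ∧ ∀ h : S.r0.ker, f h = z h}

lemma IsV.map_ker {Q : Finset ℕ} {z : GQ → M2 k} (hz : S.IsV Q z) (g h : GQ) (hg : S.r0 g = 1) :
    z (g * h) = z g + z h := by
  rw [hz.coc g h, S.act_of_one hg]

theorem finite_restrictions (S : Setting k) : (S.restrictions ∅).Finite := by
  classical
  have : Fact (Nat.Prime 2) := ⟨Nat.prime_two⟩
  set S₀ : Finset ℕ := insert 2 S.Q.D.primeFactors
  have hF := finite_unrChar S.ker_open S₀ fun l hl hlS A hA σ hσ => by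
    rw [MonoidHom.mem_ker]
    exact S.unr l hl (fun h => hlS (h ▸ Finset.mem_insert_self _ _))
      (fun h => hlS (Finset.mem_insert_of_mem (Nat.mem_primeFactors.mpr ⟨hl, h, S.Q.pos.ne'⟩))) A hA σ hσ
  have : Finite {f : S.r0.ker → ZMod 2 | IsUnrChar S.r0.ker S₀ f} := hF.to_subtype
  have : Finite (k →ₗ[ZMod 2] ZMod 2) := Finite.of_injective _ DFunLike.coe_injective
  have hmem : ∀ f ∈ S.restrictions ∅, ∀ (i j : Fin 2) (φ : k →ₗ[ZMod 2] ZMod 2),
      IsUnrChar S.r0.ker S₀ (fun h => φ (f h i j)) := by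
    rintro f ⟨z, hz, hfz⟩ i j φ
    refine ⟨fun g h => ?_, ?_, fun l hl hlS A hA σ hσ h => ?_⟩
    · rw [hfz, hfz, hfz, Subgroup.coe_mul, hz.map_ker _ _ g.2, Matrix.add_apply, map_add]
    · obtain ⟨N, hN, hlc⟩ := hz.lc
      exact ⟨N, hN, fun g s hs hsH => by rw [hfz, hfz, Subgroup.coe_mul, hlc _ s hs]⟩
    · rw [hfz, show z σ = 0 from hz.unr l hl (fun e => hlS (e ▸ Finset.mem_insert_self _ _))
        (fun e => hlS (Finset.mem_insert_of_mem (Nat.mem_primeFactors.mpr ⟨hl, e, S.Q.pos.ne'⟩)))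
        (Finset.notMem_empty l) A hA σ hσ, Matrix.zero_apply, map_zero]
  refine Set.finite_coe_iff.mp (Finite.of_injective
    (fun f : S.restrictions ∅ => fun x : Fin 2 × Fin 2 × (k →ₗ[ZMod 2] ZMod 2) =>
      (⟨_, hmem f.1 f.2 x.1 x.2.1 x.2.2⟩ : {f : S.r0.ker → ZMod 2 | IsUnrChar S.r0.ker S₀ f}))
    fun f g hfg => Subtype.ext (funext fun h => Matrix.ext fun i j => sub_eq_zero.mp
      ((Module.forall_dual_apply_eq_zero_iff (ZMod 2) _).mp fun φ => ?_)))
  have e := congrFun (congrArg Subtype.val (congrFun hfg (i, j, φ))) h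
  rw [map_sub, sub_eq_zero]
  exact e

/-- Auxiliary primes: inert, unramified, with Frobenius of order two. -/
def IsAuxSet (S : Setting k) (avoid Q : Finset ℕ) : Prop :=
  ∀ q ∈ Q, q.Prime ∧ q ≠ 2 ∧ ¬ q ∣ S.Q.D ∧ q ∉ avoid ∧
    ∀ A : ValuationSubring Qb, A.LiesOverPrime q → ∀ φ : GQ, A.IsFrobeniusAt φ q →
      IsTransp (S.r0 φ)

/-- A refinement modulo a power of `2`, unipotent at the ramified primes. -/
structure Refine (S : Setting k) where
  /-- the exponent less one -/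
  n : ℕ
  /-- the representation -/
  ρ : GQ →* Matrix (Fin 2) (Fin 2) (ZMod (2 ^ (n + 1)))
  ker_open : IsOpen (ρ.ker : Set GQ)
  red : ∀ σ, mod2 n (ρ σ) = S.r0 σ
  unr : ∀ l : ℕ, l.Prime → l ≠ 2 → ¬ l ∣ S.Q.D → ∀ A : ValuationSubring Qb, A.LiesOverPrime l →
    ∀ σ ∈ A.inertiaSubgroupIn ℚ, ρ σ = 1
  unip : ∀ l : ℕ, l.Prime → l ∣ S.Q.D → ∀ A : ValuationSubring Qb, A.LiesOverPrime l →
    ∀ σ ∈ A.inertiaSubgroupIn ℚ, (ρ σ - 1) ^ 2 = 0

variable (R : Refine S)

/-- The elements acting as transvections. -/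
def Refine.IsTv (g : GQ) : Prop := IsTransp (S.r0 g) ∧ (R.ρ g - 1) ^ 2 = 0

/-- Auxiliary primes with transvections as Frobenius elements. -/
def Refine.IsFine (Q : Finset ℕ) : Prop :=
  ∀ q ∈ Q, ∀ A : ValuationSubring Qb, A.LiesOverPrime q → ∀ φ : GQ, A.IsFrobeniusAt φ q →
    (R.ρ φ - 1) ^ 2 = 0

lemma Refine.isTv_conj {g : GQ} (hg : R.IsTv g) (τ : GQ) : R.IsTv (τ * g * τ⁻¹) := by
  refine ⟨S.transp_conj hg.1 τ, ?_⟩
  have e : R.ρ τ * R.ρ τ⁻¹ = 1 := by rw [← map_mul, mul_inv_cancel, map_one]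
  have e' : R.ρ τ⁻¹ * R.ρ τ = 1 := by rw [← map_mul, inv_mul_cancel, map_one]
  have h : R.ρ (τ * g * τ⁻¹) - 1 = R.ρ τ * (R.ρ g - 1) * R.ρ τ⁻¹ := by
    rw [map_mul, map_mul, mul_sub, mul_one, sub_mul, e]
  rw [h, pow_two]
  have h2 : R.ρ τ * (R.ρ g - 1) * R.ρ τ⁻¹ * (R.ρ τ * (R.ρ g - 1) * R.ρ τ⁻¹) =
      R.ρ τ * ((R.ρ g - 1) * (R.ρ τ⁻¹ * R.ρ τ) * (R.ρ g - 1)) * R.ρ τ⁻¹ := by
    simp only [mul_assoc]
  rw [h2, e', mul_one, ← pow_two, hg.2, mul_zero, zero_mul]

lemma Refine.exists_isTv : ∃ q₀ s₀, q₀.Prime ∧ q₀ ∣ S.Q.D ∧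
    (∃ A : ValuationSubring Qb, A.LiesOverPrime q₀ ∧ s₀ ∈ A.inertiaSubgroupIn ℚ) ∧ R.IsTv s₀ := by
  obtain ⟨l, hl, hlD⟩ := Nat.exists_prime_and_dvd S.one_lt.ne'
  obtain ⟨A, hA⟩ := FA.Deform.exists_liesOverPrime hl
  obtain ⟨t, ht, hT, -⟩ := S.exists_inertia_transp hl hlD hA
  exact ⟨l, t, hl, hlD, ⟨A, hA, ht⟩, hT, R.unip l hl hlD A hA t ht⟩

/-- A class killed by the kernel of the refinement is killed by the residual kernel. -/
lemma Refine.eq_zero_of_ker {Q : Finset ℕ} {x : GQ → M2 k} (hx : S.IsV Q x)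
    (hker : ∀ g, R.ρ g = 1 → x g = 0) {h₀ : GQ} (h0 : S.r0 h₀ = 1) : x h₀ = 0 := by
  classical
  obtain ⟨l, s₀, hl, hlD, ⟨A, hA, hs₀⟩, hT₀, hu₀⟩ := R.exists_isTv
  obtain ⟨X, hXV, hX⟩ := hx.ram l hl hlD A hA
  obtain ⟨γ, hγ⟩ := S.surj !![0, 1; 1, 1] (by decide)
  set s₁ := γ * s₀ * γ⁻¹ with hs₁def
  obtain ⟨hT₁, hu₁⟩ := R.isTv_conj ⟨hT₀, hu₀⟩ γ
  rw [← hs₁def] at hT₁ hu₁
  have hne : S.r0 s₀ ≠ S.r0 s₁ := by
    have hg' : S.r0 γ⁻¹ = !![1, 1; 1, 0] := left_inv_eq_right_inv (S.inv_mul γ) (by rw [hγ]; decide)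
    rw [hs₁def, map_mul, map_mul, hγ, hg']
    rcases transp_cases hT₀ with e | e | e <;> rw [e] <;> decide
  -- adjust by coboundaries
  set z : GQ → M2 k := fun g => x g - (S.act g X - X) with hz
  have hzV : ∀ g, InV (z g) := fun g => by
    show InV (x g - (S.act g X - X))
    rw [CharTwo.sub_eq_add, CharTwo.sub_eq_add]
    exact (hx.inV g).add ((S.inV_act hXV).add hXV)
  have hzc : S.IsCoc z := fun g h => by
    simp only [hz, hx.coc g h, (IsCoc.cob (S := S) X) g h, map_sub]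
    abel
  have hz₀ : z s₀ = 0 := sub_eq_zero.mpr (hX s₀ hs₀)
  have hz₁ : z s₁ ∈ S.line s₁ := by
    rw [hs₁def, hzc.map_conj, hz₀, map_zero, add_zero, ← neg_sub, CharTwo.neg_eq, ← hs₁def,
      S.act_of_transp hT₁]
    exact cob_mem_line hT₁ (hzV γ)
  obtain ⟨a, ha⟩ := Submodule.mem_span_singleton.mp hz₁
  set Y := a • ext2 k (S.r0 s₀) with hY
  have hY₀ : S.act s₀ Y = Y :=
    act_line hT₀ (Or.inr rfl) (Submodule.smul_mem _ a (Submodule.mem_span_singleton_self _))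
  have hY₁ : S.act s₁ Y - Y = z s₁ := by
    have key : ∀ T T' : M2 (ZMod 2), IsTransp T → IsTransp T' → T ≠ T' → T' * T * T' - T = T' := by
      intro T T' hT hT' hne
      rcases transp_cases hT with rfl | rfl | rfl <;> rcases transp_cases hT' with rfl | rfl | rfl <;>
        first | exact absurd rfl hne | decide
    rw [← ha, hY, map_smul, ← smul_sub, S.act_of_transp hT₁, ← map_mul, ← map_mul, ← map_sub,
      key _ _ hT₀ hT₁ hne]
  set w : GQ → M2 k := fun g => z g - (S.act g Y - Y) with hw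
  have hwV : ∀ g, InV (w g) := fun g => by
    have hYV : InV Y := (inV_transp hT₀).smul a
    show InV (z g - (S.act g Y - Y))
    rw [CharTwo.sub_eq_add, CharTwo.sub_eq_add]
    exact (hzV g).add ((S.inV_act hYV).add hYV)
  have hwc : S.IsCoc w := fun g h => by
    simp only [hw, hzc g h, (IsCoc.cob (S := S) Y) g h, map_sub]
    abel
  have hwker : ∀ g, R.ρ g = 1 → w g = 0 := fun g hg => by
    have hr : S.r0 g = 1 := by rw [← R.red, hg, map_one]
    show x g - (S.act g X - X) - (S.act g Y - Y) = 0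
    rw [hker g hg, S.act_of_one hr, S.act_of_one hr]; simp
  have hw₀ : w s₀ = 0 := by
    show z s₀ - (S.act s₀ Y - Y) = 0
    rw [hz₀, hY₀, sub_self, sub_zero]
  have hw₁ : w s₁ = 0 := sub_eq_zero.mpr hY₁.symm
  let H : Submonoid GQ :=
    { carrier := {g | w g = 0}
      one_mem' := hwc.map_one
      mul_mem' := fun {a b} ha hb => by
        show w (a * b) = 0
        rw [hwc, show w a = 0 from ha, show w b = 0 from hb, map_zero, add_zero] }
  have hgen : ∀ g, (R.ρ g).det = 1 → w g = 0 := by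
    intro g hg
    obtain ⟨h, hh, e⟩ : R.ρ g ∈ H.map R.ρ :=
      mem_of_transvections _ (Submonoid.mem_map_of_mem _ hw₀) (Submonoid.mem_map_of_mem _ hw₁)
        hu₀ hu₁ (by rw [R.red]; exact hT₀) (by rw [R.red]; exact hT₁)
        (by rw [R.red, R.red]; exact hne) hg
    have h1 : R.ρ (h⁻¹ * g) = 1 := by rw [map_mul, ← e, ← map_mul, inv_mul_cancel, map_one]
    rw [show g = h * (h⁻¹ * g) by rw [mul_inv_cancel_left], hwc.map_mul_mem (hwker _ h1)]
    exact hh
  have hd₀ : ∀ u : GQ, R.IsTv u → (R.ρ u).det = 1 := fun u hu =>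
    det_eq_one_of_transvection hu.2 (by rw [R.red]; exact hu.1.1)
  have hall : ∀ g, w g = 0 := by
    intro g
    have hfix : ∀ u, R.IsTv u → w u = 0 → S.act u (w g) = w g := by
      intro u hu hwu
      have h1 : w (g⁻¹ * u * g) = 0 := hgen _ (by
        rw [map_mul, map_mul, Matrix.det_mul, Matrix.det_mul, mul_comm (R.ρ g⁻¹).det, mul_assoc,
          ← Matrix.det_mul, ← map_mul, inv_mul_cancel, map_one, Matrix.det_one, mul_one, hd₀ u hu])
      have e2 : w (u * g) = w g := by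
        rw [show u * g = g * (g⁻¹ * u * g) by group, hwc.map_mul_mem h1]
      rw [hwc, hwu, zero_add] at e2
      exact e2
    have hg01 : S.act (s₀ * s₁) (w g) = w g := by
      rw [S.act_mul, hfix s₁ ⟨hT₁, hu₁⟩ hw₁, hfix s₀ ⟨hT₀, hu₀⟩ hw₀]
    refine eq_zero_of_fixed (S.mul_inv (s₀ * s₁)) ?_ (hwV g) hg01
    rw [map_mul]
    revert hne
    rcases transp_cases hT₀ with e | e | e <;> rcases transp_cases hT₁ with e' | e' | e' <;>
      rw [e, e'] <;> decide
  have h := hall h₀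
  simp only [hw, hz, S.act_of_one h0, sub_self, sub_zero] at h
  exact h

/-- A detecting element. -/
lemma exists_detect {Q : Finset ℕ} {x : GQ → M2 k} (hx : S.IsV Q x) {h₀ : GQ} (h0 : S.r0 h₀ = 1)
    (hne : x h₀ ≠ 0) : ∃ s, R.IsTv s ∧ x s ∉ S.line s := by
  by_contra hcon
  push Not at hcon
  refine hne (R.eq_zero_of_ker hx ?_ h0)
  intro h hh
  have hh0 : S.r0 h = 1 := by rw [← R.red, hh, map_one]
  have key : ∀ g, R.IsTv g → x h ∈ S.line g := by
    intro g hg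
    have hgh : S.r0 (g * h) = S.r0 g := by rw [map_mul, hh0, mul_one]
    have hρ : R.ρ (g * h) = R.ρ g := by rw [map_mul, hh, mul_one]
    have h1 := hcon (g * h) ⟨hgh ▸ hg.1, hρ ▸ hg.2⟩
    rw [hx.coc g h, line, hgh] at h1
    have h2 : S.act g (x h) ∈ S.line g := (Submodule.add_mem_iff_right _ (hcon g hg)).mp h1
    have h3 := act_line hg.1 (Or.inr rfl) h2
    rwa [← h3, ← S.act_mul, S.act_of_one (by rw [map_mul, hg.1.2])] at h2
  obtain ⟨-, s₀, -, -, -, hs₀⟩ := R.exists_isTv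
  obtain ⟨γ, hγ⟩ := S.surj !![0, 1; 1, 1] (by decide)
  have hs₁ := R.isTv_conj hs₀ γ
  refine line_inter (k := k) hs₀.1 (T' := S.r0 (γ * s₀ * γ⁻¹)) hs₁.1 ?_ (key s₀ hs₀) (key _ hs₁)
  have hg' : S.r0 γ⁻¹ = !![1, 1; 1, 0] := left_inv_eq_right_inv (S.inv_mul γ) (by rw [hγ]; decide)
  rw [map_mul, map_mul, hγ, hg']
  rcases transp_cases hs₀.1 with e | e | e <;> rw [e] <;> decide

/-- A new auxiliary prime at which a given class is out of the line. -/
lemma exists_new_prime {Q : Finset ℕ} {x : GQ → M2 k} (hx : S.IsV Q x) (avoid : Finset ℕ) {s : GQ}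
    (hsC : R.IsTv s) (hxs : x s ∉ S.line s) :
    ∃ q : ℕ, ∃ _ : Fact q.Prime, q ≠ 2 ∧ ¬ q ∣ S.Q.D ∧ q ∉ Q ∧ q ∉ avoid ∧
      (∀ A : ValuationSubring Qb, A.LiesOverPrime q → ∀ φ : GQ, A.IsFrobeniusAt φ q →
        IsTransp (S.r0 φ)) ∧
      (∀ A : ValuationSubring Qb, A.LiesOverPrime q → ∀ φ : GQ, A.IsFrobeniusAt φ q →
        (R.ρ φ - 1) ^ 2 = 0) ∧
      x (loc q (frobL q)) ∉ S.line (loc q (frobL q)) := by
  classical
  obtain ⟨N, hN, hlc⟩ := hx.lc
  have hs := hsC.1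
  obtain ⟨U, hUn, hUo, hUle'⟩ := FA.TW.exists_open_normal_le (N ⊓ S.r0.ker ⊓ R.ρ.ker)
    (by rw [Subgroup.coe_inf, Subgroup.coe_inf]; exact (hN.inter S.ker_open).inter R.ker_open)
  have hUle : U ≤ N ⊓ S.r0.ker := hUle'.trans inf_le_left
  obtain ⟨q, A, φ, k', hq, hqS, hA, hφ, hk, j, hj⟩ := FA.Density.exists_frobenius_generating U hUo s
    (avoid ∪ Q ∪ insert 2 S.Q.D.primeFactors)
  have hq2 : q ≠ 2 := fun h => hqS (by simp [h])
  have hqD : ¬ q ∣ S.Q.D := fun h => hqS (Finset.mem_union_right _ (Finset.mem_insert_of_mem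
    (Nat.mem_primeFactors.mpr ⟨hq, h, S.Q.pos.ne'⟩)))
  have hqQ : q ∉ Q := fun h => hqS (by simp [h])
  have hqav : q ∉ avoid := fun h => hqS (by simp [h])
  have : Fact q.Prime := ⟨hq⟩
  have hsk : S.r0 s = S.r0 φ ^ k' := by
    have h : S.r0 ((φ ^ k')⁻¹ * s) = 1 := (hUle hk).2
    rw [← map_pow, ← mul_one (S.r0 (φ ^ k')), ← h, ← map_mul, mul_inv_cancel_left]
  have hφs : S.r0 φ = S.r0 s ^ j := by
    have h : S.r0 ((s ^ j)⁻¹ * φ) = 1 := (hUle hj).2
    rw [← map_pow, ← mul_one (S.r0 (s ^ j)), ← h, ← map_mul, mul_inv_cancel_left]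
  have hTφ : S.r0 φ = S.r0 s := by
    rcases Nat.even_or_odd j with ⟨i, hi⟩ | ⟨i, hi⟩
    · exfalso
      have h1 : S.r0 φ = 1 := by rw [hφs, hi, ← two_mul, pow_mul, pow_two, hs.2, one_pow]
      rw [h1, one_pow] at hsk
      exact hs.1 hsk
    · rw [hφs, hi, pow_succ, pow_mul, pow_two, hs.2, one_pow, one_mul]
  have hT : IsTransp (S.r0 φ) := hTφ ▸ hs
  have hunr : ∀ B : ValuationSubring Qb, B.LiesOverPrime q → ∀ σ ∈ B.inertiaSubgroupIn ℚ,
      S.r0 σ = 1 := fun B hB σ hσ => S.unr q hq hq2 hqD B hB σ hσ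
  have hall : ∀ B : ValuationSubring Qb, B.LiesOverPrime q → ∀ ψ : GQ, B.IsFrobeniusAt ψ q →
      IsTransp (S.r0 ψ) := fun B hB ψ hψ => by
    obtain ⟨τ, hτ⟩ := FA.TW.exists_conj_frobenius S.r0 hq hunr hA hB hφ hψ
    rw [hτ, ← map_mul, ← map_mul]
    exact S.transp_conj hT τ
  have hallρ : ∀ B : ValuationSubring Qb, B.LiesOverPrime q → ∀ ψ : GQ, B.IsFrobeniusAt ψ q →
      (R.ρ ψ - 1) ^ 2 = 0 := fun B hB ψ hψ => by
    obtain ⟨τ, hτ⟩ := FA.TW.exists_conj_frobenius R.ρ hq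
      (fun C hC σ hσ => R.unr q hq hq2 hqD C hC σ hσ) hA hB hφ hψ
    have hρφ : R.ρ φ = R.ρ s ^ j := by
      have h : R.ρ ((s ^ j)⁻¹ * φ) = 1 := (hUle' hj).2
      rw [← map_pow, ← mul_one (R.ρ (s ^ j)), ← h, ← map_mul, mul_inv_cancel_left]
    have hφC : R.IsTv φ := ⟨hT, by
      have hN0 := hsC.2
      rw [hρφ]
      obtain ⟨M, hM⟩ : ∃ M, R.ρ s = 1 + M := ⟨R.ρ s - 1, by abel⟩
      rw [hM, add_sub_cancel_left] at hN0
      rw [hM]
      have hpw : ∀ i : ℕ, (1 + M) ^ i = 1 + i • M := by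
        intro i
        induction i with
        | zero => simp
        | succ i ih =>
          rw [pow_succ (1 + M) i, ih, mul_add, mul_one, add_mul, one_mul, smul_mul_assoc, ← pow_two M,
            hN0, smul_zero, add_zero, succ_nsmul, add_assoc]
      rw [hpw, add_sub_cancel_left, smul_pow, hN0, smul_zero]⟩
    have h := (R.isTv_conj hφC τ).2
    rwa [map_mul, map_mul, ← hτ] at h
  refine ⟨q, this, hq2, hqD, hqQ, hqav, hall, hallρ, fun hline => hxs ?_⟩
  -- move to the place found by density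
  obtain ⟨τ, hτ⟩ := FA.TW.exists_smul_eq_of_liesOver hq (liesOverPrime_padicPlace q) hA
  have hψ := FA.Density.isFrobeniusAt_smul (frobL_spec q) τ
  rw [hτ] at hψ
  set ψ := τ * loc q (frobL q) * τ⁻¹
  have hψl : x ψ ∈ S.line ψ :=
    hx.coc.line_conj hx.inV (hall _ (liesOverPrime_padicPlace q) _ (frobL_spec q)) τ hline
  have hι := FA.TW.inv_mul_mem_inertia hq hA hφ hψ
  have hxφ : x φ ∈ S.line φ := by
    rw [show φ = ψ * (ψ⁻¹ * φ) by rw [mul_inv_cancel_left],
      hx.coc.map_mul_mem (hx.unr q hq hq2 hqD hqQ A hA _ hι)]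
    rwa [line, map_mul, hunr A hA _ hι, mul_one]
  have hpow : ∀ i : ℕ, (S.r0 (φ ^ i) = 1 ∨ S.r0 (φ ^ i) = S.r0 φ) ∧ x (φ ^ i) ∈ S.line φ := by
    intro i
    induction i with
    | zero => simp [hx.coc.map_one]
    | succ i ih =>
      refine ⟨?_, ?_⟩
      · rw [pow_succ, map_mul]
        rcases ih.1 with h | h <;> rw [h]
        · exact Or.inr (one_mul _)
        · exact Or.inl hT.2
      · rw [pow_succ, hx.coc (φ ^ i) φ, act_line hT ih.1 hxφ]
        exact Submodule.add_mem _ ih.2 hxφ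
  have hxs' : x s = x (φ ^ k') := by
    have h := hlc (φ ^ k') _ (hUle hk).1
    rwa [mul_inv_cancel_left] at h
  rw [hxs', line, ← hTφ]
  exact (hpow k').2

/-- A class for a larger auxiliary set is one for the smaller. -/
lemma IsV.of_insert {Q : Finset ℕ} {q : ℕ} [Fact q.Prime] (hq2 : q ≠ 2) (hD : ¬ q ∣ S.Q.D)
    {z : GQ → M2 k} (hz : S.IsV (insert q Q) z)
    (h : ∀ ι ∈ inertL q, z (loc q ι) = 0) : S.IsV Q z where
  inV := hz.inV
  coc := hz.coc
  lc := hz.lc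
  ram := hz.ram
  two := hz.two
  aux l hl := hz.aux l (Finset.mem_insert_of_mem hl)
  unr l hl hl2 hlD hlQ A hA σ hσ := by
    by_cases hlq : l = q
    · subst hlq
      obtain ⟨τ, hτ⟩ := FA.TW.exists_smul_eq_of_liesOver hl hA (liesOverPrime_padicPlace l)
      have hmem := FA.TW.conj_mem_inertia hl hA hσ τ
      rw [hτ] at hmem
      obtain ⟨ι, hι⟩ : τ * σ * τ⁻¹ ∈ (loc l).range := by
        rw [range_loc]; exact inertiaSubgroupIn_le_decomposition _ hmem
      have h0 : z (τ * σ * τ⁻¹) = 0 := by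
        rw [← hι]; exact h ι (by rw [inertL, Subgroup.mem_comap, hι]; exact hmem)
      rw [hz.coc.map_conj, S.act_of_one (S.unr l hl hl2 hD _ (liesOverPrime_padicPlace l) _ hmem),
        add_sub_cancel_left] at h0
      rw [← S.act_one (z σ), ← inv_mul_cancel τ, S.act_mul, h0, map_zero]
    · exact hz.unr l hl hl2 hlD (fun hm => (Finset.mem_insert.mp hm).elim hlq hlQ) A hA σ hσ

/-- **Auxiliary primes killing the two dimensional part.** -/
theorem exists_killing (S : Setting k) (R : Refine S) (avoid : Finset ℕ) :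
    ∃ Q : Finset ℕ, S.IsAuxSet avoid Q ∧ R.IsFine Q ∧
    ∀ z, S.IsV Q z → ∀ h, S.r0 h = 1 → z h = 0 := by
  classical
  suffices key : ∀ (n : ℕ) (Q : Finset ℕ), S.IsAuxSet avoid Q → R.IsFine Q →
      (S.restrictions Q).Finite →
      (S.restrictions Q).ncard ≤ n → ∃ Q' : Finset ℕ, S.IsAuxSet avoid Q' ∧ R.IsFine Q' ∧
        ∀ z, S.IsV Q' z → ∀ h, S.r0 h = 1 → z h = 0 from
    key _ ∅ (fun q hq => absurd hq (Finset.notMem_empty q))
      (fun q hq => absurd hq (Finset.notMem_empty q)) (finite_restrictions S) le_rfl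
  intro n
  induction n with
  | zero =>
    intro Q hQ hF hfin hn
    refine ⟨Q, hQ, hF, fun z hz h hh => ?_⟩
    have he : S.restrictions Q = ∅ := (Set.ncard_eq_zero hfin).mp (Nat.le_zero.mp hn)
    have hm : (fun h : S.r0.ker => z h) ∈ S.restrictions Q := ⟨z, hz, fun _ => rfl⟩
    rw [he] at hm
    exact absurd hm (Set.notMem_empty _)
  | succ n ih =>
    intro Q hQ hF hfin hn
    by_cases hall : ∀ z, S.IsV Q z → ∀ h, S.r0 h = 1 → z h = 0
    · exact ⟨Q, hQ, hF, hall⟩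
    push Not at hall
    obtain ⟨x, hx, h₀, h0, hne⟩ := hall
    obtain ⟨s, hs, hxs⟩ := exists_detect R hx h0 hne
    obtain ⟨q, hqF, hq2, hqD, hqQ, hqav, hT, hTρ, hxφ⟩ := exists_new_prime R hx avoid hs hxs
    have hsub : S.restrictions (insert q Q) ⊂ S.restrictions Q := by
      have hle : ∀ z, S.IsV (insert q Q) z → S.IsV Q z := fun z hz =>
        hz.of_insert hq2 hqD fun ι hι => unramified_at_new hq2 hqD hqQ
          (fun l hl => (hQ l hl).2.2.2.2) (fun l hl => ⟨(hQ l hl).2.1, (hQ l hl).2.2.1⟩)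
          (hT _ (liesOverPrime_padicPlace q) _ (frobL_spec q)) hx hxφ hz hι
      refine ⟨fun f ⟨z, hz, hf⟩ => ⟨z, hle z hz, hf⟩, fun hsup => hxφ ?_⟩
      obtain ⟨z, hz, hzx⟩ := hsup (⟨x, hx, fun _ => rfl⟩ :
        (fun h : S.r0.ker => x h) ∈ S.restrictions Q)
      have hzφ := (hz.aux q (Finset.mem_insert_self q Q) _ (liesOverPrime_padicPlace q) _
        (frobL_spec q)).1
      obtain ⟨X, hXV, hX⟩ := S.exists_cob_of_ker (z := fun g => x g - z g)
        (fun g => by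
          show InV (x g - z g)
          rw [CharTwo.sub_eq_add]; exact (hx.inV g).add (hz.inV g))
        (fun g h => by
          show x (g * h) - z (g * h) = x g - z g + S.act g (x h - z h)
          rw [hx.coc, hz.coc, map_sub]; abel)
        fun h hh => by
          show x h - z h = 0
          rw [sub_eq_zero]; exact hzx ⟨h, hh⟩
      set φ := loc q (frobL q)
      have hTφ := hT _ (liesOverPrime_padicPlace q) _ (frobL_spec q)
      rw [show x φ = z φ + (S.act φ X - X) by rw [← hX φ]; abel]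
      refine Submodule.add_mem _ hzφ ?_
      rw [S.act_of_transp hTφ]
      exact cob_mem_line hTφ hXV
    refine ih (insert q Q) (fun l hl => ?_) (fun l hl => ?_) (hfin.subset hsub.subset)
      (Nat.le_of_lt_succ (lt_of_lt_of_le (Set.ncard_lt_ncard hsub hfin) hn))
    swap
    · rcases Finset.mem_insert.mp hl with rfl | hl
      · exact hTρ
      · exact hF l hl
    rcases Finset.mem_insert.mp hl with rfl | hl
    · exact ⟨hqF.out, hq2, hqD, hqav, hT⟩
    · exact hQ l hl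

end Setting

end FA.Two
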