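import Fermat.Agent.Two.CurveResidual
import Fermat.Agent.Two.VSelmer
import Fermat.Agent.RT.EllipticPoint
import Fermat.Agent.TW.Translate

/-!
# The `2`-adic representation of a semistable curve with good reduction at `2`

Its properties, and its reductions modulo `2^(n+1)` as refinements of the residual setting.
-/

set_option autoImplicit false
set_option linter.unusedSectionVars false

noncomputable section

open IsLocalRing Matrix WeierstrassCurve FA.EC FA.Frob FA.Deform FA.JTorsion FA.LocalDef FA.TW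
open scoped WeierstrassCurve.Affine

namespace FA.Two

open FA.RT FA.RT.Tate

local notation "Qb" => AlgebraicClosure ℚ
local notation "GQ" => AlgebraicClosure ℚ ≃ₐ[ℚ] AlgebraicClosure ℚ
local notation "M2" k:max => Matrix (Fin 2) (Fin 2) k

local instance : Fact (Nat.Prime 2) := ⟨Nat.prime_two⟩

variable {W : WeierstrassCurve ℤ} [(ratCurve W).IsElliptic]

/-- Inertia at a multiplicative prime different from `p` is unipotent on the Tate module. -/
theorem rep_inertia_mult {p : ℕ} [Fact p.Prime] (B : TateBasis p W) {q : ℕ}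
    {A : ValuationSubring Qb} (hm : MultAt W q A) (hqp : q ≠ p) {σ τ : GQ}
    (hσ : σ ∈ A.inertiaSubgroupIn ℚ) (hτ : τ ∈ A.inertiaSubgroupIn ℚ) :
    (B.rep τ - 1) * (B.rep σ - 1) = 0 := by
  refine B.ext_phi fun n v => ?_
  rw [zero_mulVec, map_zero, ← mulVec_mulVec, sub_mulVec, one_mulVec, map_sub, ← B.rep_spec,
    sub_mulVec, one_mulVec, map_sub, ← B.rep_spec]
  have hn : p ^ n • (τ • (σ • B.φ n v - B.φ n v) - (σ • B.φ n v - B.φ n v)) = 0 := by
    have h0 : ∀ g : GQ, g • (0 : Pts W) = 0 := fun g => FA.Local.gal_smul_zero (W := ratCurve W) g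
    rw [nsmul_sub, ← gal_smul_nsmul, nsmul_sub, ← gal_smul_nsmul, B.nsmul_phi, h0, sub_zero, h0,
      sub_zero]
  exact eq_zero_of_e1_pow hm.prime hm.lies hqp (hm.e1_smul_sub_smul_sub hσ hτ _) hn

variable {O : Type} [CommRing O] [IsLocalRing O]

/-- The properties of the `2`-adic representation of a semistable curve good at `2`. -/
structure IsCurvePoint (W : WeierstrassCurve ℤ) [(ratCurve W).IsElliptic] (ι : ℤ_[2] →+* O)
    (r : GQ →* M2 O) : Prop where
  cont : IsContRep r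
  det : ∀ σ, (r σ).det = ι ((cycP 2 σ : ℤ_[2]ˣ) : ℤ_[2])
  residual : ∀ (σ : GQ) (j : ZMod 2 →+* ResidueField O),
    (r σ).map (residue O) = (curveRep 2 W σ).map j
  unr : ∀ l : ℕ, l.Prime → l ≠ 2 → W.IsGoodPrimeFor l → ∀ A : ValuationSubring Qb,
    A.LiesOverPrime l → ∀ σ ∈ A.inertiaSubgroupIn ℚ, r σ = 1
  ram : ∀ l : ℕ, l.Prime → l ≠ 2 → (l : ℤ) ∣ W.Δ → ∀ A : ValuationSubring Qb,
    A.LiesOverPrime l → ∀ σ ∈ A.inertiaSubgroupIn ℚ, (r σ - 1) ^ 2 = 0
  trace_good : ∀ l : ℕ, l.Prime → l ≠ 2 → W.IsGoodPrimeFor l → ∀ A : ValuationSubring Qb,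
    A.LiesOverPrime l → ∀ σ : GQ, A.IsFrobeniusAt σ l →
      (r σ).trace = (W.apOfModel l : O) ∧ (r σ).det = (l : O)
  flat : ∀ A : ValuationSubring Qb, A.LiesOverPrime 2 → HasFlatModels (ofMatrix r cont) A

/-- The point of the curve. -/
theorem exists_curvePoint [Finite (ResidueField O)] (hΔ : W.Δ ≠ 0) (hW : W.IsSemistableModel)
    (h2 : W.IsGoodPrimeFor 2) (B : TateBasis 2 W) (ι : ℤ_[2] →+* O)
    (hpO : (2 : O) ∈ maximalIdeal O) : IsCurvePoint W ι (mapRep ι B.rep) := by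
  have hp' : ((2 : ℕ) : O) ∈ maximalIdeal O := by exact_mod_cast hpO
  refine ⟨B.isContRep ι hp', fun σ => ?_, fun σ j => ?_, fun l hl hl2 hg A hA σ hσ => ?_,
    fun l hl hl2 hbad A hA σ hσ => ?_, fun l hl hl2 hg A hA σ hσ => ⟨?_, ?_⟩,
    fun A hA => B.hasFlatModels ι hp' h2 hA _⟩
  · rw [mapRep_eq, ← RingHom.map_det, B.det_rep]
  · refine Matrix.ext fun i k => ?_
    show residue O (ι (B.rep σ i k)) = j (curveRep 2 W σ i k)
    rw [B.rep_toZMod, residue_comp_eq hp' ι j]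
  · rw [mapRep_eq, B.rep_inertia_good hl hA hl2 hg hσ, map_one]
  · rw [mapRep_eq, pow_two, ← map_one ι.mapMatrix, ← map_sub, ← map_mul,
      rep_inertia_mult B ⟨hΔ, hl, hbad, hW l hl hbad, hA⟩ hl2 hσ hσ, map_zero]
  · exact ((AddMonoidHom.map_trace ι.toAddMonoidHom (B.rep σ)).symm.trans
      (congrArg ι (B.rep_frobenius hl hA hl2 hg hσ).1)).trans (map_intCast ι _)
  · rw [mapRep_eq, ← RingHom.map_det, (B.rep_frobenius hl hA hl2 hg hσ).2, map_natCast]

variable {k : Type} [Field k] [Fintype k] [CharP k 2]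

/-- The reduction modulo `2^(n+1)` refines the residual setting. -/
theorem exists_refine (S : Setting k) (hS : S.r0 = curveRep 2 W)
    (hD : S.Q.D = FA.Theta.badProd W) (hΔ : W.Δ ≠ 0) (hW : W.IsSemistableModel)
    (h2 : W.IsGoodPrimeFor 2) (B : TateBasis 2 W) (n : ℕ) :
    ∃ R : Setting.Refine S, R.n = n ∧ ∀ σ i j, (R.ρ σ i j).val =
      (PadicInt.toZModPow (n + 1) (B.rep σ i j)).val := by
  have hdvd : ∀ l : ℕ, l.Prime → (l ∣ S.Q.D ↔ (l : ℤ) ∣ W.Δ) := fun l hl => by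
    rw [hD]
    constructor
    · intro h
      obtain ⟨q, hq, hlq⟩ := (Nat.Prime.prime hl).exists_mem_finset_dvd h
      rw [(Nat.prime_dvd_prime_iff_eq hl (Nat.prime_of_mem_primeFactors hq)).mp hlq]
      exact Int.natCast_dvd.mpr (Nat.dvd_of_mem_primeFactors hq)
    · exact fun h => Finset.dvd_prod_of_mem _
        (Nat.mem_primeFactors.mpr ⟨hl, Int.natCast_dvd.mp h, Int.natAbs_ne_zero.mpr hΔ⟩)
  let ρ : GQ →* M2 (ZMod (2 ^ (n + 1))) :=
    (PadicInt.toZModPow (n + 1)).mapMatrix.toMonoidHom.comp B.rep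
  refine ⟨⟨n, ρ, ?_, fun σ => ?_, fun l hl hl2 hlD A hA σ hσ => ?_,
    fun l hl hlD A hA σ hσ => ?_⟩, rfl, fun σ i j => rfl⟩
  · obtain ⟨L, hL, h⟩ := B.exists_field (n + 1)
    exact Subgroup.isOpen_mono (H₁ := L.fixingSubgroup)
      (fun σ hσ => h σ ((IntermediateField.mem_fixingSubgroup_iff L σ).mp hσ))
      (IntermediateField.fixingSubgroup_isOpen L)
  · refine Matrix.ext fun i j => ?_
    show ZMod.castHom (dvd_pow_self 2 n.succ_ne_zero) (ZMod 2)
      (PadicInt.toZModPow (n + 1) (B.rep σ i j)) = S.r0 σ i j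
    rw [hS, B.rep_toZMod]
    have e := PadicInt.cast_toZModPow 1 (n + 1) (by omega) (B.rep σ i j)
    rw [← e]
    generalize PadicInt.toZModPow (n + 1) (B.rep σ i j) = x
    have : NeZero (2 ^ (n + 1)) := ⟨pow_ne_zero _ two_ne_zero⟩
    obtain ⟨a, rfl⟩ := ZMod.natCast_zmod_surjective x
    rw [map_natCast, ZMod.cast_natCast (pow_dvd_pow 2 (by omega : 1 ≤ n + 1)), ZMod.val_natCast,
      ZMod.natCast_mod]
  · show (PadicInt.toZModPow (n + 1)).mapMatrix (B.rep σ) = 1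
    rw [B.rep_inertia_good hl hA hl2 (fun h => hlD ((hdvd l hl).mpr h)) hσ, map_one]
  · show ((PadicInt.toZModPow (n + 1)).mapMatrix (B.rep σ) - 1) ^ 2 = 0
    have hl2 : l ≠ 2 := fun e => h2 (by subst e; exact (hdvd 2 hl).mp hlD)
    rw [pow_two, ← map_one (PadicInt.toZModPow (n + 1)).mapMatrix, ← map_sub, ← map_mul,
      rep_inertia_mult B ⟨hΔ, hl, (hdvd l hl).mp hlD, hW l hl ((hdvd l hl).mp hlD), hA⟩ hl2 hσ hσ,
      map_zero]

end FA.Two
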