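import Fermat.Agent.LocalDef.TangentTwo

/-!
# The adjoint representation of a level two representation

In characteristic two the matrices over `k`, under conjugation by `GL₂(𝔽₂)`, are the sum of the
two dimensional module of the trace zero matrices killed by `scalarPart` and of the span of the
scalars and an element of order three, on which the group acts through its sign.
-/

set_option autoImplicit false
set_option linter.unusedSectionVars false

noncomputable section

open Matrix FA.LocalDef

namespace FA.Two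

local notation "M2" k:max => Matrix (Fin 2) (Fin 2) k

/-- The sign of an invertible matrix over `F₂`. -/
def sgn (M : M2 (ZMod 2)) : ZMod 2 := if M ≠ 1 ∧ M 0 0 + M 1 1 = 0 then 1 else 0

/-- An element of order two. -/
def IsTransp (M : M2 (ZMod 2)) : Prop := M ≠ 1 ∧ M * M = 1

instance (M : M2 (ZMod 2)) : Decidable (IsTransp M) := inferInstanceAs (Decidable (_ ∧ _))

lemma six_cases {M : M2 (ZMod 2)} (h : M.det ≠ 0) :
    M = 1 ∨ M = !![0, 1; 1, 1] ∨ M = !![1, 1; 1, 0] ∨ M = !![0, 1; 1, 0] ∨ M = !![1, 1; 0, 1] ∨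
      M = !![1, 0; 1, 1] := by
  have key : ∀ a b c d : ZMod 2, a * d - b * c ≠ 0 →
      !![a, b; c, d] = 1 ∨ !![a, b; c, d] = !![0, 1; 1, 1] ∨ !![a, b; c, d] = !![1, 1; 1, 0] ∨
        !![a, b; c, d] = !![0, 1; 1, 0] ∨ !![a, b; c, d] = !![1, 1; 0, 1] ∨
          !![a, b; c, d] = !![1, 0; 1, 1] := by decide
  rw [det_fin_two] at h
  have := key _ _ _ _ h
  rwa [← Matrix.eta_fin_two M] at this

lemma transp_cases {M : M2 (ZMod 2)} (h : IsTransp M) :
    M = !![0, 1; 1, 0] ∨ M = !![1, 1; 0, 1] ∨ M = !![1, 0; 1, 1] := by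
  obtain ⟨a, b, c, d, rfl⟩ : ∃ a b c d, M = !![a, b; c, d] := ⟨_, _, _, _, Matrix.eta_fin_two M⟩
  revert a b c d
  decide

lemma unit_facts : ∀ M : M2 (ZMod 2), M.det ≠ 0 →
    (sgn M = 1 ↔ IsTransp M) ∧ (sgn M = 0 ↔ M = 1 ∨ M 0 0 + M 1 1 = 1) := by
  intro M hM
  rcases six_cases hM with rfl | rfl | rfl | rfl | rfl | rfl <;> decide

lemma sgn_mul_of_det {M N : M2 (ZMod 2)} (hM : M.det ≠ 0) (hN : N.det ≠ 0) :
    sgn (M * N) = sgn M + sgn N := by
  rcases six_cases hM with rfl | rfl | rfl | rfl | rfl | rfl <;>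
    rcases six_cases hN with rfl | rfl | rfl | rfl | rfl | rfl <;> decide


variable {k : Type} [Field k] [CharP k 2]

/-- Extension of scalars from `F₂`. -/
def ext2 (k : Type) [Field k] [CharP k 2] : M2 (ZMod 2) →+* M2 k :=
  (ZMod.castHom (dvd_refl 2) k).mapMatrix

lemma ext2_of (a b c d : ZMod 2) : ext2 k !![a, b; c, d] =
    !![ZMod.castHom (dvd_refl 2) k a, ZMod.castHom (dvd_refl 2) k b;
      ZMod.castHom (dvd_refl 2) k c, ZMod.castHom (dvd_refl 2) k d] := by
  ext i j
  fin_cases i <;> fin_cases j <;> rfl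

/-- The two dimensional part: trace and scalar part vanish. -/
def InV (X : M2 k) : Prop := X 1 1 = X 0 0 ∧ X 0 0 = X 0 1 + X 1 0

/-- The element of order three spanning the complement with the scalars. -/
def gThree : M2 k := !![0, 1; 1, 1]

/-- The projection to the two dimensional part. -/
def vPart : (M2 k) →ₗ[k] M2 k where
  toFun X := X - scalarPart X • 1 - X.trace • gThree
  map_add' X Y := by
    simp only [scalarPart, Matrix.add_apply, trace_add, add_smul]
    abel
  map_smul' c X := by
    simp only [scalarPart, Matrix.smul_apply, smul_eq_mul, trace_smul, RingHom.id_apply, smul_sub,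
      smul_smul]
    rw [mul_add, mul_add]

lemma two_eq_zero : (2 : k) = 0 := CharP.cast_eq_zero k 2

lemma vPart_eq (X : M2 k) : vPart X = !![X 0 1 + X 1 0, X 0 1 + (X 0 0 + X 1 1);
    X 1 0 + (X 0 0 + X 1 1), X 0 1 + X 1 0] := by
  show X - scalarPart X • 1 - X.trace • gThree = _
  ext i j
  fin_cases i <;> fin_cases j <;> simp [scalarPart, trace_fin_two, gThree] <;>
    grind [two_eq_zero (k := k)]

lemma inV_vPart (X : M2 k) : InV (vPart X) := by
  rw [vPart_eq]
  constructor <;> simp <;> grind [two_eq_zero (k := k)]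

lemma InV.trace_eq {X : M2 k} (h : InV X) : X.trace = 0 := by
  rw [trace_fin_two, h.1]; exact CharTwo.add_self_eq_zero _

lemma InV.scalarPart_eq {X : M2 k} (h : InV X) : scalarPart X = 0 := by
  rw [scalarPart, h.2]; grind [two_eq_zero (k := k)]

lemma InV.vPart_eq {X : M2 k} (h : InV X) : vPart X = X := by
  show X - scalarPart X • 1 - X.trace • gThree = X
  rw [h.scalarPart_eq, h.trace_eq, zero_smul, zero_smul, sub_zero, sub_zero]

lemma InV.eta {X : M2 k} (h : InV X) :
    X = !![X 0 1 + X 1 0, X 0 1; X 1 0, X 0 1 + X 1 0] := by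
  conv_lhs => rw [Matrix.eta_fin_two X, h.1, h.2]

lemma InV.zero : InV (0 : M2 k) := ⟨rfl, by simp⟩

lemma InV.add {X Y : M2 k} (h : InV X) (h' : InV Y) : InV (X + Y) :=
  ⟨by simp [h.1, h'.1], by simp [h.2, h'.2]; ring⟩

lemma InV.smul {X : M2 k} (c : k) (h : InV X) : InV (c • X) :=
  ⟨by simp [h.1], by simp [h.2]; ring⟩

/-! ### The action -/

/-- Conjugation by an invertible matrix over `F₂`. -/
lemma conj_facts {h h' : M2 (ZMod 2)} (e : h * h' = 1) (X : M2 k) :
    scalarPart (ext2 k h * X * ext2 k h') =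
        scalarPart X + ZMod.castHom (dvd_refl 2) k (sgn h) * X.trace ∧
      (ext2 k h * X * ext2 k h').trace = X.trace ∧
      vPart (ext2 k h * X * ext2 k h') = ext2 k h * vPart X * ext2 k h' := by
  have hdet : h.det ≠ 0 := fun h0 => zero_ne_one (α := ZMod 2) (by
    simpa [h0] using congrArg Matrix.det e)
  have e' : h' * h = 1 := mul_eq_one_comm.mp e
  have htr : (ext2 k h * X * ext2 k h').trace = X.trace := by
    rw [trace_mul_comm, ← mul_assoc, ← map_mul, e', map_one, one_mul]
  refine ⟨?_, htr, ?_⟩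
  all_goals
    rcases six_cases hdet with rfl | rfl | rfl | rfl | rfl | rfl
  all_goals
    first
      | rw [one_mul] at e; subst e; simp [sgn]
      | (have : h' = !![1, 1; 1, 0] := (left_inv_eq_right_inv e' (by decide))
         subst this)
      | (have : h' = !![0, 1; 1, 1] := (left_inv_eq_right_inv e' (by decide))
         subst this)
      | (have : h' = !![0, 1; 1, 0] := (left_inv_eq_right_inv e' (by decide))
         subst this)
      | (have : h' = !![1, 1; 0, 1] := (left_inv_eq_right_inv e' (by decide))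
         subst this)
      | (have : h' = !![1, 0; 1, 1] := (left_inv_eq_right_inv e' (by decide))
         subst this)
  all_goals
    rw [Matrix.eta_fin_two X]
    simp only [vPart_eq, ext2_of, map_zero, map_one, Matrix.mul_fin_two]
  all_goals
    simp [scalarPart, sgn, trace_fin_two, ← Matrix.ext_iff, Fin.forall_fin_two] <;>
      grind [two_eq_zero (k := k)]

/-! ### Transpositions -/

section Transp

variable {T : M2 (ZMod 2)} (hT : IsTransp T)

include hT

lemma inV_transp : InV (ext2 k T) := by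
  rcases transp_cases hT with rfl | rfl | rfl <;>
    (rw [ext2_of]; constructor <;> simp <;> grind [two_eq_zero (k := k)])

lemma transp_sq : ext2 k T * ext2 k T = 1 := by rw [← map_mul, hT.2, map_one]

/-- The fixed line of a transposition. -/
lemma mem_line_of_commute {X : M2 k} (hX : InV X) (h : ext2 k T * X * ext2 k T = X) :
    X ∈ Submodule.span k {ext2 k T} := by
  rw [Submodule.mem_span_singleton]
  rw [hX.eta] at h ⊢
  rcases transp_cases hT with rfl | rfl | rfl <;>
    [refine ⟨X 0 1, ?_⟩; refine ⟨X 0 1, ?_⟩; refine ⟨X 1 0, ?_⟩] <;>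
    simp only [ext2_of, map_zero, map_one, Matrix.mul_fin_two] at h ⊢ <;>
    simp [← Matrix.ext_iff, Fin.forall_fin_two] at h ⊢ <;>
    grind [two_eq_zero (k := k)]

/-- Coboundaries of the two dimensional part lie in the fixed line. -/
lemma cob_mem_line {X : M2 k} (hX : InV X) :
    ext2 k T * X * ext2 k T - X ∈ Submodule.span k {ext2 k T} := by
  have hV : InV (ext2 k T * X * ext2 k T - X) := by
    have h := (conj_facts (k := k) hT.2 X).2.2
    rw [hX.vPart_eq] at h
    rw [← h, CharTwo.sub_eq_add]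
    exact (inV_vPart _).add hX
  refine mem_line_of_commute hT hV ?_
  have h2 := transp_sq (k := k) hT
  rw [mul_sub, sub_mul, show ext2 k T * (ext2 k T * X * ext2 k T) * ext2 k T =
    (ext2 k T * ext2 k T) * X * (ext2 k T * ext2 k T) by noncomm_ring, h2, one_mul, mul_one,
    CharTwo.sub_eq_add, CharTwo.sub_eq_add, add_comm]

/-- The line is its own orthogonal in the two dimensional part. -/
lemma trace_mul_line {X : M2 k} (hX : InV X) :
    (X * ext2 k T).trace = 0 ↔ X ∈ Submodule.span k {ext2 k T} := by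
  rw [Submodule.mem_span_singleton]
  constructor
  · intro h
    rw [hX.eta] at h ⊢
    rcases transp_cases hT with rfl | rfl | rfl <;>
      [refine ⟨X 0 1, ?_⟩; refine ⟨X 0 1, ?_⟩; refine ⟨X 1 0, ?_⟩] <;>
      simp only [ext2_of, map_zero, map_one, Matrix.mul_fin_two, trace_fin_two] at h ⊢ <;>
      simp [← Matrix.ext_iff, Fin.forall_fin_two] at h ⊢ <;>
      grind [two_eq_zero (k := k)]
  · rintro ⟨a, rfl⟩
    rw [smul_mul_assoc, transp_sq hT, trace_smul, trace_one, Fintype.card_fin]
    push_cast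
    rw [two_eq_zero, smul_zero]

/-- Two different lines meet in zero. -/
lemma line_inter {T' : M2 (ZMod 2)} (hT' : IsTransp T') (hne : T ≠ T') {X : M2 k}
    (h : X ∈ Submodule.span k {ext2 k T}) (h' : X ∈ Submodule.span k {ext2 k T'}) : X = 0 := by
  rw [Submodule.mem_span_singleton] at h h'
  obtain ⟨a, rfl⟩ := h
  obtain ⟨b, hb⟩ := h'
  rcases transp_cases hT with rfl | rfl | rfl <;> rcases transp_cases hT' with rfl | rfl | rfl <;>
    first
      | exact absurd rfl hne
      | (simp only [ext2_of, map_zero, map_one] at hb ⊢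
         simp [← Matrix.ext_iff, Fin.forall_fin_two] at hb ⊢
         grind [two_eq_zero (k := k)])

/-- The centraliser of a transposition. -/
lemma commute_iff {X : M2 k} :
    ext2 k T * X * ext2 k T = X ↔ ∃ a b : k, X = a • 1 + b • ext2 k T := by
  constructor
  · intro h
    rw [Matrix.eta_fin_two X] at h ⊢
    rcases transp_cases hT with rfl | rfl | rfl <;>
      [refine ⟨X 0 0, X 0 1, ?_⟩; refine ⟨X 0 0 + X 0 1, X 0 1, ?_⟩;
        refine ⟨X 0 0 + X 1 0, X 1 0, ?_⟩] <;>
      simp only [ext2_of, map_zero, map_one, Matrix.mul_fin_two] at h ⊢ <;>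
      simp [← Matrix.ext_iff, Fin.forall_fin_two] at h ⊢ <;>
      grind [two_eq_zero (k := k)]
  · rintro ⟨a, b, rfl⟩
    simp only [mul_add, add_mul, mul_smul_comm, smul_mul_assoc, mul_one, transp_sq hT, one_mul]

end Transp

/-! ### Elements of order three -/

section Three

variable {h h' : M2 (ZMod 2)} (e : h * h' = 1) (htr : h 0 0 + h 1 1 = 1)

include e htr

lemma three_cases : (h = !![0, 1; 1, 1] ∧ h' = !![1, 1; 1, 0]) ∨
    (h = !![1, 1; 1, 0] ∧ h' = !![0, 1; 1, 1]) := by
  have hdet : h.det ≠ 0 := fun h0 => zero_ne_one (α := ZMod 2) (by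
    simpa [h0] using congrArg Matrix.det e)
  have e' : h' * h = 1 := mul_eq_one_comm.mp e
  rcases six_cases hdet with rfl | rfl | rfl | rfl | rfl | rfl
  · exact absurd htr (by decide)
  · exact Or.inl ⟨rfl, left_inv_eq_right_inv e' (by decide)⟩
  · exact Or.inr ⟨rfl, left_inv_eq_right_inv e' (by decide)⟩
  all_goals exact absurd htr (by decide)

lemma eq_zero_of_fixed {X : M2 k} (hX : InV X) (hf : ext2 k h * X * ext2 k h' = X) : X = 0 := by
  rw [hX.eta] at hf ⊢
  rcases three_cases e htr with ⟨rfl, rfl⟩ | ⟨rfl, rfl⟩ <;>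
    simp only [ext2_of, map_zero, map_one, Matrix.mul_fin_two] at hf ⊢ <;>
    simp [← Matrix.ext_iff, Fin.forall_fin_two] at hf ⊢ <;>
    grind [two_eq_zero (k := k)]

lemma exists_cob {Y : M2 k} (hY : InV Y) :
    ∃ X : M2 k, InV X ∧ ext2 k h * X * ext2 k h' - X = Y := by
  -- on the two dimensional part the element satisfies `g² + g + 1 = 0`, so `(g - 1)⁻¹ = g`
  refine ⟨ext2 k h * Y * ext2 k h', ?_, ?_⟩
  · have := (conj_facts (k := k) e Y).2.2
    rw [hY.vPart_eq] at this
    rw [← this]
    exact inV_vPart _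
  · rw [hY.eta]
    rcases three_cases e htr with ⟨rfl, rfl⟩ | ⟨rfl, rfl⟩ <;>
      simp only [ext2_of, map_zero, map_one, Matrix.mul_fin_two] <;>
      simp [← Matrix.ext_iff, Fin.forall_fin_two] <;>
      grind [two_eq_zero (k := k)]

end Three

end FA.Two
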