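import Fermat.Agent.Two.QuadBound
import Fermat.Agent.Two.AdSplit
import Fermat.Agent.TW.Frobenius
import Fermat.Agent.TW.Primes
import Mathlib.NumberTheory.LegendreSymbol.JacobiSymbol
import Mathlib.Data.Nat.ChineseRemainder

/-!
# Choosing the auxiliary split primes

Primes congruent to one modulo a high power of two, with Frobenius of order three in the level two
representation, each a nonresidue exactly at its own prime among the ramified and the inert ones.
-/

set_option autoImplicit false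
set_option linter.unusedSectionVars false

noncomputable section

open FA.LocalDef FA.Deform
open scoped Pointwise NumberTheorySymbols

namespace FA.Two

local notation "Qb" => AlgebraicClosure ℚ
local notation "GQ" => AlgebraicClosure ℚ ≃ₐ[ℚ] AlgebraicClosure ℚ
local notation "M2" k:max => Matrix (Fin 2) (Fin 2) k

/-- The automorphisms fixing the `M`-th roots of unity. -/
def fixMu (M : ℕ) : Subgroup GQ where
  carrier := {σ | ∀ μ : Qb, μ ^ M = 1 → σ μ = μ}
  one_mem' μ _ := rfl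
  mul_mem' {σ τ} hσ hτ μ hμ := by
    show σ (τ μ) = μ
    rw [hτ μ hμ, hσ μ hμ]
  inv_mem' {σ} hσ μ hμ := by
    conv_lhs => rw [← hσ μ hμ]
    rw [AlgEquiv.aut_inv, AlgEquiv.symm_apply_apply]

lemma exists_zeta {M : ℕ} (hM : M ≠ 0) : ∃ ζ : Qb, IsPrimitiveRoot ζ M := by
  have : NeZero ((M : ℕ) : Qb) := ⟨Nat.cast_ne_zero.mpr hM⟩
  exact HasEnoughRootsOfUnity.exists_primitiveRoot Qb M

lemma isOpen_fixMu {M : ℕ} (hM : M ≠ 0) : IsOpen (fixMu M : Set GQ) := by
  obtain ⟨ζ, hζ⟩ := exists_zeta hM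
  have : NeZero M := ⟨hM⟩
  let E : IntermediateField ℚ Qb := IntermediateField.adjoin ℚ {ζ}
  have : FiniteDimensional ℚ E := IntermediateField.adjoin.finiteDimensional
    ((hζ.isIntegral (Nat.pos_of_ne_zero hM)).tower_top)
  refine Subgroup.isOpen_mono (H₁ := E.fixingSubgroup) ?_ (IntermediateField.fixingSubgroup_isOpen E)
  intro σ hσ μ hμ
  obtain ⟨i, -, rfl⟩ := hζ.eq_pow_of_pow_eq_one hμ
  rw [map_pow]
  congr 1
  exact (IntermediateField.mem_fixingSubgroup_iff E σ).mp hσ ζ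
    (IntermediateField.subset_adjoin ℚ {ζ} rfl)

lemma exists_pow_apply {M : ℕ} (hM : M ≠ 0) (σ : GQ) :
    ∃ a : ℕ, ∀ μ : Qb, μ ^ M = 1 → σ μ = μ ^ a := by
  obtain ⟨ζ, hζ⟩ := exists_zeta hM
  have : NeZero M := ⟨hM⟩
  obtain ⟨a, -, ha⟩ := hζ.eq_pow_of_pow_eq_one (ξ := σ ζ) (by rw [← map_pow, hζ.pow_eq_one, map_one])
  refine ⟨a, fun μ hμ => ?_⟩
  obtain ⟨i, -, rfl⟩ := hζ.eq_pow_of_pow_eq_one hμ
  rw [map_pow, ← ha, pow_right_comm]

lemma commutator_mem_fixMu {M : ℕ} (hM : M ≠ 0) (a b : GQ) : a * b * a⁻¹ * b⁻¹ ∈ fixMu M := by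
  obtain ⟨i, hi⟩ := exists_pow_apply hM a
  obtain ⟨j, hj⟩ := exists_pow_apply hM b
  intro μ hμ
  have h1 : (b⁻¹ μ) ^ M = 1 := by rw [← map_pow, hμ, map_one]
  have h2 : (a⁻¹ (b⁻¹ μ)) ^ M = 1 := by rw [← map_pow, h1, map_one]
  show a (b (a⁻¹ (b⁻¹ μ))) = μ
  rw [hj _ h2, map_pow, show a (a⁻¹ (b⁻¹ μ)) = b⁻¹ μ by simp [AlgEquiv.aut_inv],
    ← hj _ h1]
  simp [AlgEquiv.aut_inv]

/-- Every residue prime to `M` is the action of some automorphism. -/
lemma exists_action {M a : ℕ} (hM : M ≠ 0) (ha : a.Coprime M) :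
    ∃ σ : GQ, ∀ μ : Qb, μ ^ M = 1 → σ μ = μ ^ a := by
  obtain ⟨ζ, hζ⟩ := exists_zeta hM
  have : NeZero M := ⟨hM⟩
  have hζa : IsPrimitiveRoot (ζ ^ a) M := hζ.pow_of_coprime a ha
  have hc : IsConjRoot ℚ ζ (ζ ^ a) := by
    show minpoly ℚ ζ = minpoly ℚ (ζ ^ a)
    rw [← Polynomial.cyclotomic_eq_minpoly_rat hζ (Nat.pos_of_ne_zero hM),
      ← Polynomial.cyclotomic_eq_minpoly_rat hζa (Nat.pos_of_ne_zero hM)]
  obtain ⟨σ, hσ⟩ := (IsConjRoot.symm hc).exists_algEquiv
  refine ⟨σ, fun μ hμ => ?_⟩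
  obtain ⟨i, -, rfl⟩ := hζ.eq_pow_of_pow_eq_one hμ
  rw [map_pow, hσ, pow_right_comm]

/-- Frobenius acts on roots of unity of order prime to `l` by the `l`-th power. -/
lemma frob_root {l M : ℕ} (hl : l.Prime) (hlM : ¬ l ∣ M) {A : ValuationSubring Qb}
    (hA : A.LiesOverPrime l) {φ : GQ} (hφ : A.IsFrobeniusAt φ l) {μ : Qb} (hμ : μ ^ M = 1) :
    φ μ = μ ^ l := by
  have hM : M ≠ 0 := fun h => hlM (h ▸ dvd_zero l)
  have hμ0 : μ ≠ 0 := fun h => by simp [h, zero_pow hM] at hμ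
  have hv : A.valuation μ = 1 := by
    have h : A.valuation μ ^ M = 1 := by rw [← map_pow, hμ, map_one]
    exact (pow_eq_one_iff_of_nonneg zero_le hM).mp h
  have h := FA.Density.sub_pow_mem_nonunits hφ (mem_of_map_le hv.le)
  rw [A.mem_nonunits_iff] at h
  set ν := φ μ / μ ^ l with hν
  have hvφ : A.valuation (φ μ) = 1 := by rw [decomp_map_eq hφ.mem_decompositionSubgroup, hv]
  have hνM : ν ^ M = 1 := by
    rw [hν, div_pow, ← map_pow, hμ, map_one, ← pow_mul, mul_comm, pow_mul, hμ, one_pow, div_one]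
  have hν1 : A.valuation (ν - 1) < 1 := by
    rw [hν, div_sub_one (pow_ne_zero _ hμ0), map_div₀, map_pow, hv, one_pow, div_one]; exact h
  by_contra hne
  have hne' : ν ≠ 1 := fun h => hne ((div_eq_one_iff_eq (pow_ne_zero _ hμ0)).mp h)
  have hle : A.valuation ν ≤ 1 := by rw [hν, map_div₀, map_pow, hvφ, hv, one_pow, div_one]
  have hpow : ∀ i : ℕ, A.valuation (ν ^ i - 1) < 1 := fun i => by
    rw [← geom_sum_mul ν i, map_mul]
    refine lt_of_le_of_lt (mul_le_of_le_one_left' (A.valuation.map_sum_le fun j _ => ?_)) hν1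
    rw [map_pow]
    exact pow_le_one₀ zero_le hle
  have hsum : ∑ i ∈ Finset.range M, ν ^ i = 0 := by
    rw [geom_sum_eq hne', hνM, sub_self, zero_div]
  have hs : A.valuation (∑ i ∈ Finset.range M, (ν ^ i - 1)) < 1 :=
    A.valuation.map_sum_lt one_ne_zero fun i _ => hpow i
  rw [Finset.sum_sub_distrib, hsum, Finset.sum_const, Finset.card_range, nsmul_one, zero_sub,
    A.valuation.map_neg] at hs
  have h1 := FA.Local.natCast_eq_one_of_not_dvd hl (valuation_p_lt_one hA) (n := (M : ℤ))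
    (by exact_mod_cast hlM)
  rw [Int.cast_natCast] at h1
  exact hs.ne h1

namespace Quad

variable (Q : Quad)

lemma mod_four (h2 : ¬ 2 ∣ Q.D) : Q.D % 4 = 3 := by
  by_contra h
  obtain ⟨A, hA⟩ := exists_liesOverPrime Nat.prime_two
  have h1 : Q.D % 4 = 1 := by omega
  obtain ⟨u, hu⟩ : ∃ u, Q.D = 4 * u + 1 := ⟨Q.D / 4, by omega⟩
  have hv2 := valuation_p_lt_one hA
  have hsq : (1 + Q.s) ^ 2 = (2 : ℕ) * Q.s + (-((4 : ℕ) * u : ℕ) : Qb) := by
    have := Q.sq
    rw [hu] at this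
    push_cast at this ⊢
    linear_combination this
  have hvs : A.valuation Q.s = 1 := by
    have h := congrArg A.valuation Q.sq
    rw [map_pow, Valuation.map_neg, show A.valuation (Q.D : Qb) = 1 by
      simpa using FA.Local.natCast_eq_one_of_not_dvd Nat.prime_two hv2 (n := (Q.D : ℤ))
        (by exact_mod_cast h2)] at h
    exact (pow_eq_one_iff_of_nonneg zero_le two_ne_zero).mp h
  have hv : A.valuation ((1 + Q.s) ^ 2) = A.valuation ((2 : ℕ) : Qb) := by
    rw [hsq, Valuation.map_add_eq_of_lt_left, map_mul, hvs, mul_one]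
    rw [map_mul, hvs, mul_one, Valuation.map_neg]
    have h4 : ((4 * u : ℕ) : Qb) = ((2 : ℕ) : Qb) * ((2 * u : ℕ) : Qb) := by push_cast; ring
    rw [h4, map_mul]
    refine mul_lt_of_lt_one_right (valuation_p_pos Nat.prime_two) ?_
    rw [Nat.cast_mul, map_mul]
    exact mul_lt_one_of_lt_of_le hv2 (FA.Local.natCast_le_one u)
  have hy0 : (1 + Q.s) ≠ 0 := fun h => (valuation_p_pos (A := A) Nat.prime_two).ne'
    (by rw [← hv, h, zero_pow two_ne_zero, map_zero])
  obtain ⟨k, hk⟩ := exists_zpow_of_mem_kur Nat.prime_two hA (mem_kur.mpr fun σ hσ => by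
    rw [map_add, map_one, Q.unr 2 Nat.prime_two h2 A hA σ hσ]) hy0
  rw [map_pow, hk, ← zpow_natCast, ← zpow_mul] at hv
  have := zpow_val_injective Nat.prime_two hA (j := 1) (by rw [hv, zpow_one])
  omega

/-- The action on the square root is given by the Jacobi symbol of the cyclotomic action. -/
lemma apply_s_eq_jacobi (h2 : ¬ 2 ∣ Q.D) {M : ℕ} (hM : M ≠ 0) (hDM : Q.D ∣ M) {σ : GQ} {a : ℕ}
    (hσ : ∀ μ : Qb, μ ^ M = 1 → σ μ = μ ^ a) :
    σ Q.s = ((J(a | Q.D) : ℤ) : Qb) * Q.s := by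
  classical
  have hopen : IsOpen ((fixMu M ⊓ Q.H : Subgroup GQ) : Set GQ) := by
    rw [Subgroup.coe_inf]
    refine (isOpen_fixMu hM).inter ?_
    have := IntermediateField.adjoin.finiteDimensional
      ((Algebra.IsAlgebraic.isAlgebraic (R := ℚ) Q.s).isIntegral)
    refine Subgroup.isOpen_mono (H₁ := (IntermediateField.adjoin ℚ {Q.s}).fixingSubgroup) ?_
      (IntermediateField.fixingSubgroup_isOpen _)
    intro g hg
    exact (IntermediateField.mem_fixingSubgroup_iff _ _).mp hg _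
      (IntermediateField.mem_adjoin_simple_self ℚ Q.s)
  obtain ⟨N, hNn, hNo, hNle⟩ := FA.TW.exists_open_normal_le _ hopen
  obtain ⟨l, A, φ, k, hl, hlS, hA, hφ, hk, -⟩ :=
    FA.Density.exists_frobenius_generating N hNo σ (insert 2 M.primeFactors)
  have hl2 : l ≠ 2 := fun h => hlS (Finset.mem_insert.mpr (Or.inl h))
  have hlM : ¬ l ∣ M := fun h => hlS (Finset.mem_insert_of_mem (Nat.mem_primeFactors.mpr ⟨hl, h, hM⟩))
  have hlD : ¬ l ∣ Q.D := fun h => hlM (h.trans hDM)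
  have := Fact.mk hl
  -- the two sides agree on the roots of unity
  obtain ⟨ζ, hζ⟩ := exists_zeta hM
  have hpow : ∀ i : ℕ, (φ ^ i) ζ = ζ ^ l ^ i := fun i => by
    induction i with
    | zero => simp
    | succ i ih =>
      rw [pow_succ', AlgEquiv.mul_apply, ih, map_pow, frob_root hl hlM hA hφ hζ.pow_eq_one,
        ← pow_mul, ← pow_succ']
  have hmemN := hNle hk
  have hmem : (φ ^ k) ζ = σ ζ := by
    have h := hmemN.1 ζ hζ.pow_eq_one
    rw [AlgEquiv.mul_apply, AlgEquiv.aut_inv, AlgEquiv.symm_apply_eq] at h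
    exact h.symm
  rw [hpow, hσ ζ hζ.pow_eq_one] at hmem
  have hmod : l ^ k ≡ a [MOD M] := by
    have h1 := hmem
    rw [← pow_mod_orderOf, ← pow_mod_orderOf ζ a, ← hζ.eq_orderOf] at h1
    exact hζ.pow_inj (Nat.mod_lt _ (Nat.pos_of_ne_zero hM)) (Nat.mod_lt _ (Nat.pos_of_ne_zero hM)) h1
  have hJ : J(a | Q.D) = J(l | Q.D) ^ k := by
    rw [← jacobiSym.pow_left]
    refine jacobiSym.mod_left' ?_
    have h := (hmod.of_dvd hDM).symm
    exact_mod_cast h
  -- Frobenius on the square root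
  have hφs : φ Q.s = ((J(l | Q.D) : ℤ) : Qb) * Q.s := by
    have hvs : A.valuation Q.s = 1 := by
      have h := congrArg A.valuation Q.sq
      rw [map_pow, Valuation.map_neg, show A.valuation (Q.D : Qb) = 1 by
        simpa using FA.Local.natCast_eq_one_of_not_dvd hl (valuation_p_lt_one hA) (n := (Q.D : ℤ))
          (by exact_mod_cast hlD)] at h
      exact (pow_eq_one_iff_of_nonneg zero_le two_ne_zero).mp h
    have hrec : J(l | Q.D) = legendreSym l (-(Q.D : ℤ)) := by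
      rw [jacobiSym.legendreSym.to_jacobiSym l, show (-(Q.D : ℤ)) = (-1) * (Q.D : ℤ) by ring,
        jacobiSym.mul_left, jacobiSym.at_neg_one (hl.odd_of_ne_two hl2)]
      have hD4 := Q.mod_four h2
      have hlodd : l % 2 = 1 := Nat.odd_iff.mp (hl.odd_of_ne_two hl2)
      rw [← jacobiSym.quadratic_reciprocity_if hlodd (show Q.D % 2 = 1 by omega),
        ZMod.χ₄_nat_eq_if_mod_four]
      have : l % 4 = 1 ∨ l % 4 = 3 := by omega
      rcases this with h | h <;> simp [h, hD4, show l % 2 = 1 from hlodd]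
    rw [hrec]
    have he := legendreSym.eq_pow l (-(Q.D : ℤ))
    have h1 := FA.Density.sub_pow_mem_nonunits hφ (mem_of_map_le hvs.le)
    rw [A.mem_nonunits_iff] at h1
    have hne : ((-(Q.D : ℤ) : ℤ) : ZMod l) ≠ 0 := by
      rw [Ne, ZMod.intCast_zmod_eq_zero_iff_dvd, dvd_neg]
      exact_mod_cast hlD
    have hcl : A.valuation (((legendreSym l (-(Q.D : ℤ)) : ℤ) : Qb) * Q.s - Q.s ^ l) < 1 := by
      obtain ⟨h, hh⟩ := hl.odd_of_ne_two hl2
      have hdiv : (l : ℤ) ∣ legendreSym l (-(Q.D : ℤ)) - (-(Q.D : ℤ)) ^ h := by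
        rw [← ZMod.intCast_zmod_eq_zero_iff_dvd]
        push_cast at he ⊢
        rw [he, show l / 2 = h by omega, sub_self]
      have hlt := FA.Local.intCast_lt_one_of_dvd (valuation_p_lt_one hA) hdiv
      push_cast at hlt
      rw [show Q.s ^ l = (Q.s ^ 2) ^ h * Q.s by rw [hh, pow_succ, pow_mul], Q.sq, ← sub_mul,
        map_mul, hvs, mul_one]
      exact hlt
    have hd : A.valuation (φ Q.s - ((legendreSym l (-(Q.D : ℤ)) : ℤ) : Qb) * Q.s) < 1 := by
      have := A.valuation.map_sub_lt h1 hcl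
      simpa using this
    have h2s : ¬ A.valuation ((2 : ℕ) * Q.s) < 1 := by
      rw [map_mul, hvs, mul_one]
      refine fun hlt => hlt.ne ?_
      simpa using FA.Local.natCast_eq_one_of_not_dvd hl (valuation_p_lt_one hA) (n := (2 : ℤ))
        (fun h => hl2 ((Nat.prime_dvd_prime_iff_eq hl Nat.prime_two).mp
          (Int.natCast_dvd_natCast.mp (by exact_mod_cast h))))
    rcases legendreSym.eq_one_or_neg_one l hne with hs | hs <;> rw [hs] at hd ⊢ <;>
      push_cast at hd ⊢ <;> rcases Q.apply_s φ with e | e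
    · rw [e, one_mul]
    · exact absurd hd (by
        rw [e, show -Q.s - 1 * Q.s = -(((2 : ℕ) : Qb) * Q.s) by push_cast; ring, Valuation.map_neg]
        exact h2s)
    · exact absurd hd (by
        rw [e, show Q.s - -1 * Q.s = ((2 : ℕ) : Qb) * Q.s by push_cast; ring]
        exact h2s)
    · rw [e, neg_one_mul]
  have hφk : ∀ i : ℕ, (φ ^ i) Q.s = ((J(l | Q.D) : ℤ) : Qb) ^ i * Q.s := fun i => by
    induction i with
    | zero => simp
    | succ i ih => rw [pow_succ', AlgEquiv.mul_apply, ih, map_mul, map_pow, map_intCast, hφs,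
        pow_succ, mul_assoc]
  have h := hmemN.2
  change ((φ ^ k)⁻¹ * σ) Q.s = Q.s at h
  rw [AlgEquiv.mul_apply, AlgEquiv.aut_inv, AlgEquiv.symm_apply_eq] at h
  rw [h, hφk, hJ, Int.cast_pow]

/-- The residues to prescribe. -/
lemma exists_residue (h2 : ¬ 2 ∣ Q.D) {Q0 : Finset ℕ} (hQ0 : ∀ q ∈ Q0, q.Prime ∧ q ≠ 2 ∧ ¬ q ∣ Q.D)
    {q₀ : ℕ} (hq₀ : q₀ ∈ Q.D.primeFactors) {o : ℕ} (ho : o ∈ Q.D.primeFactors.erase q₀ ∪ Q0)
    (n : ℕ) :
    ∃ a : ℕ, a.Coprime (2 ^ n * (Q.D * ∏ q ∈ Q0, q)) ∧ J(a | Q.D) = 1 ∧ a ≡ 1 [MOD 2 ^ n] ∧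
      ¬ IsSquare (a : ZMod o) ∧
      ∀ o' ∈ Q.D.primeFactors.erase q₀ ∪ Q0, o' ≠ o → (a : ZMod o') = 1 := by
  classical
  set P : Finset ℕ := Q.D.primeFactors ∪ Q0 with hP
  have hPp : ∀ q ∈ P, q.Prime ∧ q ≠ 2 := fun q hq => by
    rcases Finset.mem_union.mp hq with h | h
    · exact ⟨Nat.prime_of_mem_primeFactors h, fun e => h2 (e ▸ Nat.dvd_of_mem_primeFactors h)⟩
    · exact ⟨(hQ0 q h).1, (hQ0 q h).2.1⟩
  have hsub : Q.D.primeFactors.erase q₀ ∪ Q0 ⊆ P :=
    Finset.union_subset_union (Finset.erase_subset _ _) subset_rfl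
  have hns : ∀ q ∈ P, ∃ x : ℕ, ¬ IsSquare (x : ZMod q) := fun q hq => by
    have := Fact.mk (hPp q hq).1
    obtain ⟨x, hx⟩ := FiniteField.exists_nonsquare (F := ZMod q) (by
      rw [ZMod.ringChar_zmod_n]; exact (hPp q hq).2)
    exact ⟨x.val, by rwa [ZMod.natCast_zmod_val]⟩
  choose ns hns using hns
  let res : ℕ → ℕ := fun q => if h : q ∈ P then
    (if q = o ∨ (q = q₀ ∧ o ∈ Q.D.primeFactors) then ns q h else 1) else 1
  let md : ℕ → ℕ := fun q => if q = 2 then 2 ^ n else q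
  have hmd : ∀ q ∈ P, md q = q := fun q hq => if_neg (hPp q hq).2
  have hpair : Set.Pairwise (↑(insert 2 P) : Set ℕ) (Function.onFun Nat.Coprime md) := by
    intro i hi j hj hij
    rw [Finset.coe_insert] at hi hj
    have key : ∀ q, q = 2 ∨ q ∈ P → ∃ e : ℕ, md q = q ^ e ∧ q.Prime := fun q hq => by
      rcases hq with rfl | hq
      · exact ⟨n, if_pos rfl, Nat.prime_two⟩
      · exact ⟨1, by rw [hmd q hq, pow_one], (hPp q hq).1⟩
    obtain ⟨e, he, hpi⟩ := key i hi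
    obtain ⟨e', he', hpj⟩ := key j hj
    show Nat.Coprime (md i) (md j)
    rw [he, he']
    exact Nat.Coprime.pow _ _ ((Nat.coprime_primes hpi hpj).mpr hij)
  obtain ⟨a, ha⟩ := Nat.chineseRemainderOfFinset res md (insert 2 P)
    (fun q hq => by
      rcases Finset.mem_insert.mp hq with rfl | hq
      · simp [md]
      · rw [hmd q hq]; exact (hPp q hq).1.ne_zero) hpair
  have h2P : (2 : ℕ) ∉ P := fun h => (hPp 2 h).2 rfl
  have ha2 : a ≡ 1 [MOD 2 ^ n] := by
    have h := ha 2 (Finset.mem_insert_self _ _)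
    simpa [md, res, h2P] using h
  have haP : ∀ q ∈ P, (a : ZMod q) = res q := fun q hq => by
    have h := ha q (Finset.mem_insert_of_mem hq)
    rw [hmd q hq] at h
    exact (ZMod.natCast_eq_natCast_iff _ _ _).mpr h
  have hres : ∀ q ∈ P, (¬ (q = o ∨ (q = q₀ ∧ o ∈ Q.D.primeFactors)) ∧ (a : ZMod q) = 1) ∨
      ((q = o ∨ (q = q₀ ∧ o ∈ Q.D.primeFactors)) ∧ ¬ IsSquare (a : ZMod q)) := fun q hq => by
    have h := haP q hq
    by_cases hc : q = o ∨ (q = q₀ ∧ o ∈ Q.D.primeFactors)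
    · refine Or.inr ⟨hc, ?_⟩
      rw [h, show res q = ns q hq by simp only [res, dif_pos hq, if_pos hc]]
      exact hns q hq
    · refine Or.inl ⟨hc, ?_⟩
      rw [h, show res q = 1 by simp only [res, dif_pos hq, if_neg hc], Nat.cast_one]
  have hndvd : ∀ q ∈ P, ¬ q ∣ a := fun q hq hdvd => by
    have := Fact.mk (hPp q hq).1
    have h0 : (a : ZMod q) = 0 := (ZMod.natCast_eq_zero_iff _ _).mpr hdvd
    rcases hres q hq with ⟨-, h⟩ | ⟨-, h⟩
    · exact zero_ne_one (h0.symm.trans h)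
    · exact h (h0 ▸ IsSquare.zero)
  have hoP : o ∈ P := hsub ho
  refine ⟨a, ?_, ?_, ha2, ?_, ?_⟩
  · refine Nat.Coprime.mul_right ?_ (Nat.Coprime.mul_right ?_ (Nat.Coprime.prod_right fun q hq => ?_))
    · rcases n with _ | n
      · simp
      · refine Nat.Coprime.pow_right _ ((Nat.prime_two.coprime_iff_not_dvd.mpr fun h => ?_).symm)
        have h1 : a ≡ 1 [MOD 2] := ha2.of_dvd (dvd_pow_self 2 n.succ_ne_zero)
        rw [Nat.ModEq, Nat.mod_eq_zero_of_dvd h] at h1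
        simp at h1
    · refine Nat.coprime_of_dvd' fun q hq hqa hqD => ?_
      exact absurd hqa (hndvd q (Finset.mem_union_left _
        (Nat.mem_primeFactors.mpr ⟨hq, hqD, Q.pos.ne'⟩)))
    · exact ((hQ0 q hq).1.coprime_iff_not_dvd.mpr (hndvd q (Finset.mem_union_right _ hq))).symm
  · -- the product of the local symbols
    have hJ : J(a | Q.D) = ∏ q ∈ Q.D.primeFactors, J(a | q) := by
      conv_lhs => rw [← Nat.prod_primeFactors_of_squarefree Q.sqf]
      have key : ∀ S : Finset ℕ, (∀ q ∈ S, q ≠ 0) → J(a | ∏ q ∈ S, q) = ∏ q ∈ S, J(a | q) := by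
        intro S
        induction S using Finset.induction_on with
        | empty => intro _; simp
        | insert b S hb ih =>
          intro hS
          rw [Finset.prod_insert hb, Finset.prod_insert hb,
            jacobiSym.mul_right' _ (hS b (Finset.mem_insert_self _ _))
              (Finset.prod_ne_zero_iff.mpr fun q hq => hS q (Finset.mem_insert_of_mem hq)),
            ih fun q hq => hS q (Finset.mem_insert_of_mem hq)]
      exact key _ fun q hq => (Nat.prime_of_mem_primeFactors hq).ne_zero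
    have hval : ∀ q ∈ Q.D.primeFactors, J(a | q) =
        if q = o ∨ (q = q₀ ∧ o ∈ Q.D.primeFactors) then -1 else 1 := fun q hq => by
      have := Fact.mk (Nat.prime_of_mem_primeFactors hq)
      rw [← jacobiSym.legendreSym.to_jacobiSym]
      rcases hres q (Finset.mem_union_left _ hq) with ⟨hc, h⟩ | ⟨hc, h⟩
      · rw [if_neg hc, legendreSym.eq_one_iff' q (by rw [h]; exact one_ne_zero), h]
        exact IsSquare.one
      · rw [if_pos hc, legendreSym.eq_neg_one_iff']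
        exact h
    rw [hJ, Finset.prod_congr rfl hval, Finset.prod_ite, Finset.prod_const, Finset.prod_const_one,
      mul_one]
    by_cases hoD : o ∈ Q.D.primeFactors
    · have hne : o ≠ q₀ := by
        rcases Finset.mem_union.mp ho with h | h
        · exact Finset.ne_of_mem_erase h
        · exact absurd (Nat.dvd_of_mem_primeFactors hoD) (hQ0 o h).2.2
      rw [show Q.D.primeFactors.filter (fun q => q = o ∨ (q = q₀ ∧ o ∈ Q.D.primeFactors)) = {o, q₀} by
        ext q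
        simp only [Finset.mem_filter, hoD, and_true, Finset.mem_insert, Finset.mem_singleton]
        exact ⟨fun h => h.2, fun h => ⟨by rcases h with rfl | rfl <;> assumption, h⟩⟩,
        Finset.card_pair hne]
      norm_num
    · rw [show Q.D.primeFactors.filter (fun q => q = o ∨ (q = q₀ ∧ o ∈ Q.D.primeFactors)) = ∅ by
        ext q
        simp only [Finset.mem_filter, hoD, and_false, or_false, Finset.notMem_empty, iff_false,
          not_and]
        exact fun hq h => hoD (h ▸ hq)]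
      simp
  · rcases hres o hoP with ⟨hc, -⟩ | ⟨-, h⟩
    · exact absurd (Or.inl rfl) hc
    · exact h
  · intro o' ho' hne
    rcases hres o' (hsub ho') with ⟨-, h⟩ | ⟨hc, -⟩
    · exact h
    · rcases hc with h | ⟨h, -⟩
      · exact absurd h hne
      · rcases Finset.mem_union.mp ho' with h' | h'
        · exact absurd h (Finset.ne_of_mem_erase h')
        · exact absurd (Nat.dvd_of_mem_primeFactors hq₀) (h ▸ (hQ0 o' h').2.2)

end Quad

open Quad in
/-- **The auxiliary split primes.** -/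
theorem exists_splitPrimes (Q : Quad) (h2 : ¬ 2 ∣ Q.D) (hD1 : 1 < Q.D)
    (r0 : GQ →* M2 (ZMod 2)) (hker : IsOpen (r0.ker : Set GQ))
    (hsurj : ∀ M : M2 (ZMod 2), M.det ≠ 0 → ∃ σ, r0 σ = M)
    (hsgn : ∀ σ, sgn (r0 σ) = 0 ↔ σ ∈ Q.H)
    (hunr : ∀ l : ℕ, l.Prime → l ≠ 2 → ¬ l ∣ Q.D → ∀ A : ValuationSubring Qb, A.LiesOverPrime l →
      ∀ σ ∈ A.inertiaSubgroupIn ℚ, r0 σ = 1)
    {Q0 : Finset ℕ} (hQ0 : ∀ q ∈ Q0, q.Prime ∧ q ≠ 2 ∧ ¬ q ∣ Q.D) (n : ℕ) (avoid : Finset ℕ) :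
    ∃ P : Q.SplitPrimes Q0 (Q.D.primeFactors.card - 1 + Q0.card),
      ∀ i, 2 ^ n ∣ P.qv i - 1 ∧ P.qv i ≠ 2 ∧ P.qv i ∉ avoid ∧
        ∀ A : ValuationSubring Qb, A.LiesOverPrime (P.qv i) → ∀ φ : GQ,
          A.IsFrobeniusAt φ (P.qv i) → (r0 φ).trace = 1 := by
  classical
  obtain ⟨q₀, hq₀⟩ : ∃ q, q ∈ Q.D.primeFactors := by
    obtain ⟨p, hp, hpd⟩ := Nat.exists_prime_and_dvd hD1.ne'
    exact ⟨p, Nat.mem_primeFactors.mpr ⟨hp, hpd, Q.pos.ne'⟩⟩
  set Sset := Q.D.primeFactors.erase q₀ ∪ Q0 with hSset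
  have hcard : Sset.card = Q.D.primeFactors.card - 1 + Q0.card := by
    rw [Finset.card_union_of_disjoint, Finset.card_erase_of_mem hq₀]
    exact Finset.disjoint_left.mpr fun q h h' =>
      (hQ0 q h').2.2 (Nat.dvd_of_mem_primeFactors (Finset.mem_of_mem_erase h))
  set M := 2 ^ n * (Q.D * ∏ q ∈ Q0, q) with hMdef
  have hM : M ≠ 0 := mul_ne_zero (pow_ne_zero _ two_ne_zero) (mul_ne_zero Q.pos.ne'
    (Finset.prod_ne_zero_iff.mpr fun q hq => (hQ0 q hq).1.ne_zero))
  have hdet : ∀ σ, (r0 σ).det ≠ 0 := fun σ h0 => by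
    have h1 : (r0 σ * r0 σ⁻¹).det = 1 := by rw [← map_mul, mul_inv_cancel, map_one, Matrix.det_one]
    rw [Matrix.det_mul, h0, zero_mul] at h1
    exact zero_ne_one h1
  have key : ∀ o ∈ Sset, ∃ l : ℕ, l.Prime ∧ l ≠ 2 ∧ l ∉ avoid ∧ ¬ l ∣ Q.D ∧ l ∉ Q0 ∧
      2 ^ n ∣ l - 1 ∧ ¬ IsSquare (l : ZMod o) ∧
      (∀ o' ∈ Sset, o' ≠ o → IsSquare (l : ZMod o')) ∧
      ∀ A : ValuationSubring Qb, A.LiesOverPrime l → ∀ φ : GQ, A.IsFrobeniusAt φ l →
        (r0 φ).trace = 1 := by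
    intro o ho
    obtain ⟨a, hcop, hJ, ha2, hns, hone⟩ := Q.exists_residue h2 hQ0 hq₀ ho n
    obtain ⟨g, hg⟩ := exists_action hM hcop
    have hDM : Q.D ∣ M := dvd_mul_of_dvd_right (dvd_mul_right _ _) _
    have hgH : g ∈ Q.H := by
      show g Q.s = Q.s
      rw [Q.apply_s_eq_jacobi h2 hM hDM hg, hJ, Int.cast_one, one_mul]
    obtain ⟨g', hg', hg'H, htr⟩ : ∃ g' : GQ, (∀ μ : Qb, μ ^ M = 1 → g' μ = μ ^ a) ∧ g' ∈ Q.H ∧
        (r0 g').trace = 1 := by
      rcases ((unit_facts _ (hdet g)).2.mp ((hsgn g).mpr hgH)) with h | h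
      · obtain ⟨x, hx⟩ := hsurj !![0, 1; 1, 0] (by decide)
        obtain ⟨y, hy⟩ := hsurj !![1, 1; 0, 1] (by decide)
        have hx' : r0 x⁻¹ = !![0, 1; 1, 0] := left_inv_eq_right_inv
          (by rw [← map_mul, inv_mul_cancel, map_one]) (by rw [hx]; decide)
        have hy' : r0 y⁻¹ = !![1, 1; 0, 1] := left_inv_eq_right_inv
          (by rw [← map_mul, inv_mul_cancel, map_one]) (by rw [hy]; decide)
        have hc : (r0 (g * (x * y * x⁻¹ * y⁻¹))).trace = 1 := by
          rw [map_mul, h, one_mul, map_mul, map_mul, map_mul, hx, hy, hx', hy']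
          decide
        refine ⟨_, fun μ hμ => ?_, ?_, hc⟩
        · rw [AlgEquiv.mul_apply, commutator_mem_fixMu hM x y μ hμ, hg μ hμ]
        · refine (hsgn _).mp ?_
          rw [Matrix.trace_fin_two] at hc
          exact (unit_facts _ (hdet _)).2.mpr (Or.inr hc)
      · exact ⟨g, hg, hgH, by rw [Matrix.trace_fin_two]; exact h⟩
    obtain ⟨N, hNn, hNo, hNle⟩ := FA.TW.exists_open_normal_le (r0.ker ⊓ fixMu M)
      (by rw [Subgroup.coe_inf]; exact hker.inter (isOpen_fixMu hM))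
    obtain ⟨l, A, φ, k, hl, hlS, hA, hφ, hk, j, hj⟩ :=
      FA.Density.exists_frobenius_generating N hNo g' (avoid ∪ insert 2 M.primeFactors)
    have hl2 : l ≠ 2 := fun h => hlS (Finset.mem_union_right _ (Finset.mem_insert.mpr (Or.inl h)))
    have hlav : l ∉ avoid := fun h => hlS (Finset.mem_union_left _ h)
    have hlM : ¬ l ∣ M := fun h => hlS (Finset.mem_union_right _
      (Finset.mem_insert_of_mem (Nat.mem_primeFactors.mpr ⟨hl, h, hM⟩)))
    have hlD : ¬ l ∣ Q.D := fun h => hlM (h.trans hDM)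
    have hlQ0 : l ∉ Q0 := fun h => hlM
      (dvd_mul_of_dvd_right (dvd_mul_of_dvd_right (Finset.dvd_prod_of_mem _ h) _) _)
    obtain ⟨ζ, hζ⟩ := exists_zeta hM
    have := NeZero.mk hM
    have hinj : ∀ {x y : ℕ}, ζ ^ x = ζ ^ y → x ≡ y [MOD M] := fun {x y} h => by
      rw [← pow_mod_orderOf, ← pow_mod_orderOf ζ y, ← hζ.eq_orderOf] at h
      exact hζ.pow_inj (Nat.mod_lt _ (Nat.pos_of_ne_zero hM)) (Nat.mod_lt _ (Nat.pos_of_ne_zero hM)) h
    have hgpow : ∀ i : ℕ, (g' ^ i) ζ = ζ ^ a ^ i := fun i => by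
      induction i with
      | zero => simp
      | succ i ih => rw [pow_succ', AlgEquiv.mul_apply, ih, map_pow, hg' ζ hζ.pow_eq_one, ← pow_mul,
          ← pow_succ']
    have hφpow : ∀ i : ℕ, (φ ^ i) ζ = ζ ^ l ^ i := fun i => by
      induction i with
      | zero => simp
      | succ i ih => rw [pow_succ', AlgEquiv.mul_apply, ih, map_pow,
          frob_root hl hlM hA hφ hζ.pow_eq_one, ← pow_mul, ← pow_succ']
    have hla : l ≡ a ^ j [MOD M] := by
      have h := (hNle hj).2 ζ hζ.pow_eq_one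
      rw [AlgEquiv.mul_apply, AlgEquiv.aut_inv, AlgEquiv.symm_apply_eq, hgpow,
        frob_root hl hlM hA hφ hζ.pow_eq_one] at h
      exact hinj h
    have hal : a ≡ l ^ k [MOD M] := by
      have h := (hNle hk).2 ζ hζ.pow_eq_one
      rw [AlgEquiv.mul_apply, AlgEquiv.aut_inv, AlgEquiv.symm_apply_eq, hφpow,
        hg' ζ hζ.pow_eq_one] at h
      exact hinj h
    have hto : ∀ o' ∈ Sset, o' ∣ M := fun o' ho' => by
      rcases Finset.mem_union.mp ho' with h | h
      · exact (Nat.dvd_of_mem_primeFactors (Finset.mem_of_mem_erase h)).trans hDM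
      · exact dvd_mul_of_dvd_right (dvd_mul_of_dvd_right (Finset.dvd_prod_of_mem _ h) _) _
    refine ⟨l, hl, hl2, hlav, hlD, hlQ0, ?_, ?_, ?_, ?_⟩
    · have h := (hla.of_dvd (Dvd.intro _ rfl)).trans (ha2.pow j)
      rw [one_pow] at h
      exact (Nat.modEq_iff_dvd' hl.one_le).mp h.symm
    · intro hsq
      have h := (ZMod.natCast_eq_natCast_iff _ _ _).mpr (hal.of_dvd (hto o ho))
      rw [Nat.cast_pow] at h
      exact hns (h ▸ hsq.pow k)
    · intro o' ho' hne
      have h := (ZMod.natCast_eq_natCast_iff _ _ _).mpr (hla.of_dvd (hto o' ho'))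
      rw [Nat.cast_pow, hone o' ho' hne, one_pow] at h
      rw [h]; exact IsSquare.one
    · have hφj : r0 φ = r0 g' ^ j := by
        have h : r0 ((g' ^ j)⁻¹ * φ) = 1 := (hNle hj).1
        rw [← map_pow, ← mul_one (r0 (g' ^ j)), ← h, ← map_mul, mul_inv_cancel_left]
      have hgk : r0 g' = r0 φ ^ k := by
        have h : r0 ((φ ^ k)⁻¹ * g') = 1 := (hNle hk).1
        rw [← map_pow, ← mul_one (r0 (φ ^ k)), ← h, ← map_mul, mul_inv_cancel_left]
      have hφ0 : (r0 φ).trace = 1 := by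
        rw [Matrix.trace_fin_two] at htr ⊢
        have hs : sgn (r0 φ) = 0 := by
          have hφH : φ ∈ Q.H := by
            have h1 : r0 φ = r0 (g' ^ j) := by rw [map_pow, hφj]
            exact (hsgn φ).mp (h1 ▸ (hsgn _).mpr (pow_mem hg'H j))
          exact (hsgn φ).mpr hφH
        rcases (unit_facts _ (hdet φ)).2.mp hs with h | h
        · rw [hgk, h, one_pow] at htr
          exact absurd htr (by decide)
        · exact h
      intro B hB ψ hψ
      obtain ⟨τ, hτ⟩ := FA.TW.exists_conj_frobenius r0 hl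
        (fun C hC σ hσ => hunr l hl hl2 hlD C hC σ hσ) hA hB hφ hψ
      rw [hτ, Matrix.trace_mul_comm, ← mul_assoc, ← map_mul, inv_mul_cancel, map_one, one_mul, hφ0]
  choose qv hqv using key
  let e := (Sset.equivFinOfCardEq hcard).symm
  refine ⟨⟨fun i => qv (e i).1 (e i).2, fun i => (e i).1, fun i => (hqv _ (e i).2).1,
    fun i j h => ?_, fun i => (hqv _ (e i).2).2.2.2.1, fun i => (hqv _ (e i).2).2.2.2.2.1,
    fun i => ?_, fun i => (hqv _ (e i).2).2.2.2.2.2.2.1, fun i j hij => ?_⟩,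
    fun i => ⟨(hqv _ (e i).2).2.2.2.2.2.1, (hqv _ (e i).2).2.1, (hqv _ (e i).2).2.2.1,
      (hqv _ (e i).2).2.2.2.2.2.2.2.2⟩⟩
  · by_contra hne
    have h1 := (hqv _ (e j).2).2.2.2.2.2.2.2.1 (e i).1 (e i).2
      fun h' => hne (e.injective (Subtype.ext h'))
    simp only at h
    rw [← h] at h1
    exact (hqv _ (e i).2).2.2.2.2.2.2.1 h1
  · rcases Finset.mem_union.mp (e i).2 with h | h
    · exact Finset.mem_union_left _ (Finset.mem_of_mem_erase h)
    · exact Finset.mem_union_right _ h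
  · exact (hqv _ (e j).2).2.2.2.2.2.2.2.1 (e i).1 (e i).2
      fun h' => hij (e.injective (Subtype.ext h'))

end FA.Two
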