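import Fermat.Agent.Two.VSelmer
import Fermat.Agent.Two.QuadPrimes
import Fermat.Agent.TW.TameImage

/-!
# The tangent bound at `p = 2`

Auxiliary inert primes `Q0`, and for every `n` auxiliary split primes congruent to one modulo `2ⁿ`,
such that the classes with the local conditions of the deformation problem number at most
`2r - |Q0|`: the two dimensional part is killed by `Q0` and what is left is a quadratic character
of the imaginary quadratic field.
-/

set_option autoImplicit false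
set_option linter.unusedSectionVars false

noncomputable section

open Matrix FA.LocalDef FA.Deform
open scoped Pointwise

namespace FA.Two

local notation "Qb" => AlgebraicClosure ℚ
local notation "GQ" => AlgebraicClosure ℚ ≃ₐ[ℚ] AlgebraicClosure ℚ
local notation "M2" k:max => Matrix (Fin 2) (Fin 2) k

variable {k : Type} [Field k] [Fintype k] [CharP k 2]

namespace Setting

variable (S : Setting k)

/-- The classes of the deformation problem: flat at `2`, unipotent at the ramified primes,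
Steinberg at `Q0`, anything at `U`, unramified elsewhere. -/
structure IsClass (Q0 : Finset ℕ) (U : Set ℕ) (c : GQ → M2 k) : Prop where
  coc : S.IsCoc c
  lc : ∃ N : Subgroup GQ, IsOpen (N : Set GQ) ∧ ∀ g, ∀ n ∈ N, c (g * n) = c g
  unr : ∀ l : ℕ, l.Prime → l ≠ 2 → ¬ l ∣ S.Q.D → l ∉ Q0 → l ∉ U → ∀ A : ValuationSubring Qb,
    A.LiesOverPrime l → ∀ σ ∈ A.inertiaSubgroupIn ℚ, c σ = 0
  ram : ∀ l : ℕ, l.Prime → l ∣ S.Q.D → ∀ A : ValuationSubring Qb, A.LiesOverPrime l →
    ∃ X, ∀ σ ∈ A.inertiaSubgroupIn ℚ, c σ = S.act σ X - X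
  two : ∀ A : ValuationSubring Qb, A.LiesOverPrime 2 → IsFlatTwo A S.r c
  aux : ∀ q ∈ Q0, ∀ A : ValuationSubring Qb, A.LiesOverPrime q → ∀ φ : GQ, A.IsFrobeniusAt φ q →
    (∃ a b : k, c φ = a • 1 + b • ext2 k (S.r0 φ)) ∧
      ∀ σ ∈ A.inertiaSubgroupIn ℚ, ∃ u : k, c σ = u • (1 + ext2 k (S.r0 φ))

variable {S}

lemma scalarPart_smul (a : k) (X : M2 k) : scalarPart (a • X) = a * scalarPart X := by
  simp only [scalarPart, Matrix.smul_apply, smul_eq_mul, mul_add]

lemma scalarPart_add' (X Y : M2 k) : scalarPart (X + Y) = scalarPart X + scalarPart Y := by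
  simp only [scalarPart, Matrix.add_apply]
  ring

lemma scalarPart_sub' (X Y : M2 k) : scalarPart (X - Y) = scalarPart X - scalarPart Y := by
  simp only [scalarPart, Matrix.sub_apply]
  ring

lemma scalarPart_zero' : scalarPart (0 : M2 k) = 0 := by simp [scalarPart]

lemma scalarPart_one' : scalarPart (1 : M2 k) = 1 := by simp [scalarPart]

lemma trace_one' : (1 : M2 k).trace = 0 := by
  rw [trace_one, Fintype.card_fin]; push_cast; exact two_eq_zero

lemma vPart_one : vPart (1 : M2 k) = 0 := by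
  show (1 : M2 k) - scalarPart (1 : M2 k) • 1 - (1 : M2 k).trace • gThree = 0
  rw [scalarPart_one', trace_one', one_smul, zero_smul, sub_self, sub_zero]

lemma parts_gThree : (gThree : M2 k).trace = 1 ∧ scalarPart (gThree : M2 k) = 0 := by
  refine ⟨by simp [gThree, trace_fin_two], ?_⟩
  simp only [scalarPart, gThree, Matrix.of_apply, cons_val', cons_val_zero, cons_val_one,
    empty_val', cons_val_fin_one]
  grind [two_eq_zero (k := k)]

lemma vPart_gThree : vPart (gThree : M2 k) = 0 := by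
  show gThree - scalarPart (gThree : M2 k) • 1 - (gThree : M2 k).trace • gThree = (0 : M2 k)
  rw [parts_gThree.1, parts_gThree.2, zero_smul, one_smul, sub_zero, sub_self]

lemma eq_parts (X : M2 k) : X = vPart X + scalarPart X • 1 + X.trace • gThree := by
  show X = (X - scalarPart X • 1 - X.trace • gThree) + scalarPart X • 1 + X.trace • gThree
  abel

variable {Q0 : Finset ℕ} {U : Set ℕ} {c : GQ → M2 k}

/-- The scalar part on the subgroup of the quadratic field. -/
def psi (S : Setting k) (c : GQ → M2 k) : S.Q.H → k := fun σ => scalarPart (c σ)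

lemma psi_mul (hc : S.IsCoc c) (σ τ : S.Q.H) : S.psi c (σ * τ) = S.psi c σ + S.psi c τ := by
  show scalarPart (c ((σ : GQ) * τ)) = _
  rw [hc, scalarPart_add', S.scalarPart_act_mem σ.2]
  rfl

/-- The two dimensional part of a class. -/
theorem IsClass.isV (hc : S.IsClass Q0 U c) (hQ0 : S.IsAuxSet ∅ Q0)
    (hU : ∀ l ∈ U, l.Prime ∧ l ≠ 2 ∧ ¬ l ∣ S.Q.D ∧ ∀ A : ValuationSubring Qb, A.LiesOverPrime l →
      ∀ φ : GQ, A.IsFrobeniusAt φ l → (S.r0 φ).trace = 1) :
    S.IsV Q0 fun g => vPart (c g) := by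
  have hcoc : S.IsCoc fun g => vPart (c g) := fun g h => by
    simp only [hc.coc g h, map_add, S.vPart_act]
  obtain ⟨N, hN, hlc⟩ := hc.lc
  have hlcV : ∀ g, ∀ n ∈ N, vPart (c (g * n)) = vPart (c g) := fun g n hn => by rw [hlc g n hn]
  refine ⟨fun g => inV_vPart _, hcoc, ⟨N, hN, hlcV⟩, fun l hl hl2 hlD hlQ A hA σ hσ => ?_,
    fun l hl hlD A hA => ?_, fun A hA => ⟨c, hc.two A hA, fun σ _ => rfl⟩,
    fun q hq A hA φ hφ => ?_⟩
  · by_cases hlU : l ∈ U
    · obtain ⟨-, -, -, htr⟩ := hU l hlU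
      obtain ⟨φ, hφ⟩ := exists_isFrobeniusAt hl hA
      have hI : ∀ τ ∈ A.inertiaSubgroupIn ℚ, S.r0 τ = 1 := S.unr l hl hl2 hlD A hA
      let f : A.inertiaSubgroupIn ℚ →* Multiplicative (M2 k) :=
        MonoidHom.mk' (fun τ => Multiplicative.ofAdd (vPart (c τ))) fun a b => by
          rw [← ofAdd_add, Subgroup.coe_mul]
          congr 1
          exact (hcoc (a : GQ) b).trans (by rw [S.act_of_one (hI a a.2)])
      have hconj : ∀ τ : A.inertiaSubgroupIn ℚ,
          vPart (c (φ * τ * φ⁻¹)) = S.act φ (vPart (c τ)) := fun τ => by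
        have h := hcoc.map_conj φ τ
        rw [S.act_of_one (hI _ (LocalDef.conj_mem_inertia hl hA hφ.mem_decompositionSubgroup τ.2)),
          add_sub_cancel_left] at h
        exact h
      have hodd : 2 ∣ l - 1 := by
        obtain ⟨i, hi⟩ := hl.odd_of_ne_two hl2
        exact ⟨i, by omega⟩
      let σ' : A.inertiaSubgroupIn ℚ :=
        ⟨φ * σ * φ⁻¹, LocalDef.conj_mem_inertia hl hA hφ.mem_decompositionSubgroup hσ⟩
      have h := FA.TW.inertia_conj_eq Nat.prime_two hl (Ne.symm hl2) hA hodd f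
        (U₀ := N) hN (fun τ hτ => by
          show Multiplicative.ofAdd (vPart (c τ)) = 1
          have h1 := hlc 1 τ hτ
          rw [one_mul, hc.coc.map_one] at h1
          rw [h1, map_zero, ofAdd_zero])
        (fun τ => by
          rw [pow_two]
          show Multiplicative.ofAdd (vPart (c τ) + vPart (c τ)) = 1
          rw [← two_smul k, two_eq_zero, zero_smul, ofAdd_zero]) hφ
        (fun τ τ' e hτ => by
          show Multiplicative.ofAdd (vPart (c τ')) = 1
          change Multiplicative.ofAdd (vPart (c τ)) = 1 at hτ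
          rw [ofAdd_eq_one] at hτ ⊢
          rw [e, hconj, hτ, map_zero])
        (σ := ⟨σ, hσ⟩) (σ' := σ') rfl
      have h' : vPart (c (φ * σ * φ⁻¹)) = vPart (c σ) := Multiplicative.ofAdd.injective h
      rw [hconj ⟨σ, hσ⟩, act_apply] at h'
      have htr' := htr A hA φ hφ
      rw [trace_fin_two] at htr'
      exact eq_zero_of_fixed (S.mul_inv φ) htr' (inV_vPart _) h'
    · rw [hc.unr l hl hl2 hlD hlQ hlU A hA σ hσ, map_zero]
  · obtain ⟨X, hX⟩ := hc.ram l hl hlD A hA
    exact ⟨vPart X, inV_vPart X, fun σ hσ => by rw [hX σ hσ, map_sub, S.vPart_act]⟩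
  · obtain ⟨-, -, -, -, hT⟩ := hQ0 q hq
    have hVT : vPart (ext2 k (S.r0 φ)) = ext2 k (S.r0 φ) := (inV_transp (hT A hA φ hφ)).vPart_eq
    obtain ⟨⟨a, b, hab⟩, hI⟩ := hc.aux q hq A hA φ hφ
    refine ⟨?_, fun σ hσ => ?_⟩
    · rw [hab, map_add, map_smul, map_smul, vPart_one, hVT, smul_zero, zero_add]
      exact Submodule.smul_mem _ b (Submodule.mem_span_singleton_self _)
    · obtain ⟨u, hu⟩ := hI σ hσ
      rw [hu, map_smul, map_add, vPart_one, hVT, zero_add]
      exact Submodule.smul_mem _ u (Submodule.mem_span_singleton_self _)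

/-- A class killed by both parts is a coboundary. -/
theorem exists_cob_of_parts (hcoc : S.IsCoc c) (hV : ∀ h, S.r0 h = 1 → vPart (c h) = 0)
    (hψ : ∀ σ : S.Q.H, S.psi c σ = 0) : ∃ X, ∀ g, c g = S.act g X - X := by
  classical
  obtain ⟨X, -, hX⟩ := S.exists_cob_of_ker (z := fun g => vPart (c g)) (fun g => inV_vPart _)
    (fun g h => by simp only [hcoc g h, map_add, S.vPart_act]) hV
  obtain ⟨τ, hτ⟩ := S.Q.exists_not_mem
  have hε : ∀ g, g ∉ S.Q.H → ZMod.castHom (dvd_refl 2) k (sgn (S.r0 g)) = 1 := fun g hg => by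
    rw [((sgn_facts (S.det_ne g)).1.mpr ((S.transp_iff g).mpr hg)), map_one]
  have ha : ∀ h ∈ S.Q.H, scalarPart (c h) = 0 := fun h hh => hψ ⟨h, hh⟩
  have hmul : ∀ g, g ∉ S.Q.H → ∀ h ∈ S.Q.H,
      scalarPart (c (g * h)) = scalarPart (c g) + (c h).trace := fun g hg h hh => by
    rw [hcoc, scalarPart_add', S.scalarPart_act, hε g hg, ha h hh, one_mul, zero_add]
  have hleft : ∀ h ∈ S.Q.H, ∀ g, scalarPart (c (h * g)) = scalarPart (c g) := fun h hh g => by
    rw [hcoc, scalarPart_add', S.scalarPart_act_mem hh, ha h hh, zero_add]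
  have hb : ∀ h ∈ S.Q.H, (c h).trace = 0 := fun h hh => by
    have h1 := hmul τ hτ h hh
    rw [show τ * h = (τ * h * τ⁻¹) * τ by group, hleft _ (S.Q.conj_mem τ hh)] at h1
    exact left_eq_add.mp h1
  have hbτ : (c τ).trace = 0 := by
    have h1 := hψ ⟨τ * τ, S.Q.mul_mem_of_not_mem hτ hτ⟩
    change scalarPart (c (τ * τ)) = 0 at h1
    rwa [hcoc, scalarPart_add', S.scalarPart_act, hε τ hτ, one_mul, ← add_assoc,
      CharTwo.add_self_eq_zero, zero_add] at h1
  have hall : ∀ g, (c g).trace = 0 ∧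
      scalarPart (c g) = if g ∈ S.Q.H then 0 else scalarPart (c τ) := fun g => by
    by_cases hg : g ∈ S.Q.H
    · exact ⟨hb g hg, by rw [if_pos hg, ha g hg]⟩
    · have hh : g * τ⁻¹ ∈ S.Q.H := S.Q.mul_mem_of_not_mem hg fun h => hτ (by simpa using inv_mem h)
      refine ⟨?_, ?_⟩
      · rw [show g = (g * τ⁻¹) * τ by group, hcoc, trace_add, S.trace_act, hb _ hh, hbτ, add_zero]
      · rw [if_neg hg, ← hleft _ hh τ, inv_mul_cancel_right]
  refine ⟨X + scalarPart (c τ) • gThree, fun g => ?_⟩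
  have hv : vPart (S.act g (gThree : M2 k) - gThree) = 0 := by
    rw [map_sub, S.vPart_act, vPart_gThree, map_zero, sub_zero]
  have hg3 : S.act g (gThree : M2 k) - gThree = (if g ∈ S.Q.H then (0 : k) else 1) • 1 := by
    rw [eq_parts (S.act g (gThree : M2 k) - gThree), hv, trace_sub, S.trace_act, sub_self,
      zero_smul, zero_add, add_zero, scalarPart_sub', S.scalarPart_act, parts_gThree.1,
      parts_gThree.2, zero_add, mul_one, sub_zero]
    congr 1
    split_ifs with hg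
    · rw [(S.sgn_iff g).mpr hg, map_zero]
    · exact hε g hg
  rw [eq_parts (c g), hX g, (hall g).1, zero_smul, add_zero, (hall g).2, map_add, map_smul,
    add_sub_add_comm, ← smul_sub, hg3, smul_smul]
  split_ifs <;> simp

end Setting

/-- The good quadratic characters. -/
def Quad.goodSpace (Q : Quad) (Q0 : Finset ℕ) (U : Set ℕ) : Submodule (ZMod 2) (Q.H → ZMod 2) where
  carrier := {χ | Q.IsGood Q0 U χ}
  zero_mem' := ⟨fun _ _ => (add_zero _).symm, ⟨⊤, isOpen_univ, fun _ _ => rfl⟩,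
    fun _ _ _ _ _ _ _ _ => rfl, fun _ _ _ _ _ _ _ => rfl⟩
  add_mem' {χ χ'} h h' := by
    obtain ⟨N, hN, hχ⟩ := h.lc
    obtain ⟨N', hN', hχ'⟩ := h'.lc
    refine ⟨fun σ τ => ?_, ⟨N ⊓ N', by rw [Subgroup.coe_inf]; exact hN.inter hN', fun σ hσ => ?_⟩,
      fun l hl hlU A hA σ hσ hh => ?_, fun q hq A hA φ hφ hh => ?_⟩
    · simp only [Pi.add_apply, h.hom, h'.hom]; abel
    · rw [Pi.add_apply, hχ σ hσ.1, hχ' σ hσ.2, add_zero]
    · rw [Pi.add_apply, h.unr l hl hlU A hA σ hσ hh, h'.unr l hl hlU A hA σ hσ hh, add_zero]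
    · rw [Pi.add_apply, h.frob q hq A hA φ hφ hh, h'.frob q hq A hA φ hφ hh, add_zero]
  smul_mem' a χ h := by
    obtain ⟨N, hN, hχ⟩ := h.lc
    refine ⟨fun σ τ => ?_, ⟨N, hN, fun σ hσ => ?_⟩,
      fun l hl hlU A hA σ hσ hh => ?_, fun q hq A hA φ hφ hh => ?_⟩
    · simp only [Pi.smul_apply, h.hom, smul_add]
    · rw [Pi.smul_apply, hχ σ hσ, smul_zero]
    · rw [Pi.smul_apply, h.unr l hl hlU A hA σ hσ hh, smul_zero]
    · rw [Pi.smul_apply, h.frob q hq A hA φ hφ hh, smul_zero]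

/-- A space of `k`-valued functions all whose coordinates lie in an `𝔽₂`-space is no larger. -/
theorem finrank_le_of_coords [Algebra (ZMod 2) k] {X W' : Type} [AddCommGroup W'] [Module k W']
    (W : Submodule (ZMod 2) (X → ZMod 2)) [FiniteDimensional (ZMod 2) W] (F : W' →ₗ[k] (X → k))
    (hinj : Function.Injective F)
    (h : ∀ t (e : k →ₗ[ZMod 2] ZMod 2), (fun x => e (F t x)) ∈ W) :
    FiniteDimensional k W' ∧ Module.finrank k W' ≤ Module.finrank (ZMod 2) W := by
  classical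
  let b := Module.finBasis (ZMod 2) W
  let v := Module.finBasis (ZMod 2) k
  let g : Fin (Module.finrank (ZMod 2) W) → (X → k) := fun i x =>
    algebraMap (ZMod 2) k ((b i : X → ZMod 2) x)
  have hmem : ∀ t, F t ∈ Submodule.span k (Set.range g) := fun t => by
    have e1 : F t = ∑ j, v j • fun x => algebraMap (ZMod 2) k (v.coord j (F t x)) := by
      funext x
      conv_lhs => rw [← v.sum_repr (F t x)]
      rw [Finset.sum_apply]
      refine Finset.sum_congr rfl fun j _ => ?_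
      rw [Pi.smul_apply, smul_eq_mul, Algebra.smul_def, mul_comm]
      rfl
    rw [e1]
    refine Submodule.sum_mem _ fun j _ => Submodule.smul_mem _ _ ?_
    have e2 := congrArg (fun w : W => (w : X → ZMod 2)) (b.sum_repr ⟨_, h t (v.coord j)⟩)
    simp only [AddSubmonoidClass.coe_finsetSum, Submodule.coe_smul] at e2
    have e3 : (fun x => algebraMap (ZMod 2) k (v.coord j (F t x))) =
        ∑ i, algebraMap (ZMod 2) k (b.repr ⟨_, h t (v.coord j)⟩ i) • g i := by
      funext x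
      rw [show v.coord j (F t x) = _ from (congrFun e2 x).symm]
      simp only [Finset.sum_apply, Pi.smul_apply, smul_eq_mul, map_sum, map_mul, g]
    rw [e3]
    exact Submodule.sum_mem _ fun i _ => Submodule.smul_mem _ _ (Submodule.subset_span ⟨i, rfl⟩)
  let F' := F.codRestrict _ hmem
  have hinj' : Function.Injective F' := fun a a' e => hinj (congrArg Subtype.val e)
  have hfd : FiniteDimensional k ↥(Submodule.span k (Set.range g)) :=
    FiniteDimensional.span_of_finite k (Set.finite_range g)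
  refine ⟨FiniteDimensional.of_injective F' hinj',
    (LinearMap.finrank_le_finrank_of_injective hinj').trans ?_⟩
  exact (finrank_range_le_card g).trans_eq (Fintype.card_fin _)

namespace Setting

/-- **The tangent bound at `p = 2`.** -/
theorem exists_auxiliary (S : Setting k) (R : Refine S) (avoid : Finset ℕ) :
    ∃ (Q0 : Finset ℕ) (r : ℕ), S.IsAuxSet avoid Q0 ∧ R.IsFine Q0 ∧ r + 1 = S.Q.D.primeFactors.card + Q0.card ∧
      ∀ n : ℕ, ∃ qv : Fin r → ℕ, Function.Injective qv ∧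
        (∀ i, (qv i).Prime ∧ qv i ≠ 2 ∧ ¬ qv i ∣ S.Q.D ∧ qv i ∉ Q0 ∧ qv i ∉ avoid ∧
          2 ^ n ∣ qv i - 1 ∧ ∀ A : ValuationSubring Qb, A.LiesOverPrime (qv i) → ∀ φ : GQ,
            A.IsFrobeniusAt φ (qv i) → (S.r0 φ).trace = 1) ∧
        ∀ (W : Type) [AddCommGroup W] [Module k W] (κ : W →ₗ[k] (GQ → M2 k)),
          (∀ t, S.IsClass Q0 (Set.range qv) (κ t)) →
          (∀ t X, (∀ g, κ t g = S.act g X - X) → t = 0) →
          FiniteDimensional k W ∧ Module.finrank k W + Q0.card ≤ 2 * r := by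
  classical
  let _ : Algebra (ZMod 2) k := ZMod.algebra k 2
  obtain ⟨Q0, hQ0, hF, hkill⟩ := exists_killing S R avoid
  have hpos : 0 < S.Q.D.primeFactors.card := by
    obtain ⟨p, hp, hpd⟩ := Nat.exists_prime_and_dvd S.one_lt.ne'
    exact Finset.card_pos.mpr ⟨p, Nat.mem_primeFactors.mpr ⟨hp, hpd, S.Q.pos.ne'⟩⟩
  refine ⟨Q0, S.Q.D.primeFactors.card - 1 + Q0.card, hQ0, hF, by omega, fun n => ?_⟩
  obtain ⟨P, hP⟩ := exists_splitPrimes S.Q S.odd S.one_lt S.r0 S.ker_open S.surj S.sgn_iff S.unr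
    (fun q hq => ⟨(hQ0 q hq).1, (hQ0 q hq).2.1, (hQ0 q hq).2.2.1⟩) n avoid
  refine ⟨P.qv, P.inj, fun i => ⟨P.prime i, (hP i).2.1, P.not_dvd i, P.not_mem i, (hP i).2.2.1,
    (hP i).1, (hP i).2.2.2⟩, fun W _ _ κ hκ hκ0 => ?_⟩
  have hU : ∀ l ∈ Set.range P.qv, l.Prime ∧ l ≠ 2 ∧ ¬ l ∣ S.Q.D ∧
      ∀ A : ValuationSubring Qb, A.LiesOverPrime l →
      ∀ φ : GQ, A.IsFrobeniusAt φ l → (S.r0 φ).trace = 1 := by
    rintro _ ⟨i, rfl⟩
    exact ⟨P.prime i, (hP i).2.1, P.not_dvd i, (hP i).2.2.2⟩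
  have hQ0' : S.IsAuxSet ∅ Q0 := fun q hq =>
    ⟨(hQ0 q hq).1, (hQ0 q hq).2.1, (hQ0 q hq).2.2.1, Finset.notMem_empty q, (hQ0 q hq).2.2.2.2⟩
  have hv : ∀ t, ∀ h, S.r0 h = 1 → vPart (κ t h) = 0 := fun t =>
    hkill _ ((hκ t).isV hQ0' hU)
  let F : W →ₗ[k] (S.Q.H → k) :=
    { toFun := fun t => S.psi (κ t)
      map_add' := fun t t' => funext fun σ => by
        show scalarPart (κ (t + t') σ) = _
        rw [map_add, Pi.add_apply, scalarPart_add']; rfl
      map_smul' := fun a t => funext fun σ => by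
        show scalarPart (κ (a • t) σ) = _
        rw [map_smul, Pi.smul_apply, scalarPart_smul]; rfl }
  have hinj : Function.Injective F := (injective_iff_map_eq_zero F).mpr fun t ht => by
    obtain ⟨X, hX⟩ := exists_cob_of_parts (hκ t).coc (hv t) fun σ => congrFun ht σ
    exact hκ0 t X hX
  have hgood : ∀ t (e : k →ₗ[ZMod 2] ZMod 2),
      (fun σ => e (F t σ)) ∈ S.Q.goodSpace Q0 (Set.range P.qv) := by
    intro t e
    have hc := hκ t
    obtain ⟨N, hN, hlc⟩ := hc.lc
    refine ⟨fun σ τ => ?_, ⟨N, hN, fun σ hσ => ?_⟩, fun l hl hlU A hA σ hσ hh => ?_,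
      fun q hq A hA φ hφ hh => ?_⟩
    · show e (S.psi (κ t) (σ * τ)) = e (S.psi (κ t) σ) + e (S.psi (κ t) τ)
      rw [psi_mul hc.coc, map_add]
    · have h := hlc 1 σ hσ
      rw [one_mul, hc.coc.map_one] at h
      show e (scalarPart (κ t σ)) = 0
      rw [h, scalarPart_zero', map_zero]
    · show e (scalarPart (κ t σ)) = 0
      have h0 : scalarPart (κ t σ) = 0 := by
        by_cases hl2 : l = 2
        · subst hl2
          obtain ⟨TD⟩ := exists_twoData hA (S.ss2 A hA) (S.flat2 A hA)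
          exact flat_two_scalar hA TD _ (hc.two A hA) σ hσ
        by_cases hlD : l ∣ S.Q.D
        · obtain ⟨X, hX⟩ := hc.ram l hl hlD A hA
          rw [hX σ hσ, scalarPart_sub', S.scalarPart_act_mem hh, sub_self]
        by_cases hlQ : l ∈ Q0
        · obtain ⟨φ, hφ⟩ := exists_isFrobeniusAt hl hA
          obtain ⟨u, hu⟩ := (hc.aux l hlQ A hA φ hφ).2 σ hσ
          have hVT : vPart (ext2 k (S.r0 φ)) = ext2 k (S.r0 φ) :=
            (inV_transp ((hQ0' l hlQ).2.2.2.2 A hA φ hφ)).vPart_eq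
          have h1 := hv t σ (S.unr l hl hl2 hlD A hA σ hσ)
          rw [hu, map_smul, map_add, vPart_one, hVT, zero_add, smul_eq_zero] at h1
          rcases h1 with h1 | h1
          · rw [hu, h1, zero_smul, scalarPart_zero']
          · have h2 := transp_sq (k := k) ((hQ0' l hlQ).2.2.2.2 A hA φ hφ)
            rw [h1, zero_mul] at h2
            exact absurd h2 zero_ne_one
        · rw [hc.unr l hl hl2 hlD hlQ hlU A hA σ hσ, scalarPart_zero']
      rw [h0, map_zero]
    · show e (scalarPart (κ t (φ * φ))) = 0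
      obtain ⟨⟨a, b, hab⟩, -⟩ := hc.aux q hq A hA φ hφ
      have hT := (hQ0' q hq).2.2.2.2 A hA φ hφ
      rw [hc.coc, scalarPart_add', S.scalarPart_act, ← add_assoc, CharTwo.add_self_eq_zero,
        zero_add, hab, trace_add, trace_smul, trace_smul, trace_one', (inV_transp hT).trace_eq,
        smul_zero, smul_zero, add_zero, mul_zero, map_zero]
  obtain ⟨hfin, hle⟩ := S.Q.finrank_good_le S.odd S.one_lt
    (Q0 := Q0) (fun q hq => ⟨(hQ0 q hq).1, (hQ0 q hq).2.2.1, fun A hA φ hφ =>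
      (S.transp_iff φ).mp ((hQ0 q hq).2.2.2.2 A hA φ hφ)⟩) P (fun i => (hP i).2.1)
    (S.Q.goodSpace Q0 (Set.range P.qv)) fun χ hχ => hχ
  obtain ⟨hW, hWle⟩ := finrank_le_of_coords _ F hinj hgood
  exact ⟨hW, by omega⟩

end Setting

end FA.Two
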