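import Fermat.Agent.Two.BasePointOf
import Fermat.Agent.HeckeH1.TWGroup
import Fermat.Agent.RT.DiamondGroup
import Fermat.Agent.Twist.Rep
import Fermat.Agent.TW.Translate

/-!
# Taylor-Wiles levels of the base at `p = 2`

Primes `q ≡ 1` modulo `2^(n+1)` added to the levels of the base, the diamond group
`Δ = (ℤ/2^n)^r` of the levels, the piece of the residual system at each level, and the shape of a
lift attached to a point of the good algebra of a piece together with a character of `Δ`.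
-/

set_option autoImplicit false
set_option linter.unusedSectionVars false
set_option linter.style.haveILetI false
set_option synthInstance.maxHeartbeats 400000
set_option maxHeartbeats 1000000

noncomputable section

namespace FA.Two

open IsLocalRing Matrix FA.Deform FA.HeckeH1
open scoped MatrixGroups

local notation "Qb" => AlgebraicClosure ℚ
local notation "GQ" => AlgebraicClosure ℚ ≃ₐ[ℚ] AlgebraicClosure ℚ

variable {O : Type} [CommRing O] [IsDomain O] [IsDiscreteValuationRing O]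
  [IsAdicComplete (maximalIdeal O) O] [CharZero O] [CharP (ResidueField O) 2]
  {ι : Type} [DecidableEq ι]

namespace BaseData

/-- Taylor-Wiles primes of depth `n` over the base. -/
structure TWData (Bd : BaseData O ι) (r n : ℕ) where
  /-- the primes -/
  qv : Fin r → ℕ
  prime : ∀ i, (qv i).Prime
  inj : Function.Injective qv
  not_dvd : ∀ i, ¬ qv i ∣ Bd.D
  ne_qn : ∀ i x, qv i ≠ Bd.qn x
  notMem_S : ∀ i, (⟨qv i, prime i⟩ : Nat.Primes) ∉ Bd.S
  dvd : ∀ i, 2 ^ (n + 1) ∣ qv i - 1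
  /-- the roots -/
  α : Fin r → O
  root : ∀ i, residue O (α i) ^ 2 - Bd.c ⟨qv i, prime i⟩ * residue O (α i) + 1 = 0
  simple : ∀ i, Bd.c ⟨qv i, prime i⟩ ≠ 0
  neat : IsNeatOn O (GamH Bd.D ⊤)

namespace TWData

variable {Bd : BaseData O ι} {r n : ℕ} (T : Bd.TWData r n)

/-- The diamond group. -/
abbrev Dgrp (_T : Bd.TWData r n) : Type := FA.RT.DGroup 2 fun _ : Fin r => n

instance fact_qv (i : Fin r) : Fact (T.qv i).Prime := ⟨T.prime i⟩

theorem qv_ne_two (i : Fin r) : T.qv i ≠ 2 := fun h => by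
  have h1 := T.dvd i
  rw [h] at h1
  have := Nat.le_of_dvd (by norm_num) h1
  have : 2 ≤ 2 ^ (n + 1) := le_self_pow₀ one_le_two n.succ_ne_zero
  omega

theorem qv_cast (i : Fin r) : (T.qv i : ResidueField O) = 1 := by
  have h : (2 : ℕ) ∣ T.qv i - 1 := (dvd_pow_self 2 n.succ_ne_zero).trans (T.dvd i)
  rw [← Nat.sub_add_cancel (T.prime i).one_le, Nat.cast_add, Nat.cast_one,
    (CharP.cast_eq_zero_iff (ResidueField O) 2 _).2 h, zero_add]

/-- The primes as a set. -/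
def Q (T : Bd.TWData r n) : Finset Nat.Primes :=
  Finset.univ.image fun i => (⟨T.qv i, T.prime i⟩ : Nat.Primes)

theorem mem_Q {q : Nat.Primes} : q ∈ T.Q ↔ ∃ i, (⟨T.qv i, T.prime i⟩ : Nat.Primes) = q := by
  exact ⟨fun h => (Finset.mem_image.1 h).imp fun i hi => hi.2,
    fun ⟨i, hi⟩ => Finset.mem_image.2 ⟨i, Finset.mem_univ i, hi⟩⟩

/-- The root of a prime. -/
def αq (q : Nat.Primes) : O := if h : ∃ i, T.qv i = (q : ℕ) then T.α h.choose else 0

theorem αq_qv (i : Fin r) : T.αq ⟨T.qv i, T.prime i⟩ = T.α i := by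
  have h : ∃ j, T.qv j = T.qv i := ⟨i, rfl⟩
  rw [αq, dif_pos h, T.inj h.choose_spec]

/-- The level above a set of auxiliary primes. -/
def lvl (K : Finset ι) : ℕ := Bd.lev K * ∏ q ∈ T.Q, (q : ℕ)

instance lvl_neZero (K : Finset ι) : NeZero (T.lvl K) :=
  ⟨mul_ne_zero (NeZero.ne _) (Finset.prod_ne_zero_iff.2 fun q _ => q.2.ne_zero)⟩

theorem base_dvd (K : Finset ι) : Bd.lev K ∣ T.lvl K := dvd_mul_right _ _

theorem qv_dvd (K : Finset ι) (i : Fin r) : T.qv i ∣ T.lvl K :=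
  dvd_mul_of_dvd_right (Finset.dvd_prod_of_mem (fun q : Nat.Primes => (q : ℕ))
    (T.mem_Q.2 ⟨i, rfl⟩)) _

theorem Q_not_dvd (K : Finset ι) {q : Nat.Primes} (hq : q ∈ T.Q) : ¬ (q : ℕ) ∣ Bd.lev K := by
  obtain ⟨i, rfl⟩ := T.mem_Q.1 hq
  intro h
  rcases Bd.dvd_lev (T.prime i) h with h | ⟨x, -, hx⟩
  · exact T.not_dvd i h
  · exact T.ne_qn i x hx

/-- The logarithm modulo a Taylor-Wiles prime with values in a group twice as large. -/
def logBig (i : Fin r) : (ZMod (T.qv i))ˣ →* Multiplicative (ZMod (2 ^ (n + 1))) :=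
  (exists_unit_log (T.dvd i)).choose

theorem logBig_surjective (i : Fin r) : Function.Surjective (T.logBig i) :=
  (exists_unit_log (T.dvd i)).choose_spec

/-- The logarithm modulo a Taylor-Wiles prime. -/
def logQ (i : Fin r) : (ZMod (T.qv i))ˣ →* Multiplicative (ZMod (2 ^ n)) :=
  (AddMonoidHom.toMultiplicative
    (ZMod.castHom (pow_dvd_pow 2 n.le_succ) (ZMod (2 ^ n))).toAddMonoidHom).comp (T.logBig i)

theorem logQ_surjective (i : Fin r) : Function.Surjective (T.logQ i) :=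
  (ZMod.castHom_surjective (pow_dvd_pow 2 n.le_succ)).comp (T.logBig_surjective i)

theorem logQ_neg_one (i : Fin r) : T.logQ i (-1) = 1 := by
  obtain ⟨x, hx⟩ : ∃ x, Multiplicative.toAdd (T.logBig i (-1)) = x := ⟨_, rfl⟩
  have h2 : (2 : ℕ) • x = 0 := by
    rw [← hx, ← toAdd_pow, ← map_pow]
    simp
  refine Multiplicative.toAdd.injective ?_
  show ZMod.castHom (pow_dvd_pow 2 n.le_succ) (ZMod (2 ^ n)) (T.logBig i (-1)).toAdd = 0
  rw [hx, ← ZMod.natCast_zmod_val x, map_natCast, ZMod.natCast_eq_zero_iff]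
  rw [nsmul_eq_mul, ← ZMod.natCast_zmod_val x, ← Nat.cast_mul, ZMod.natCast_eq_zero_iff] at h2
  exact Nat.dvd_of_mul_dvd_mul_left two_pos ((pow_succ' 2 n).symm.dvd.trans h2)

/-- The diamond character of a level. -/
def κU (K : Finset ι) : (ZMod (T.lvl K))ˣ →* T.Dgrp :=
  MonoidHom.pi fun i => (T.logQ i).comp (ZMod.unitsMap (T.qv_dvd K i))

theorem κU_surjective (K : Finset ι) : Function.Surjective (T.κU K) :=
  pi_unitsMap_surjective T.qv T.prime T.inj (T.qv_dvd K) T.logQ T.logQ_surjective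

theorem κU_neg_one (K : Finset ι) : T.κU K (-1) = 1 := by
  refine funext fun i => ?_
  show T.logQ i (ZMod.unitsMap (T.qv_dvd K i) (-1)) = 1
  rw [show ZMod.unitsMap (T.qv_dvd K i) (-1) = -1 from Units.ext (by simp [ZMod.unitsMap])]
  exact T.logQ_neg_one i

theorem isPGroup_Dgrp : IsPGroup 2 T.Dgrp := fun g => ⟨n, funext fun i => by
  rw [Pi.pow_apply, Pi.one_apply]
  refine Multiplicative.toAdd.injective ?_
  rw [toAdd_pow, nsmul_eq_mul, ZMod.natCast_self, zero_mul, toAdd_one]⟩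

/-- The subgroup of a level. -/
def H (K : Finset ι) : Subgroup (ZMod (T.lvl K))ˣ := (T.κU K).ker

/-- The diamonds as the group. -/
def iota (K : Finset ι) : (ZMod (T.lvl K))ˣ ⧸ T.H K ≃* T.Dgrp :=
  QuotientGroup.quotientKerEquivOfSurjective (T.κU K) (T.κU_surjective K)

theorem iota_mk (K : Finset ι) (u : (ZMod (T.lvl K))ˣ) :
    T.iota K (QuotientGroup.mk u) = T.κU K u := rfl

/-- The class of a natural number in the diamond group. -/
def kap (ℓ : ℕ) : T.Dgrp := fun i =>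
  if h : ℓ.Coprime (T.qv i) then T.logQ i (ZMod.unitOfCoprime ℓ h) else 1

/-- The Galois character to the diamond group. -/
def galD : GQ →* T.Dgrp :=
  MonoidHom.pi fun i => (T.logQ i).comp (FA.JTorsion.cycK (T.qv i) (ZMod (T.qv i)))

theorem galD_apply (σ : GQ) (i : Fin r) :
    T.galD σ i = T.logQ i (FA.JTorsion.cycK (T.qv i) (ZMod (T.qv i)) σ) := rfl

/-- The basis of the piece of the base. -/
def baseVec (_T : Bd.TWData r n) (K : Finset ι) (j : Fin (Bd.frame K).d) :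
    Hom1 (GamH (Bd.lev K) ⊤) O :=
  (Bd.frame K).emb (Pi.single j 1)

theorem exists_tw (K : Finset ι) :
    ∃ χ₀ : heckeAlg (Bd.lev K) ⊤ O Bd.S →ₐ[O] ResidueField O, IsSys Bd.S Bd.c χ₀ ∧
      Nonempty (TWAct χ₀ T.Q T.αq (T.lvl K) (T.H K) (T.baseVec K)) := by
  haveI : Fact (Nat.Prime 2) := ⟨Nat.prime_two⟩
  obtain ⟨χ₀, e₀, hχ, he, hee⟩ := exists_sysPiece (Bd.hasSys_lev K)
  have heF : e₀.1 = (Bd.frame K).e := hee.trans (Bd.frame_e K).symm
  refine ⟨χ₀, hχ, exists_twAct (p := 2) he (T.baseVec K) (fun i => ?_) ?_ (fun v hv => ?_)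
    (fun N hN => ?_) T.αq T.Q (fun q hq => T.Q_not_dvd K hq) ?_ ?_ ?_ ?_ (T.lvl K) rfl (T.H K)
    ⟨T.κU_neg_one K, T.neat.mono (GamH_top_le_of_dvd ((Bd.D_dvd_lev K).trans (T.base_dvd K)))⟩
    (isPGroup_quotient_ker (T.κU_surjective K) T.isPGroup_Dgrp)⟩
  · rw [heF]
    exact (Bd.frame K).e_emb _
  · refine Fintype.linearIndependent_iff.2 fun g hg i => ?_
    have h1 : (Bd.frame K).emb g = 0 := by
      rw [pi_eq_sum_univ' g, map_sum]
      simpa [baseVec] using hg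
    exact congrFun ((Bd.frame K).emb_injective (h1.trans (map_zero _).symm)) i
  · refine ⟨(Bd.frame K).coord v, ?_⟩
    rw [heF] at hv
    conv_rhs => rw [← hv, ← (Bd.frame K).emb_coord v,
      pi_eq_sum_univ' ((Bd.frame K).coord v), map_sum]
    simp [baseVec]
  · obtain ⟨ℓ, hℓ, -, hℓc⟩ := Bd.nonEis (N * ∏ s ∈ Bd.S, (s : ℕ))
      (mul_ne_zero hN (Finset.prod_ne_zero_iff.2 fun s _ => s.2.ne_zero))
    exact ⟨ℓ, fun hd => hℓ (hd.mul_right _), by
      rw [hχ ℓ fun hs => hℓ ((Finset.dvd_prod_of_mem _ hs).mul_left N)]; exact hℓc⟩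
  · intro q hq
    obtain ⟨i, rfl⟩ := T.mem_Q.1 hq
    exact T.notMem_S i
  · intro q hq
    obtain ⟨i, rfl⟩ := T.mem_Q.1 hq
    rw [hχ _ (T.notMem_S i), T.αq_qv, T.qv_cast i]
    exact T.root i
  · intro q hq
    obtain ⟨i, rfl⟩ := T.mem_Q.1 hq
    rw [hχ _ (T.notMem_S i), T.αq_qv, CharTwo.two_eq_zero, zero_mul, zero_sub]
    exact neg_ne_zero.2 (T.simple i)
  · intro q hq
    obtain ⟨i, rfl⟩ := T.mem_Q.1 hq
    exact T.qv_cast i

/-- The residual character at a level. -/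
def chi₀ (K : Finset ι) : heckeAlg (Bd.lev K) ⊤ O Bd.S →ₐ[O] ResidueField O :=
  (T.exists_tw K).choose

theorem chi₀_spec (K : Finset ι) : IsSys Bd.S Bd.c (T.chi₀ K) := (T.exists_tw K).choose_spec.1

/-- The piece at a level. -/
def tw (K : Finset ι) : TWAct (T.chi₀ K) T.Q T.αq (T.lvl K) (T.H K) (T.baseVec K) :=
  (T.exists_tw K).choose_spec.2.some

/-- The idempotent of the piece. -/
def eK (K : Finset ι) : Module.End O (Hom1 (GamH (T.lvl K) (T.H K)) O) := (T.tw K).e.1.1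

/-- The part of the good algebra of the piece generated by the operators away from the finite set
and the diamonds. -/
def awaySub (K : Finset ι) : Subalgebra O (GoodAlg (T.eK K)) :=
  Algebra.adjoin O ({a | ∃ (ℓ : Nat.Primes) (_ : ℓ ∉ Bd.S) (h : ¬ (ℓ : ℕ) ∣ T.lvl K),
    goodT (T.eK K) ⟨ℓ, ℓ.2, h⟩ = a} ∪ Set.range (goodDia (T.eK K)))

/-- The algebra of the piece. -/
abbrev alg (K : Finset ι) : Type := T.awaySub K

instance algCommRing (K : Finset ι) : CommRing (T.alg K) :=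
  letI : CommRing (GoodAlg (T.eK K)) := Ideal.Quotient.commRing _
  Subalgebra.toCommRing (T.awaySub K)

instance algAlgebra (K : Finset ι) : Algebra O (T.alg K) := Subalgebra.algebra (T.awaySub K)

/-- The operator of a prime away from the finite set. -/
def gT (K : Finset ι) (ℓ : Nat.Primes) (hℓ : ℓ ∉ Bd.S) (h : ¬ (ℓ : ℕ) ∣ T.lvl K) : T.alg K :=
  ⟨goodT (T.eK K) ⟨ℓ, ℓ.2, h⟩, Algebra.subset_adjoin (Or.inl ⟨ℓ, hℓ, h, rfl⟩)⟩

theorem gT_val (K : Finset ι) (ℓ : Nat.Primes) (hℓ : ℓ ∉ Bd.S) (h : ¬ (ℓ : ℕ) ∣ T.lvl K) :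
    ((T.gT K ℓ hℓ h : T.alg K) : GoodAlg (T.eK K)) = goodT (T.eK K) ⟨ℓ, ℓ.2, h⟩ := rfl

/-- The diamond elements. -/
def dia (K : Finset ι) : T.Dgrp →* T.alg K :=
  MonoidHom.codRestrict ((goodDia (T.eK K)).comp (T.iota K).symm.toMonoidHom) (T.awaySub K)
    fun _ => Algebra.subset_adjoin (Or.inr ⟨_, rfl⟩)

theorem dia_val (K : Finset ι) (g : T.Dgrp) :
    ((T.dia K g : T.alg K) : GoodAlg (T.eK K)) = goodDia (T.eK K) ((T.iota K).symm g) := rfl

variable (rb : GQ →* Matrix (Fin 2) (Fin 2) (ResidueField O)) (ιp : ℤ_[2] →+* O)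

/-- The index type of the primes. -/
abbrev Idx (_T : Bd.TWData r n) : Type := Fin r

/-- A lift attached to a point of the piece and a character of the diamond group. -/
structure DepthPoint (K : Finset ι) where
  /-- the ring -/
  B : Type
  [commRing : CommRing B]
  [isDomain : IsDomain B]
  [isLocalRing : IsLocalRing B]
  [algebra : Algebra O B]
  [moduleFinite : Module.Finite O B]
  [moduleFree : Module.Free O B]
  /-- the lift -/
  r : GQ →* Matrix (Fin 2) (Fin 2) B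
  /-- the reduction -/
  ε : B →+* ResidueField O
  ε_algebraMap : ∀ c, ε (algebraMap O B c) = residue O c
  lift : mapRep ε r = rb
  cont : IsContRep r
  /-- the values -/
  val : T.alg K →ₐ[O] B
  /-- the twisting character -/
  psi : T.Dgrp →* B
  frob : ∀ (ℓ : Nat.Primes) (h : ¬ (ℓ : ℕ) ∣ T.lvl K) (hℓ : ℓ ∉ Bd.S),
    ∀ A : ValuationSubring Qb, A.LiesOverPrime (ℓ : ℕ) → ∀ σ : GQ, A.IsFrobeniusAt σ (ℓ : ℕ) →
      (r σ).trace = psi (T.kap ℓ) * val (T.gT K ℓ hℓ h)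
  det : ∀ σ, (r σ).det = algebraMap O B (ιp ((FA.JTorsion.cycP 2 σ : ℤ_[2]ˣ) : ℤ_[2])) *
    val (T.dia K (T.galD σ)) * psi (T.galD σ) ^ 2
  unr : ∀ l : ℕ, l.Prime → ¬ l ∣ T.lvl K → l ≠ 2 → ∀ A : ValuationSubring Qb,
    A.LiesOverPrime l → ∀ σ ∈ A.inertiaSubgroupIn ℚ, r σ = 1
  unip : ∀ l : ℕ, l.Prime → l ≠ 2 → l ∣ Bd.lev K → ¬ l * l ∣ Bd.lev K →
    ∀ A : ValuationSubring Qb, A.LiesOverPrime l → ∀ σ ∈ A.inertiaSubgroupIn ℚ,
      (r σ - 1) ^ 2 = 0
  line : ∀ (i : T.Idx) (A : ValuationSubring Qb), A.LiesOverPrime (T.qv i) → ∀ φ : GQ,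
    A.IsFrobeniusAt φ (T.qv i) → ∀ s ∈ A.inertiaSubgroupIn ℚ,
      ∃ a : B, ε a = residue O (T.α i) ∧ a * a - (r φ).trace * a + (r φ).det = 0 ∧
        (2 * a - (r φ).trace) * psi (T.galD s) =
          (r φ * r s).trace - ((r φ).trace - a) * (r s).trace
  flat : ∀ A : ValuationSubring Qb, A.LiesOverPrime 2 → FA.TW.HasFlatModels (ofMatrix r cont) A

attribute [instance] DepthPoint.commRing DepthPoint.isDomain DepthPoint.isLocalRing
  DepthPoint.algebra DepthPoint.moduleFinite DepthPoint.moduleFree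

variable {rb ιp T}

/-- The values on the good algebra with the group adjoined. -/
def DepthPoint.both {K : Finset ι} (L : T.DepthPoint rb ιp K) :
    MonoidAlgebra (T.alg K) T.Dgrp →ₐ[O] L.B :=
  MonoidAlgebra.liftNCAlgHom L.val L.psi fun _ _ => Commute.all _ _

end TWData

end BaseData

end FA.Two
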