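import Fermat.Agent.Two.Setting
import Fermat.Agent.RT.CurveResidual
import Fermat.Agent.EC.S51Aux
import Fermat.Agent.Theta.Residual

/-!
# The residual setting at `2` of a semistable curve with supersingular reduction at `2`

The `2`-torsion of a curve `W` with `Δ = -D s²`, `D` squarefree: its image is `GL₂(𝔽₂)`, its sign is
the character of `ℚ(√-D)`, and inertia at `2` contains an element of order three.
-/

set_option autoImplicit false
set_option linter.unusedSectionVars false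

noncomputable section

open Matrix WeierstrassCurve FA.EC FA.Frob FA.Deform FA.LocalDef FA.RT
open scoped WeierstrassCurve.Affine

namespace FA.Two

local notation "Qb" => AlgebraicClosure ℚ
local notation "GQ" => AlgebraicClosure ℚ ≃ₐ[ℚ] AlgebraicClosure ℚ
local notation "M2" k:max => Matrix (Fin 2) (Fin 2) k

/-- The field `ℚ(√-D)` for squarefree `D ≡ 3` modulo `4`. -/
def Quad.ofNat (D : ℕ) (hsqf : Squarefree D) (h4 : D % 4 = 3) : Quad where
  D := D
  s := sqrtQ (-(D : Qb))
  pos := by omega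
  sqf := hsqf
  sq := sqrtQ_sq _
  unr l hl hlD A hA σ hσ := by
    set y := sqrtQ (-(D : Qb))
    refine (apply_sqrtQ (show σ (-(D : Qb)) = -(D : Qb) by simp)).resolve_right fun hneg => ?_
    have := Fact.mk hl
    have := res_charP hl hA
    have hvD : A.valuation (D : Qb) = 1 := by
      simpa using FA.Local.natCast_eq_one_of_not_dvd hl (valuation_p_lt_one hA) (n := (D : ℤ))
        (by exact_mod_cast hlD)
    have hvy : A.valuation y = 1 := by
      have h := congrArg A.valuation (sqrtQ_sq (-(D : Qb)))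
      rw [map_pow, Valuation.map_neg, hvD] at h
      exact (pow_eq_one_iff_of_nonneg zero_le two_ne_zero).mp h
    by_cases hl2 : l = 2
    · subst hl2
      set z := (1 + y) / 2 with hz
      have hz1 : z * z - z + (((D + 1) / 4 : ℕ) : Qb) = 0 := by
        have h := sqrtQ_sq (-(D : Qb))
        have e : (4 : Qb) * (((D + 1) / 4 : ℕ) : Qb) = (D : Qb) + 1 := by
          exact_mod_cast (show 4 * ((D + 1) / 4) = D + 1 by omega)
        rw [hz]
        linear_combination (1 / 4 : Qb) * h + (1 / 4 : Qb) * e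
      have hvz : A.valuation z ≤ 1 := by
        by_contra hgt
        push Not at hgt
        have hlt : A.valuation z < A.valuation (z * z) := by
          rw [map_mul]; exact lt_mul_of_one_lt_left (zero_lt_one.trans hgt) hgt
        have hc : A.valuation (((D + 1) / 4 : ℕ) : Qb) ≤ 1 := FA.Local.natCast_le_one _
        have h2 : A.valuation (z * z - z) = A.valuation (z * z) :=
          A.valuation.map_sub_eq_of_lt_left hlt
        have h3 : A.valuation (z * z - z) = A.valuation (((D + 1) / 4 : ℕ) : Qb) := by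
          rw [eq_neg_of_add_eq_zero_left hz1, Valuation.map_neg]
        rw [h2] at h3
        exact absurd (hgt.trans hlt |>.trans_le (h3.le.trans hc)) (lt_irrefl _)
      have hσz : σ z = 1 + -1 * z := by
        rw [hz, map_div₀, map_add, map_one, hneg, map_ofNat]; ring
      have h := res_inertia hσ hvz
      have hm1 : A.valuation (-1 : Qb) ≤ 1 := by rw [Valuation.map_neg, map_one]
      have hvnz : A.valuation (-1 * z) ≤ 1 := by rw [map_mul, Valuation.map_neg, map_one, one_mul]; exact hvz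
      have e1 : res A (-1 : Qb) = -1 := by
        have := res_add (A := A) hm1 (map_one A.valuation).le
        rw [neg_add_cancel, res_zero, res_one] at this
        exact eq_neg_of_add_eq_zero_left this.symm
      rw [hσz, res_add (map_one A.valuation).le hvnz, res_one, res_mul hm1 hvz, e1, CharTwo.neg_eq,
        one_mul, add_eq_right] at h
      exact one_ne_zero h
    · have h := res_inertia hσ hvy.le
      rw [hneg] at h
      have e := res_add (A := A) (x := y) (y := -y) hvy.le (by rw [Valuation.map_neg, hvy])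
      rw [add_neg_cancel, res_zero, h] at e
      have hne : res A y ≠ 0 := fun h0 => (ne_of_lt ((res_eq_zero_iff hvy.le).mp h0)) hvy
      rw [← two_mul, eq_comm, mul_eq_zero] at e
      refine hne (e.resolve_left fun h0 => hl2 ?_)
      have : ((2 : ℕ) : LocalDef.Res A) = 0 := by exact_mod_cast h0
      exact (Nat.prime_dvd_prime_iff_eq hl Nat.prime_two).mp
        ((CharP.cast_eq_zero_iff (LocalDef.Res A) l 2).mp this)
  ram l hl hlD A hA := by
    by_contra hcon
    push Not at hcon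
    have h := even_of_sq hl hA (c := -(D : ℚ)) (neg_ne_zero.mpr (Nat.cast_ne_zero.mpr (by omega)))
      (y := sqrtQ (-(D : Qb))) (by rw [sqrtQ_sq]; simp) hcon
    have := Fact.mk hl
    rw [padicValRat.neg, padicValRat.of_nat] at h
    have h1 : padicValNat l D = 1 := by
      refine le_antisymm ?_ (one_le_padicValNat_of_dvd (by omega) hlD)
      rw [← Nat.factorization_def _ hl]
      exact (Nat.squarefree_iff_factorization_le_one (by omega)).mp hsqf l
    rw [h1] at h
    norm_num at h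

variable (W : WeierstrassCurve ℤ) [(ratCurve W).IsElliptic]

/-- The points killed by `2`. -/
abbrev twoTors : Submodule ℤ ((ratCurve W)⁄Qb).Point :=
  Submodule.torsionBy ℤ ((ratCurve W)⁄Qb).Point (2 : ℕ)

/-- The point of order two with given coordinates. -/
def torsPt (v : Fin 2 → ZMod 2)  : twoTors W := (torsBasis (p := 2) W).equivFun.symm v

/-- Its abscissa. -/
def eRoot (v : Fin 2 → ZMod 2) : Qb := xc (W := (ratCurve W)⁄Qb) (torsPt W v).1

lemma torsPt_mulVec (σ : GQ) (v : Fin 2 → ZMod 2) :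
    torsPt W (curveRep 2 W σ *ᵥ v) = σ • torsPt W v := by
  refine (torsBasis (p := 2) W).equivFun.injective ?_
  rw [torsPt, LinearEquiv.apply_symm_apply, ← toMatrix_mulVec, torsPt, LinearEquiv.apply_symm_apply]

lemma eRoot_mulVec (σ : GQ) (v : Fin 2 → ZMod 2) :
    eRoot W (curveRep 2 W σ *ᵥ v) = σ (eRoot W v) := by
  rw [eRoot, torsPt_mulVec]
  exact xc_smul (ratCurve W) σ _

lemma exists_coords {v : Fin 2 → ZMod 2} (hv : v ≠ 0) :
    ∃ (x y : Qb) (h : ((ratCurve W)⁄Qb).toAffine.Nonsingular x y),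
      (torsPt W v).1 = .some x y h ∧ eRoot W v = x ∧
        ((ratCurve W)⁄Qb).Ψ₂Sq.eval x = 0 := by
  have h0 : (torsPt W v).1 ≠ 0 := fun h => hv (by
    have : torsPt W v = 0 := Subtype.ext h
    rwa [torsPt, LinearEquiv.map_eq_zero_iff] at this)
  obtain ⟨x, y, h, e⟩ := exists_some_of_ne_zero h0
  refine ⟨x, y, h, e, by rw [eRoot, e, xc_some], ?_⟩
  have h2 : (2 : ℕ) • (torsPt W v).1 = 0 := Frob.nsmul_torsion (torsPt W v)
  rw [e] at h2
  simpa [WeierstrassCurve.ΨSq_two] using (nsmul_eq_zero_iff h 2).mp h2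

lemma eRoot_injective {v w : Fin 2 → ZMod 2} (hv : v ≠ 0) (hw : w ≠ 0)
    (h : eRoot W v = eRoot W w) : v = w := by
  obtain ⟨x, y, hn, e, ex, -⟩ := exists_coords W hv
  obtain ⟨x', y', hn', e', ex', -⟩ := exists_coords W hw
  rw [ex, ex'] at h
  subst h
  refine (torsBasis (p := 2) W).equivFun.symm.injective (Subtype.ext ?_)
  show (torsPt W v).1 = (torsPt W w).1
  have hn2 : ∀ u : Fin 2 → ZMod 2, -(torsPt W u).1 = (torsPt W u).1 := fun u => by
    rw [neg_eq_iff_add_eq_zero, ← two_nsmul]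
    exact Frob.nsmul_torsion (torsPt W u)
  rcases Affine.Y_eq_of_X_eq hn.1 hn'.1 rfl with hy | hy
  · rw [e, e']; simp [hy]
  · rw [← hn2 w, e, e', Affine.Point.neg_some]; simp [hy]

lemma baseChange_coeffs :
    ((ratCurve W)⁄Qb).b₂ = (W.b₂ : Qb) ∧ ((ratCurve W)⁄Qb).b₄ = (W.b₄ : Qb) ∧
      ((ratCurve W)⁄Qb).b₆ = (W.b₆ : Qb) ∧ ((ratCurve W)⁄Qb).b₈ = (W.b₈ : Qb) := by
  simp [ratCurve, WeierstrassCurve.baseChange]

lemma eRoot_eq {v : Fin 2 → ZMod 2} (hv : v ≠ 0) :
    4 * eRoot W v ^ 3 + (W.b₂ : Qb) * eRoot W v ^ 2 + 2 * (W.b₄ : Qb) * eRoot W v + (W.b₆ : Qb)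
      = 0 := by
  obtain ⟨x, y, h, -, ex, he⟩ := exists_coords W hv
  obtain ⟨h2, h4, h6, -⟩ := baseChange_coeffs W
  simp only [WeierstrassCurve.Ψ₂Sq, Polynomial.eval_add, Polynomial.eval_mul, Polynomial.eval_pow,
    Polynomial.eval_C, Polynomial.eval_X, h2, h4, h6] at he
  rw [ex]
  linear_combination he

/-- The product of the differences of the roots. -/
def deltaRoot : Qb :=
  4 * (eRoot W ![1, 0] - eRoot W ![0, 1]) * (eRoot W ![0, 1] - eRoot W ![1, 1]) *
    (eRoot W ![1, 1] - eRoot W ![1, 0])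

lemma deltaRoot_sq : deltaRoot W ^ 2 = (W.Δ : Qb) := by
  have ea := eRoot_eq W (v := ![1, 0]) (by decide)
  have eb := eRoot_eq W (v := ![0, 1]) (by decide)
  have ec := eRoot_eq W (v := ![1, 1]) (by decide)
  have nab : eRoot W ![1, 0] - eRoot W ![0, 1] ≠ 0 :=
    sub_ne_zero.mpr fun h => absurd (eRoot_injective W (by decide) (by decide) h) (by decide)
  have nbc : eRoot W ![0, 1] - eRoot W ![1, 1] ≠ 0 :=
    sub_ne_zero.mpr fun h => absurd (eRoot_injective W (by decide) (by decide) h) (by decide)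
  have nac : eRoot W ![1, 0] - eRoot W ![1, 1] ≠ 0 :=
    sub_ne_zero.mpr fun h => absurd (eRoot_injective W (by decide) (by decide) h) (by decide)
  rw [deltaRoot]
  set a := eRoot W ![1, 0]
  set b := eRoot W ![0, 1]
  set c := eRoot W ![1, 1]
  have dab : 4 * (a ^ 2 + a * b + b ^ 2) + (W.b₂ : Qb) * (a + b) + 2 * (W.b₄ : Qb) = 0 :=
    mul_left_cancel₀ nab (by rw [mul_zero]; linear_combination ea - eb)
  have dac : 4 * (a ^ 2 + a * c + c ^ 2) + (W.b₂ : Qb) * (a + c) + 2 * (W.b₄ : Qb) = 0 :=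
    mul_left_cancel₀ nac (by rw [mul_zero]; linear_combination ea - ec)
  have h2 : (W.b₂ : Qb) = -4 * (a + b + c) := by
    have := mul_left_cancel₀ nbc (show (b - c) * (4 * (a + b + c) + (W.b₂ : Qb)) = (b - c) * 0 by
      rw [mul_zero]; linear_combination dab - dac)
    linear_combination this
  have h4 : (W.b₄ : Qb) = 2 * (a * b + a * c + b * c) := by
    linear_combination (1 / 2 : Qb) * dab - (a + b) / 2 * h2
  have h6 : (W.b₆ : Qb) = -4 * (a * b * c) := by
    linear_combination ea - a ^ 2 * h2 - 2 * a * h4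
  have h8 : (W.b₈ : Qb) = 4 * (a + b + c) * (a * b * c) - (a * b + a * c + b * c) ^ 2 := by
    have h := congrArg (Int.cast : ℤ → Qb) W.b_relation
    push_cast at h
    rw [h2, h4, h6] at h
    linear_combination (1 / 4 : Qb) * h
  rw [WeierstrassCurve.Δ]
  push_cast
  rw [h2, h4, h6, h8]
  ring

lemma det_curveRep_two_ne (σ : GQ) : (curveRep 2 W σ).det ≠ 0 := fun h0 => by
  have h : (curveRep 2 W σ * curveRep 2 W σ⁻¹).det = 1 := by
    rw [← map_mul, mul_inv_cancel, map_one, det_one]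
  rw [det_mul, h0, zero_mul] at h
  exact zero_ne_one h

lemma apply_deltaRoot (σ : GQ) :
    (sgn (curveRep 2 W σ) = 0 → σ (deltaRoot W) = deltaRoot W) ∧
      (sgn (curveRep 2 W σ) ≠ 0 → σ (deltaRoot W) = -deltaRoot W) := by
  simp only [deltaRoot, map_mul, map_sub, map_ofNat, ← eRoot_mulVec]
  rcases six_cases (det_curveRep_two_ne W σ) with e | e | e | e | e | e <;> rw [e]
  · exact ⟨fun _ => by simp, fun h => absurd (by decide) h⟩
  · refine ⟨fun _ => ?_, fun h => absurd (by decide) h⟩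
    rw [show !![0, 1; 1, 1] *ᵥ ![(1 : ZMod 2), 0] = ![0, 1] by decide,
      show !![0, 1; 1, 1] *ᵥ ![(0 : ZMod 2), 1] = ![1, 1] by decide,
      show !![0, 1; 1, 1] *ᵥ ![(1 : ZMod 2), 1] = ![1, 0] by decide]
    ring
  · refine ⟨fun _ => ?_, fun h => absurd (by decide) h⟩
    rw [show !![1, 1; 1, 0] *ᵥ ![(1 : ZMod 2), 0] = ![1, 1] by decide,
      show !![1, 1; 1, 0] *ᵥ ![(0 : ZMod 2), 1] = ![1, 0] by decide,
      show !![1, 1; 1, 0] *ᵥ ![(1 : ZMod 2), 1] = ![0, 1] by decide]
    ring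
  · refine ⟨fun h => absurd h (by decide), fun _ => ?_⟩
    rw [show !![0, 1; 1, 0] *ᵥ ![(1 : ZMod 2), 0] = ![0, 1] by decide,
      show !![0, 1; 1, 0] *ᵥ ![(0 : ZMod 2), 1] = ![1, 0] by decide,
      show !![0, 1; 1, 0] *ᵥ ![(1 : ZMod 2), 1] = ![1, 1] by decide]
    ring
  · refine ⟨fun h => absurd h (by decide), fun _ => ?_⟩
    rw [show !![1, 1; 0, 1] *ᵥ ![(1 : ZMod 2), 0] = ![1, 0] by decide,
      show !![1, 1; 0, 1] *ᵥ ![(0 : ZMod 2), 1] = ![1, 1] by decide,
      show !![1, 1; 0, 1] *ᵥ ![(1 : ZMod 2), 1] = ![0, 1] by decide]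
    ring
  · refine ⟨fun h => absurd h (by decide), fun _ => ?_⟩
    rw [show !![1, 0; 1, 1] *ᵥ ![(1 : ZMod 2), 0] = ![1, 1] by decide,
      show !![1, 0; 1, 1] *ᵥ ![(0 : ZMod 2), 1] = ![0, 1] by decide,
      show !![1, 0; 1, 1] *ᵥ ![(1 : ZMod 2), 1] = ![1, 0] by decide]
    ring

variable {W}

/-- The sign of the `2`-torsion is the character of `ℚ(√Δ)`. -/
lemma sgn_curveRep_iff {D : ℕ} {t : ℤ} (hΔ : W.Δ = -(D : ℤ) * t ^ 2) (hne : W.Δ ≠ 0) {s : Qb}
    (hs : s ^ 2 = -(D : Qb)) (σ : GQ) : sgn (curveRep 2 W σ) = 0 ↔ σ s = s := by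
  have ht : (t : Qb) ≠ 0 := fun h => hne (by
    rw [hΔ, Int.cast_eq_zero.mp h]; ring)
  have hd : deltaRoot W = (t : Qb) * s ∨ deltaRoot W = -((t : Qb) * s) := by
    rw [← sq_eq_sq_iff_eq_or_eq_neg, deltaRoot_sq, mul_pow, hs, hΔ]
    push_cast
    ring
  have hd0 : deltaRoot W ≠ 0 := fun h => hne (by
    have := deltaRoot_sq W
    rw [h, zero_pow two_ne_zero] at this
    exact_mod_cast this.symm)
  obtain ⟨h0, h1⟩ := apply_deltaRoot W σ
  have key : σ (deltaRoot W) = deltaRoot W ↔ σ s = s := by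
    rcases hd with e | e <;> rw [e] <;> simp [map_mul, ht]
  refine ⟨fun h => key.mp (h0 h), fun h => ?_⟩
  by_contra hcon
  exact neg_ne_self hd0 ((h1 hcon).symm.trans (key.mpr h))

lemma gen_facts : ∀ T M : M2 (ZMod 2), IsTransp T → M.det ≠ 0 → M ≠ 1 → M ≠ T →
    ∀ N : M2 (ZMod 2), N.det ≠ 0 →
      N = 1 ∨ N = T ∨ N = M ∨ N = M * M ∨ N = T * M ∨ N = M * T ∨ N = T * M * T := by
  intro T M hT hd h1 hT' N hN
  rcases transp_cases hT with rfl | rfl | rfl <;>
    rcases six_cases hd with rfl | rfl | rfl | rfl | rfl | rfl <;>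
      rcases six_cases hN with rfl | rfl | rfl | rfl | rfl | rfl <;> revert h1 hT' <;> decide

lemma fixed_vec {T : M2 (ZMod 2)} (hT : IsTransp T) : ∃ v, v ≠ 0 ∧ T *ᵥ v = v := by
  rcases transp_cases hT with rfl | rfl | rfl
  all_goals first
    | exact ⟨![1, 0], by decide, by decide⟩
    | exact ⟨![0, 1], by decide, by decide⟩
    | exact ⟨![1, 1], by decide, by decide⟩

/-- An irreducible image containing a transposition is everything. -/
lemma surj_curveRep (hirr : W.ModRepIsIrreducible 2) {c : GQ}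
    (hc : IsTransp (curveRep 2 W c)) {M : M2 (ZMod 2)} (hM : M.det ≠ 0) :
    ∃ σ, curveRep 2 W σ = M := by
  obtain ⟨σ, h1, h2⟩ : ∃ σ, curveRep 2 W σ ≠ 1 ∧ curveRep 2 W σ ≠ curveRep 2 W c := by
    by_contra hcon
    push Not at hcon
    obtain ⟨v, hv0, hv⟩ := fixed_vec hc
    have hfix : ∀ σ : GQ, σ • torsPt W v = torsPt W v := fun σ => by
      rw [← torsPt_mulVec]
      by_cases h : curveRep 2 W σ = 1
      · rw [h, one_mulVec]
      · rw [hcon σ h, hv]
    set z := torsPt W v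
    have hz0 : z ≠ 0 := fun h => hv0 (by
      have h' : torsPt W v = 0 := h
      rwa [torsPt, LinearEquiv.map_eq_zero_iff] at h')
    have hfin := finite_torsion (ratCurve W) two_ne_zero
    have hstab : Affine.Point.IsGaloisStable ℚ (Submodule.span (ZMod 2) {z}) := fun σ x hx => by
      obtain ⟨a, rfl⟩ := Submodule.mem_span_singleton.mp hx
      rcases FA.Theta.zmod_two_cases a with rfl | rfl
      · rw [zero_smul, smul_zero]; exact Submodule.zero_mem _
      · rw [one_smul, hfix]; exact Submodule.mem_span_singleton_self _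
    rcases hirr.2 (Submodule.span (ZMod 2) {z}) hstab with h | h
    · exact hz0 (by simpa using h)
    · have := congrArg (fun N : Submodule (ZMod 2) (twoTors W) => Module.finrank (ZMod 2) N) h
      simp only [finrank_span_singleton hz0, finrank_top, finrank_torsion (ratCurve W) 2] at this
      exact absurd this (by decide)
  rcases gen_facts _ _ hc (det_curveRep_two_ne W σ) h1 h2 M hM with
    rfl | rfl | rfl | rfl | rfl | rfl | rfl
  · exact ⟨1, map_one _⟩
  · exact ⟨c, rfl⟩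
  · exact ⟨σ, rfl⟩
  · exact ⟨σ * σ, map_mul _ _ _⟩
  · exact ⟨c * σ, map_mul _ _ _⟩
  · exact ⟨σ * c, map_mul _ _ _⟩
  · exact ⟨c * σ * c, by rw [map_mul, map_mul]⟩

lemma transp_pair : ∀ T T' : M2 (ZMod 2), IsTransp T → IsTransp T' → T ≠ T' →
    (T * T').trace = 1 := by
  intro T T' hT hT'
  rcases transp_cases hT with rfl | rfl | rfl <;>
    rcases transp_cases hT' with rfl | rfl | rfl <;> decide

lemma not_trace_one : ∀ M : M2 (ZMod 2), M.det ≠ 0 → M.trace ≠ 1 → M = 1 ∨ IsTransp M := by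
  intro M hM
  rcases six_cases hM with rfl | rfl | rfl | rfl | rfl | rfl <;> decide

/-- Supersingular reduction at `2`: inertia has an element of order three. -/
lemma exists_trace_one (hap : W.apOfModel 2 = 0) (h2 : W.IsGoodPrimeFor 2)
    {A : ValuationSubring Qb} (hA : A.LiesOverPrime 2) :
    ∃ g ∈ A.inertiaSubgroupIn ℚ, (curveRep 2 W g).trace = 1 := by
  by_contra hcon
  push Not at hcon
  have hcase : ∀ g ∈ A.inertiaSubgroupIn ℚ,
      curveRep 2 W g = 1 ∨ IsTransp (curveRep 2 W g) := fun g hg =>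
    not_trace_one _ (det_curveRep_two_ne W g) (hcon g hg)
  obtain ⟨v, hv0, hv⟩ : ∃ v : Fin 2 → ZMod 2, v ≠ 0 ∧
      ∀ g ∈ A.inertiaSubgroupIn ℚ, curveRep 2 W g *ᵥ v = v := by
    by_cases hall : ∀ g ∈ A.inertiaSubgroupIn ℚ, curveRep 2 W g = 1
    · exact ⟨![1, 0], by decide, fun g hg => by rw [hall g hg, one_mulVec]⟩
    · push Not at hall
      obtain ⟨t, ht, ht1⟩ := hall
      have hT := (hcase t ht).resolve_left ht1
      obtain ⟨v, hv0, hv⟩ := fixed_vec hT
      refine ⟨v, hv0, fun g hg => ?_⟩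
      rcases hcase g hg with h | h
      · rw [h, one_mulVec]
      · by_cases he : curveRep 2 W g = curveRep 2 W t
        · rw [he, hv]
        · exact absurd (by rw [map_mul]; exact transp_pair _ _ h hT he) (hcon _ (mul_mem hg ht))
  set e := eRoot W v
  have hfix : ∀ g ∈ A.inertiaSubgroupIn ℚ, g e = e := fun g hg => by
    rw [← eRoot_mulVec, hv g hg]
  obtain ⟨ha1, ha3⟩ := FA.Theta.a₁_even_of_apOfModel_two h2 hap
  have hb2 : (4 : ℤ) ∣ W.b₂ := by
    obtain ⟨c, hc⟩ := ha1
    exact ⟨c ^ 2 + W.a₂, by rw [WeierstrassCurve.b₂, hc]; ring⟩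
  have hb4 : (2 : ℤ) ∣ W.b₄ := by
    obtain ⟨c, hc⟩ := ha1
    exact ⟨W.a₄ + c * W.a₃, by rw [WeierstrassCurve.b₄, hc]; ring⟩
  have hb6 : ¬ (2 : ℤ) ∣ W.b₆ := by
    intro h
    refine ha3 ((Nat.prime_iff_prime_int.mp Nat.prime_two).dvd_of_dvd_pow (n := 2) ?_)
    obtain ⟨c, hc⟩ := h
    exact ⟨c - 2 * W.a₆, by rw [WeierstrassCurve.b₆] at hc; linear_combination hc⟩
  have h2v := valuation_p_lt_one hA
  push_cast at h2v
  set t := A.valuation (2 : Qb) with ht
  have hv2 : ∀ z : ℤ, A.valuation (z : Qb) ≤ 1 := fun z => FA.Local.intCast_le_one z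
  have hunit : A.valuation (W.b₆ : Qb) = 1 :=
    FA.Local.natCast_eq_one_of_not_dvd Nat.prime_two (by exact_mod_cast h2v) hb6
  have he := eRoot_eq W hv0
  have he0 : e ≠ 0 := fun h0 => by
    rw [show eRoot W v = e from rfl, h0] at he
    rw [show (W.b₆ : Qb) = 0 by linear_combination he, map_zero] at hunit
    exact zero_ne_one hunit
  obtain ⟨k, hk⟩ := exists_zpow_of_mem_kur Nat.prime_two hA (mem_kur.mpr hfix) he0
  push_cast at hk
  have ht0 : t ≠ 0 := A.valuation.ne_zero_iff.mpr two_ne_zero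
  have h4 : A.valuation (4 : Qb) = t ^ (2 : ℤ) := by
    rw [show (4 : Qb) = 2 * 2 by norm_num, map_mul, zpow_two]
  obtain ⟨B, hB⟩ := hb2
  obtain ⟨C, hC⟩ := hb4
  rw [hB, hC] at he
  push_cast at he
  have hanti := zpow_right_strictAnti₀ (zero_lt_iff.mpr ht0) h2v
  have T1 : A.valuation (4 * e ^ 3) = t ^ (2 + 3 * k) := by
    rw [map_mul, map_pow, h4, hk, ← zpow_natCast (t ^ k), ← _root_.zpow_mul, ← zpow_add₀ ht0]
    norm_num [mul_comm]
  have T2 : A.valuation (4 * (B : Qb) * e ^ 2) ≤ t ^ (2 + 2 * k) := by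
    rw [map_mul, map_mul, map_pow, h4, hk, ← zpow_natCast (t ^ k), ← _root_.zpow_mul,
      zpow_add₀ ht0, show k * ((2 : ℕ) : ℤ) = 2 * k by push_cast; ring]
    exact mul_le_mul_left ((mul_le_mul_right (hv2 B) _).trans_eq (mul_one _)) _
  have T3 : A.valuation (2 * (2 * (C : Qb)) * e) ≤ t ^ (2 + k) := by
    rw [show (2 : Qb) * (2 * (C : Qb)) = 4 * C by ring, map_mul, map_mul, h4, hk, zpow_add₀ ht0]
    exact mul_le_mul_left ((mul_le_mul_right (hv2 C) _).trans_eq (mul_one _)) _
  rcases le_or_gt 0 k with hk0 | hk0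
  · have hlt : ∀ j : ℤ, 2 ≤ j → t ^ j < 1 := fun j hj => by
      simpa using hanti (show (0 : ℤ) < j by omega)
    have : A.valuation (4 * e ^ 3 + 4 * (B : Qb) * e ^ 2 + 2 * (2 * (C : Qb)) * e) < 1 :=
      A.valuation.map_add_lt (A.valuation.map_add_lt (T1 ▸ hlt _ (by omega))
        (T2.trans_lt (hlt _ (by omega)))) (T3.trans_lt (hlt _ (by omega)))
    rw [show 4 * e ^ 3 + 4 * (B : Qb) * e ^ 2 + 2 * (2 * (C : Qb)) * e = -(W.b₆ : Qb) by
      linear_combination he, Valuation.map_neg, hunit] at this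
    exact lt_irrefl _ this
  · have hlt : ∀ j : ℤ, 2 + 3 * k < j → t ^ j < t ^ (2 + 3 * k) := fun j hj => hanti hj
    have : A.valuation (4 * (B : Qb) * e ^ 2 + 2 * (2 * (C : Qb)) * e + (W.b₆ : Qb)) <
        t ^ (2 + 3 * k) := by
      refine A.valuation.map_add_lt (A.valuation.map_add_lt (T2.trans_lt (hlt _ (by omega)))
        (T3.trans_lt (hlt _ (by omega)))) ?_
      rw [hunit, ← zpow_zero t]
      exact hlt _ (by omega)
    rw [show 4 * (B : Qb) * e ^ 2 + 2 * (2 * (C : Qb)) * e + (W.b₆ : Qb) = -(4 * e ^ 3) by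
      linear_combination he, Valuation.map_neg, T1] at this
    exact lt_irrefl _ this

/-- Finite flatness does not depend on the coefficient field. -/
lemma isFlatRes_repTwo (k : Type) [Field k] [Fintype k] [CharP k 2] {r0 : GQ →* M2 (ZMod 2)}
    {A : ValuationSubring Qb} (h : IsFlatRes A r0) : IsFlatRes A (repTwo k r0) := by
  classical
  let _ := ZMod.algebra k 2
  let b := (Module.finBasis (ZMod 2) k).equivFun
  refine HasModel.of_injective (HasModel.pi (ι := Fin (Module.finrank (ZMod 2) k)) fun _ => h)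
    { toFun := fun x i j => b (x j) i
      map_zero' := by funext i j; simp
      map_add' := fun x y => by funext i j; simp } (fun x y hxy => ?_) fun σ _ x => ?_
  · funext j
    exact b.injective (funext fun i => congrFun (congrFun hxy i) j)
  · funext i j
    show b ((repTwo k r0 σ *ᵥ x) j) i = (r0 σ *ᵥ fun l => b (x l) i) j
    have hmul : ∀ (z : ZMod 2) (y : k), b (ZMod.castHom (dvd_refl 2) k z * y) = z • b y :=
      fun z y => by
        rw [show ZMod.castHom (dvd_refl 2) k z * y = z • y by rw [Algebra.smul_def]; rfl, map_smul]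
    simp only [repTwo_apply, mulVec, dotProduct, Matrix.map_apply, map_sum, hmul,
      Finset.sum_apply, Pi.smul_apply, smul_eq_mul]

variable (W)

omit [(ratCurve W).IsElliptic] in
/-- The residual setting of a curve as produced by the `3`-switch. -/
theorem exists_setting (k : Type) [Field k] [Fintype k] [CharP k 2] (hneg : W.Δ < 0)
    (hss : W.IsSemistableModel) (h2 : W.IsGoodPrimeFor 2) (hap : W.apOfModel 2 = 0)
    (hirr : W.ModRepIsIrreducible 2)
    (hodd : ∀ q : ℕ, q.Prime → (q : ℤ) ∣ W.Δ → Odd (padicValInt q W.Δ))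
    (hne3 : ∃ q : ℕ, q.Prime ∧ (q : ℤ) ∣ W.Δ ∧ q ≠ 3) [(ratCurve W).IsElliptic] :
    ∃ S : Setting k, S.r0 = curveRep 2 W ∧ S.Q.D = FA.Theta.badProd W := by
  obtain ⟨T, hΔ, -⟩ := FA.Theta.exists_datum hneg hss h2 hap hodd hne3
  let D := FA.Theta.badProd W
  have hD8 : D % 8 = 3 := T.mod8
  have hgt : 3 < D := T.gt
  let Q := Quad.ofNat D T.sqfree (by omega)
  have hdvd : ∀ l : ℕ, l.Prime → (l ∣ D ↔ (l : ℤ) ∣ W.Δ) := fun l hl => by
    constructor
    · intro h
      obtain ⟨q, hq, hlq⟩ := (Nat.Prime.prime hl).exists_mem_finset_dvd h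
      rw [(Nat.prime_dvd_prime_iff_eq hl (Nat.prime_of_mem_primeFactors hq)).mp hlq]
      exact Int.natCast_dvd.mpr (Nat.dvd_of_mem_primeFactors hq)
    · exact fun h => Finset.dvd_prod_of_mem _
        (Nat.mem_primeFactors.mpr ⟨hl, Int.natCast_dvd.mp h, Int.natAbs_ne_zero.mpr hneg.ne⟩)
  have hsgn : ∀ σ, sgn (curveRep 2 W σ) = 0 ↔ σ ∈ Q.H := fun σ =>
    sgn_curveRep_iff hΔ hneg.ne Q.sq σ
  obtain ⟨σ₀, hσ₀⟩ := Q.exists_not_mem
  have hT : IsTransp (curveRep 2 W σ₀) := by
    rw [← (sgn_facts (det_curveRep_two_ne W σ₀)).1]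
    exact (sgn_facts (det_curveRep_two_ne W σ₀)).2.1.resolve_left fun h => hσ₀ ((hsgn σ₀).mp h)
  exact ⟨{
    r0 := curveRep 2 W
    ker_open := isOpen_ker_curveRep W
    surj := fun M hM => surj_curveRep hirr hT hM
    Q := Q
    odd := by show ¬ 2 ∣ D; omega
    one_lt := by show 1 < D; omega
    sgn_iff := hsgn
    unr := fun l hl hl2 hlD A hA σ hσ =>
      curveRep_unramified W hl hl2 (fun h => hlD ((hdvd l hl).mpr h)) hA hσ
    unip := fun l hl hlD A hA σ hσ => by
      rw [pow_two]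
      refine curveRep_unipotent W hneg.ne hss hl (fun e => ?_) ((hdvd l hl).mp hlD) hA hσ
      subst e
      exact h2 ((hdvd 2 hl).mp hlD)
    ss2 := fun A hA => exists_trace_one hap h2 hA
    flat2 := fun A hA => isFlatRes_repTwo k (isFlatRes_curveRep W hA h2) }, rfl, rfl⟩

end FA.Two
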