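import Fermat.Agent.Two.LevelDown
import Fermat.Agent.Two.CurveResidual
import Fermat.Agent.HeckeH1.OldPiece
import Fermat.Agent.HeckeH1.NonEisenstein
import Fermat.Agent.S29

/-!
# The residual system at `2` at level `D`

The traces of the `2`-torsion of a curve produced by the `3`-switch are the values of a character
of the Hecke algebra of `Γ₀(D)`, `D` the product of the bad primes, and this character is not
Eisenstein.
-/

set_option autoImplicit false

noncomputable section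

namespace FA.Two

open WeierstrassCurve IsLocalRing FA.HeckeH1 FA.Two.Level4 FA.Frob
open FA.RT (curveRep)
open FA.Theta (badProd)

local notation "GQ" => AlgebraicClosure ℚ ≃ₐ[ℚ] AlgebraicClosure ℚ
local notation "M2" k:max => Matrix (Fin 2) (Fin 2) k

lemma exists_prime_three_mod_four : ∀ n : ℕ, n % 4 = 3 → ∃ p, p.Prime ∧ p ∣ n ∧ p % 4 = 3 := by
  intro n
  induction n using Nat.recOnMul with
  | zero => simp
  | one => simp
  | prime p hp => exact fun h => ⟨p, hp, dvd_rfl, h⟩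
  | mul a b iha ihb =>
    intro h
    rw [Nat.mul_mod] at h
    have : a % 4 < 4 := Nat.mod_lt _ (by norm_num)
    have : b % 4 < 4 := Nat.mod_lt _ (by norm_num)
    rcases (show a % 4 = 3 ∨ b % 4 = 3 by
      interval_cases (a % 4) <;> interval_cases (b % 4) <;> omega) with e | e
    · obtain ⟨p, hp, hd, h3⟩ := iha e
      exact ⟨p, hp, hd.mul_right b, h3⟩
    · obtain ⟨p, hp, hd, h3⟩ := ihb e
      exact ⟨p, hp, hd.mul_left a, h3⟩

lemma odd_cast_eq_one {k : Type*} [CommRing k] [CharP k 2] {l : ℕ} (hl : Odd l) : (l : k) = 1 := by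
  obtain ⟨j, rfl⟩ := hl
  rw [Nat.cast_add, Nat.cast_mul, Nat.cast_two, CharTwo.two_eq_zero, zero_mul, zero_add,
    Nat.cast_one]

lemma commutator_facts :
    ∀ M : M2 (ZMod 2), M * (!![1, 1; 0, 1] * !![0, 1; 1, 0]) = !![0, 1; 1, 0] * !![1, 1; 0, 1] →
      M.trace = 1 ∧ M * M * M = 1 ∧ (M * M).trace = 1 ∧ M ≠ 1 := by decide

/-- Primes congruent to `1` modulo `L` at which the `2`-torsion has trace one. -/
theorem exists_prime_trace_one {W : WeierstrassCurve ℤ} [(ratCurve W).IsElliptic]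
    (hneg : W.Δ < 0) (hss : W.IsSemistableModel) (h2 : W.IsGoodPrimeFor 2)
    (hap : W.apOfModel 2 = 0) (hirr : W.ModRepIsIrreducible 2)
    (hodd : ∀ q : ℕ, q.Prime → (q : ℤ) ∣ W.Δ → Odd (padicValInt q W.Δ))
    (hne3 : ∃ q : ℕ, q.Prime ∧ (q : ℤ) ∣ W.Δ ∧ q ≠ 3) {L : ℕ} (hL : 0 < L) (S : Finset ℕ) :
    ∃ l : ℕ, l.Prime ∧ l ∉ S ∧ ¬ l ∣ L ∧ (l : ZMod L) = 1 ∧ (W.apOfModel l : ZMod 2) = 1 := by
  classical
  obtain ⟨St, hr0, -⟩ := exists_setting W (ZMod 2) hneg hss h2 hap hirr hodd hne3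
  obtain ⟨a, ha⟩ := St.surj !![0, 1; 1, 0] (by decide)
  obtain ⟨b, hb⟩ := St.surj !![1, 1; 0, 1] (by decide)
  rw [hr0] at ha hb
  let r := curveRep 2 W
  let U := fixMu L
  let s : GQ := a * b * a⁻¹ * b⁻¹
  have hsU : s ∈ U := commutator_mem_fixMu hL a b
  obtain ⟨htr, hcube, hsq, hne⟩ := commutator_facts (r s) (by
    rw [← ha, ← hb, ← map_mul, ← map_mul, ← map_mul]
    congr 1
    simp only [s]
    group)
  let N : Subgroup GQ := r.ker ⊓ U
  have hN : IsOpen (N : Set GQ) := (FA.RT.isOpen_ker_curveRep W).inter (isOpen_fixMu hL)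
  obtain ⟨l, A, σ, n, hl, hlS, hA, hσ, hk, j, hj⟩ :=
    FA.Density.exists_frobenius_generating N hN s
      (S ∪ L.primeFactors ∪ (2 * W.Δ.natAbs).primeFactors)
  simp only [Finset.mem_union, not_or, Nat.mem_primeFactors] at hlS
  obtain ⟨⟨hlS, hlL⟩, hlΔ⟩ := hlS
  have hΔ0 : 2 * W.Δ.natAbs ≠ 0 := mul_ne_zero two_ne_zero (Int.natAbs_ne_zero.mpr hneg.ne)
  have hlL' : ¬ l ∣ L := fun h => hlL ⟨hl, h, hL.ne'⟩
  have hl2 : l ≠ 2 := fun h => hlΔ ⟨hl, by rw [h]; exact dvd_mul_right 2 _, hΔ0⟩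
  have hgood : W.IsGoodPrimeFor l := fun h =>
    hlΔ ⟨hl, (Int.natCast_dvd.mp h).mul_left 2, hΔ0⟩
  have hσU : σ ∈ U := by
    have := U.mul_mem (U.pow_mem hsU j) hj.2
    rwa [mul_inv_cancel_left] at this
  refine ⟨l, hl, hlS, hlL', ?_, ?_⟩
  · rw [← Nat.cast_one, ZMod.natCast_eq_natCast_iff]
    exact modEq_one_of_frobenius hL hl hlL' hA hσ hσU
  · rw [← FA.RT.trace_curveRep W hl hgood hl2.symm hA hσ]
    have hσr : r σ = r s ^ j := by
      rw [show σ = s ^ j * ((s ^ j)⁻¹ * σ) by group, map_mul, show r ((s ^ j)⁻¹ * σ) = 1 from hj.1,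
        mul_one, map_pow]
    have hsr : r s = r σ ^ n := by
      rw [show s = σ ^ n * ((σ ^ n)⁻¹ * s) by group, map_mul, show r ((σ ^ n)⁻¹ * s) = 1 from hk.1,
        mul_one, map_pow]
    have h3 : r s ^ 3 = 1 := by rw [pow_succ, pow_two, hcube]
    show (r σ).trace = 1
    rw [hσr, pow_eq_pow_mod j h3]
    rcases (show j % 3 = 0 ∨ j % 3 = 1 ∨ j % 3 = 2 by omega) with e | e | e <;> rw [e]
    · exfalso
      refine hne ?_
      rw [hsr, hσr, pow_eq_pow_mod j h3, e, pow_zero, one_pow]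
    · rw [pow_one]; exact htr
    · rw [pow_two]; exact hsq

section character

variable {O : Type} [CommRing O] {k : Type} [Field k] [Algebra O k] {M : ℕ} [NeZero M]
  {S : Finset Nat.Primes}

omit [NeZero M] in
/-- An eigenclass over a residue field gives a character of the Hecke algebra. -/
theorem exists_character {y : Hom1 (GamH M (⊤ : Subgroup (ZMod M)ˣ)) k} (hy : y ≠ 0)
    (z : Hom1 (GamH M (⊤ : Subgroup (ZMod M)ˣ)) O)
    (hz : (algebraMap O k).toAddMonoidHom.comp z = y) (a : Nat.Primes → k)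
    (ha : ∀ l ∉ S, (Tc M ⊤ (l : ℕ)).act y = a l • y) :
    ∃ χ : heckeAlg M ⊤ O S →ₐ[O] k, ∀ l ∉ S, χ (Tgen M ⊤ O S l) = a l := by
  classical
  let red : Hom1 (GamH M (⊤ : Subgroup (ZMod M)ˣ)) O → Hom1 (GamH M (⊤ : Subgroup (ZMod M)ˣ)) k :=
    fun z => (algebraMap O k).toAddMonoidHom.comp z
  have hred : ∀ (c : O) z, red (c • z) = algebraMap O k c • red z := fun c z =>
    AddMonoidHom.ext fun γ => map_mul (algebraMap O k) c (z γ)
  let P : Module.End O (Hom1 (GamH M (⊤ : Subgroup (ZMod M)ˣ)) O) → k → Prop := fun t c =>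
    ∀ z c', red z = c' • y → red (t z) = (c * c') • y
  have huniq : ∀ t c c', P t c → P t c' → c = c' := fun t c c' h h' => by
    have e := (h z 1 (hz.trans (one_smul k y).symm)).symm.trans
      (h' z 1 (hz.trans (one_smul k y).symm))
    rw [mul_one, mul_one] at e
    by_contra hne
    have e' : (c - c') • y = 0 := by rw [sub_smul, e, sub_self]
    exact hy ((inv_smul_smul₀ (sub_ne_zero.2 hne) y).symm.trans (by rw [e', smul_zero]))
  have hgen : ∀ l, P (Top1 M ⊤ O S l) (if l ∈ S then 0 else a l) := fun l z c' hzc => by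
    split_ifs with h
    · rw [zero_mul, zero_smul, Top1, if_pos h]
      exact AddMonoidHom.comp_zero _
    · rw [Top1, if_neg h]
      show red ((Tc M ⊤ (l : ℕ)).act z) = _
      rw [show red ((Tc M ⊤ (l : ℕ)).act z) = (Tc M ⊤ (l : ℕ)).act (red z) from
        (Corr.act_comp_hom _ _ _).symm, hzc, Corr.act_smul, ha l h, smul_smul, mul_comm]
  have hC : ∀ c : O, P (algebraMap O _ c) (algebraMap O k c) := fun c z c' hzc => by
    show red (c • z) = _
    rw [hred, hzc, smul_smul]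
  have hadd : ∀ t t' c d, P t c → P t' d → P (t + t') (c + d) := fun t t' c d h h' z c' hzc => by
    show red (t z + t' z) = _
    rw [show red (t z + t' z) = red (t z) + red (t' z) from
      AddMonoidHom.comp_add _ _ _, h z c' hzc, h' z c' hzc, add_mul, add_smul]
  have hmul : ∀ t t' c d, P t c → P t' d → P (t * t') (c * d) := fun t t' c d h h' z c' hzc => by
    show red (t (t' z)) = _
    rw [h _ _ (h' z c' hzc), mul_assoc]
  have hex : ∀ t : heckeAlg M ⊤ O S, ∃ c, P t.1 c := fun t => by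
    obtain ⟨t, ht⟩ := t
    induction ht using Algebra.adjoin_induction with
    | mem x hx => obtain ⟨l, rfl⟩ := hx; exact ⟨_, hgen l⟩
    | algebraMap c => exact ⟨_, hC c⟩
    | add x x' _ _ hx hx' =>
      obtain ⟨c, hc⟩ := hx; obtain ⟨d, hd⟩ := hx'; exact ⟨_, hadd _ _ _ _ hc hd⟩
    | mul x x' _ _ hx hx' =>
      obtain ⟨c, hc⟩ := hx; obtain ⟨d, hd⟩ := hx'; exact ⟨_, hmul _ _ _ _ hc hd⟩
  choose f hf using hex
  let χ : heckeAlg M ⊤ O S →ₐ[O] k :=
    { toFun := f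
      map_one' := huniq _ _ _ (hf 1) (fun z c' h => by rw [one_mul]; exact h)
      map_mul' := fun s t => huniq _ _ _ (hf (s * t)) (hmul _ _ _ _ (hf s) (hf t))
      map_zero' := huniq _ _ _ (hf 0) (fun z c' _ => by
        rw [zero_mul, zero_smul]; exact AddMonoidHom.comp_zero _)
      map_add' := fun s t => huniq _ _ _ (hf (s + t)) (hadd _ _ _ _ (hf s) (hf t))
      commutes' := fun c => huniq _ _ _ (hf (algebraMap O _ c)) (hC c) }
  refine ⟨χ, fun l hl => ?_⟩
  have h := huniq _ _ _ (hf (Tgen M ⊤ O S l)) (hgen l)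
  rw [if_neg hl] at h
  exact h

end character

/-- **The residual system at level `D`.** -/
theorem exists_residual_system {W : WeierstrassCurve ℤ} (hneg : W.Δ < 0)
    (hss : W.IsSemistableModel) (h2 : W.IsGoodPrimeFor 2) (hap : W.apOfModel 2 = 0)
    (hirr : W.ModRepIsIrreducible 2)
    (hodd : ∀ q : ℕ, q.Prime → (q : ℤ) ∣ W.Δ → Odd (padicValInt q W.Δ))
    (hne3 : ∃ q : ℕ, q.Prime ∧ (q : ℤ) ∣ W.Δ ∧ q ≠ 3)
    (O : Type) [CommRing O] [IsDomain O] [IsLocalRing O] [CharZero O]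
    [CharP (ResidueField O) 2] (S : Finset Nat.Primes)
    (hS : ∀ l : Nat.Primes, (l : ℕ) ∣ 2 * badProd W → l ∈ S) [NeZero (badProd W)] :
    ∃ χ₀ : heckeAlg (badProd W) ⊤ O S →ₐ[O] ResidueField O,
      (∀ l ∉ S, χ₀ (Tgen (badProd W) ⊤ O S l) = (W.apOfModel l : ResidueField O)) ∧
      ∀ L : ℕ, L ≠ 0 → ∃ l : Nat.Primes, ¬ (l : ℕ) ∣ L ∧ ((l : ℕ) : ZMod L) = 1 ∧
        χ₀ (Tgen (badProd W) ⊤ O S l) ≠ ((l : ℕ) : ResidueField O) + 1 := by
  classical
  set D := badProd W with hD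
  obtain ⟨T, c, hc, hpred⟩ := FA.Theta.exists_congruent_datum hneg hss h2 hap hodd hne3
    fun g hg k _ _ φ => (Fermat.Agent.S29.result hg Nat.prime_two φ).imp fun ρ h => h.1
  have hD8 : D % 8 = 3 := T.mod8
  obtain ⟨ε, F, G, hε, hG, hne, hcong, hshift, hfricke⟩ := T.iq.exists_signed_form c hc
  obtain ⟨x, hx, hinv, heig⟩ := exists_class_mod_two hε (T.iq.predicted c) F G hG hne hcong hshift
    hfricke
  let k := ResidueField O
  let ι : ZMod 2 →+* k := ZMod.castHom (dvd_refl 2) k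
  have hι : Function.Injective ι := ι.injective
  let xk : Par (GamH (4 * D) (⊤ : Subgroup (ZMod (4 * D))ˣ)) k :=
    ⟨ι.toAddMonoidHom.comp x.1, Par_comp _ x.2⟩
  have hxk : xk ≠ 0 := fun h => hx (Subtype.ext (AddMonoidHom.ext fun γ =>
    hι ((DFunLike.congr_fun (congrArg Subtype.val h) γ).trans (map_zero ι).symm)))
  obtain ⟨l₀, hl₀, hl₀N, hdeg⟩ := T.iq.exists_hasDegOne c hc
  obtain ⟨r, hr, hrD, hr4⟩ := exists_prime_three_mod_four D (by omega)
  have : Fact r.Prime := ⟨hr⟩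
  have hneat : IsNeatOn O (GamUp D 2 (⊤ : Subgroup (ZMod D)ˣ)) := by
    refine isNeatOn_of_trace (Or.inr fun γ hγ => trace_ne_zero_of_prime hr4 ?_) (Or.inl ?_)
    · exact ((Int.natCast_dvd_natCast.2 hrD).trans ⟨2, mul_comm _ _⟩).trans (mem_G2.1 hγ)
    · rw [← IsLocalRing.residue_ne_zero_iff_isUnit]
      rw [map_ofNat, show (3 : k) = ((3 : ℕ) : k) by norm_num, odd_cast_eq_one (by decide)]
      exact one_ne_zero
  obtain ⟨z, hz0, hzT⟩ := exists_class_down (residue O) residue_surjective hneat (by omega) xk hxk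
    (fun γ => ⟨congrArg ι (hinv γ).1, congrArg ι (hinv γ).2⟩) (T.iq.predicted c) (fun l => by
      rw [show xk.1 = ι.toAddMonoidHom.comp x.1 from rfl, Corr.act_comp_hom, heig l]
      refine AddMonoidHom.ext fun γ => ?_
      show ι ((T.iq.predicted c l.1 : ZMod 2) * x.1 γ) = (T.iq.predicted c l.1 : k) * ι (x.1 γ)
      rw [map_mul, map_intCast])
    ⟨l₀, hl₀, hl₀N⟩ (by
      show Odd (T.iq.predicted c l₀)
      simp only [FA.Theta.IQ.predicted, if_pos hdeg]
      exact odd_one)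
  have h4 : ∀ l : Nat.Primes, l ∉ S → ¬ (l : ℕ) ∣ 4 * D := fun l hl h => hl (hS l (by
    rcases l.2.dvd_mul.1 h with h | h
    · exact (l.2.dvd_of_dvd_pow (show (l : ℕ) ∣ 2 ^ 2 from h)).mul_right D
    · exact h.mul_left 2))
  obtain ⟨χ, hχ⟩ := exists_character (S := S) hz0 z rfl (fun l => (W.apOfModel l : k))
    fun l hl => by
      show (Tc D ⊤ (l : ℕ)).act ((residue O).toAddMonoidHom.comp z) =
        (W.apOfModel l : k) • (residue O).toAddMonoidHom.comp z
      rw [Corr.act_comp_hom, hzT ⟨l, l.2, h4 l hl⟩]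
      have h := congrArg ι (hpred l l.2 (h4 l hl))
      rw [map_intCast, map_intCast] at h
      rw [h]
  refine ⟨χ, hχ, fun L hL => ?_⟩
  have : (ratCurve W).IsElliptic := FA.Frob.ratCurve_isElliptic_of_Δ hneg.ne
  obtain ⟨l, hl, hlS, hlL, hl1, hla⟩ := exists_prime_trace_one hneg hss h2 hap hirr hodd hne3
    (Nat.pos_of_ne_zero hL) (S.image Subtype.val)
  have hlS' : (⟨l, hl⟩ : Nat.Primes) ∉ S := fun h => hlS (Finset.mem_image.2 ⟨_, h, rfl⟩)
  refine ⟨⟨l, hl⟩, hlL, hl1, ?_⟩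
  have hodd' : Odd l := hl.odd_of_ne_two fun e => hlS'
    (hS _ (by show l ∣ _; rw [e]; exact dvd_mul_right 2 _))
  have hla' := congrArg ι hla
  rw [map_intCast, map_one] at hla'
  rw [hχ _ hlS', odd_cast_eq_one hodd', CharTwo.add_self_eq_zero]
  show (W.apOfModel l : k) ≠ 0
  rw [hla']
  exact one_ne_zero

end FA.Two
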