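import Fermat.Agent.Two.CurvePoint
import Fermat.Agent.Two.Bound
import Fermat.Agent.Two.ResidualLevel
import Fermat.Agent.Two.DepthData

/-!
# The Hecke side data of a curve at `p = 2`

For a semistable curve produced by the `3`-switch: the residual setting with a refinement of given
depth, auxiliary primes and the bound on classes, the base of levels `D ∏ q` with the residual
system `a_ℓ` modulo `2`, and Taylor-Wiles data over it at every depth.
-/

set_option autoImplicit false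
set_option linter.unusedSectionVars false
set_option linter.style.haveILetI false
set_option synthInstance.maxHeartbeats 400000
set_option maxHeartbeats 1000000

noncomputable section

open IsLocalRing Matrix WeierstrassCurve FA.EC FA.Frob FA.Deform FA.LocalDef FA.HeckeH1
open scoped MatrixGroups

namespace FA.Two

open FA.RT (curveRep)
open FA.RT.Tate
open FA.Theta (badProd)

local notation "Qb" => AlgebraicClosure ℚ
local notation "GQ" => AlgebraicClosure ℚ ≃ₐ[ℚ] AlgebraicClosure ℚ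
local notation "M2" k:max => Matrix (Fin 2) (Fin 2) k

local instance : Fact (Nat.Prime 2) := ⟨Nat.prime_two⟩

/-- The curves produced by the `3`-switch. -/
structure IsSwitchCurve (W : WeierstrassCurve ℤ) : Prop where
  neg : W.Δ < 0
  ss : W.IsSemistableModel
  good : W.IsGoodPrimeFor 2
  ap : W.apOfModel 2 = 0
  irr : W.ModRepIsIrreducible 2
  odd : ∀ q : ℕ, q.Prime → (q : ℤ) ∣ W.Δ → Odd (padicValInt q W.Δ)
  ne3 : ∃ q : ℕ, q.Prime ∧ (q : ℤ) ∣ W.Δ ∧ q ≠ 3

theorem dvd_badProd_iff {W : WeierstrassCurve ℤ} (hΔ : W.Δ ≠ 0) {q : ℕ} (hq : q.Prime) :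
    q ∣ badProd W ↔ (q : ℤ) ∣ W.Δ := by
  constructor
  · intro h
    obtain ⟨s, hs, hqs⟩ := (Nat.Prime.prime hq).exists_mem_finset_dvd h
    rw [(Nat.prime_dvd_prime_iff_eq hq (Nat.prime_of_mem_primeFactors hs)).mp hqs]
    exact Int.natCast_dvd.mpr (Nat.dvd_of_mem_primeFactors hs)
  · exact fun h => Finset.dvd_prod_of_mem _
      (Nat.mem_primeFactors.mpr ⟨hq, Int.natCast_dvd.mp h, Int.natAbs_ne_zero.mpr hΔ⟩)

variable (W : WeierstrassCurve ℤ) [(ratCurve W).IsElliptic] (O : Type) [CommRing O] [IsDomain O]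
  [IsDiscreteValuationRing O] [IsAdicComplete (maximalIdeal O) O] [CharZero O]
  [CharP (ResidueField O) 2] [Fintype (ResidueField O)]

/-- The setting of a curve, a refinement of depth `N`, auxiliary primes and the bound on classes
at Taylor-Wiles primes of every depth. -/
structure CurveBase (N : ℕ) (B : TateBasis 2 W) (avoid : Finset ℕ) where
  /-- the setting -/
  S0 : Setting (ResidueField O)
  r0_eq : S0.r0 = curveRep 2 W
  D_eq : S0.Q.D = badProd W
  /-- the refinement -/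
  R : Setting.Refine S0
  R_n : R.n = N
  R_ρ : ∀ σ i j, (R.ρ σ i j).val = (PadicInt.toZModPow (N + 1) (B.rep σ i j)).val
  /-- the auxiliary primes -/
  Q0 : Finset ℕ
  /-- the number of Taylor-Wiles primes -/
  r : ℕ
  aux : S0.IsAuxSet avoid Q0
  fine : R.IsFine Q0
  card : r + 1 = (badProd W).primeFactors.card + Q0.card
  tangent : ∀ n : ℕ, ∃ qv : Fin r → ℕ, Function.Injective qv ∧
    (∀ i, (qv i).Prime ∧ qv i ≠ 2 ∧ ¬ qv i ∣ S0.Q.D ∧ qv i ∉ Q0 ∧ qv i ∉ avoid ∧
      2 ^ n ∣ qv i - 1 ∧ ∀ A : ValuationSubring Qb, A.LiesOverPrime (qv i) → ∀ φ : GQ,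
        A.IsFrobeniusAt φ (qv i) → (S0.r0 φ).trace = 1) ∧
    ∀ (V : Type) [AddCommGroup V] [Module (ResidueField O) V]
      (κ : V →ₗ[ResidueField O] (GQ → M2 (ResidueField O))),
      (∀ t, S0.IsClass Q0 (Set.range qv) (κ t)) →
      (∀ t X, (∀ g, κ t g = S0.act g X - X) → t = 0) →
      FiniteDimensional (ResidueField O) V ∧ Module.finrank (ResidueField O) V + Q0.card ≤ 2 * r

/-- **The setting of a curve exists.** -/
theorem exists_curveBase (hW : IsSwitchCurve W) (N : ℕ) (B : TateBasis 2 W) (avoid : Finset ℕ) :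
    Nonempty (CurveBase W O N B avoid) := by
  obtain ⟨S0, hr0, hD⟩ := exists_setting W (ResidueField O) hW.neg hW.ss hW.good hW.ap hW.irr
    hW.odd hW.ne3
  obtain ⟨R, hn, hρ⟩ := exists_refine S0 hr0 hD hW.neg.ne hW.ss hW.good B N
  obtain ⟨Q0, r, h1, h2, h3, h4⟩ := S0.exists_auxiliary R avoid
  exact ⟨⟨S0, hr0, hD, R, hn, hρ, Q0, r, h1, h2, hD ▸ h3, h4⟩⟩

namespace CurveBase

variable {W O} {N : ℕ} {B : TateBasis 2 W} {avoid : Finset ℕ} (C : CurveBase W O N B avoid)

/-- The residual representation. -/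
abbrev rb : GQ →* M2 (ResidueField O) := repTwo (ResidueField O) C.S0.r0

theorem rb_eq : C.rb = repTwo (ResidueField O) (curveRep 2 W) := by rw [rb, C.r0_eq]

/-- The omitted primes. -/
def omit' : Finset Nat.Primes :=
  ((2 * badProd W).primeFactors ∪ C.Q0).subtype Nat.Prime

theorem mem_omit' {ℓ : Nat.Primes} :
    ℓ ∈ C.omit' ↔ (ℓ : ℕ) ∣ 2 * badProd W ∨ (ℓ : ℕ) ∈ C.Q0 := by
  have hne : 2 * badProd W ≠ 0 := mul_ne_zero two_ne_zero
    (Finset.prod_pos fun q hq => (Nat.prime_of_mem_primeFactors hq).pos).ne'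
  simp only [omit']
  refine Finset.mem_subtype.trans ?_
  rw [Finset.mem_union, Nat.mem_primeFactors]
  exact or_congr_left ⟨fun h => h.2.1, fun h => ⟨ℓ.2, h, hne⟩⟩

theorem trace_one_of_frob {ℓ : ℕ} (hℓ : ℓ.Prime) (hl2 : ℓ ≠ 2) (hΔ : W.Δ ≠ 0)
    (hD : ¬ ℓ ∣ badProd W) {A : ValuationSubring Qb} (hA : A.LiesOverPrime ℓ) {σ : GQ}
    (hσ : A.IsFrobeniusAt σ ℓ) : (C.S0.r0 σ).trace = (W.apOfModel ℓ : ZMod 2) := by
  rw [C.r0_eq]
  exact FA.RT.trace_curveRep W hℓ (fun h => hD ((dvd_badProd_iff hΔ hℓ).2 h)) hl2.symm hA hσ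

theorem isOpen_ker_rb : IsOpen (C.rb.ker : Set GQ) :=
  Subgroup.isOpen_mono (H₁ := C.S0.r0.ker)
    (fun σ hσ => MonoidHom.mem_ker.2 ((repTwo_eq_one_iff C.S0.r0 σ).2 hσ)) C.S0.ker_open

theorem det_rb (σ : GQ) : (C.rb σ).det = 1 := by
  show ((ZMod.castHom (dvd_refl 2) (ResidueField O)).mapMatrix (C.S0.r0 σ)).det = 1
  rw [← RingHom.map_det]
  rcases FA.Theta.zmod_two_cases (C.S0.r0 σ).det with h | h
  · exact absurd h (C.S0.det_ne σ)
  · rw [h, map_one]

/-- The residual representation is absolutely irreducible. -/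
theorem span_rb : Submodule.span (ResidueField O) (Set.range C.rb) = ⊤ := by
  set P := Submodule.span (ResidueField O) (Set.range C.rb)
  have mem : ∀ M : M2 (ZMod 2), M.det ≠ 0 →
      M.map (ZMod.castHom (dvd_refl 2) (ResidueField O)) ∈ P := fun M hM => by
    obtain ⟨σ, hσ⟩ := C.S0.surj M hM
    exact Submodule.subset_span ⟨σ, by rw [rb, repTwo_apply, hσ]⟩
  have h1 := mem 1 (by decide)
  have h12 := mem !![1, 1; 0, 1] (by decide)
  have h21 := mem !![1, 0; 1, 1] (by decide)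
  have h22 := mem !![0, 1; 1, 1] (by decide)
  refine eq_top_iff.2 fun X _ => ?_
  have e : X = X 0 0 • ((1 : M2 (ZMod 2)).map (ZMod.castHom (dvd_refl 2) (ResidueField O))) +
      (X 0 1 - X 0 0 - X 1 1) •
        ((!![1, 1; 0, 1] : M2 (ZMod 2)).map (ZMod.castHom (dvd_refl 2) (ResidueField O)) -
          (1 : M2 (ZMod 2)).map (ZMod.castHom (dvd_refl 2) (ResidueField O))) +
      (X 1 0 - X 0 0 - X 1 1) •
        ((!![1, 0; 1, 1] : M2 (ZMod 2)).map (ZMod.castHom (dvd_refl 2) (ResidueField O)) -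
          (1 : M2 (ZMod 2)).map (ZMod.castHom (dvd_refl 2) (ResidueField O))) +
      (X 0 0 + X 1 1) •
        ((!![0, 1; 1, 1] : M2 (ZMod 2)).map (ZMod.castHom (dvd_refl 2) (ResidueField O))) := by
    refine Matrix.ext fun i j => ?_
    fin_cases i <;> fin_cases j <;> simp <;> grind [two_eq_zero (k := ResidueField O)]
  rw [e]
  exact add_mem (add_mem (add_mem (P.smul_mem _ h1) (P.smul_mem _ (sub_mem h12 h1)))
    (P.smul_mem _ (sub_mem h21 h1))) (P.smul_mem _ h22)

variable (hW : IsSwitchCurve W)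

/-- **The base of the curve**: levels `D ∏ q`, the system `a_ℓ` modulo `2`. -/
def Bd : BaseData O ↥C.Q0 where
  D := badProd W
  neZeroD := ⟨(Finset.prod_pos fun q hq => (Nat.prime_of_mem_primeFactors hq).pos).ne'⟩
  qn x := x.1
  qn_prime x := (C.aux x.1 x.2).1
  qn_inj := Subtype.val_injective
  qn_not_dvd x h := (C.aux x.1 x.2).2.2.1 (by rw [C.D_eq]; exact h)
  S := C.omit'
  dvd_mem ℓ h := C.mem_omit'.2 (Or.inl (h.mul_left 2))
  qn_mem x := C.mem_omit'.2 (Or.inr x.2)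
  c ℓ := (W.apOfModel ℓ : ResidueField O)
  hasSys := by
    haveI : NeZero (badProd W) :=
      ⟨(Finset.prod_pos fun q hq => (Nat.prime_of_mem_primeFactors hq).pos).ne'⟩
    obtain ⟨χ, hχ, -⟩ := exists_residual_system hW.neg hW.ss hW.good hW.ap hW.irr hW.odd hW.ne3 O
      C.omit' fun l hl => C.mem_omit'.2 (Or.inl hl)
    exact ⟨χ, hχ⟩
  nonEis L hL := by
    obtain ⟨l, hl, hlS, hlL, hl1, hla⟩ := exists_prime_trace_one hW.neg hW.ss hW.good hW.ap hW.irr
      hW.odd hW.ne3 (Nat.pos_of_ne_zero hL) {2}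
    refine ⟨⟨l, hl⟩, hlL, hl1, ?_⟩
    have hodd' : Odd l := hl.odd_of_ne_two fun e => hlS (Finset.mem_singleton.2 e)
    have hla' := congrArg (ZMod.castHom (dvd_refl 2) (ResidueField O)) hla
    rw [map_intCast, map_one] at hla'
    show (W.apOfModel l : ResidueField O) ≠ (l : ResidueField O) + 1
    rw [hla', odd_cast_eq_one hodd', CharTwo.add_self_eq_zero]
    exact one_ne_zero

theorem Bd_D : (C.Bd hW).D = badProd W := rfl

theorem Bd_qn (x : ↥C.Q0) : (C.Bd hW).qn x = x.1 := rfl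

theorem Bd_c (ℓ : Nat.Primes) : (C.Bd hW).c ℓ = (W.apOfModel ℓ : ResidueField O) := rfl

theorem mem_Bd_S {ℓ : Nat.Primes} :
    ℓ ∈ (C.Bd hW).S ↔ (ℓ : ℕ) ∣ 2 * badProd W ∨ (ℓ : ℕ) ∈ C.Q0 := C.mem_omit'

theorem two_mem : (⟨2, Nat.prime_two⟩ : Nat.Primes) ∈ (C.Bd hW).S :=
  (C.mem_Bd_S hW).2 (Or.inl (dvd_mul_right _ _))

/-- The level `D` is odd. -/
theorem two_not_dvd_D : ¬ 2 ∣ (C.Bd hW).D := fun h =>
  hW.good ((dvd_badProd_iff hW.neg.ne Nat.prime_two).1 h)

theorem two_not_dvd_lev (K : Finset ↥C.Q0) : ¬ 2 ∣ (C.Bd hW).lev K := by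
  intro h
  rcases (C.Bd hW).dvd_lev Nat.prime_two h with h | ⟨x, -, hx⟩
  · exact C.two_not_dvd_D hW h
  · exact (C.aux x.1 x.2).2.1 hx.symm

/-- The residual representation has the traces of the system at Frobenius elements. -/
theorem residualFrob : (C.Bd hW).ResidualFrob C.rb := by
  intro ℓ hℓ A hA σ hσ
  rw [mem_Bd_S, not_or] at hℓ
  have hl2 : (ℓ : ℕ) ≠ 2 := fun e => hℓ.1 (by rw [e]; exact dvd_mul_right _ _)
  refine ⟨?_, ?_⟩
  · show ((C.S0.r0 σ).map (ZMod.castHom (dvd_refl 2) (ResidueField O))).trace = _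
    rw [← AddMonoidHom.map_trace (ZMod.castHom (dvd_refl 2) (ResidueField O)),
      C.trace_one_of_frob ℓ.2 hl2 hW.neg.ne (fun h => hℓ.1 (h.mul_left 2)) hA hσ, map_intCast]
    rfl
  · show ((ZMod.castHom (dvd_refl 2) (ResidueField O)).mapMatrix (C.S0.r0 σ)).det = _
    rw [← RingHom.map_det, odd_cast_eq_one (ℓ.2.odd_of_ne_two hl2)]
    rcases FA.Theta.zmod_two_cases (C.S0.r0 σ).det with h | h
    · exact absurd h (C.S0.det_ne σ)
    · rw [h, map_one]

include hW in
/-- The level `D` is neat: it has a prime congruent to `3` modulo `4`. -/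
theorem neat : IsNeatOn O (GamH (C.Bd hW).D ⊤) := by
  obtain ⟨T, -, -⟩ := FA.Theta.exists_datum hW.neg hW.ss hW.good hW.ap hW.odd hW.ne3
  have hD8 : badProd W % 8 = 3 := T.mod8
  obtain ⟨r₀, hr, hrD, hr4⟩ := exists_prime_three_mod_four (badProd W) (by omega)
  haveI : Fact r₀.Prime := ⟨hr⟩
  refine isNeatOn_of_trace (Or.inr fun γ hγ => trace_ne_zero_of_prime hr4 ?_) (Or.inl ?_)
  · rw [GamH_top] at hγ
    exact (Int.natCast_dvd_natCast.2 hrD).trans
      ((ZMod.intCast_zmod_eq_zero_iff_dvd _ _).1 (CongruenceSubgroup.Gamma0_mem.1 hγ))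
  · rw [← IsLocalRing.residue_ne_zero_iff_isUnit, map_ofNat,
      show (3 : ResidueField O) = ((3 : ℕ) : ResidueField O) by norm_num,
      odd_cast_eq_one (by decide)]
    exact one_ne_zero

/-- **Taylor-Wiles data of every depth**, keeping the bound on classes. -/
theorem exists_twData (hω : ∃ w : ResidueField O, w ^ 2 + w + 1 = 0) (n : ℕ) :
    ∃ T : (C.Bd hW).TWData C.r n,
      (∀ i, (residue O (T.α i)) ^ 2 + residue O (T.α i) + 1 = 0) ∧
      (∀ i (A : ValuationSubring Qb), A.LiesOverPrime (T.qv i) → ∀ φ : GQ,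
        A.IsFrobeniusAt φ (T.qv i) → (C.S0.r0 φ).trace = 1) ∧
      (∀ i, T.qv i ∉ avoid) ∧
      ∀ (V : Type) [AddCommGroup V] [Module (ResidueField O) V]
        (κ : V →ₗ[ResidueField O] (GQ → M2 (ResidueField O))),
        (∀ t, C.S0.IsClass C.Q0 (Set.range T.qv) (κ t)) →
        (∀ t X, (∀ g, κ t g = C.S0.act g X - X) → t = 0) →
        FiniteDimensional (ResidueField O) V ∧
          Module.finrank (ResidueField O) V + C.Q0.card ≤ 2 * C.r := by
  obtain ⟨qv, hinj, hq, hbound⟩ := C.tangent (n + 1)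
  obtain ⟨w, hw⟩ := hω
  obtain ⟨a, ha⟩ := residue_surjective w
  have hD : ∀ i, ¬ qv i ∣ badProd W := fun i => C.D_eq ▸ (hq i).2.2.1
  have hc : ∀ i, (W.apOfModel (qv i) : ResidueField O) = 1 := fun i => by
    obtain ⟨A, hA⟩ := FA.Deform.exists_liesOverPrime (hq i).1
    obtain ⟨φ, hφ⟩ := exists_isFrobeniusAt (hq i).1 hA
    have h := congrArg (ZMod.castHom (dvd_refl 2) (ResidueField O))
      ((C.trace_one_of_frob (hq i).1 (hq i).2.1 hW.neg.ne (hD i) hA hφ).symm.trans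
        ((hq i).2.2.2.2.2.2 A hA φ hφ))
    rwa [map_intCast, map_one] at h
  refine ⟨{
    qv := qv
    prime := fun i => (hq i).1
    inj := hinj
    not_dvd := hD
    ne_qn := fun i x e => (hq i).2.2.2.1 (e ▸ x.2)
    notMem_S := fun i h => by
      rcases (C.mem_Bd_S hW).1 h with h | h
      · rcases (hq i).1.dvd_mul.1 h with h | h
        · exact (hq i).2.1 ((Nat.prime_dvd_prime_iff_eq (hq i).1 Nat.prime_two).1 h)
        · exact hD i h
      · exact (hq i).2.2.2.1 h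
    dvd := fun i => (hq i).2.2.2.2.2.1
    α := fun _ => a
    root := fun i => by
      show residue O a ^ 2 - (W.apOfModel (qv i) : ResidueField O) * residue O a + 1 = 0
      rw [ha, hc, one_mul, CharTwo.sub_eq_add]
      exact hw
    simple := fun i => by
      show (W.apOfModel (qv i) : ResidueField O) ≠ 0
      rw [hc]
      exact one_ne_zero
    neat := C.neat hW }, fun _ => by rw [ha]; exact hw, fun i => (hq i).2.2.2.2.2.2,
    fun i => (hq i).2.2.2.2.1, hbound⟩

end CurveBase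

end FA.Two

end
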