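import Fermat.Agent.HeckeH1.Eigenvector
import Fermat.Agent.HeckeH1.OldPiece
import Fermat.Agent.Root.ModularEnd

/-!
# Modularity from approximate eigenfunctionals

A curve whose system of eigenvalues is attained modulo every power of the maximal ideal by
functionals on the parabolic classes of one level is modular of that level.
-/

set_option autoImplicit false
set_option linter.style.haveILetI false
set_option linter.unusedSectionVars false

noncomputable section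

namespace FA.Two

open IsLocalRing FA.HeckeH1
open scoped MatrixGroups

/-- **Modularity from approximations**, each right at all operators below its depth. -/
theorem isModularModelOfLevel_of_bounded_approx (W : WeierstrassCurve ℤ) (hΔ : W.Δ ≠ 0) (D : ℕ) [NeZero D]
    {O : Type} [CommRing O] [IsDomain O] [IsDiscreteValuationRing O]
    [IsAdicComplete (maximalIdeal O) O] [CharZero O] (S : Finset Nat.Primes)
    (_hS : ∀ ℓ : Nat.Primes, (ℓ : ℕ) ∣ D → ℓ ∈ S)
    (h : ∀ N : ℕ, ∃ ψ : Hom1 (GamH D ⊤) O →ₗ[O] O ⧸ (maximalIdeal O) ^ N,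
      (∃ z ∈ Par (GamH D ⊤) O, ψ z = 1) ∧
      ∀ ℓ : Nat.Primes, ℓ ∉ S → (ℓ : ℕ) ≤ N → ∀ z ∈ Par (GamH D ⊤) O,
        ψ ((Tc D ⊤ (ℓ : ℕ)).act z) =
          Ideal.Quotient.mk ((maximalIdeal O) ^ N) ((W.apOfModel ℓ : ℤ) : O) * ψ z) :
    W.IsModularModelOfLevel D := by
  classical
  let G : Type := {ℓ : Nat.Primes // ℓ ∉ S}
  let V : Submodule O (Hom1 (GamH D ⊤) O) := Par (GamH D ⊤) O
  let op : MvPolynomial G O →ₐ[O] Module.End O (Hom1 (GamH D ⊤) O) :=
    (heckeAlg D ⊤ O S).val.comp (MvPolynomial.aeval fun ℓ : G => Tgen D ⊤ O S ℓ.1)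
  let f : MvPolynomial G O →ₐ[O] O :=
    MvPolynomial.aeval fun ℓ : G => ((W.apOfModel ℓ.1 : ℤ) : O)
  have hopX : ∀ (ℓ : G) (z : Hom1 (GamH D ⊤) O),
      op (MvPolynomial.X ℓ) z = (Tc D ⊤ (ℓ.1 : ℕ)).act z := fun ℓ z => by
    simp only [op, AlgHom.comp_apply, MvPolynomial.aeval_X, Subalgebra.coe_val]
    exact Tgen_apply D ⊤ O S ℓ.2 z
  have hV : ∀ g, ∀ v ∈ V, op g v ∈ V := by
    intro g
    induction g using MvPolynomial.induction_on with
    | C r =>
      intro v hv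
      rw [← MvPolynomial.algebraMap_eq, AlgHom.commutes, Module.algebraMap_end_apply]
      exact V.smul_mem r hv
    | add g g' hg hg' =>
      intro v hv
      rw [map_add, LinearMap.add_apply]
      exact V.add_mem (hg v hv) (hg' v hv)
    | mul_X g ℓ hg =>
      intro v hv
      rw [map_mul, Module.End.mul_apply, hopX]
      exact hg _ (Par_act _ hv)
  have hker : ∀ g, (∀ v ∈ V, op g v = 0) → f g = 0 := by
    intro g hg
    have key : ∀ g, ∃ L : ℕ, ∀ (N : ℕ) (ψ : Hom1 (GamH D ⊤) O →ₗ[O] O ⧸ (maximalIdeal O) ^ N),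
        L ≤ N → (∀ ℓ : Nat.Primes, ℓ ∉ S → (ℓ : ℕ) ≤ N → ∀ z ∈ Par (GamH D ⊤) O,
          ψ ((Tc D ⊤ (ℓ : ℕ)).act z) =
            Ideal.Quotient.mk ((maximalIdeal O) ^ N) ((W.apOfModel ℓ : ℤ) : O) * ψ z) →
        ∀ v ∈ V, ψ (op g v) = Ideal.Quotient.mk _ (f g) * ψ v := by
      intro g
      induction g using MvPolynomial.induction_on with
      | C r =>
        refine ⟨0, fun N ψ _ _ v _ => ?_⟩
        rw [← MvPolynomial.algebraMap_eq, AlgHom.commutes, AlgHom.commutes,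
          Module.algebraMap_end_apply, map_smul, Algebra.smul_def]
        rfl
      | add g g' hg hg' =>
        obtain ⟨L, hL⟩ := hg
        obtain ⟨L', hL'⟩ := hg'
        refine ⟨max L L', fun N ψ hN hψ v hv => ?_⟩
        rw [map_add, LinearMap.add_apply, map_add, hL N ψ ((le_max_left _ _).trans hN) hψ v hv,
          hL' N ψ ((le_max_right _ _).trans hN) hψ v hv, map_add, map_add, add_mul]
      | mul_X g ℓ hg =>
        obtain ⟨L, hL⟩ := hg
        refine ⟨max L (ℓ.1 : ℕ), fun N ψ hN hψ v hv => ?_⟩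
        rw [map_mul, Module.End.mul_apply, hopX,
          hL N ψ ((le_max_left _ _).trans hN) hψ _ (Par_act _ hv),
          hψ ℓ.1 ℓ.2 ((le_max_right _ _).trans hN) v hv,
          map_mul, map_mul, mul_assoc]
        congr 2
        simp [f]
    obtain ⟨L, hL⟩ := key g
    refine IsHausdorff.haus (I := maximalIdeal O) inferInstance _ fun N => ?_
    rw [SModEq.zero, smul_eq_mul, Ideal.mul_top]
    refine Ideal.pow_le_pow_right (le_max_right L N) ?_
    rw [← Ideal.Quotient.eq_zero_iff_mem]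
    obtain ⟨ψ, ⟨z, hz, hz1⟩, hψ⟩ := h (max L N)
    have h1 := hL _ ψ (le_max_left _ _) hψ z hz
    rw [hg z hz, map_zero, hz1, mul_one] at h1
    exact h1.symm
  obtain ⟨n, v, w, hv, hne, heig⟩ := exists_eigen_hom (O' := O) V op hV f hker
  let id' : O →+ O := (algebraMap O O).toAddMonoidHom
  let z : Hom1 (GamH D ⊤) O := ∑ i, w i • id'.comp (v i)
  have hid : ∀ y : Hom1 (GamH D ⊤) O, id'.comp y = y := fun y => AddMonoidHom.ext fun γ => rfl
  refine FA.Root.isModularModelOfLevel_of_eigenclass hΔ (S.image fun ℓ : Nat.Primes => (ℓ : ℕ)) z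
    (Submodule.sum_mem _ fun i _ => Submodule.smul_mem _ _ (by rw [hid]; exact hv i)) hne
    fun ℓ hℓ hℓD hb => ?_
  let ℓ' : G := ⟨⟨ℓ, Fact.out⟩, fun hm => hb (Finset.mem_image.2 ⟨_, hm, rfl⟩)⟩
  have he := heig (MvPolynomial.X ℓ')
  rw [show f (MvPolynomial.X ℓ') = ((W.apOfModel ℓ : ℤ) : O) from MvPolynomial.aeval_X _ _,
    Int.cast_smul_eq_zsmul] at he
  rw [← he]
  show (Tc D ⊤ ℓ).act (∑ i, w i • id'.comp (v i)) = _
  rw [← Corr.actLin_apply, map_sum]
  refine Finset.sum_congr rfl fun i _ => ?_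
  rw [map_smul, Corr.actLin_apply, hid, hopX]
  rw [show (algebraMap O O).toAddMonoidHom.comp ((Tc D ⊤ ℓ).act (v i)) = (Tc D ⊤ ℓ).act (v i) from
    hid _]

/-- **Modularity from approximations.** -/
theorem isModularModelOfLevel_of_approx (W : WeierstrassCurve ℤ) (hΔ : W.Δ ≠ 0) (D : ℕ) [NeZero D]
    {O : Type} [CommRing O] [IsDomain O] [IsDiscreteValuationRing O]
    [IsAdicComplete (maximalIdeal O) O] [CharZero O] (S : Finset Nat.Primes)
    (hS : ∀ ℓ : Nat.Primes, (ℓ : ℕ) ∣ D → ℓ ∈ S)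
    (h : ∀ N : ℕ, ∃ ψ : Hom1 (GamH D ⊤) O →ₗ[O] O ⧸ (maximalIdeal O) ^ N,
      (∃ z ∈ Par (GamH D ⊤) O, ψ z = 1) ∧
      ∀ ℓ : Nat.Primes, ℓ ∉ S → ∀ z ∈ Par (GamH D ⊤) O,
        ψ ((Tc D ⊤ (ℓ : ℕ)).act z) =
          Ideal.Quotient.mk ((maximalIdeal O) ^ N) ((W.apOfModel ℓ : ℤ) : O) * ψ z) :
    W.IsModularModelOfLevel D :=
  isModularModelOfLevel_of_bounded_approx W hΔ D S hS fun N =>
    (h N).imp fun _ h => ⟨h.1, fun ℓ hℓ _ => h.2 ℓ hℓ⟩

end FA.Two

end
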