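import Mathlib.LinearAlgebra.Matrix.NonsingularInverse
import Mathlib.LinearAlgebra.Matrix.ToLin
import Mathlib.LinearAlgebra.Basis.VectorSpace
import Mathlib.LinearAlgebra.Dimension.Free
import Mathlib.Data.Matrix.ColumnRowPartitioned
import Mathlib.RingTheory.Ideal.Operations

/-!
# Lifting kernels and images from the residue field

An operator whose kernel modulo the maximal ideal lifts to its kernel has a direct summand as
image; a functional killing the image of an operator factors through a surjection whose kernel is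
this image modulo the maximal ideal.
-/

set_option autoImplicit false
set_option linter.unusedSectionVars false

noncomputable section

open Matrix

namespace FA.Two

variable {Λ k : Type} [CommRing Λ] [Field k] {π : Λ →+* k}
  (hπ : Function.Surjective π) (hu : ∀ x, π x ≠ 0 → IsUnit x)

include hπ hu

/-- A matrix injective modulo the maximal ideal has a left inverse. -/
theorem exists_left_inverse {a b : Type} [Fintype a] [Fintype b] [DecidableEq a] [DecidableEq b]
    (M : Matrix a b Λ) (hM : Function.Injective (M.map π).mulVec) :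
    ∃ p : Matrix b a Λ, p * M = 1 := by
  obtain ⟨g, hg⟩ := LinearMap.exists_leftInverse_of_injective (Matrix.toLin' (M.map π))
    (LinearMap.ker_eq_bot.2 fun x y h => hM (by simpa [Matrix.toLin'_apply] using h))
  let L := (LinearMap.toMatrix' g).map (Function.surjInv hπ)
  have hL : L.map π = LinearMap.toMatrix' g := Matrix.ext fun i j => by
    simp [L, Function.surjInv_eq hπ]
  have h1 : (L * M).map π = 1 := by
    rw [Matrix.map_mul, hL, ← LinearMap.toMatrix'_toLin' (M.map π), ← LinearMap.toMatrix'_comp, hg,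
      LinearMap.toMatrix'_id]
  have hdet : IsUnit (L * M).det := hu _ <| by
    rw [RingHom.map_det, RingHom.mapMatrix_apply, h1, Matrix.det_one]
    exact one_ne_zero
  exact ⟨(L * M)⁻¹ * L, by rw [Matrix.mul_assoc, Matrix.nonsing_inv_mul _ hdet]⟩

/-- A matrix surjective modulo the maximal ideal has a right inverse. -/
theorem exists_right_inverse {a b : Type} [Fintype a] [Fintype b] [DecidableEq a] [DecidableEq b]
    (M : Matrix a b Λ) (hM : Function.Surjective (M.map π).mulVec) :
    ∃ p : Matrix b a Λ, M * p = 1 := by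
  obtain ⟨g, hg⟩ := LinearMap.exists_rightInverse_of_surjective (Matrix.toLin' (M.map π))
    (LinearMap.range_eq_top.2 fun y => (hM y).imp fun x hx => by rw [Matrix.toLin'_apply, hx])
  let L := (LinearMap.toMatrix' g).map (Function.surjInv hπ)
  have hL : L.map π = LinearMap.toMatrix' g := Matrix.ext fun i j => by
    simp [L, Function.surjInv_eq hπ]
  have h1 : (M * L).map π = 1 := by
    rw [Matrix.map_mul, hL, ← LinearMap.toMatrix'_toLin' (M.map π), ← LinearMap.toMatrix'_comp, hg,
      LinearMap.toMatrix'_id]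
  have hdet : IsUnit (M * L).det := hu _ <| by
    rw [RingHom.map_det, RingHom.mapMatrix_apply, h1, Matrix.det_one]
    exact one_ne_zero
  exact ⟨L * (M * L)⁻¹, by rw [← Matrix.mul_assoc, Matrix.mul_nonsing_inv _ hdet]⟩

/-- **The image of an operator is a direct summand** if, modulo the maximal ideal, a complement
`V` of the kernel and lifts `W` of the kernel span. -/
theorem exists_split_image {d ρ : ℕ} {w : Type} [Fintype w] [DecidableEq w]
    (N : Matrix (Fin d) (Fin d) Λ) (W : Matrix (Fin d) w Λ) (hNW : N * W = 0)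
    (V : Matrix (Fin d) (Fin ρ) Λ) (hinj : Function.Injective ((N * V).map π).mulVec)
    (hspan : ∀ x : Fin d → k, ∃ y z, V.map π *ᵥ y + W.map π *ᵥ z = x) :
    ∃ p : Matrix (Fin ρ) (Fin d) Λ, p * (N * V) = 1 ∧
      ∀ x : Fin d → Λ, ∃ y, (N * V) *ᵥ y = N *ᵥ x := by
  obtain ⟨p, hp⟩ := exists_left_inverse hπ hu (N * V) hinj
  obtain ⟨R, hR⟩ := exists_right_inverse hπ hu (Matrix.fromCols V W) fun x => by
    obtain ⟨y, z, hyz⟩ := hspan x
    exact ⟨Sum.elim y z, by rw [Matrix.fromCols_map, Matrix.fromCols_mulVec_sumElim, hyz]⟩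
  refine ⟨p, hp, fun x => ⟨(R *ᵥ x) ∘ Sum.inl, ?_⟩⟩
  have hx : V *ᵥ ((R *ᵥ x) ∘ Sum.inl) + W *ᵥ ((R *ᵥ x) ∘ Sum.inr) = x := by
    rw [← Matrix.fromCols_mulVec_sumElim, Sum.elim_comp_inl_inr, Matrix.mulVec_mulVec, hR,
      Matrix.one_mulVec]
  conv_rhs => rw [← hx]
  rw [Matrix.mulVec_add, Matrix.mulVec_mulVec, Matrix.mulVec_mulVec, hNW, Matrix.zero_mulVec,
    add_zero]

omit hπ hu in
/-- A complement of the kernel. -/
theorem exists_kernel_complement {d : ℕ} (N : Matrix (Fin d) (Fin d) k) :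
    ∃ (ρ : ℕ) (V : Matrix (Fin d) (Fin ρ) k), (N ≠ 0 → 0 < ρ) ∧
      Function.Injective (N * V).mulVec ∧ ∀ x, ∃ y z, N *ᵥ z = 0 ∧ V *ᵥ y + z = x := by
  obtain ⟨C, hC⟩ := Submodule.exists_isCompl (LinearMap.ker N.mulVecLin)
  let b := Module.finBasis k C
  let e : (Fin (Module.finrank k C) → k) →ₗ[k] (Fin d → k) :=
    C.subtype ∘ₗ b.equivFun.symm.toLinearMap
  have he : ∀ y, LinearMap.toMatrix' e *ᵥ y = e y := LinearMap.toMatrix'_mulVec e
  refine ⟨_, LinearMap.toMatrix' e, fun hN => ?_, fun y z h => ?_, fun x => ?_⟩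
  · by_contra h0
    have hbot : C = ⊥ := Submodule.finrank_eq_zero.1 (Nat.eq_zero_of_not_pos h0)
    refine hN (Matrix.toLin'.injective (LinearMap.ext fun x => ?_))
    have hx : x ∈ LinearMap.ker N.mulVecLin := by
      have := hC.sup_eq_top
      rw [hbot, sup_bot_eq] at this
      rw [this]; trivial
    simpa [Matrix.toLin'_apply] using hx
  · have h1 : e (y - z) ∈ LinearMap.ker N.mulVecLin := by
      show N *ᵥ e (y - z) = 0
      rw [map_sub, Matrix.mulVec_sub, ← he, ← he, Matrix.mulVec_mulVec, Matrix.mulVec_mulVec, h,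
        sub_self]
    have h2 : e (y - z) = 0 :=
      (Submodule.disjoint_def.1 hC.disjoint) _ h1 (Subtype.prop _)
    exact sub_eq_zero.1 (b.equivFun.symm.injective (Subtype.ext (h2.trans (map_zero e).symm)))
  · have hx : x ∈ LinearMap.ker N.mulVecLin ⊔ C := by rw [hC.sup_eq_top]; trivial
    obtain ⟨z, hz, c, hc, rfl⟩ := Submodule.mem_sup.1 hx
    exact ⟨b.equivFun ⟨c, hc⟩, z, hz, by
      rw [he, add_comm]
      simp [e]⟩

/-- **Descent of a functional** along a surjection whose kernel is, modulo the maximal ideal, the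
image of an operator. -/
theorem exists_factor {d e : ℕ} {w : Type} [Fintype w] [DecidableEq w] {M : Type} [AddCommGroup M]
    [Module Λ M] (D : Matrix (Fin e) (Fin d) Λ) (N : Matrix (Fin d) w Λ) (hDN : D * N = 0)
    (hD : Function.Surjective (D.map π).mulVec)
    (hker : ∀ x, D.map π *ᵥ x = 0 → ∃ y, N.map π *ᵥ y = x)
    (Ψ : (Fin d → Λ) →ₗ[Λ] M) (hΨ : ∀ y, Ψ (N *ᵥ y) = 0) :
    ∃ Φ : (Fin e → Λ) →ₗ[Λ] M, ∀ x, Φ (D *ᵥ x) = Ψ x := by
  obtain ⟨S, hS⟩ := exists_right_inverse hπ hu D hD
  have hsurj : Function.Surjective ((Matrix.fromCols S N).map π).mulVec := fun x => by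
    have h0 : D.map π *ᵥ (x - S.map π *ᵥ (D.map π *ᵥ x)) = 0 := by
      rw [Matrix.mulVec_sub, Matrix.mulVec_mulVec, ← Matrix.map_mul, hS,
        Matrix.map_one _ (map_zero π) (map_one π), Matrix.one_mulVec, sub_self]
    obtain ⟨y, hy⟩ := hker _ h0
    exact ⟨Sum.elim (D.map π *ᵥ x) y, by
      rw [Matrix.fromCols_map, Matrix.fromCols_mulVec_sumElim, hy, add_sub_cancel]⟩
  obtain ⟨R, hR⟩ := exists_right_inverse hπ hu (Matrix.fromCols S N) hsurj
  refine ⟨Ψ ∘ₗ S.mulVecLin, fun x => ?_⟩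
  have hx : S *ᵥ ((R *ᵥ x) ∘ Sum.inl) + N *ᵥ ((R *ᵥ x) ∘ Sum.inr) = x := by
    rw [← Matrix.fromCols_mulVec_sumElim, Sum.elim_comp_inl_inr, Matrix.mulVec_mulVec, hR,
      Matrix.one_mulVec]
  have hDx : D *ᵥ x = (R *ᵥ x) ∘ Sum.inl := by
    conv_lhs => rw [← hx]
    rw [Matrix.mulVec_add, Matrix.mulVec_mulVec, Matrix.mulVec_mulVec, hS, hDN, Matrix.zero_mulVec,
      Matrix.one_mulVec, add_zero]
  rw [LinearMap.comp_apply, Matrix.mulVecLin_apply, hDx]
  conv_rhs => rw [← hx]
  rw [map_add, hΨ, add_zero]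

end FA.Two
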