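import Fermat.Agent.Two.BaseSide
import Fermat.Agent.Two.SplitImage

/-!
# Descent of approximate eigenfunctionals to the bottom of the base

A functional on the top frame modulo a power of the maximal ideal which is an eigenfunctional of
the good operators and kills the operators of the auxiliary primes factors, one prime at a time,
through the maps down, hence gives an eigenfunctional at the level `D`.
-/

set_option autoImplicit false
set_option linter.unusedSectionVars false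
set_option linter.style.haveILetI false
set_option synthInstance.maxHeartbeats 400000
set_option maxHeartbeats 1600000

noncomputable section

namespace FA.Two

open IsLocalRing Matrix FA.HeckeH1

local notation "Qb" => AlgebraicClosure ℚ
local notation "GQ" => AlgebraicClosure ℚ ≃ₐ[ℚ] AlgebraicClosure ℚ

variable {O : Type} [CommRing O] [IsDomain O] [IsDiscreteValuationRing O]
  [IsAdicComplete (maximalIdeal O) O] [CharZero O] [Finite (ResidueField O)]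

/-- One of two elements with sum one has a multiple equal to one. -/
theorem exists_mk_mul_eq_one {N : ℕ} (hN : 0 < N) {a b : O ⧸ maximalIdeal O ^ N} (h : a + b = 1) :
    (∃ r : O, r • a = 1) ∨ ∃ r : O, r • b = 1 := by
  obtain ⟨a, rfl⟩ := Ideal.Quotient.mk_surjective a
  obtain ⟨b, rfl⟩ := Ideal.Quotient.mk_surjective b
  have hsum : IsUnit (a + b) := by
    by_contra hu
    have h1 : a + b - 1 ∈ maximalIdeal O :=
      Ideal.pow_le_self hN.ne' (Ideal.Quotient.eq.1 (by rw [map_add, h, map_one]))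
    exact (maximalIdeal.isMaximal O).ne_top
      ((Ideal.eq_top_iff_one _).2 (by simpa using sub_mem ((mem_maximalIdeal _).2 hu) h1))
  refine (IsLocalRing.isUnit_or_isUnit_of_isUnit_add hsum).imp (fun ha => ?_) (fun hb => ?_)
  · obtain ⟨u, rfl⟩ := ha
    exact ⟨(u⁻¹ : Oˣ), by
      rw [Algebra.smul_def, Ideal.Quotient.algebraMap_eq, ← map_mul, Units.inv_mul, map_one]⟩
  · obtain ⟨u, rfl⟩ := hb
    exact ⟨(u⁻¹ : Oˣ), by
      rw [Algebra.smul_def, Ideal.Quotient.algebraMap_eq, ← map_mul, Units.inv_mul, map_one]⟩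

namespace BaseData

variable {ι : Type} [DecidableEq ι] [Fintype ι]
variable [Algebra Qb ℂ] [Fact (Nat.Prime 2)] [CharP (ResidueField O) 2] {Bd : BaseData O ι}
  {rb : GQ →* Matrix (Fin 2) (Fin 2) (ResidueField O)} {Pts : Bd.BasePoints rb 2}
  {M : Pts.fam.Model} {f : M.R →ₐ[O] Bd.alg} (P : Bd.AuxPlaces rb) (hf : Pts.IsBaseHom M f)
  (h : Bd.BaseOK rb) (ιp : ℤ_[2] →+* O)

include h ιp in
/-- A functional killing the operator of a prime factors through the two maps down. -/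
theorem AuxPlaces.exists_factor_down {x : ι} {K : Finset ι} (hx : x ∈ K) {R : Type}
    [AddCommGroup R] [Module O R] (Φ : (Fin (Bd.frame K).d → O) →ₗ[O] R)
    (hΦ : ∀ v, Φ (Bd.algAct K (P.nB hf x) v) = 0) :
    ∃ (Φ' : Fin 2 → (Fin (Bd.frame (K.erase x)).d → O) →ₗ[O] R)
      (S : Fin 2 → (Fin (Bd.frame (K.erase x)).d → O) → (Fin (Bd.frame K).d → O)),
      (∀ v, Φ v = Φ' 0 (Bd.downT hx rfl 0 v) + Φ' 1 (Bd.downT hx rfl 1 v)) ∧
      (∀ i w, Φ' i w = Φ (S i w)) ∧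
      ∀ (a : Bd.alg) i w, Φ' i (Bd.algAct (K.erase x) a w) = Φ (Bd.algAct K a (S i w)) := by
  set n := (Bd.frame (K.erase x)).d
  let e : Fin 2 × Fin n ≃ Fin (2 * n) := finProdFinEquiv
  let D : Matrix (Fin (2 * n)) (Fin (Bd.frame K).d) O :=
    Matrix.of fun j a => LinearMap.toMatrix' (Bd.downT hx rfl (e.symm j).1) (e.symm j).2 a
  have hD : ∀ v j, (D *ᵥ v) j = Bd.downT hx rfl (e.symm j).1 v (e.symm j).2 := fun v j =>
    congrFun (LinearMap.toMatrix'_mulVec (Bd.downT hx rfl (e.symm j).1) v) (e.symm j).2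
  have hDr : ∀ v j, (D.map (residue O) *ᵥ v) j = (Bd.downMat x K *ᵥ v) (e.symm j) := by
    intro v j
    rw [downMat, dif_pos hx]
    rfl
  have hsurj : Function.Surjective (D.map (residue O)).mulVec := fun y => by
    obtain ⟨v, hv⟩ := (Bd.baseMaps Nat.prime_two).down_surj x K hx (fun iu => y (e iu))
    rw [baseMaps_down] at hv
    exact ⟨v, funext fun j => by rw [hDr, hv]; exact congrArg y (e.apply_symm_apply j)⟩
  have hu : ∀ c : O, residue O c ≠ 0 → IsUnit c := fun c hc =>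
    (notMem_maximalIdeal).1 fun h => hc ((residue_eq_zero_iff c).2 h)
  have hcomm : ∀ (a : Bd.alg) i v,
      Bd.downT hx rfl i (Bd.algAct K a v) = Bd.algAct (K.erase x) a (Bd.downT hx rfl i v) :=
    fun a i v => LinearMap.congr_fun (Bd.trans_algAct (Bd.inter_down hx rfl i) a) v
  have hDN : D * Bd.matAct K (P.nB hf x) = 0 := by
    refine Matrix.ext_of_mulVec_single fun a => funext fun j => ?_
    rw [← Matrix.mulVec_mulVec, hD, Bd.matAct_mulVec, hcomm,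
      P.algAct_nB hf (Finset.notMem_erase x K), LinearMap.zero_apply, Matrix.zero_mulVec]
    rfl
  obtain ⟨Φ₁, hΦ₁⟩ := exists_factor (residue_surjective) hu D (Bd.matAct K (P.nB hf x)) hDN hsurj
    (fun v hv => P.exists_nB_of_down hf h ιp hx (funext fun iu => by
      have := congrFun hv (e iu)
      rwa [hDr, Equiv.symm_apply_apply] at this)) Φ
    (fun y => by rw [Bd.matAct_mulVec]; exact hΦ y)
  obtain ⟨Sm, hS⟩ := exists_right_inverse (residue_surjective) hu D hsurj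
  let inj : Fin 2 → (Fin n → O) →ₗ[O] (Fin (2 * n) → O) := fun i =>
    LinearMap.pi fun j => if (e.symm j).1 = i then LinearMap.proj (e.symm j).2 else 0
  have hinj : ∀ i w j, inj i w j = if (e.symm j).1 = i then w (e.symm j).2 else 0 := fun i w j => by
    simp only [inj, LinearMap.pi_apply]
    split_ifs <;> rfl
  have hsec : ∀ i w, D *ᵥ (Sm *ᵥ inj i w) = inj i w := fun i w => by
    rw [Matrix.mulVec_mulVec, hS, Matrix.one_mulVec]
  refine ⟨fun i => Φ₁ ∘ₗ inj i, fun i w => Sm *ᵥ inj i w, fun v => ?_, fun i w => ?_,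
    fun a i w => ?_⟩
  · rw [LinearMap.comp_apply, LinearMap.comp_apply, ← map_add, ← hΦ₁]
    refine congrArg Φ₁ (funext fun j => ?_)
    rw [hD, Pi.add_apply, hinj, hinj]
    generalize (e.symm j).2 = u
    generalize (e.symm j).1 = i
    fin_cases i <;> simp
  · rw [LinearMap.comp_apply, ← hΦ₁, hsec]
  · rw [LinearMap.comp_apply, ← hΦ₁]
    refine congrArg Φ₁ (funext fun j => ?_)
    have hj : ∀ i', Bd.downT hx rfl i' (Sm *ᵥ inj i w) = if i' = i then w else 0 := fun i' => by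
      funext u
      have := congrFun (hsec i w) (e (i', u))
      rw [hD, hinj, Equiv.symm_apply_apply] at this
      rw [this]
      split_ifs <;> rfl
    rw [hD, hinj, hcomm, hj]
    split_ifs with hi
    · rfl
    · rw [map_zero]; rfl

include h ιp in
/-- Descent to the empty set of primes. -/
theorem AuxPlaces.exists_descent_empty {N : ℕ} (hN : 0 < N) (c : Nat.Primes → O)
    (K : Finset ι) (Ψ : (Fin (Bd.frame K).d → O) →ₗ[O] O ⧸ maximalIdeal O ^ N)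
    (hone : ∃ v, Ψ v = 1)
    (hT : ∀ ℓ, ℓ ∉ Bd.S → ∀ v,
      Ψ (Bd.algAct K (Bd.Tl ℓ) v) = Ideal.Quotient.mk _ (c ℓ) * Ψ v)
    (hn : ∀ x v, Ψ (Bd.algAct K (P.nB hf x) v) = 0) :
    ∃ Φ : (Fin (Bd.frame (∅ : Finset ι)).d → O) →ₗ[O] O ⧸ maximalIdeal O ^ N,
      (∃ v, Φ v = 1) ∧ ∀ ℓ, ℓ ∉ Bd.S → ∀ v,
        Φ (Bd.algAct ∅ (Bd.Tl ℓ) v) = Ideal.Quotient.mk _ (c ℓ) * Φ v := by
  induction K using Finset.strongInduction with
  | _ K ih =>
    rcases K.eq_empty_or_nonempty with rfl | ⟨x, hx⟩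
    · exact ⟨Ψ, hone, hT⟩
    obtain ⟨Φ', S, hsum, hval, hact⟩ := P.exists_factor_down hf h ιp hx Ψ (hn x)
    obtain ⟨v, hv⟩ := hone
    rw [hsum] at hv
    suffices key : ∀ i w, (∃ r : O, r • Φ' i w = 1) →
        ∃ Φ : (Fin (Bd.frame (∅ : Finset ι)).d → O) →ₗ[O] O ⧸ maximalIdeal O ^ N,
          (∃ v, Φ v = 1) ∧ ∀ ℓ, ℓ ∉ Bd.S → ∀ v,
            Φ (Bd.algAct ∅ (Bd.Tl ℓ) v) = Ideal.Quotient.mk _ (c ℓ) * Φ v by
      rcases exists_mk_mul_eq_one hN hv with hr | hr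
      · exact key 0 _ hr
      · exact key 1 _ hr
    rintro i w ⟨r, hr⟩
    exact ih (K.erase x) (Finset.erase_ssubset hx) (Φ' i) ⟨r • w, by rw [map_smul, hr]⟩
      (fun ℓ hℓ u => by rw [hact, hT ℓ hℓ, hval]) (fun y u => by rw [hact, hn])

/-- A functional on the bottom frame as a functional on the homomorphisms of level `D`. -/
theorem exists_functional_empty {N : ℕ} (c : Nat.Primes → O)
    (Φ : (Fin (Bd.frame (∅ : Finset ι)).d → O) →ₗ[O] O ⧸ maximalIdeal O ^ N)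
    (hone : ∃ v, Φ v = 1)
    (hT : ∀ ℓ, ℓ ∉ Bd.S → ∀ v,
      Φ (Bd.algAct ∅ (Bd.Tl ℓ) v) = Ideal.Quotient.mk _ (c ℓ) * Φ v)
    (L : ℕ) [NeZero L] (hL : L = Bd.lev (∅ : Finset ι)) :
    ∃ ψ : Hom1 (GamH L ⊤) O →ₗ[O] O ⧸ maximalIdeal O ^ N,
      (∃ z ∈ Par (GamH L ⊤) O, ψ z = 1) ∧
      ∀ ℓ : Nat.Primes, ℓ ∉ Bd.S → ∀ z ∈ Par (GamH L ⊤) O,
        ψ ((Tc L ⊤ (ℓ : ℕ)).act z) = Ideal.Quotient.mk _ (c ℓ) * ψ z := by
  subst hL
  obtain ⟨v, hv⟩ := hone
  refine ⟨Φ ∘ₗ (Bd.frame ∅).coord, ⟨(Bd.frame ∅).emb v, ?_, ?_⟩, fun ℓ hℓ z _ => ?_⟩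
  · rw [← Frame.e_emb (Bd.frame ∅) v, Bd.frame_e]
    exact Bd.eIdem_mem_Par ∅ _
  · rw [LinearMap.comp_apply, Frame.coord_emb, hv]
  · rw [LinearMap.comp_apply, LinearMap.comp_apply, ← hT ℓ hℓ]
    refine congrArg Φ ?_
    set a := goodTp (Bd.lev (∅ : Finset ι)) ⊤ O ⟨ℓ, ℓ.2, Bd.not_dvd_lev hℓ ∅⟩
    have ha : ∀ y, goodOp (Bd.lev (∅ : Finset ι)) ⊤ O a y = (Tc (Bd.lev ∅) ⊤ (ℓ : ℕ)).act y :=
      fun y => goodOp_goodTp _ _ _ _ y
    have hz : (Bd.frame ∅).emb ((Bd.frame ∅).coord z) = Bd.eIdem ∅ z :=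
      ((Bd.frame ∅).emb_coord z).trans (LinearMap.congr_fun (Bd.frame_e ∅) z)
    rw [← (Bd.frame ∅).coord_emb (Bd.algAct ∅ _ _), algAct_apply, Bd.toGood_Tl hℓ]
    show (Bd.frame ∅).coord _ =
      (Bd.frame ∅).coord ((Bd.frame ∅).emb (Bd.goodAct ∅ (Ideal.Quotient.mk _ a) _))
    rw [emb_goodAct, hz, Bd.eIdem_goodOp, ha, ← Bd.frame_e ∅]
    exact ((Bd.frame ∅).coord_e _).symm

include h ιp in
/-- **Descent to the level `D`.** -/
theorem AuxPlaces.exists_descent {N : ℕ} (hN : 0 < N) (c : Nat.Primes → O)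
    (Ψ : (Fin (Bd.frame Finset.univ).d → O) →ₗ[O] O ⧸ maximalIdeal O ^ N)
    (hone : ∃ v, Ψ v = 1)
    (hT : ∀ ℓ, ℓ ∉ Bd.S → ∀ v,
      Ψ (Bd.algAct Finset.univ (Bd.Tl ℓ) v) = Ideal.Quotient.mk _ (c ℓ) * Ψ v)
    (hn : ∀ x v, Ψ (Bd.algAct Finset.univ (P.nB hf x) v) = 0) :
    ∃ ψ : Hom1 (GamH Bd.D ⊤) O →ₗ[O] O ⧸ maximalIdeal O ^ N,
      (∃ z ∈ Par (GamH Bd.D ⊤) O, ψ z = 1) ∧
      ∀ ℓ : Nat.Primes, ℓ ∉ Bd.S → ∀ z ∈ Par (GamH Bd.D ⊤) O,
        ψ ((Tc Bd.D ⊤ (ℓ : ℕ)).act z) = Ideal.Quotient.mk _ (c ℓ) * ψ z := by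
  obtain ⟨Φ, h1, h2⟩ := P.exists_descent_empty hf h ιp hN c Finset.univ Ψ hone hT hn
  exact exists_functional_empty c Φ h1 h2 Bd.D Bd.lev_empty.symm

end BaseData

end FA.Two

end
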