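import Fermat.Agent.RT.FlatPoint
import Fermat.Agent.FlatModel.HeckeTraces
import Fermat.Agent.TW.Translate

/-!
# Flat models of points from eigen systems at any residue characteristic

A lift of an absolutely irreducible residual representation whose Frobenius traces and
determinants are those of a point of the Hecke algebra of level prime to `p`, up to a character
unramified at `p`, has equivariant models at every finite level and every place over `p`.  The
prime `p` may be `2`.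
-/

set_option autoImplicit false
set_option linter.unusedSectionVars false
set_option linter.style.haveILetI false

noncomputable section

open IsLocalRing Matrix FA.Deform

namespace FA.Two

local notation "Qb" => AlgebraicClosure ℚ
local notation "GQ" => AlgebraicClosure ℚ ≃ₐ[ℚ] AlgebraicClosure ℚ

/-- Models only depend on the action of inertia. -/
theorem hasFlatModels_of_inertia {p : ℕ} (hp : p.Prime) {R : Type} [CommRing R] [IsLocalRing R]
    {r r' : GQ →* Matrix (Fin 2) (Fin 2) R} (hr : IsContRep r) (hr' : IsContRep r')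
    {A : ValuationSubring Qb} (hA : A.LiesOverPrime p)
    (h : ∀ σ ∈ A.inertiaSubgroupIn ℚ, r' σ = r σ) (hm : FA.TW.HasFlatModels (ofMatrix r hr) A) :
    FA.TW.HasFlatModels (ofMatrix r' hr') A := by
  intro I hI inst
  let _ : Fintype ((ofMatrix r hr).V ⧸ (I • (⊤ : Submodule R (ofMatrix r hr).V))) := inst
  refine FA.FlatModel.hasModel_of_inertia_eq hp hA (fun x => ?_) (fun σ τ x => ?_)
    (fun σ x y => map_add _ x y) (FA.FlatModel.exists_field_levelAction _ I) (hm I hI)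
    fun σ hσ x => ?_
  · obtain ⟨x, rfl⟩ := Submodule.Quotient.mk_surjective _ x
    simp [GaloisRepAdic.levelAction]
  · obtain ⟨x, rfl⟩ := Submodule.Quotient.mk_surjective _ x
    simp [GaloisRepAdic.levelAction]
  · obtain ⟨x, rfl⟩ := Submodule.Quotient.mk_surjective _ x
    show Submodule.Quotient.mk (Matrix.toLinAlgEquiv (Pi.basisFun R (Fin 2)) (r' σ) x) =
      Submodule.Quotient.mk (Matrix.toLinAlgEquiv (Pi.basisFun R (Fin 2)) (r σ) x)
    rw [h σ hσ]

/-- **Representations with Hecke traces have flat models.** The values of the traces may lie in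
the ring of the representation. -/
theorem hasFlatModels_of_traces {p : ℕ} (hp : p.Prime) {R : Type} [CommRing R] [IsLocalRing R]
    (hpR : (p : R) ∈ maximalIdeal R) (r : GQ →* Matrix (Fin 2) (Fin 2) R)
    (hspan : Submodule.span R (Set.range r) = ⊤) (hcont : IsContRep r)
    (N : ℕ) [NeZero N] (hpN : ¬ p ∣ N) (S : Finset ℕ)
    (χ : CuspForm.heckeAlgebra N 2 (↑S : Set ℕ) →+* R) (bad : Finset ℕ)
    (hfrob : ∀ (ℓ : ℕ) (hℓ : ℓ.Prime) (hℓN : ¬ ℓ ∣ N) (hℓS : ℓ ∉ (↑S : Set ℕ)), ℓ ∉ bad →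
      ∀ P : ValuationSubring Qb, P.LiesOverPrime ℓ → ∀ τ : GQ, P.IsFrobeniusAt τ ℓ →
        (r τ).trace = χ (CuspForm.heckeAlgebra.T (k := 2) hℓ hℓN hℓS) ∧ (r τ).det = (ℓ : R))
    {A : ValuationSubring Qb} (hA : A.LiesOverPrime p) :
    FA.TW.HasFlatModels (ofMatrix r hcont) A := by
  intro I hI inst
  obtain ⟨alg⟩ := FA.JTorsion.exists_algebra_qbar
  letI := alg
  haveI : Fact p.Prime := ⟨hp⟩
  refine FA.FlatModel.transfer_of_traces hpR χ (ofMatrix r hcont)
    (Pi.basisFun R (Fin 2)) (by rw [matrixOf_ofMatrix]; exact hspan) bad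
    (fun ℓ hℓ hℓN hℓS hbad P hP τ hτ => ?_) FA.LocalDef.isTransfer_hasModel
    (fun n _ _ => FA.FlatModel.hasModel_jZero N hpN hA (FA.JTorsion.toTors N (↑S : Set ℕ) (p ^ n))
      (FA.JTorsion.toTors_injective N _ _) _
      fun σ x => FA.JTorsion.toTors_galMod N (↑S : Set ℕ) (p ^ n) σ x) I
  rw [matrixOf_ofMatrix]
  exact hfrob ℓ hℓ hℓN hℓS hbad P hP τ hτ

variable {O : Type} [CommRing O] [IsDomain O] [IsDiscreteValuationRing O]
  {B : Type} [CommRing B] [IsLocalRing B] [Algebra O B] [Module.Finite O B]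

/-- **Lifts with Hecke traces have flat models.** The traces may be twisted by a character of
finite level unramified at `p`. -/
theorem hasFlatModels_of_lift {p : ℕ} (hp : p.Prime) (hpO : (p : O) ∈ maximalIdeal O)
    (ε : B →+* ResidueField O) (hε : ∀ c, ε (algebraMap O B c) = residue O c)
    {rb : GQ →* Matrix (Fin 2) (Fin 2) (ResidueField O)}
    (hspan : Submodule.span (ResidueField O) (Set.range rb) = ⊤)
    (r : GQ →* Matrix (Fin 2) (Fin 2) B) (hr : mapRep ε r = rb) (hcont : IsContRep r)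
    (N : ℕ) [NeZero N] (hpN : ¬ p ∣ N) (S : Finset ℕ)
    (χ : CuspForm.heckeAlgebra N 2 (↑S : Set ℕ) →+* O)
    (θ : GQ →* Oˣ)
    (hθfin : ∃ L : IntermediateField ℚ Qb, FiniteDimensional ℚ L ∧
      ∀ σ : GQ, (∀ a ∈ L, σ a = a) → θ σ = 1)
    (bad : Finset ℕ)
    (hfrob : ∀ (ℓ : ℕ) (hℓ : ℓ.Prime) (hℓN : ¬ ℓ ∣ N) (hℓS : ℓ ∉ (↑S : Set ℕ)), ℓ ∉ bad →
      ∀ P : ValuationSubring Qb, P.LiesOverPrime ℓ → ∀ τ : GQ, P.IsFrobeniusAt τ ℓ →
        (r τ).trace = algebraMap O B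
            ((θ τ : O) * χ (CuspForm.heckeAlgebra.T (k := 2) hℓ hℓN hℓS)) ∧
          (r τ).det = algebraMap O B ((θ τ : O) ^ 2 * (ℓ : O)))
    {A : ValuationSubring Qb} (hA : A.LiesOverPrime p)
    (hθI : ∀ σ ∈ A.inertiaSubgroupIn ℚ, θ σ = 1) :
    FA.TW.HasFlatModels (ofMatrix r hcont) A := by
  classical
  let θB : GQ →* Bˣ := (Units.map (algebraMap O B).toMonoidHom).comp θ
  have hθB : ∀ σ, (θB σ : B) = algebraMap O B (θ σ : O) := fun σ => rfl
  let r₀ : GQ →* Matrix (Fin 2) (Fin 2) B :=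
    { toFun := fun σ => ((θB σ)⁻¹ : Bˣ).1 • r σ
      map_one' := by simp
      map_mul' := fun a b => by
        rw [map_mul, map_mul, mul_inv, Units.val_mul, Matrix.smul_mul, Matrix.mul_smul, smul_smul] }
  have hr₀ : ∀ σ, r₀ σ = ((θB σ)⁻¹ : Bˣ).1 • r σ := fun σ => rfl
  obtain ⟨Lθ, hLθ, hθ1⟩ := hθfin
  have hB1 : ∀ σ : GQ, θ σ = 1 → θB σ = 1 := fun σ h => by
    rw [MonoidHom.comp_apply, h, map_one]
  have hcont₀ : IsContRep r₀ := fun n => by
    obtain ⟨L, hL, h⟩ := hcont n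
    refine ⟨L ⊔ Lθ, inferInstance, fun σ hσ i j => ?_⟩
    rw [hr₀, hB1 σ (hθ1 σ fun a ha => hσ a ((le_sup_right : Lθ ≤ L ⊔ Lθ) ha)), inv_one,
      Units.val_one, one_smul]
    exact h σ (fun a ha => hσ a ((le_sup_left : L ≤ L ⊔ Lθ) ha)) i j
  have hspan₀ : Submodule.span B (Set.range r₀) = ⊤ := by
    refine top_unique ((FA.RT.span_eq_top_of_lift ε hε hspan hr).ge.trans
      (Submodule.span_le.mpr ?_))
    rintro _ ⟨σ, rfl⟩
    have : r σ = (θB σ : B) • r₀ σ := by rw [hr₀, smul_smul, Units.mul_inv, one_smul]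
    rw [this]
    exact Submodule.smul_mem _ _ (Submodule.subset_span ⟨σ, rfl⟩)
  refine hasFlatModels_of_inertia hp hcont₀ hcont hA (fun σ hσ => ?_) fun I hI inst => ?_
  · rw [hr₀, hB1 σ (hθI σ hσ), inv_one, Units.val_one, one_smul]
  have hpB : (p : B) ∈ maximalIdeal B := by
    refine (IsLocalRing.mem_maximalIdeal _).mpr fun hu => not_isUnit_zero (M₀ := ResidueField O) ?_
    rw [← (residue_eq_zero_iff _).mpr hpO, map_natCast, ← map_natCast ε]
    exact hu.map ε
  refine hasFlatModels_of_traces hp hpB r₀ hspan₀ hcont₀ N hpN S ((algebraMap O B).comp χ) bad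
    (fun ℓ hℓ hℓN hℓS hbad P hP τ hτ => ?_) hA I hI
  obtain ⟨ht, hd⟩ := hfrob ℓ hℓ hℓN hℓS hbad P hP τ hτ
  rw [hr₀, Matrix.trace_smul, Matrix.det_smul, Fintype.card_fin, ht, hd,
    smul_eq_mul, map_mul, map_mul, map_pow, map_natCast, ← hθB, RingHom.comp_apply, ← mul_assoc,
    ← mul_assoc, ← mul_pow, Units.inv_mul, one_mul, one_pow, one_mul]
  exact ⟨rfl, rfl⟩

section Point

open FA.RT

variable {O' : Type} [CommRing O'] [IsLocalRing O'] [Algebra O O'] [IsLocalHom (algebraMap O O')]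
  [IsDomain O'] [Module.Finite O O']

/-- **A point attached to an eigen system of level prime to `p` has flat models over `p`.**  Here
`m` is the representation over the extension and `r` its conjugate over the point ring. -/
theorem hasFlatModels_point {p : ℕ} (hp : p.Prime) (hpO : (p : O) ∈ maximalIdeal O)
    {rb : GQ →* Matrix (Fin 2) (Fin 2) (ResidueField O)}
    (hspan : Submodule.span (ResidueField O) (Set.range rb) = ⊤)
    (m : GQ →* Matrix (Fin 2) (Fin 2) O')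
    (r : GQ →* Matrix (Fin 2) (Fin 2) (pointRing O O')) (hr : mapRep (pointRes O O') r = rb)
    (hcont : IsContRep r) (htrace : ∀ σ, ((r σ).trace).1 = (m σ).trace)
    (hdet : ∀ σ, ((r σ).det).1 = (m σ).det)
    (N : ℕ) [NeZero N] (hpN : ¬ p ∣ N) (S : Finset ℕ)
    (χ : CuspForm.heckeAlgebra N 2 (↑S : Set ℕ) →+* O)
    (bad : Finset ℕ)
    (hfrob : ∀ (ℓ : ℕ) (hℓ : ℓ.Prime) (hℓN : ¬ ℓ ∣ N) (hℓS : ℓ ∉ (↑S : Set ℕ)), ℓ ∉ bad →
      ∀ P : ValuationSubring Qb, P.LiesOverPrime ℓ → ∀ τ : GQ, P.IsFrobeniusAt τ ℓ →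
        (m τ).trace = algebraMap O O' (χ (CuspForm.heckeAlgebra.T (k := 2) hℓ hℓN hℓS)) ∧
          (m τ).det = (ℓ : O'))
    {A : ValuationSubring Qb} (hA : A.LiesOverPrime p) :
    FA.TW.HasFlatModels (ofMatrix r hcont) A :=
  hasFlatModels_of_lift hp hpO (pointRes O O') pointRes_algebraMap hspan r hr hcont N hpN S χ 1
    ⟨⊥, inferInstance, fun _ _ => rfl⟩ bad (fun ℓ hℓ hℓN hℓS hbad P hP τ hτ => by
      obtain ⟨ht, hd⟩ := hfrob ℓ hℓ hℓN hℓS hbad P hP τ hτ
      refine ⟨Subtype.ext ?_, Subtype.ext ?_⟩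
      · rw [htrace, ht, MonoidHom.one_apply, Units.val_one, one_mul]
        rfl
      · rw [hdet, hd, MonoidHom.one_apply, Units.val_one, one_pow, one_mul,
          ← map_natCast (algebraMap O O')]
        rfl) hA fun _ _ => rfl

/-- A character unramified at the place does not disturb the models of a point. -/
theorem hasFlatModels_point_twist {p : ℕ} (hp : p.Prime) (hpO : (p : O) ∈ maximalIdeal O)
    {rb : GQ →* Matrix (Fin 2) (Fin 2) (ResidueField O)}
    (hspan : Submodule.span (ResidueField O) (Set.range rb) = ⊤)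
    (r : GQ →* Matrix (Fin 2) (Fin 2) (pointRing O O')) (hr : mapRep (pointRes O O') r = rb)
    (hcont : IsContRep r)
    (N : ℕ) [NeZero N] (hpN : ¬ p ∣ N) (S : Finset ℕ)
    (χ : CuspForm.heckeAlgebra N 2 (↑S : Set ℕ) →+* O)
    (θ : GQ →* Oˣ)
    (hθfin : ∃ L : IntermediateField ℚ Qb, FiniteDimensional ℚ L ∧
      ∀ σ : GQ, (∀ a ∈ L, σ a = a) → θ σ = 1)
    (bad : Finset ℕ)
    (hfrob : ∀ (ℓ : ℕ) (hℓ : ℓ.Prime) (hℓN : ¬ ℓ ∣ N) (hℓS : ℓ ∉ (↑S : Set ℕ)), ℓ ∉ bad →
      ∀ P : ValuationSubring Qb, P.LiesOverPrime ℓ → ∀ τ : GQ, P.IsFrobeniusAt τ ℓ →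
        ((r τ).trace).1 = algebraMap O O'
            ((θ τ : O) * χ (CuspForm.heckeAlgebra.T (k := 2) hℓ hℓN hℓS)) ∧
          ((r τ).det).1 = algebraMap O O' ((θ τ : O) ^ 2 * (ℓ : O)))
    {A : ValuationSubring Qb} (hA : A.LiesOverPrime p)
    (hθI : ∀ σ ∈ A.inertiaSubgroupIn ℚ, θ σ = 1) :
    FA.TW.HasFlatModels (ofMatrix r hcont) A :=
  hasFlatModels_of_lift hp hpO (pointRes O O') pointRes_algebraMap hspan r hr hcont N hpN S χ θ
    hθfin bad (fun ℓ hℓ hℓN hℓS hbad P hP τ hτ => by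
      obtain ⟨ht, hd⟩ := hfrob ℓ hℓ hℓN hℓS hbad P hP τ hτ
      exact ⟨Subtype.ext ht, Subtype.ext hd⟩) hA hθI

end Point

end FA.Two
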