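import Fermat.Agent.Two.Points
import Fermat.Agent.RT.PointOf

/-!
# Rings with eigenvalues on fixed lines

In the point rings the eigenvalue of Frobenius on the line fixed by unipotent inertia exists and
reduces to one.
-/

set_option autoImplicit false
set_option linter.unusedSectionVars false

noncomputable section

open IsLocalRing Matrix

namespace FA.Two

/-- Frobenius has an eigenvalue congruent to one on the line fixed by unipotent inertia. -/
def HasEigenLine {B k : Type} [CommRing B] [CommRing k] (ε : B →+* k) : Prop :=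
  ∀ (q : ℕ) (F N g : Matrix (Fin 2) (Fin 2) B), N * N = 0 → F * N = (q : B) • (N * F) →
    IsUnit (q : B) → (N * g).trace ≠ 0 → ε F.trace = 0 → ε F.det = 1 →
    ∃ c : B, ε c = 1 ∧ (q : B) * c * (N * g).trace = (F * N * g).trace ∧
      (F - ((q : B) * c) • 1) * (F - c • 1) = 0 ∧
      (F - ((q : B) * c) • 1) * N = 0 ∧ N * (F - c • 1) = 0

open FA.RT (pointRing pointRes map_pointRes)

variable {O O' : Type} [CommRing O] [IsDomain O] [IsDiscreteValuationRing O]
  [CommRing O'] [IsDomain O'] [IsDiscreteValuationRing O'] [Algebra O O']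
  [IsLocalHom (algebraMap O O')]

/-- **Point rings of extensions have eigen lines.** -/
theorem hasEigenLine_pointRing (h2 : (2 : O) ∈ maximalIdeal O) :
    HasEigenLine (pointRes O O') := by
  intro q F N g hN htame hq hn htr hdet
  let i : pointRing O O' →+* O' := (pointRing O O').val.toRingHom
  have hi : Function.Injective i := Subtype.val_injective
  let μ := i.mapMatrix (m := Fin 2)
  have hμ : Function.Injective μ := fun X Y h => Matrix.ext fun a b =>
    hi (congrFun (congrFun h a) b)
  have hres : ∀ x, residue O' (i x) = ResidueField.map (algebraMap O O') (pointRes O O' x) :=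
    fun x => (map_pointRes x).symm
  have hs : ∀ (a : pointRing O O') X, μ (a • X) = i a • μ X := fun a X =>
    Matrix.map_smul' i a X (map_mul i)
  have htr' : ∀ X, i X.trace = (μ X).trace := fun X => AddMonoidHom.map_trace i.toAddMonoidHom X
  obtain ⟨c, hc1, hc2, hc3, hc4, hc5⟩ := exists_al (B := O') (q := q) (F := μ F) (N := μ N)
    (g := μ g) (by rw [← map_mul, hN, map_zero])
    (by rw [← map_mul, htame, hs, map_mul, map_natCast])
    (by rw [← map_natCast i]; exact hq.map i)
    (fun h => hn (hi (by rw [htr', map_mul, h, map_zero])))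
    (by
      rw [← map_ofNat (residue O') 2, residue_eq_zero_iff, ← map_ofNat (algebraMap O O') 2]
      exact map_nonunit _ _ h2)
    (by rw [← htr', hres, htr, map_zero])
    (by rw [← RingHom.map_det, hres, hdet, map_one])
  have hmem : c ∈ pointRing O O' := ⟨1, by rw [map_one, hc1]⟩
  obtain ⟨c', rfl⟩ : ∃ c' : pointRing O O', i c' = c := ⟨⟨c, hmem⟩, rfl⟩
  have hqc : (q : O') * i c' = i ((q : pointRing O O') * c') := by rw [map_mul, map_natCast]
  refine ⟨c', (ResidueField.map (algebraMap O O')).injective (by
    rw [map_one, ← hres, hc1]), hi ?_, hμ ?_, hμ ?_, hμ ?_⟩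
  · rw [map_mul, map_mul, map_natCast, htr', htr', map_mul, map_mul, map_mul, hc2]
  · rw [map_mul, map_sub, map_sub, hs, hs, map_one, map_zero, ← hqc, hc3]
  · rw [map_mul, map_sub, hs, map_one, map_zero, ← hqc, hc4]
  · rw [map_mul, map_sub, hs, map_one, map_zero, hc5]

end FA.Two
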