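import Fermat.Agent.Two.DepthPiece
import Fermat.Agent.Two.DepthFlat
import Fermat.Agent.RT.TWPoint.Line
import Fermat.Agent.Two.EigenLine

/-!
# The lift of a point at a Taylor-Wiles level of the base

A point of the good algebra of a piece with the diamond group adjoined gives, over an extension
with enough roots of unity, the eigen system of a representation; twisted by the square root of
its nebentypus and by the character of the diamond group it descends to the point ring, with the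
conditions at the primes of the level, at the Taylor-Wiles primes and at `2`.
-/

set_option autoImplicit false
set_option linter.unusedSectionVars false
set_option linter.style.haveILetI false
set_option synthInstance.maxHeartbeats 400000
set_option maxHeartbeats 2000000

noncomputable section

namespace FA.Two

open IsLocalRing Matrix FA.Deform FA.HeckeH1
open FA.RT (AlgPoint pointRing pointRes fullT fullD IsNebSq PointRep)
open FA.JTorsion (cycP cycK)
open FA.Twist (galChar galCharAt twistMat)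
open scoped MatrixGroups Classical

local notation "Qb" => AlgebraicClosure ℚ
local notation "GQ" => AlgebraicClosure ℚ ≃ₐ[ℚ] AlgebraicClosure ℚ

/-- In residue characteristic `2` roots of unity of two-power order are residually trivial. -/
theorem residue_eq_one_of_pow_two {R : Type} [CommRing R] [IsLocalRing R]
    (h2 : (2 : R) ∈ maximalIdeal R) (m : ℕ) {x : R} (hx : x ^ 2 ^ m = 1) : residue R x = 1 := by
  have h0 : (2 : ResidueField R) = 0 := by
    rw [← map_ofNat (residue R) 2, residue_eq_zero_iff]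
    exact h2
  have key : ∀ (m : ℕ) (y : ResidueField R), y ^ 2 ^ m = 1 → y = 1 := by
    intro m
    induction m with
    | zero => intro y hy; simpa using hy
    | succ m ih =>
      intro y hy
      have h1 := ih (y ^ 2) (by rw [← pow_mul, ← pow_succ']; exact hy)
      have h3 : (y - 1) * (y - 1) = 0 := by linear_combination h1 + (1 - y) * h0
      exact sub_eq_zero.1 (mul_self_eq_zero.1 h3)
  exact key m _ (by rw [← map_pow, hx, map_one])

/-- A matrix of trace `2` and determinant `1` is unipotent. -/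
theorem sub_one_sq_of_trace {R : Type} [CommRing R] (X : Matrix (Fin 2) (Fin 2) R)
    (ht : X.trace = 2) (hd : X.det = 1) : (X - 1) ^ 2 = 0 := by
  rw [Matrix.trace_fin_two] at ht
  rw [Matrix.det_fin_two] at hd
  refine Matrix.ext fun i j => ?_
  fin_cases i <;> fin_cases j <;> simp [pow_two, Matrix.mul_apply, Fin.sum_univ_two]
  · linear_combination (X 0 0) * ht - hd
  · linear_combination (X 0 1) * ht
  · linear_combination (X 1 0) * ht
  · linear_combination (X 1 1) * ht - hd

/-- Squares of Galois characters under extension of the values. -/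
theorem galChar_sq_map {A B : Type} [CommRing A] [CommRing B] (g : A →+* B) (Q : Finset ℕ)
    (η : ∀ q : ℕ, MulChar (ZMod q) A) (σ : GQ) {a : A} (h : (galChar Q η σ : A) ^ 2 = a) :
    (galChar Q (fun q => (η q).ringHomComp g) σ : B) ^ 2 = g a := by
  rw [FA.RT.galChar_ringHomComp]
  show g (galChar Q η σ : A) ^ 2 = g a
  rw [← h, map_pow]

variable {O : Type} [CommRing O] [IsDomain O] [IsDiscreteValuationRing O]
  [IsAdicComplete (maximalIdeal O) O] [CharZero O]

/-- A point of a subalgebra extends to a point of the algebra with a root of `-1`. -/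
theorem exists_root_point [Finite (ResidueField O)] {R A : Type} [CommRing R] [Algebra O R]
    [CommRing A] [Algebra O A] [Module.Finite O A] (J : R →ₐ[O] A) (hJ : Function.Injective J)
    {m : ℕ} (hm : 0 < m) (P : AlgPoint O R) :
    ∃ (P' : AlgPoint O A) (ζ : P'.B), ζ ^ m = -1 ∧ ∀ x, P'.hom (J x) = 0 → P.hom x = 0 := by
  let g : Polynomial A := Polynomial.X ^ m + Polynomial.C 1
  have hg : g.Monic := Polynomial.monic_X_pow_add_C 1 hm.ne'
  haveI : Module.Finite A (AdjoinRoot g) := hg.finite_adjoinRoot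
  haveI : Module.Finite O (AdjoinRoot g) := Module.Finite.trans A (AdjoinRoot g)
  let J' : R →ₐ[O] AdjoinRoot g := (IsScalarTower.toAlgHom O A (AdjoinRoot g)).comp J
  have hJ' : Function.Injective J' := by
    rw [injective_iff_map_eq_zero]
    intro x hx
    rcases subsingleton_or_nontrivial A with hA | hA
    · exact hJ (Subsingleton.elim _ _)
    have h1 : AdjoinRoot.mk g (Polynomial.C (J x)) = 0 := hx
    rw [AdjoinRoot.mk_eq_zero] at h1
    by_contra h0
    have h2 : J x ≠ 0 := fun e => h0 (hJ (e.trans (map_zero J).symm))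
    refine hg.not_dvd_of_degree_lt (Polynomial.C_ne_zero.2 h2) ?_ h1
    rw [Polynomial.degree_C h2, Polynomial.degree_X_pow_add_C hm]
    exact_mod_cast hm
  letI : Algebra R (AdjoinRoot g) := J'.toRingHom.toAlgebra
  haveI : Algebra.IsIntegral R (AdjoinRoot g) := ⟨fun y => by
    refine RingHom.IsIntegral.tower_top (algebraMap O R) J'.toRingHom ?_ y
    rw [show (J'.toRingHom).comp (algebraMap O R) = algebraMap O (AdjoinRoot g) from
      RingHom.ext J'.commutes]
    exact Algebra.IsIntegral.isIntegral⟩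
  haveI : (RingHom.ker P.hom).IsPrime := RingHom.ker_isPrime P.hom
  obtain ⟨Q, -, hQ, hQc⟩ := Ideal.exists_ideal_over_prime_of_isIntegral (RingHom.ker P.hom)
    (⊥ : Ideal (AdjoinRoot g)) (fun x hx => by
      rw [Ideal.mem_comap, Ideal.mem_bot] at hx
      rw [RingHom.mem_ker, show x = 0 from hJ' (hx.trans (map_zero J').symm), map_zero])
  haveI := hQ
  have hker : ∀ x, J' x ∈ Q → P.hom x = 0 := fun x hx => RingHom.mem_ker.1 (hQc ▸ hx)
  have hinj : Function.Injective (algebraMap O (AdjoinRoot g ⧸ Q)) := by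
    rw [injective_iff_map_eq_zero]
    intro c hc
    have h1 : J' (algebraMap O R c) ∈ Q := by
      rw [AlgHom.commutes]
      exact Ideal.Quotient.eq_zero_iff_mem.1 hc
    have h2 := hker _ h1
    rw [AlgHom.commutes] at h2
    exact (FaithfulSMul.algebraMap_injective O P.B) (h2.trans (map_zero _).symm)
  obtain ⟨P', hP'⟩ := FA.RT.exists_algPoint_of_isDomain (O := O) (A := AdjoinRoot g ⧸ Q) hinj
  let f₀ : A →ₐ[O] P'.B :=
    (P'.hom.comp (Ideal.Quotient.mkₐ O Q)).comp (IsScalarTower.toAlgHom O A (AdjoinRoot g))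
  refine ⟨{ B := P'.B, hom := f₀ },
    P'.hom (Ideal.Quotient.mk Q (AdjoinRoot.root g)), ?_, fun x hx => hker x ?_⟩
  · have h1 : AdjoinRoot.mk g g = 0 := AdjoinRoot.mk_self
    simp only [g, map_add, map_pow, map_one, AdjoinRoot.mk_X] at h1
    rw [← map_pow, ← map_pow, eq_neg_iff_add_eq_zero, ← map_one P'.hom,
      ← map_one (Ideal.Quotient.mk Q), ← map_add, ← map_add]
    erw [h1]
    rw [map_zero, map_zero]
  · exact Ideal.Quotient.eq_zero_iff_mem.1 (hP' (hx.trans (map_zero P'.hom).symm))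

/-- A point of a group ring over a subalgebra extends to a point with a root of `-1` and a
character of the group. -/
theorem exists_root_point_group [Finite (ResidueField O)] {A F G : Type} [CommRing A] [Algebra O A]
    [CommRing F] [Algebra O F] [Module.Finite O F] [CommGroup G] [Finite G] (j : A →ₐ[O] F)
    (hj : Function.Injective j) {m : ℕ} (hm : 0 < m) (P : AlgPoint O (MonoidAlgebra A G)) :
    ∃ (P₀ : AlgPoint O F) (ψ : G →* P₀.B) (ζ : P₀.B), ζ ^ m = -1 ∧
      ∀ x, MonoidAlgebra.liftNCAlgHom (P₀.hom.comp j) ψ (fun _ _ => Commute.all _ _) x = 0 →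
        P.hom x = 0 := by
  haveI : Module.Finite O (MonoidAlgebra F G) := Module.Finite.trans F (MonoidAlgebra F G)
  let J : MonoidAlgebra A G →ₐ[O] MonoidAlgebra F G := MonoidAlgebra.mapAlgHom G j
  have hJ : Function.Injective J := fun x y h => MonoidAlgebra.coeff_injective <| Finsupp.ext
    fun d => hj (by
      have := congrArg (fun z => MonoidAlgebra.coeff z d) h
      simpa only [J, MonoidAlgebra.coeff_mapAlgHom] using this)
  obtain ⟨P₁, ζ, hζ, hP₁⟩ := exists_root_point (A := MonoidAlgebra F G) J hJ hm P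
  let f₁ : F →ₐ[O] P₁.B := P₁.hom.comp MonoidAlgebra.singleOneAlgHom
  let ψ : G →* P₁.B := P₁.hom.toMonoidHom.comp (MonoidAlgebra.of F G)
  refine ⟨{ B := P₁.B, hom := f₁ }, ψ, ζ, hζ, fun x hx => hP₁ x (Eq.trans ?_ hx)⟩
  clear hx
  induction x using MonoidAlgebra.induction_linear with
  | zero => simp
  | add x y hx' hy' => simp only [map_add, hx', hy']
  | single d a =>
    simp [J, f₁, ψ, MonoidAlgebra.liftNCAlgHom, ← map_mul]

/-- The line of a twisted lift. -/
theorem line_twist {R : Type} [CommRing R] {X Y : Matrix (Fin 2) (Fin 2) R} {a c d u v : R}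
    (hroot : a * a - X.trace * a + X.det = 0) (hu : d * u = v)
    (hline : (2 * a - X.trace) * u = (X * Y).trace - (X.trace - a) * Y.trace) :
    (c * a) * (c * a) - (c • X).trace * (c * a) + (c • X).det = 0 ∧
      (2 * (c * a) - (c • X).trace) * v =
        ((c • X) * (d • Y)).trace - ((c • X).trace - c * a) * (d • Y).trace := by
  rw [smul_mul_smul_comm, Matrix.trace_smul, Matrix.trace_smul, Matrix.trace_smul, Matrix.det_smul,
    Fintype.card_fin]
  simp only [smul_eq_mul, ← hu]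
  constructor
  · linear_combination c ^ 2 * hroot
  · linear_combination c * d * hline

section point

variable {O' : Type} [CommRing O'] [IsDomain O'] [IsDiscreteValuationRing O'] [Algebra O O']
  [IsLocalHom (algebraMap O O')]

/-- A residually trivial character takes its values in the point ring. -/
theorem exists_unit_twist {G : Type} [Group G] (c : G →* O') (hc : ∀ g, residue O' (c g) = 1) :
    ∃ c' : G →* pointRing O O', (∀ g, (c' g).1 = c g) ∧ ∀ g, pointRes O O' (c' g) = 1 :=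
  ⟨c.codRestrict (pointRing O O') fun g => ⟨1, by rw [hc, map_one]⟩, fun _ => rfl,
    fun g => (ResidueField.map (algebraMap O O')).injective (by
      rw [FA.RT.map_pointRes]; exact (hc g).trans (map_one _).symm)⟩

end point

variable [CharP (ResidueField O) 2] {ι : Type} [DecidableEq ι]

namespace BaseData.TWData

variable {Bd : BaseData O ι} {r n : ℕ} (T : Bd.TWData r n)
  {rb : GQ →* Matrix (Fin 2) (Fin 2) (ResidueField O)}

/-- The diamond values of a point of the full algebra. -/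
def fullDia (K : Finset ι) : T.Dgrp →* FullAlg (T.eK K) :=
  (fullD (T.eK K)).comp (T.iota K).symm.toMonoidHom

theorem fullDia_κU (K : Finset ι) (u : (ZMod (T.lvl K))ˣ) :
    T.fullDia K (T.κU K u) = fullD (T.eK K) (QuotientGroup.mk u) := by
  rw [← T.iota_mk K u]
  exact congrArg (fullD (T.eK K)) ((T.iota K).symm_apply_apply _)

/-- The algebra of the piece inside the full algebra. -/
def toFull (K : Finset ι) : T.alg K →ₐ[O] FullAlg (T.eK K) :=
  (goodToFull (T.eK K)).comp (T.awaySub K).val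

theorem toFull_apply (K : Finset ι) (x : T.alg K) :
    T.toFull K x = goodToFull (T.eK K) x.1 := rfl

theorem toFull_injective (K : Finset ι) : Function.Injective (T.toFull K) :=
  (goodToFull_injective (T.eK K)).comp Subtype.val_injective

theorem fullDia_apply (K : Finset ι) (d : T.Dgrp) :
    T.fullDia K d = T.toFull K (T.dia K d) := rfl

theorem pow_eq_one (d : T.Dgrp) : d ^ 2 ^ n = 1 := funext fun i => by
  rw [Pi.pow_apply, Pi.one_apply]
  refine Multiplicative.toAdd.injective ?_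
  rw [toAdd_pow, nsmul_eq_mul, ZMod.natCast_self, zero_mul, toAdd_one]

/-- Square roots of a character of the diamond group as characters modulo the primes. -/
theorem exists_qChar_sq (K : Finset ι) {B : Type} [CommRing B] [IsDomain B] [CharZero B]
    [IsLocalRing B] (h2B : (2 : B) ∈ maximalIdeal B) (F : T.Dgrp →* B) {ζ : B}
    (hζ : ζ ^ 2 ^ n = -1) :
    ∃ (Q' : Finset ℕ) (η : ∀ q : ℕ, MulChar (ZMod q) B), Q' ⊆ T.Qn ∧ (∀ q ∈ Q', η q ^ 2 ≠ 1) ∧
      (∀ u : (ZMod (T.lvl K))ˣ, ∏ q ∈ Q', η q (ZMod.cast (u : ZMod (T.lvl K))) ^ 2 =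
        F (T.κU K u)) ∧
      (∀ q ∈ Q', ∀ v : (ZMod q)ˣ, η q v - 1 ∈ maximalIdeal B) ∧
      ∀ σ : GQ, (galChar Q' η σ : B) ^ 2 = F (T.galD σ) := by
  let χ : T.Dgrp →* Bˣ := F.toHomUnits
  obtain ⟨φ, hφ, hφ1⟩ := T.exists_sqrt χ hζ
  let η : ∀ q : ℕ, MulChar (ZMod q) B := T.qChar φ
  let Q' : Finset ℕ := T.Qn.filter fun q => η q ^ 2 ≠ 1
  have hout : ∀ q ∈ T.Qn, q ∉ Q' → ∀ a : ZMod q, IsUnit a → η q a ^ 2 = 1 := fun q hq hn a ha => by
    have h1 : η q ^ 2 = 1 := not_not.1 fun h => hn (Finset.mem_filter.2 ⟨hq, h⟩)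
    obtain ⟨v, rfl⟩ := ha
    rw [← MulChar.pow_apply_coe, h1, MulChar.one_apply_coe]
  have hprod : ∀ v : ∀ i, (ZMod (T.qv i))ˣ,
      ∏ i, η (T.qv i) (v i) ^ 2 = (χ fun i => T.logQ i (v i) : B) := fun v => by
    conv_rhs => rw [← Finset.univ_prod_mulSingle (fun i => T.logQ i (v i)), map_prod,
      Units.coe_prod]
    refine Finset.prod_congr rfl fun i _ => ?_
    rw [show η (T.qv i) (v i) = φ i (v i) from T.qChar_qv φ i (v i), ← hφ i (v i), Units.val_mul,
      pow_two]
  have hχ : ∀ d, (χ d : B) = F d := fun d => rfl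
  refine ⟨Q', η, Finset.filter_subset _ _, fun q hq => (Finset.mem_filter.1 hq).2, fun u => ?_,
    fun q hq v => ?_, fun σ => ?_⟩
  · rw [Finset.prod_subset (Finset.filter_subset _ _) fun q hq hn => hout q hq hn _ (by
      obtain ⟨i, rfl⟩ := T.mem_Qn.1 hq
      exact (ZMod.unitsMap (T.qv_dvd K i) u).isUnit), Qn,
      Finset.prod_image fun i _ j _ h => T.inj h]
    refine (hprod fun i => ZMod.unitsMap (T.qv_dvd K i) u).trans ?_
    exact hχ _
  · obtain ⟨i, rfl⟩ := T.mem_Qn.1 (Finset.filter_subset _ _ hq)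
    rw [← residue_eq_zero_iff, map_sub, map_one, sub_eq_zero,
      show η (T.qv i) v = φ i v from T.qChar_qv φ i v]
    exact residue_eq_one_of_pow_two h2B (n + 1)
      (by rw [← Units.val_pow_eq_pow_val, hφ1, Units.val_one])
  · rw [galChar, MonoidHom.finsetProd_apply, Units.coe_prod, ← Finset.prod_pow,
      Finset.prod_subset (Finset.filter_subset _ _) fun q hq hn => by
        obtain ⟨i, rfl⟩ := T.mem_Qn.1 hq
        rw [galCharAt, dif_pos (T.prime i), MonoidHom.comp_apply, MulChar.coe_toUnitHom]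
        exact hout _ hq hn _ (Units.isUnit _),
      Qn, Finset.prod_image fun i _ j _ h => T.inj h]
    refine (Finset.prod_congr rfl fun i _ => ?_).trans
      ((hprod fun i => cycK (T.qv i) (ZMod (T.qv i)) σ).trans
        (((congrArg (fun d => (χ d : B)) (funext fun i => (T.galD_apply σ i).symm))).trans (hχ _)))
    rw [galCharAt, dif_pos (T.prime i), MonoidHom.comp_apply, MulChar.coe_toUnitHom]


/-- **A square root of the nebentypus of a point.** -/
theorem exists_nebSq [Finite (ResidueField O)] (K : Finset ι) (hpO : (2 : O) ∈ maximalIdeal O)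
    (P₀ : AlgPoint O (FullAlg (T.eK K))) {ζ : P₀.B} (hζ : ζ ^ 2 ^ n = -1) :
    ∃ (Q' : Finset ℕ) (η : ∀ q : ℕ, MulChar (ZMod q) P₀.B),
      IsNebSq P₀.hom T.Qn Q' η ∧
      ∀ σ : GQ, (galChar Q' η σ : P₀.B) ^ 2 = P₀.hom (T.fullDia K (T.galD σ)) := by
  have h2B : (2 : P₀.B) ∈ maximalIdeal P₀.B := by
    have := FA.RT.natCast_mem_maximalIdeal (O' := P₀.B) (p := 2) (by exact_mod_cast hpO)
    exact_mod_cast this
  obtain ⟨Q', η, h1, h2, h3, h4, h5⟩ :=
    T.exists_qChar_sq K h2B (P₀.hom.toMonoidHom.comp (T.fullDia K)) hζ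
  refine ⟨Q', η, ⟨h1, h2, fun u => (h3 u).trans ?_, h4⟩, h5⟩
  rw [← T.fullDia_κU K u]
  rfl

section rep

variable [Finite (ResidueField O)] {K : Finset ι} {ιp : ℤ_[2] →+* O}
  {O' : Type} [CommRing O'] [IsDomain O'] [IsDiscreteValuationRing O']
  [IsAdicComplete (maximalIdeal O') O'] [CharZero O'] [Algebra O O'] [Module.Finite O O']
  [Module.Free O O'] [IsLocalHom (algebraMap O O')]
  {f : FullAlg (T.eK K) →ₐ[O] O'} {z : Hom1 (GamH (T.lvl K) (T.H K)) O'} {Q' : Finset ℕ}
  {η : ∀ q : ℕ, MulChar (ZMod q) O'} {m : GQ →* Matrix (Fin 2) (Fin 2) O'}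
  {r₀ : GQ →* Matrix (Fin 2) (Fin 2) (pointRing O O')}

variable [Fact (Nat.Prime 2)]

/-- The diamond values of a point are residually trivial. -/
theorem residue_fullDia (h2O' : (2 : O') ∈ maximalIdeal O') (d : T.Dgrp) :
    residue O' (f (T.fullDia K d)) = 1 :=
  residue_eq_one_of_pow_two h2O' n (by rw [← map_pow, ← map_pow, T.pow_eq_one, map_one, map_one])

/-- **The values of the algebra of the piece at a point lie in the point ring.** -/
theorem apply_mem_pointRing (h2O' : (2 : O') ∈ maximalIdeal O')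
    (hw : FA.RT.TWPiece 2 rb T.Qn T.T0 Bd.c0 T.αn (T.eK K))
    (hp2S : (⟨2, Nat.prime_two⟩ : Nat.Primes) ∈ Bd.S)
    (hη : IsNebSq f T.Qn Q' η) (hm : PointRep ιp f Q' η m)
    (htr₀ : ∀ σ, ((r₀ σ).trace).1 = (m σ).trace)
    (x : T.alg K) : f (T.toFull K x) ∈ pointRing O O' := by
  obtain ⟨a, ha⟩ := x
  show f (goodToFull (T.eK K) a) ∈ _
  induction ha using Algebra.adjoin_induction with
  | mem u hu =>
    rcases hu with ⟨ℓ, hℓ, h, rfl⟩ | ⟨u, rfl⟩
    · rw [FA.RT.goodToFull_goodT]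
      exact hw.fullT_mem hη hm htr₀ ℓ h fun e => hℓ (by
        rw [show ℓ = ⟨2, Nat.prime_two⟩ from Subtype.ext e]; exact hp2S)
    · refine ⟨1, ?_⟩
      rw [map_one, ← T.residue_fullDia (f := f) h2O' (T.iota K u)]
      simp [fullDia, fullD]
  | algebraMap c =>
    rw [AlgHom.commutes, AlgHom.commutes]
    exact Subalgebra.algebraMap_mem _ _
  | add u v _ _ hu hv => rw [map_add, map_add]; exact add_mem hu hv
  | mul u v _ _ hu hv => rw [map_mul, map_mul]; exact mul_mem hu hv

set_option maxHeartbeats 4000000 in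
/-- **The twisted lift of a representation of a point.** -/
theorem depthPoint_of_rep (hpO : (2 : O) ∈ maximalIdeal O)
    (hw : FA.RT.TWPiece 2 rb T.Qn T.T0 Bd.c0 T.αn (T.eK K))
    (hspan : Submodule.span (ResidueField O) (Set.range rb) = ⊤)
    (hrb : Bd.ResidualFrob rb)
    (hdetrb : ∀ σ, (rb σ).det = residue O (ιp ((cycP 2 σ : ℤ_[2]ˣ) : ℤ_[2])))
    (hp2S : (⟨2, Nat.prime_two⟩ : Nat.Primes) ∈ Bd.S)
    (hunr : ∀ l : Nat.Primes, l ∉ Bd.S → ∀ A : ValuationSubring Qb, A.LiesOverPrime (l : ℕ) →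
      ∀ σ ∈ A.inertiaSubgroupIn ℚ, rb σ = 1)
    (h2 : ¬ 2 ∣ Bd.lev K)
    (hz : IsPointClass (T.eK K) f z) (hη : IsNebSq f T.Qn Q' η) (hm : PointRep ιp f Q' η m)
    (hlift₀ : mapRep (pointRes O O') r₀ = rb) (hcont₀ : IsContRep r₀)
    (hdet₀ : ∀ σ, (r₀ σ).det = algebraMap O _ (ιp ((cycP 2 σ : ℤ_[2]ˣ) : ℤ_[2])))
    (htr₀ : ∀ σ, ((r₀ σ).trace).1 = (m σ).trace)
    (hunr₀ : ∀ l : ℕ, l.Prime → ¬ l ∣ T.lvl K → l ≠ 2 → ∀ A : ValuationSubring Qb,
      A.LiesOverPrime l → ∀ σ ∈ A.inertiaSubgroupIn ℚ, r₀ σ = 1)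
    (hθsq : ∀ σ, (galChar Q' η σ : O') ^ 2 = f (T.fullDia K (T.galD σ)))
    (ψ₁ : T.Dgrp →* O') (val : T.alg K →ₐ[O] pointRing O O')
    (hval : ∀ x, (val x).1 = f (T.toFull K x)) :
    ∃ L : T.DepthPoint rb ιp K, (∀ x, L.both x = 0 →
      MonoidAlgebra.liftNCAlgHom (f.comp (T.toFull K)) ψ₁
        (fun _ _ => Commute.all _ _) x = 0) ∧ HasEigenLine L.ε := by
  have hpO2 : ((2 : ℕ) : O) ∈ maximalIdeal O := by exact_mod_cast hpO
  have h2O' : (2 : O') ∈ maximalIdeal O' := by
    have := FA.RT.natCast_mem_maximalIdeal (O' := O') hpO2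
    exact_mod_cast this
  have hlvl2 : ¬ 2 ∣ T.lvl K := fun h => by
    rcases T.dvd_lvl Nat.prime_two h with h | ⟨i, hi⟩
    · exact h2 h
    · exact T.qv_ne_two i hi.symm
  have hψres : ∀ d, residue O' (ψ₁ d) = 1 := fun d =>
    residue_eq_one_of_pow_two h2O' n (by rw [← map_pow, T.pow_eq_one, map_one])
  obtain ⟨psiB, hpsiB, -⟩ := exists_unit_twist (O := O) ψ₁ hψres
  obtain ⟨cB, hcB', hcres⟩ := exists_unit_twist (O := O)
    ((Units.coeHom O').comp (galChar Q' η) * ψ₁.comp T.galD) fun σ => by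
      show residue O' ((galChar Q' η σ : O') * ψ₁ (T.galD σ)) = 1
      rw [map_mul, hη.residual_galChar, hψres, one_mul]
  have hcB : ∀ σ, (cB σ).1 = (galChar Q' η σ : O') * ψ₁ (T.galD σ) := hcB'
  let rd : GQ →* Matrix (Fin 2) (Fin 2) (pointRing O O') := twistMat cB.toHomUnits r₀
  have hrd : ∀ σ, rd σ = cB σ • r₀ σ := fun σ => rfl
  have hcont : IsContRep rd := by
    refine FA.Twist.isContRep_twistMat hcont₀ ?_
    obtain ⟨L₁, hL₁, hL₁e⟩ := FA.Twist.exists_field_galChar Q' η
    obtain ⟨L₂, hL₂, hL₂e⟩ := FA.Twist.exists_field_galChar T.Qn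
      (T.qChar fun i => (ψ₁.toHomUnits.comp (MonoidHom.mulSingle _ i)).comp (T.logQ i))
    refine ⟨L₁ ⊔ L₂, inferInstance, fun σ hσ => Units.ext (Subtype.ext ?_)⟩
    have e1 := hL₁e σ fun a ha => hσ a ((le_sup_left : L₁ ≤ L₁ ⊔ L₂) ha)
    have e2 := hL₂e σ fun a ha => hσ a ((le_sup_right : L₂ ≤ L₁ ⊔ L₂) ha)
    rw [T.galChar_qChar_galD] at e2
    show (cB σ).1 = 1
    rw [hcB, e1, ← MonoidHom.coe_toHomUnits ψ₁, e2, Units.val_one, mul_one]
  have hone : ∀ l : ℕ, l.Prime → (∀ i, l ≠ T.qv i) → ∀ A : ValuationSubring Qb,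
      A.LiesOverPrime l → ∀ σ ∈ A.inertiaSubgroupIn ℚ, rd σ = r₀ σ := fun l hl hne A hA σ hσ => by
    rw [hrd, show cB σ = 1 from Subtype.ext (by
      rw [hcB, T.galD_inertia hl hne hA hσ, map_one, mul_one,
        FA.Twist.galChar_inertia Q' η hl (fun h => by
          obtain ⟨i, hi⟩ := T.mem_Qn.1 (hη.subset h)
          exact hne i hi.symm) hA hσ]
      rfl), one_smul]
  refine ⟨{
    B := pointRing O O'
    r := rd
    ε := pointRes O O'
    ε_algebraMap := fun c => FA.RT.pointRes_algebraMap c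
    lift := ?_
    cont := hcont
    val := val
    psi := psiB
    frob := ?_
    det := ?_
    unr := ?_
    unip := ?_
    line := ?_
    flat := ?_ }, fun x hx => ?_, hasEigenLine_pointRing hpO⟩
  · refine MonoidHom.ext fun σ => Matrix.ext fun i j => ?_
    show pointRes O O' (rd σ i j) = rb σ i j
    rw [hrd, Matrix.smul_apply, smul_eq_mul, map_mul, hcres, one_mul]
    exact congrFun (congrFun (DFunLike.congr_fun hlift₀ σ) i) j
  · intro ℓ h hS A hA σ hσ
    have hne : ∀ i, (ℓ : ℕ) ≠ T.qv i := fun i e => h (e ▸ T.qv_dvd K i)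
    have hℓ2 : (ℓ : ℕ) ≠ 2 := fun e => hS (by
      rw [show ℓ = ⟨2, Nat.prime_two⟩ from Subtype.ext e]; exact hp2S)
    obtain ⟨-, h1, -⟩ := hm.frob ℓ h hℓ2 A hA σ hσ
    rw [FA.Twist.twistMat_apply, Matrix.trace_smul, smul_eq_mul] at h1
    refine Subtype.ext ?_
    rw [hrd, Matrix.trace_smul, smul_eq_mul, Subalgebra.coe_mul, Subalgebra.coe_mul, hcB, htr₀,
      hpsiB, hval, T.toFull_apply, T.gT_val, FA.RT.goodToFull_goodT, T.galD_frobenius ℓ.2 hne hA hσ]
    refine Eq.trans ?_ (congrArg (ψ₁ (T.kap ℓ) * ·) h1)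
    ring
  · intro σ
    refine Subtype.ext ?_
    rw [hrd, Matrix.det_smul, Fintype.card_fin, Subalgebra.coe_mul, SubmonoidClass.coe_pow, hcB,
      hdet₀, Subalgebra.coe_mul, Subalgebra.coe_mul, SubmonoidClass.coe_pow, hpsiB, hval,
      ← fullDia_apply, ← hθsq, Subalgebra.coe_algebraMap]
    ring
  · intro l hl hlM hl2 A hA σ hσ
    rw [hone l hl (fun i e => hlM (e ▸ T.qv_dvd K i)) A hA σ hσ]
    exact hunr₀ l hl hlM hl2 A hA σ hσ
  · intro l hl hl2 hld hll A hA σ hσ
    have hne : ∀ i, l ≠ T.qv i := fun i e => T.Q_not_dvd K (T.mem_Q.2 ⟨i, rfl⟩) (e ▸ hld)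
    rw [hone l hl hne A hA σ hσ]
    have hlM : ¬ l * l ∣ T.lvl K := fun hd => hll <| by
      refine Nat.Coprime.dvd_of_dvd_mul_right ?_ hd
      rw [T.prod_Q]
      exact Nat.Coprime.prod_right fun i _ =>
        Nat.Coprime.mul_left ((Nat.coprime_primes hl (T.prime i)).2 (hne i))
          ((Nat.coprime_primes hl (T.prime i)).2 (hne i))
    refine sub_one_sq_of_trace _ (Subtype.ext ?_) ?_
    · rw [htr₀, hw.trace_tame_sq hpO2 hz hη hm hl hl2
        (fun h => by obtain ⟨i, hi⟩ := T.mem_Qn.1 h; exact hne i hi.symm) hlM hA hσ]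
      rfl
    · rw [hdet₀, FA.JTorsion.cycP_inertia 2 hl hl2 hA hσ, Units.val_one, map_one, map_one]
  · intro i A hA φ' hφ' s hs
    have hS := T.notMem_S i
    obtain ⟨hb1, hb2⟩ := hrb _ hS A hA φ' hφ'
    have hb3 : (rb φ').det = 1 := hb2.trans (T.qv_cast i)
    have hα : residue O (T.αn (T.qv i)) ^ 2 - (rb φ').trace * residue O (T.αn (T.qv i)) +
        (rb φ').det = 0 := by
      rw [T.αn_qv, hb1, hb3]
      exact T.root i
    have hreg : (rb φ').trace ^ 2 ≠ 4 * (rb φ').det := by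
      rw [hb1, hb3, mul_one, show (4 : ResidueField O) = 0 by
        linear_combination (2 : ResidueField O) * (CharTwo.two_eq_zero : (2 : ResidueField O) = 0)]
      exact pow_ne_zero 2 (T.simple i)
    haveI : Fact (T.qv i).Prime := ⟨T.prime i⟩
    obtain ⟨a₀, ha1, ha2, ha3⟩ := hw.exists_line_sq hpO2 hspan hdetrb hz hη hm hlift₀ hcont₀ htr₀
      hdet₀ (T.qv_mem i) hA hφ' hs (hunr _ hS A hA) hα hreg
    obtain ⟨u, hu⟩ : ∃ u : pointRing O O', u.1 = ((galChar Q' η s)⁻¹ : O'ˣ).1 :=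
      ⟨⟨((galChar Q' η s⁻¹ : O'ˣ) : O'), ⟨1, by rw [map_one]; exact hη.residual_galChar s⁻¹⟩⟩,
        congrArg Units.val (map_inv (galChar Q' η) s)⟩
    obtain ⟨h1, h2'⟩ := line_twist (X := r₀ φ') (Y := r₀ s) (c := cB φ') (d := cB s) (u := u)
      (v := psiB (T.galD s)) ha2 (Subtype.ext (by
        rw [Subalgebra.coe_mul, hcB, hu, hpsiB, mul_comm, ← mul_assoc, Units.inv_mul, one_mul]))
      (Subtype.ext (by
        simp only [Subalgebra.coe_mul, Subalgebra.coe_sub, two_mul, Subalgebra.coe_add, hu]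
        rw [← two_mul]
        exact ha3))
    refine ⟨cB φ' * a₀, ?_, ?_, ?_⟩
    · rw [map_mul, hcres, one_mul, ha1, T.αn_qv]
    · rw [hrd]; exact h1
    · rw [hrd, hrd]; exact h2'
  · intro A hA
    exact hasFlatModels_of_inertia Nat.prime_two hcont₀ hcont hA
      (fun σ hσ => hone 2 Nat.prime_two (fun i => (T.qv_ne_two i).symm) A hA σ hσ)
      (hw.hasFlatModels hpO2 hlvl2 hspan hz hη hm hlift₀ hcont₀ hdet₀ htr₀ hA)
  · have hx' := congrArg Subtype.val hx
    refine Eq.trans ?_ hx'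
    show _ = (MonoidAlgebra.liftNCAlgHom val psiB (fun _ _ => Commute.all _ _) x).1
    clear hx hx'
    induction x using MonoidAlgebra.induction_linear with
    | zero => simp
    | add x y hx hy => simp only [map_add, hx, hy, Subalgebra.coe_add]
    | single d a =>
      simp [MonoidAlgebra.liftNCAlgHom, MonoidAlgebra.liftNCRingHom, hval, hpsiB]

end rep

set_option maxHeartbeats 30000000 in
/-- **The lift of a point at a Taylor-Wiles level.** -/
theorem exists_depthPoint [Finite (ResidueField O)] (K : Finset ι) (ιp : ℤ_[2] →+* O)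
    (hpO : (2 : O) ∈ maximalIdeal O)
    (hspan : Submodule.span (ResidueField O) (Set.range rb) = ⊤)
    (hopen : IsOpen (rb.ker : Set GQ)) (hrb : Bd.ResidualFrob rb)
    (hp2S : (⟨2, Nat.prime_two⟩ : Nat.Primes) ∈ Bd.S)
    (hunr : ∀ l : Nat.Primes, l ∉ Bd.S → ∀ A : ValuationSubring Qb, A.LiesOverPrime (l : ℕ) →
      ∀ σ ∈ A.inertiaSubgroupIn ℚ, rb σ = 1)
    (h2 : ¬ 2 ∣ Bd.lev K)
    (P : AlgPoint O (MonoidAlgebra (T.alg K) T.Dgrp)) :
    ∃ L : T.DepthPoint rb ιp K, (∀ x, L.both x = 0 → P.hom x = 0) ∧ HasEigenLine L.ε := by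
  haveI : Fact (Nat.Prime 2) := ⟨Nat.prime_two⟩
  have hpO2 : ((2 : ℕ) : O) ∈ maximalIdeal O := by exact_mod_cast hpO
  have hw := T.twPiece rb K hrb hp2S
  have hdetrb := hrb.det_eq hopen ιp
  obtain ⟨P₀, ψ, ζ, hζ, hP₀⟩ :=
    exists_root_point_group (T.toFull K) (T.toFull_injective K) (pow_pos two_pos n) P
  obtain ⟨Q', η, hneb, hsq⟩ := T.exists_nebSq K hpO P₀ hζ
  obtain ⟨O', i₁, i₂, i₃, i₄, i₅, i₆, i₇, i₈, i₉, i₁₀, g, hg, z, m, hz, hη, hm⟩ :=
    hw.exists_rep_of_neb hpO2 ιp P₀ hneb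
  haveI : Module.IsTorsionFree O O' := inferInstance
  have h2O' : (2 : O') ∈ maximalIdeal O' := by
    have := FA.RT.natCast_mem_maximalIdeal (O' := O') hpO2
    exact_mod_cast this
  have hθ : ∀ σ, (galChar Q' (fun q => (η q).ringHomComp g.toRingHom) σ : O') ^ 2 =
      g.comp P₀.hom (T.fullDia K (T.galD σ)) := fun σ =>
    galChar_sq_map g.toRingHom Q' η σ (hsq σ)
  obtain ⟨r₀, hlift₀, hcont₀, hdet₀, htr₀, U, hU, hUm⟩ :=
    hw.exists_lift_sq hopen hspan hdetrb hz hη hm
  let val : T.alg K →ₐ[O] pointRing O O' :=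
    ((g.comp P₀.hom).comp (T.toFull K)).codRestrict (pointRing O O') fun x =>
      T.apply_mem_pointRing h2O' hw hp2S hη hm htr₀ x
  obtain ⟨L, hL, hE⟩ := T.depthPoint_of_rep hpO hw hspan hrb hdetrb hp2S hunr h2 hz hη hm hlift₀
    hcont₀ hdet₀ htr₀ (fun l hl hlM hl2 A hA σ hσ => by
      have h1 := hUm σ
      rw [hm.unr l hl hlM hl2 A hA σ hσ, mul_one] at h1
      have h3 : (r₀ σ).map (pointRing O O').val = 1 :=
        hU.mul_left_injective (h1.symm.trans (one_mul U).symm)
      refine Matrix.ext fun i j => Subtype.ext ?_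
      rw [show ((r₀ σ i j : pointRing O O') : O') = ((r₀ σ).map (pointRing O O').val) i j from rfl,
        h3]
      rcases eq_or_ne i j with rfl | hne <;> simp [*])
    hθ (g.toMonoidHom.comp ψ) val (fun x => rfl)
  refine ⟨L, fun x hx => hP₀ x (hg ?_), hE⟩
  rw [map_zero]
  refine Eq.trans ?_ (hL x hx)
  clear hx
  induction x using MonoidAlgebra.induction_linear with
  | zero => simp
  | add x y hx hy => simp only [map_add, hx, hy]
  | single d a => simp [MonoidAlgebra.liftNCAlgHom, MonoidAlgebra.liftNCRingHom]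

end BaseData.TWData

end FA.Two
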