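import Fermat.Agent.Two.BasePointOf
import Fermat.Agent.Two.DepthPointOf

/-!
# The local conditions of the lifts of the base at `p = 2`

The lift of a point of the good algebra of a level prime to `2` has cyclotomic determinant, flat
models over `2` and unipotent inertia at the primes exactly dividing the level.
-/

set_option autoImplicit false
set_option linter.unusedSectionVars false
set_option linter.style.haveILetI false
set_option synthInstance.maxHeartbeats 400000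
set_option maxHeartbeats 4000000

noncomputable section

namespace FA.Two

open IsLocalRing Matrix FA.Deform FA.HeckeH1
open FA.RT (AlgPoint pointRing pointRes)
open FA.JTorsion (cycP)
open scoped MatrixGroups

local notation "Qb" => AlgebraicClosure ℚ
local notation "GQ" => AlgebraicClosure ℚ ≃ₐ[ℚ] AlgebraicClosure ℚ

variable {O : Type} [CommRing O] [IsDomain O] [IsDiscreteValuationRing O]
  [IsAdicComplete (maximalIdeal O) O] [CharZero O]

namespace BaseData

variable {ι : Type} [DecidableEq ι] (Bd : BaseData O ι) (K : Finset ι)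
  {rb : GQ →* Matrix (Fin 2) (Fin 2) (ResidueField O)} [Finite (ResidueField O)]

/-- **The lift of a point of the base with its local conditions at `p = 2`.** -/
theorem exists_levelPoint_local (ιp : ℤ_[2] →+* O) (hpO : (2 : O) ∈ maximalIdeal O)
    (hpS : (⟨2, Nat.prime_two⟩ : Nat.Primes) ∈ Bd.S) (hopen : IsOpen (rb.ker : Set GQ))
    (hspan : Submodule.span (ResidueField O) (Set.range rb) = ⊤) (hrb : Bd.ResidualFrob rb)
    (h2 : ¬ 2 ∣ Bd.lev K) (P : AlgPoint O (Bd.Good K)) :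
    ∃ L : Bd.LevelPoint K rb 2, (∀ a, L.val a = 0 → P.hom (Bd.toGood K a) = 0) ∧
      (∀ A : ValuationSubring Qb, A.LiesOverPrime 2 →
        FA.TW.HasFlatModels (ofMatrix L.r L.cont) A) ∧
      (∀ σ, (L.r σ).det = algebraMap O L.B (ιp ((cycP 2 σ : ℤ_[2]ˣ) : ℤ_[2]))) ∧
      (∀ l : ℕ, l.Prime → l ≠ 2 → l ∣ Bd.lev K → ¬ l * l ∣ Bd.lev K →
        ∀ A : ValuationSubring Qb, A.LiesOverPrime l → ∀ σ ∈ A.inertiaSubgroupIn ℚ,
          (L.r σ - 1) ^ 2 = 0) ∧ HasEigenLine L.ε := by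
  classical
  haveI : Fact (Nat.Prime 2) := ⟨Nat.prime_two⟩
  have hpO2 : ((2 : ℕ) : O) ∈ maximalIdeal O := by exact_mod_cast hpO
  obtain ⟨O', i1, i2, i3, i4, i5, i6, i7, i8, i9, i10, g, m, r, val, hgP, hm, hfr, hlift, hcont,
    hconj, hval, hunr⟩ := Bd.exists_goodPoint_lift K 2 hpO2 hpS hopen hspan hrb P
  haveI : Module.IsTorsionFree O O' := inferInstance
  have h2O' : ((2 : ℕ) : O') ∈ maximalIdeal O' := FA.RT.natCast_mem_maximalIdeal hpO2
  let S : Finset ℕ := Bd.S.image fun l : Nat.Primes => (l : ℕ)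
  have hnS : ∀ (l : ℕ) (hl : l.Prime), l ∉ S → (⟨l, hl⟩ : Nat.Primes) ∉ Bd.S := fun l hl h hm =>
    h (Finset.mem_image.2 ⟨_, hm, rfl⟩)
  have hS : ∀ q : ℕ, q.Prime → q ∣ Bd.lev K → q ∈ S := fun q hq hd =>
    by_contra fun h => Bd.not_dvd_lev (hnS q hq h) K hd
  have h2S : 2 ∈ S := Finset.mem_image.2 ⟨_, hpS, rfl⟩
  have hdet : ∀ σ, (m σ).det = algebraMap O O' (ιp ((cycP 2 σ : ℤ_[2]ˣ) : ℤ_[2])) :=
    FA.RT.det_eq_cycP (p := 2) h2O' ((algebraMap O O').comp ιp) hm S fun q hq hqS A hA τ hτ =>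
      (hfr ⟨q, hq⟩ (hnS q hq hqS) A hA τ hτ).2
  have hrdet : ∀ σ, (r σ).det = algebraMap O _ (ιp ((cycP 2 σ : ℤ_[2]ˣ) : ℤ_[2])) := fun σ =>
    Subtype.ext ((hconj σ).2.trans (hdet σ))
  -- the eigen class of the point
  obtain ⟨z, hzp, hz0, -, hT⟩ := exists_eigenclass (Bd.eIdem K) (Bd.eIdem_mem_Par K)
    (fun a v => Bd.eIdem_goodOp K a v) g
  let c : ℕ → O' := fun l => if h : l.Prime ∧ ¬ l ∣ Bd.lev K then
    g (goodT (Bd.eIdem K) ⟨l, h.1, h.2⟩) else 0
  have heig : ∀ l : ℕ, [Fact l.Prime] → l ∉ S → (Tc (Bd.lev K) ⊤ l).act z = c l • z := by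
    intro l hl hlS
    have h : l.Prime ∧ ¬ l ∣ Bd.lev K :=
      ⟨Fact.out, fun hd => hlS (hS l Fact.out hd)⟩
    rw [show c l = _ from dif_pos h]
    exact hT ⟨l, h.1, h.2⟩
  have hfrc : ∀ l : ℕ, l.Prime → l ∉ S → ∀ A : ValuationSubring Qb, A.LiesOverPrime l →
      ∀ τ : GQ, A.IsFrobeniusAt τ l → (m τ).trace = c l ∧ (m τ).det = (l : O') := by
    intro l hl hlS A hA τ hτ
    obtain ⟨h1, h2⟩ := hfr ⟨l, hl⟩ (hnS l hl hlS) A hA τ hτ
    have h : l.Prime ∧ ¬ l ∣ Bd.lev K := ⟨hl, fun hd => hlS (hS l hl hd)⟩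
    refine ⟨h1.trans ?_, h2⟩
    rw [show c l = _ from dif_pos h]
    exact congrArg g (Bd.toGood_Tl (hnS l hl hlS) K)
  obtain ⟨χ, hχ⟩ := FA.Twist.exists_point (Bd.lev K) S hS hzp hz0 c heig
  have hmem : ∀ t, χ t ∈ pointRing O O' := by
    rintro ⟨t, ht⟩
    induction ht using Algebra.adjoin_induction with
    | mem x hx =>
      rcases hx with ⟨ℓ, hℓ, hℓN, hℓS, rfl⟩ | ⟨q, hqM, hq, hqS, rfl⟩
      · obtain ⟨A, hA⟩ := exists_liesOverPrime hℓ
        obtain ⟨τ, hτ⟩ := exists_isFrobeniusAt hℓ hA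
        have h1 := ((r τ).trace).2
        rw [(hconj τ).1, (hfrc ℓ hℓ (by simpa using hℓS) A hA τ hτ).1, ← hχ ℓ hℓ hℓN hℓS] at h1
        exact h1
      · exact absurd (hS q hq hqM) (by simpa using hqS)
    | algebraMap n =>
      have e : χ ⟨algebraMap ℤ _ n, Subalgebra.algebraMap_mem _ n⟩ = (n : O') := map_intCast χ n
      rw [e]
      exact intCast_mem _ n
    | add x y hx hy ihx ihy => exact (map_add χ ⟨x, hx⟩ ⟨y, hy⟩).symm ▸ add_mem ihx ihy
    | mul x y hx hy ihx ihy => exact (map_mul χ ⟨x, hx⟩ ⟨y, hy⟩).symm ▸ mul_mem ihx ihy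
  have hpB : ((2 : ℕ) : pointRing O O') ∈ maximalIdeal (pointRing O O') := by
    refine (IsLocalRing.mem_maximalIdeal _).mpr fun hu => not_isUnit_zero (M₀ := ResidueField O) ?_
    rw [← (residue_eq_zero_iff _).mpr hpO2, map_natCast, ← map_natCast (pointRes O O')]
    exact hu.map _
  refine ⟨{
    B := pointRing O O'
    r := r
    ε := pointRes O O'
    ε_algebraMap := fun c => FA.RT.pointRes_algebraMap c
    lift := hlift
    cont := hcont
    val := val
    frob := fun ℓ hℓ A hA σ hσ => by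
      obtain ⟨h1, h2'⟩ := hfr ℓ hℓ A hA σ hσ
      exact ⟨Subtype.ext (((hval _).trans h1.symm).trans (hconj σ).1.symm),
        Subtype.ext ((hconj σ).2.trans (h2'.trans (by simp)))⟩
    unr := hunr }, fun a ha => hgP _ ((hval a).symm.trans (congrArg Subtype.val ha)),
    fun A hA => ?_, hrdet, fun l hl hl2 hld hll A hA σ hσ => ?_, hasEigenLine_pointRing hpO⟩
  · refine hasFlatModels_of_traces Nat.prime_two hpB r
      (FA.RT.span_eq_top_of_lift (pointRes O O') (fun c => FA.RT.pointRes_algebraMap c) hspan hlift)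
      hcont (Bd.lev K) h2 S (χ.codRestrict (pointRing O O') hmem) ∅
      (fun ℓ hℓ hℓN hℓS _ A' hA' τ hτ => ?_) hA
    have hℓS' : ℓ ∉ S := by simpa using hℓS
    refine ⟨Subtype.ext ?_, Subtype.ext ?_⟩
    · exact (hconj τ).1.trans ((hfrc ℓ hℓ hℓS' A' hA' τ hτ).1.trans (hχ ℓ hℓ hℓN hℓS).symm)
    · exact (hconj τ).2.trans ((hfrc ℓ hℓ hℓS' A' hA' τ hτ).2.trans (by simp))
  · have hd1 : (m σ).det = 1 := by
      rw [hdet, FA.JTorsion.cycP_inertia 2 hl hl2 hA hσ, Units.val_one, map_one, map_one]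
    show (r σ - 1) ^ 2 = 0
    have hd2 : (r σ).det = 1 := Subtype.ext ((hconj σ).2.trans hd1)
    have ht2 : ((r σ).trace).1 = (2 : O') := by
      rw [(hconj σ).1]
      exact FA.RT.trace_inertia_of_eigenclass h2O' (Bd.lev K) hl hl2 hld hll hA hσ S h2S hS
        c m hm hfrc hd1 z hzp hz0 heig
    exact sub_one_sq_of_trace (r σ) (Subtype.ext ht2) hd2

end BaseData

end FA.Two
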