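import Fermat.Agent.Two.PointsOn
import Fermat.Agent.Two.BasePointLocal
import Fermat.Agent.RT.SpanFrame

/-!
# The base separated by lifts with local conditions

The lifts of the points of the base levels, with their local conditions at `p = 2`, as an algebra
separated by lifts, with the operators of the auxiliary primes.
-/

set_option autoImplicit false
set_option linter.unusedSectionVars false
set_option linter.style.haveILetI false
set_option synthInstance.maxHeartbeats 400000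
set_option maxHeartbeats 1600000

noncomputable section

namespace FA.Two

open IsLocalRing Matrix FA.Deform FA.HeckeH1
open FA.JTorsion (cycP)

local notation "Qb" => AlgebraicClosure ℚ
local notation "GQ" => AlgebraicClosure ℚ ≃ₐ[ℚ] AlgebraicClosure ℚ

variable {O : Type} [CommRing O] [IsDomain O] [IsDiscreteValuationRing O]
  [IsAdicComplete (maximalIdeal O) O] [CharZero O] [Finite (ResidueField O)]

/-- A spanning representation has an element with a nonzero upper corner. -/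
theorem exists_corner_ne_zero {k : Type} [Field k] (r : GQ →* Matrix (Fin 2) (Fin 2) k)
    (h : Submodule.span k (Set.range r) = ⊤) : ∃ σ, r σ 0 1 ≠ 0 := by
  by_contra hcon
  push Not at hcon
  have key : ∀ M ∈ Submodule.span k (Set.range r), M 0 1 = 0 := by
    intro M hM
    induction hM using Submodule.span_induction with
    | mem x hx => obtain ⟨s, rfl⟩ := hx; exact hcon s
    | zero => rfl
    | add x y _ _ hx hy => rw [Matrix.add_apply, hx, hy, add_zero]
    | smul c x _ hx => rw [Matrix.smul_apply, hx, smul_zero]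
  exact one_ne_zero (α := k) (key !![0, 1; 0, 0] (h ▸ Submodule.mem_top))

namespace BaseData

variable {ι : Type} [DecidableEq ι] {Bd : BaseData O ι}
  {rb : GQ →* Matrix (Fin 2) (Fin 2) (ResidueField O)}

theorem sq_not_dvd_lev (hsq : ∀ l : ℕ, l.Prime → ¬ l * l ∣ Bd.D) {l : ℕ} (hl : l.Prime)
    (K : Finset ι) : ¬ l * l ∣ Bd.lev K := by
  by_cases hx : ∃ x ∈ K, l = Bd.qn x
  · obtain ⟨x, hx, rfl⟩ := hx
    rw [(Bd.isStep hx).eq]
    intro h
    exact (Bd.isStep hx).not_dvd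
      (Nat.dvd_of_mul_dvd_mul_right (Bd.qn_prime x).pos h)
  · intro h
    have hco : Nat.Coprime (l * l) (∏ x ∈ K, Bd.qn x) := by
      refine Nat.Coprime.prod_right fun x hxK => ?_
      have := (Nat.coprime_primes hl (Bd.qn_prime x)).2 fun e => hx ⟨x, hxK, e⟩
      exact this.mul_left this
    exact hsq l hl (hco.dvd_of_dvd_mul_right h)

variable [Fintype ι] [Algebra Qb ℂ] [Fact (Nat.Prime 2)] [CharP (ResidueField O) 2]

/-- **The base separated by lifts with their local conditions.** -/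
theorem AuxPlaces.exists_baseSep (P : Bd.AuxPlaces rb) (h : Bd.BaseOK rb) (ιp : ℤ_[2] →+* O)
    (hopen : IsOpen (rb.ker : Set GQ)) (hrb : Bd.ResidualFrob rb)
    (h2 : ∀ K, ¬ 2 ∣ Bd.lev K) (hsq : ∀ l : ℕ, l.Prime → ¬ l * l ∣ Bd.D) :
    ∃ (Pts : Bd.BasePoints rb 2) (M : Pts.fam.Model) (f : M.R →ₐ[O] Bd.alg)
      (hf : Pts.IsBaseHom M f) (S0 : SepAlg rb Bd.alg),
      S0.Local Bd ∅ ∧
      (∀ j σ, (S0.fam.r j σ).det =
        algebraMap O (S0.fam.B j) (ιp ((cycP 2 σ : ℤ_[2]ˣ) : ℤ_[2]))) ∧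
      (∀ ℓ : Nat.Primes, ℓ ∉ Bd.S → ∀ V : ValuationSubring Qb, V.LiesOverPrime (ℓ : ℕ) →
        ∀ σ : GQ, V.IsFrobeniusAt σ (ℓ : ℕ) → S0.f (S0.M.rR σ).trace = Bd.Tl ℓ) ∧
      ∀ x, S0.nOp P x = P.nB hf x := by
  classical
  have hred : ∀ K, IsReduced (Bd.Good K) := fun K =>
    isReduced_goodAlg (Bd.eIdem K) (Bd.eIdem_mem_Par K) ∅
      (fun q hq => absurd hq (Finset.notMem_empty q)) (fun u _ => Subgroup.mem_top u)
  choose J hJ P' hP using fun K =>
    (haveI := hred K; FA.RT.exists_algPoints (O := O) (A := Bd.Good K))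
  haveI := hJ
  choose L hL hflat hdet hunip hline using fun (K : Finset ι) (j : J K) =>
    Bd.exists_levelPoint_local K ιp h.two_mem h.two_S hopen h.span hrb (h2 K) (P' K j)
  have hne : Nonempty (Σ K, J K) := by
    haveI := Bd.nontrivial_good ∅
    by_contra hn
    exact one_ne_zero (hP ∅ 1 fun j => absurd ⟨⟨∅, j⟩⟩ hn)
  haveI := hne
  have hsep : ∀ (K₀ : Finset ι) (a : Bd.alg),
      (∀ j : Σ K, J K, j.1 = K₀ → (L j.1 j.2).val a = 0) → Bd.toGood K₀ a = 0 := fun K₀ a h' =>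
    hP K₀ _ fun j => hL K₀ j a (h' ⟨K₀, j⟩ rfl)
  let Pts : Bd.BasePoints rb 2 := {
    J := Σ K, J K
    K := Sigma.fst
    L := fun j => L j.1 j.2
    separate := fun a h' => Bd.toGood_injective fun K => hsep K a fun j _ => h' j
    separate_level := hsep }
  obtain ⟨Fr, hFr⟩ := FA.RT.exists_frame_of_span rb h.span
  obtain ⟨M⟩ := Pts.fam.nonempty_model Fr hFr (exists_corner_ne_zero rb h.span)
  obtain ⟨f, hf⟩ := Pts.exists_baseHom M
  let S0 : SepAlg rb Bd.alg := {
    fam := Pts.fam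
    isDomain := fun j => (L j.1 j.2).isDomain
    torsionFree := fun j => inferInstanceAs (Module.IsTorsionFree O (L j.1 j.2).B)
    val := fun j => (L j.1 j.2).val
    separate := Pts.separate
    eigenLine := fun j => hline j.1 j.2
    M := M
    f := f
    val_f := hf }
  have hlev : ∀ (j : Σ K, J K) (l : ℕ), l.Prime → l ∣ Bd.lev j.1 →
      l ∣ Bd.D ∨ ∃ x, l = Bd.qn x := fun j l hl hd =>
    (Bd.dvd_lev hl hd).imp id fun ⟨x, _, hx⟩ => ⟨x, hx⟩
  refine ⟨Pts, M, f, hf, S0,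
    ⟨fun j l hl hl2 hlD hlq _ V hV σ hσ => ?_, fun j l hl hl2 _ V hV σ hσ => ?_,
      fun V _ σ _ => ⟨ιp ((cycP 2 σ : ℤ_[2]ˣ) : ℤ_[2]), fun j => hdet j.1 j.2 σ⟩,
      fun j V hV => hflat j.1 j.2 V hV⟩, fun j σ => hdet j.1 j.2 σ,
    fun ℓ hℓ V hV σ hσ => (BasePoints.baseHom_frob hf hℓ hV hσ).1, fun x => ?_⟩
  · refine (L j.1 j.2).unr l hl (fun hd => ?_) hl2 V hV σ hσ
    rcases hlev j l hl hd with hd | ⟨x, hx⟩
    · exact hlD hd
    · exact hlq x hx
  · by_cases hd : l ∣ Bd.lev j.1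
    · exact hunip j.1 j.2 l hl hl2 hd (Bd.sq_not_dvd_lev hsq hl j.1) V hV σ hσ
    · show ((L j.1 j.2).r σ - 1) ^ 2 = 0
      rw [(L j.1 j.2).unr l hl hd hl2 V hV σ hσ, sub_self]
      exact zero_pow two_ne_zero
  · exact congrArg f (Pts.nOp_eq M (P.s x) P.γ).symm

end BaseData

end FA.Two

end
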