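import Fermat.Agent.Two.Cube
import Mathlib.LinearAlgebra.Matrix.Rank
import Mathlib.LinearAlgebra.Matrix.ToLin
import Mathlib.LinearAlgebra.FiniteDimensional.Lemmas

/-!
# The cube of the base levels modulo the maximal ideal

Matrices of degeneracy maps and operators over a field: if at each step the map up is injective,
the map down surjective, the operator `n` vanishes below and has rank at least the new dimension,
then these form a cube of levels.
-/

set_option autoImplicit false

noncomputable section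

open Matrix

namespace FA.Two

variable {ι : Type} [DecidableEq ι] {A k : Type} [CommRing A] [Field k]

/-- Levels of a cube given by matrices. -/
structure CubeInput (ι A k : Type) [DecidableEq ι] [CommRing A] [Field k] where
  /-- the dimensions -/
  d : Finset ι → ℕ
  /-- the actions -/
  act : ∀ K, A →+* Matrix (Fin (d K)) (Fin (d K)) k
  /-- the operators -/
  n : ι → A
  /-- the maps up -/
  up : ∀ (q : ι) (K : Finset ι), Matrix (Fin (d K)) (Fin 2 × Fin (d (K.erase q))) k
  /-- the maps down -/
  down : ∀ (q : ι) (K : Finset ι), Matrix (Fin 2 × Fin (d (K.erase q))) (Fin (d K)) k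
  up_inj : ∀ q K, q ∈ K → Function.Injective (up q K).mulVec
  down_surj : ∀ q K, q ∈ K → Function.Surjective (down q K).mulVec
  up_act : ∀ q K, q ∈ K → ∀ a i x,
    ((act K a * up q K) x (i : Fin 2 × Fin (d (K.erase q)))) =
      (up q K * Matrix.of fun (j l : Fin 2 × Fin (d (K.erase q))) =>
        if j.1 = l.1 then act (K.erase q) a j.2 l.2 else 0) x i
  down_act : ∀ q K, q ∈ K → ∀ a i x,
    ((down q K * act K a) (i : Fin 2 × Fin (d (K.erase q))) x) =
      ((Matrix.of fun (j l : Fin 2 × Fin (d (K.erase q))) =>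
        if j.1 = l.1 then act (K.erase q) a j.2 l.2 else 0) * down q K) i x
  n_low : ∀ q K, q ∉ K → act K (n q) = 0
  rank_n : ∀ q K, q ∈ K → d K ≤ (act K (n q)).rank + 2 * d (K.erase q)

namespace CubeInput

variable (D : CubeInput ι A k)

/-- The module of a level. -/
def Mod (K : Finset ι) : Type := Fin (D.d K) → k

instance (K : Finset ι) : AddCommGroup (D.Mod K) := inferInstanceAs (AddCommGroup (Fin (D.d K) → k))

instance modModule (K : Finset ι) : Module A (D.Mod K) :=
  Module.compHom (Fin (D.d K) → k)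
    ((Matrix.toLinAlgEquiv' (R := k) (n := Fin (D.d K))).toRingEquiv.toRingHom.comp (D.act K))

theorem smul_def {K : Finset ι} (a : A) (v : D.Mod K) :
    a • v = (D.act K a *ᵥ (v : Fin (D.d K) → k) : Fin (D.d K) → k) := rfl

/-- A vector as an element of a level. -/
abbrev vec {K : Finset ι} (v : D.Mod K) : Fin (D.d K) → k := v

/-- The same action on two copies. -/
def pairAct (K : Finset ι) (a : A) : Matrix (Fin 2 × Fin (D.d K)) (Fin 2 × Fin (D.d K)) k :=
  Matrix.of fun j l => if j.1 = l.1 then D.act K a j.2 l.2 else 0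

theorem pairAct_mulVec (K : Finset ι) (a : A) (x : Fin 2 × Fin (D.d K) → k) (i : Fin 2)
    (u : Fin (D.d K)) : (D.pairAct K a *ᵥ x) (i, u) = (D.act K a *ᵥ fun v => x (i, v)) u := by
  fin_cases i <;>
    simp [pairAct, Matrix.mulVec, dotProduct, Fintype.sum_prod_type]

theorem act_mul_up (q : ι) {K : Finset ι} (hq : q ∈ K) (a : A) :
    D.act K a * D.up q K = D.up q K * D.pairAct (K.erase q) a :=
  Matrix.ext fun x i => D.up_act q K hq a i x

theorem down_mul_act (q : ι) {K : Finset ι} (hq : q ∈ K) (a : A) :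
    D.down q K * D.act K a = D.pairAct (K.erase q) a * D.down q K :=
  Matrix.ext fun i x => D.down_act q K hq a i x

theorem n_mul_up (q : ι) {K : Finset ι} (hq : q ∈ K) : D.act K (D.n q) * D.up q K = 0 := by
  rw [D.act_mul_up q hq, show D.pairAct (K.erase q) (D.n q) = 0 from Matrix.ext fun i j => by
    simp [pairAct, D.n_low q _ (Finset.notMem_erase q K)], Matrix.mul_zero]

theorem down_mul_n (q : ι) {K : Finset ι} (hq : q ∈ K) : D.down q K * D.act K (D.n q) = 0 := by
  rw [D.down_mul_act q hq, show D.pairAct (K.erase q) (D.n q) = 0 from Matrix.ext fun i j => by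
    simp [pairAct, D.n_low q _ (Finset.notMem_erase q K)], Matrix.zero_mul]

/-- The kernel of `n` is the image from below and its image is the kernel to below. -/
theorem ker_range_n (q : ι) {K : Finset ι} (hq : q ∈ K) :
    LinearMap.ker (D.act K (D.n q)).mulVecLin = LinearMap.range (D.up q K).mulVecLin ∧
      LinearMap.range (D.act K (D.n q)).mulVecLin = LinearMap.ker (D.down q K).mulVecLin := by
  set f := (D.act K (D.n q)).mulVecLin
  set u := (D.up q K).mulVecLin
  set w := (D.down q K).mulVecLin
  have hr : D.d K ≤ Module.finrank k (LinearMap.range f) + 2 * D.d (K.erase q) := D.rank_n q K hq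
  have hu : Module.finrank k (LinearMap.range u) = 2 * D.d (K.erase q) := by
    rw [LinearMap.finrank_range_of_inj (show Function.Injective u from D.up_inj q K hq),
      Module.finrank_fintype_fun_eq_card, Fintype.card_prod, Fintype.card_fin, Fintype.card_fin]
  have hle : LinearMap.range u ≤ LinearMap.ker f := by
    rintro _ ⟨y, rfl⟩
    show D.act K (D.n q) *ᵥ (D.up q K *ᵥ y) = 0
    rw [mulVec_mulVec, D.n_mul_up q hq, zero_mulVec]
  have hle' : LinearMap.range f ≤ LinearMap.ker w := by
    rintro _ ⟨y, rfl⟩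
    show D.down q K *ᵥ (D.act K (D.n q) *ᵥ y) = 0
    rw [mulVec_mulVec, D.down_mul_n q hq, zero_mulVec]
  have hsum := f.finrank_range_add_finrank_ker
  rw [Module.finrank_fintype_fun_eq_card, Fintype.card_fin] at hsum
  have hw := w.finrank_range_add_finrank_ker
  rw [LinearMap.range_eq_top.mpr (show Function.Surjective w from D.down_surj q K hq), finrank_top,
    Module.finrank_fintype_fun_eq_card, Module.finrank_fintype_fun_eq_card, Fintype.card_prod,
    Fintype.card_fin, Fintype.card_fin, Fintype.card_fin] at hw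
  have h1 := Submodule.finrank_mono hle
  have h2 := Submodule.finrank_mono hle'
  exact ⟨(Submodule.eq_of_le_of_finrank_le hle (by omega)).symm,
    Submodule.eq_of_le_of_finrank_le hle' (by omega)⟩

/-- The map up on pairs. -/
def upMap (q : ι) (K : Finset ι) (hq : q ∈ K) : (Fin 2 → D.Mod (K.erase q)) →ₗ[A] D.Mod K where
  toFun y := (D.up q K *ᵥ fun iu => (y iu.1 : Fin (D.d (K.erase q)) → k) iu.2 :
    Fin (D.d K) → k)
  map_add' y z := mulVec_add (D.up q K) (fun iu => D.vec (y iu.1) iu.2)
    fun iu => D.vec (z iu.1) iu.2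
  map_smul' a y := by
    show D.up q K *ᵥ _ = D.act K a *ᵥ (D.up q K *ᵥ _)
    rw [mulVec_mulVec, D.act_mul_up q hq, ← mulVec_mulVec]
    congr 1
    funext iu
    rw [D.pairAct_mulVec]
    rfl

/-- The map down to pairs. -/
def downMap (q : ι) (K : Finset ι) (hq : q ∈ K) : D.Mod K →ₗ[A] (Fin 2 → D.Mod (K.erase q)) where
  toFun v i := (fun u => (D.down q K *ᵥ (v : Fin (D.d K) → k)) (i, u) :
    Fin (D.d (K.erase q)) → k)
  map_add' v w := funext fun i => funext fun u => congrFun (mulVec_add (D.down q K) _ _) (i, u)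
  map_smul' a v := funext fun i => funext fun u => by
    show (D.down q K *ᵥ (D.act K a *ᵥ D.vec v)) (i, u) = _
    rw [mulVec_mulVec, D.down_mul_act q hq, ← mulVec_mulVec, D.pairAct_mulVec]
    rfl

theorem upMap_injective (q : ι) (K : Finset ι) (hq : q ∈ K) :
    Function.Injective (D.upMap q K hq) := fun y z h => by
  have := D.up_inj q K hq h
  funext i u
  exact congrFun this (i, u)

theorem downMap_surjective (q : ι) (K : Finset ι) (hq : q ∈ K) :
    Function.Surjective (D.downMap q K hq) := fun z => by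
  obtain ⟨v, hv⟩ := D.down_surj q K hq fun iu => (z iu.1 : Fin (D.d (K.erase q)) → k) iu.2
  exact ⟨v, funext fun i => funext fun u => congrFun hv (i, u)⟩

theorem smul_n_eq_zero_iff (q : ι) (K : Finset ι) (hq : q ∈ K) (v : D.Mod K) :
    D.n q • v = 0 ↔ v ∈ LinearMap.range (D.upMap q K hq) := by
  constructor
  · intro h
    have hv : (v : Fin (D.d K) → k) ∈ LinearMap.ker (D.act K (D.n q)).mulVecLin := h
    rw [(D.ker_range_n q hq).1] at hv
    obtain ⟨y, hy⟩ := hv
    exact ⟨fun i u => y (i, u), hy⟩
  · rintro ⟨y, rfl⟩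
    show D.act K (D.n q) *ᵥ (D.up q K *ᵥ _) = 0
    rw [mulVec_mulVec, D.n_mul_up q hq, zero_mulVec]

theorem downMap_eq_zero_iff (q : ι) (K : Finset ι) (hq : q ∈ K) (w : D.Mod K) :
    D.downMap q K hq w = 0 ↔ ∃ v, D.n q • v = w := by
  constructor
  · intro h
    have hw : (w : Fin (D.d K) → k) ∈ LinearMap.ker (D.down q K).mulVecLin :=
      funext fun iu => congrFun (congrFun h iu.1) iu.2
    rw [← (D.ker_range_n q hq).2] at hw
    exact hw
  · rintro ⟨v, rfl⟩
    funext i u
    show (D.down q K *ᵥ (D.act K (D.n q) *ᵥ D.vec v)) (i, u) = 0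
    rw [mulVec_mulVec, D.down_mul_n q hq, zero_mulVec]
    rfl

/-- Transport of a level along an equality. -/
def cast {K K' : Finset ι} (e : K = K') : D.Mod K ≃ₗ[A] D.Mod K' := e ▸ LinearEquiv.refl A _

@[simp] theorem cast_rfl {K : Finset ι} (v : D.Mod K) : D.cast rfl v = v := rfl

theorem cast_cast {K K' K'' : Finset ι} (e : K = K') (e' : K' = K'') (v : D.Mod K) :
    D.cast e' (D.cast e v) = D.cast (e.trans e') v := by subst e e'; rfl

/-- The commutation of two steps. -/
structure Comm : Prop where
  down_up : ∀ {p q : ι} {K : Finset ι} (hp : p ∈ K) (hq : q ∈ K) (hp' : p ∈ K.erase q)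
    (hq' : q ∈ K.erase p) (e : (K.erase q).erase p = (K.erase p).erase q)
    (y : Fin 2 → D.Mod (K.erase q)) (i : Fin 2),
    D.downMap p K hp (D.upMap q K hq y) i =
      D.upMap q (K.erase p) hq' fun j => D.cast e (D.downMap p (K.erase q) hp' (y j) i)
  down_down : ∀ {p q : ι} {K : Finset ι} (hp : p ∈ K) (hq : q ∈ K) (hp' : p ∈ K.erase q)
    (hq' : q ∈ K.erase p) (e : (K.erase q).erase p = (K.erase p).erase q)
    (x : D.Mod K) (i j : Fin 2),
    D.cast e (D.downMap p (K.erase q) hp' (D.downMap q K hq x j) i) =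
      D.downMap q (K.erase p) hq' (D.downMap p K hp x i) j

variable {D}

theorem erase_of_insert {q : ι} {K K' : Finset ι} (h : q ∉ K) (h' : insert q K = K') :
    q ∈ K' ∧ K'.erase q = K := by
  subst h'
  exact ⟨Finset.mem_insert_self q K, Finset.erase_insert h⟩

variable (D)

/-- The cube. -/
def cube (hc : D.Comm) : Cube A D.Mod where
  up q {K K'} h h' := (D.upMap q K' (erase_of_insert h h').1).comp
    (LinearEquiv.piCongrRight fun _ : Fin 2 => D.cast (erase_of_insert h h').2.symm).toLinearMap
  down q {K K'} h h' := ((LinearEquiv.piCongrRight fun _ : Fin 2 =>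
    D.cast (erase_of_insert h h').2).toLinearMap).comp (D.downMap q K' (erase_of_insert h h').1)
  n := D.n
  up_injective q {K K'} h h' :=
    (D.upMap_injective q K' (erase_of_insert h h').1).comp (LinearEquiv.injective _)
  down_surjective q {K K'} h h' :=
    (LinearEquiv.piCongrRight fun _ : Fin 2 => D.cast (erase_of_insert h h').2).surjective.comp
      (D.downMap_surjective q K' (erase_of_insert h h').1)
  ker_n q {K K'} h h' v := by
    rw [LinearMap.range_comp, LinearEquiv.range, Submodule.map_top]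
    exact D.smul_n_eq_zero_iff q K' _ v
  image_n q {K K'} h h' w := by
    rw [← D.downMap_eq_zero_iff q K' (erase_of_insert h h').1]
    exact (LinearEquiv.piCongrRight fun _ : Fin 2 => D.cast (erase_of_insert h h').2).map_eq_zero_iff
  down_up {p q K₀ Kp Kq K} hp hp' hq hq' hp₁ hp₁' hq₁ hq₁' y i := by
    obtain ⟨hpK, e₁⟩ := erase_of_insert hp₁ hp₁'
    obtain ⟨hqK, e₂⟩ := erase_of_insert hq₁ hq₁'
    obtain ⟨hpKp, e₃⟩ := erase_of_insert hp hp'
    obtain ⟨hqKq, e₄⟩ := erase_of_insert hq hq'
    subst e₁ e₂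
    have e : (K.erase q).erase p = (K.erase p).erase q := e₃.trans e₄.symm
    subst e₃
    refine (hc.down_up hpK hqK hpKp hqKq e y i).trans ?_
    simp only [LinearMap.coe_comp, LinearEquiv.coe_coe, Function.comp_apply]
    refine congrArg _ (funext fun j => ?_)
    simp [LinearEquiv.piCongrRight_apply]
  down_down {p q K₀ Kp Kq K} hp hp' hq hq' hp₁ hp₁' hq₁ hq₁' x i j := by
    obtain ⟨hpK, e₁⟩ := erase_of_insert hp₁ hp₁'
    obtain ⟨hqK, e₂⟩ := erase_of_insert hq₁ hq₁'
    obtain ⟨hpKp, e₃⟩ := erase_of_insert hp hp'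
    obtain ⟨hqKq, e₄⟩ := erase_of_insert hq hq'
    subst e₁ e₂
    have e : (K.erase q).erase p = (K.erase p).erase q := e₃.trans e₄.symm
    subst e₄
    exact hc.down_down hpK hqK hpKp hqKq e x i j

end CubeInput

end FA.Two
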