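import Fermat.Agent.Two.BaseRed
import Fermat.Agent.Two.BaseCube
import Fermat.Agent.HeckeH1.LevelSet
import Fermat.Agent.HeckeH1.StepSquare

/-!
# The maps of the cube of the base

The degeneracy maps between the frames of the base levels modulo the maximal ideal: they commute
with the algebra of the base, the maps up are injective, the maps down surjective, and the maps of
two auxiliary primes commute.
-/

set_option autoImplicit false
set_option linter.unusedSectionVars false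
set_option linter.style.haveILetI false
set_option synthInstance.maxHeartbeats 400000
set_option maxHeartbeats 800000

noncomputable section

namespace FA.Two

open IsLocalRing Matrix FA.HeckeH1
open scoped MatrixGroups

section residue

variable {O : Type} [CommRing O] [IsLocalRing O]

/-- A map of free modules modulo the maximal ideal. -/
def redM {n m : ℕ} (f : (Fin n → O) →ₗ[O] (Fin m → O)) : Matrix (Fin m) (Fin n) (ResidueField O) :=
  (LinearMap.toMatrix' f).map (residue O)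

theorem redM_mulVec {n m : ℕ} (f : (Fin n → O) →ₗ[O] (Fin m → O)) (x : Fin n → O) :
    redM f *ᵥ (residue O ∘ x) = residue O ∘ f x := by
  funext i
  rw [redM, Function.comp_apply, ← LinearMap.toMatrix'_mulVec f x, RingHom.map_mulVec]

theorem redM_comp {n m l : ℕ} (f : (Fin n → O) →ₗ[O] (Fin m → O))
    (g : (Fin m → O) →ₗ[O] (Fin l → O)) : redM (g ∘ₗ f) = redM g * redM f := by
  rw [redM, redM, redM, LinearMap.toMatrix'_comp, Matrix.map_mul]

theorem exists_lift_vec {ι : Type} (v : ι → ResidueField O) :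
    ∃ x : ι → O, residue O ∘ x = v :=
  ⟨fun i => (residue_surjective (v i)).choose,
    funext fun i => (residue_surjective (v i)).choose_spec⟩

theorem mem_smul_top_of_coord {n : ℕ} {x : Fin n → O} (h : ∀ i, x i ∈ maximalIdeal O) :
    x ∈ maximalIdeal O • (⊤ : Submodule O (Fin n → O)) := by
  rw [pi_eq_sum_univ' x]
  exact Submodule.sum_mem _ fun i _ => Submodule.smul_mem_smul (h i) Submodule.mem_top

theorem residue_comp_eq_zero {n : ℕ} {x : Fin n → O}
    (h : x ∈ maximalIdeal O • (⊤ : Submodule O (Fin n → O))) : residue O ∘ x = 0 :=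
  funext fun i => (residue_eq_zero_iff _).2 (by
    have := Submodule.smul_top_le_comap_smul_top (maximalIdeal O)
      (LinearMap.proj (φ := fun _ : Fin n => O) i) h
    simpa using this)

end residue

variable {O : Type} [CommRing O] [IsDomain O] [IsDiscreteValuationRing O]
  [IsAdicComplete (maximalIdeal O) O] [CharZero O] {ι : Type} [DecidableEq ι]

theorem heckePoly_intertwine {S : Finset Nat.Primes} {N N' : ℕ} [NeZero N] [NeZero N']
    (f : Hom1 (GamH N ⊤) O →ₗ[O] Hom1 (GamH N' ⊤) O)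
    (hf : ∀ ℓ : Nat.Primes, ℓ ∉ S → ∀ z,
      f ((Tc N ⊤ (ℓ : ℕ)).act z) = (Tc N' ⊤ (ℓ : ℕ)).act (f z))
    (P : MvPolynomial Nat.Primes O) (z : Hom1 (GamH N ⊤) O) :
    f ((heckePoly N ⊤ O S P).1 z) = (heckePoly N' ⊤ O S P).1 (f z) := by
  induction P using MvPolynomial.induction_on generalizing z with
  | C a =>
    simp only [heckePoly, MvPolynomial.aeval_C]
    show f (a • z) = a • f z
    exact map_smul f a z
  | add P Q hP hQ =>
    rw [map_add, map_add]
    show f ((heckePoly N ⊤ O S P).1 z + (heckePoly N ⊤ O S Q).1 z) =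
      (heckePoly N' ⊤ O S P).1 (f z) + (heckePoly N' ⊤ O S Q).1 (f z)
    rw [map_add, hP, hQ]
  | mul_X P ℓ hP =>
    rw [map_mul, map_mul]
    show f ((heckePoly N ⊤ O S P).1 ((heckePoly N ⊤ O S (.X ℓ)).1 z)) =
      (heckePoly N' ⊤ O S P).1 ((heckePoly N' ⊤ O S (.X ℓ)).1 (f z))
    rw [hP, show heckePoly N ⊤ O S (.X ℓ) = Tgen N ⊤ O S ℓ from MvPolynomial.aeval_X _ ℓ,
      show heckePoly N' ⊤ O S (.X ℓ) = Tgen N' ⊤ O S ℓ from MvPolynomial.aeval_X _ ℓ]
    congr 1
    by_cases h : ℓ ∈ S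
    · rw [Tgen_apply_mem N ⊤ O S h, Tgen_apply_mem N' ⊤ O S h, map_zero]
    · rw [Tgen_apply N ⊤ O S h, Tgen_apply N' ⊤ O S h, hf ℓ h]

namespace BaseData

variable (Bd : BaseData O ι)

/-- Maps between levels which commute with the good operators. -/
def Inter {U V : Finset ι} (f : Hom1 (GamH (Bd.lev U) ⊤) O →ₗ[O] Hom1 (GamH (Bd.lev V) ⊤) O) :
    Prop :=
  ∀ ℓ : Nat.Primes, ℓ ∉ Bd.S → ∀ z,
    f ((Tc (Bd.lev U) ⊤ (ℓ : ℕ)).act z) = (Tc (Bd.lev V) ⊤ (ℓ : ℕ)).act (f z)

/-- The map induced on frames. -/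
def trans {U V : Finset ι} (f : Hom1 (GamH (Bd.lev U) ⊤) O →ₗ[O] Hom1 (GamH (Bd.lev V) ⊤) O) :
    (Fin (Bd.frame U).d → O) →ₗ[O] (Fin (Bd.frame V).d → O) :=
  (Bd.frame U).transfer (Bd.frame V) f (scalars_comm _)

theorem stable {U V : Finset ι} {f : Hom1 (GamH (Bd.lev U) ⊤) O →ₗ[O] Hom1 (GamH (Bd.lev V) ⊤) O}
    (hf : Bd.Inter f) (z : Hom1 (GamH (Bd.lev U) ⊤) O) :
    (Bd.frame V).e (f ((Bd.frame U).e z)) = f ((Bd.frame U).e z) := by
  rw [Bd.frame_e, Bd.frame_e, ← sysIdem_intertwine (Bd.hasSys_lev U) (Bd.hasSys_lev V) f hf,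
    sysIdem_idem]

theorem emb_trans {U V : Finset ι}
    {f : Hom1 (GamH (Bd.lev U) ⊤) O →ₗ[O] Hom1 (GamH (Bd.lev V) ⊤) O}
    (hf : Bd.Inter f) (x : Fin (Bd.frame U).d → O) :
    (Bd.frame V).emb (Bd.trans f x) = f ((Bd.frame U).emb x) := by
  have h := Bd.stable hf ((Bd.frame U).emb x)
  rw [Frame.e_emb] at h
  rw [trans, Frame.emb_transfer, h]

theorem trans_algAct {U V : Finset ι}
    {f : Hom1 (GamH (Bd.lev U) ⊤) O →ₗ[O] Hom1 (GamH (Bd.lev V) ⊤) O}
    (hf : Bd.Inter f) (a : Bd.alg) :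
    Bd.trans f ∘ₗ Bd.algAct U a = Bd.algAct V a ∘ₗ Bd.trans f := by
  obtain ⟨P, hP⟩ := Bd.exists_poly a
  refine LinearMap.ext fun x => ?_
  rw [LinearMap.comp_apply, LinearMap.comp_apply,
    ← (Bd.frame V).coord_emb (Bd.trans f (Bd.algAct U a x)),
    ← (Bd.frame V).coord_emb (Bd.algAct V a (Bd.trans f x))]
  congr 1
  rw [hP, Bd.emb_trans hf, Bd.emb_trans hf, hP, heckePoly_intertwine f hf]

theorem redM_algAct (K : Finset ι) (a : Bd.alg) : redM (Bd.algAct K a) = Bd.redAct K a := rfl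

variable {x y : ι} {U V U' V' W : Finset ι}

theorem isStepE (hx : x ∈ U) (e : U.erase x = V) :
    IsStep (Bd.lev V) (Bd.qn x) (⊤ : Subgroup (ZMod (Bd.lev V))ˣ) (Bd.lev U)
      (⊤ : Subgroup (ZMod (Bd.lev U))ˣ) := by
  subst e
  exact Bd.isStep hx

/-- The maps up of a step. -/
def homUp (hx : x ∈ U) (e : U.erase x = V) (i : Fin 2) :
    Hom1 (GamH (Bd.lev V) ⊤) O →ₗ[O] Hom1 (GamH (Bd.lev U) ⊤) O :=
  ![(Bd.isStepE hx e).res.actLin, (Bd.isStepE hx e).I2'.actLin] i

/-- The maps down of a step. -/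
def homDown (hx : x ∈ U) (e : U.erase x = V) (i : Fin 2) :
    Hom1 (GamH (Bd.lev U) ⊤) O →ₗ[O] Hom1 (GamH (Bd.lev V) ⊤) O :=
  ![(Corr.cores (Γ := GamH (Bd.lev V) ⊤) (Γ' := GamH (Bd.lev U) ⊤)).actLin,
    (Bd.isStepE hx e).J2'.actLin] i

theorem inter_up (hx : x ∈ U) (e : U.erase x = V) (i : Fin 2) : Bd.Inter (Bd.homUp hx e i) := by
  intro ℓ hℓ z
  fin_cases i
  · exact ((Bd.isStepE hx e).res_Tc (Bd.ne_qn x hℓ) z).symm
  · exact ((Bd.isStepE hx e).I2_Tc (Bd.ne_qn x hℓ) z).symm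

theorem inter_down (hx : x ∈ U) (e : U.erase x = V) (i : Fin 2) :
    Bd.Inter (Bd.homDown hx e i) := by
  intro ℓ hℓ z
  fin_cases i
  · exact (Bd.isStepE hx e).cores_Tc (Bd.ne_qn x hℓ) z
  · exact (Bd.isStepE hx e).J2_Tc' (Bd.ne_qn x hℓ) z

theorem dvd_lev_erase (e : U.erase x = V) : Bd.lev V ∣ Bd.lev U := by
  subst e
  exact mul_dvd_mul_left _ (Finset.prod_dvd_prod_of_subset _ _ _ (Finset.erase_subset x U))

variable (hxy : x ≠ y) (hxK : x ∈ U) (hxU : U.erase x = V) (hyK : y ∈ U) (hyU : U.erase y = V')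
  (hyV : y ∈ V) (hV : V.erase y = W) (hxV : x ∈ V') (hV' : V'.erase x = W)

include hxy in
/-- Down at `x` after up at `y`. -/
theorem homDown_homUp (i j : Fin 2) (z : Hom1 (GamH (Bd.lev V') ⊤) O) :
    Bd.homDown hxK hxU i (Bd.homUp hyK hyU j z) =
      Bd.homUp hyV hV j (Bd.homDown hxV hV' i z) := by
  have hpq : Bd.qn x ≠ Bd.qn y := fun h => hxy (Bd.qn_inj h)
  have hNM := Bd.dvd_lev_erase hV'
  fin_cases i <;> fin_cases j
  · exact ((Bd.isStepE hyK hyU).res_cores' (Bd.isStepE hyV hV) hNM z).symm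
  · exact ((Bd.isStepE hyK hyU).I2_cores' (Bd.isStepE hyV hV) hNM z).symm
  · exact IsStep.J2_res_comm hpq (Bd.isStepE hyV hV) (Bd.isStepE hxV hV') (Bd.isStepE hxK hxU)
      (Bd.isStepE hyK hyU) z
  · exact IsStep.J2_I2_comm hpq (Bd.isStepE hyV hV) (Bd.isStepE hxV hV') (Bd.isStepE hxK hxU)
      (Bd.isStepE hyK hyU) z

include hxy in
/-- Down at `x` and down at `y`. -/
theorem homDown_homDown (i j : Fin 2) (z : Hom1 (GamH (Bd.lev U) ⊤) O) :
    Bd.homDown hxV hV' i (Bd.homDown hyK hyU j z) =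
      Bd.homDown hyV hV j (Bd.homDown hxK hxU i z) := by
  have hpq : Bd.qn x ≠ Bd.qn y := fun h => hxy (Bd.qn_inj h)
  fin_cases i <;> fin_cases j
  · exact (Bd.isStepE hyK hyU).cores_cores' (Bd.isStepE hyV hV) (Bd.dvd_lev_erase hV') z
  · exact (Bd.isStepE hyK hyU).J2_cores' (Bd.isStepE hyV hV) (Bd.dvd_lev_erase hV') z
  · exact ((Bd.isStepE hxK hxU).J2_cores' (Bd.isStepE hxV hV') (Bd.dvd_lev_erase hV) z).symm
  · exact (IsStep.J2_J2_comm hpq (Bd.isStepE hyV hV) (Bd.isStepE hxV hV') (Bd.isStepE hxK hxU)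
      (Bd.isStepE hyK hyU) z).symm

/-- The maps up on frames. -/
def upT (hx : x ∈ U) (e : U.erase x = V) (i : Fin 2) :
    (Fin (Bd.frame V).d → O) →ₗ[O] (Fin (Bd.frame U).d → O) :=
  Bd.trans (Bd.homUp hx e i)

/-- The maps down on frames. -/
def downT (hx : x ∈ U) (e : U.erase x = V) (i : Fin 2) :
    (Fin (Bd.frame U).d → O) →ₗ[O] (Fin (Bd.frame V).d → O) :=
  Bd.trans (Bd.homDown hx e i)

include hxy in
theorem downT_upT (i j : Fin 2) (v : Fin (Bd.frame V').d → O) :
    Bd.downT hxK hxU i (Bd.upT hyK hyU j v) = Bd.upT hyV hV j (Bd.downT hxV hV' i v) := by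
  rw [← (Bd.frame V).coord_emb (Bd.downT hxK hxU i _),
    ← (Bd.frame V).coord_emb (Bd.upT hyV hV j _)]
  congr 1
  unfold downT upT
  rw [Bd.emb_trans (Bd.inter_down hxK hxU i), Bd.emb_trans (Bd.inter_up hyK hyU j),
    Bd.emb_trans (Bd.inter_up hyV hV j), Bd.emb_trans (Bd.inter_down hxV hV' i),
    Bd.homDown_homUp hxy hxK hxU hyK hyU hyV hV hxV hV']

include hxy in
theorem downT_downT (i j : Fin 2) (v : Fin (Bd.frame U).d → O) :
    Bd.downT hxV hV' i (Bd.downT hyK hyU j v) = Bd.downT hyV hV j (Bd.downT hxK hxU i v) := by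
  rw [← (Bd.frame W).coord_emb (Bd.downT hxV hV' i _),
    ← (Bd.frame W).coord_emb (Bd.downT hyV hV j _)]
  congr 1
  unfold downT
  rw [Bd.emb_trans (Bd.inter_down hxV hV' i), Bd.emb_trans (Bd.inter_down hyK hyU j),
    Bd.emb_trans (Bd.inter_down hyV hV j), Bd.emb_trans (Bd.inter_down hxK hxU i),
    Bd.homDown_homDown hxy hxK hxU hyK hyU hyV hV hxV hV']

theorem downT_cast (hx : x ∈ U) (e : U.erase x = V) (i : Fin 2) (hd) (v : Fin (Bd.frame U).d → O) :
    (fun u => Bd.downT hx rfl i v (Fin.cast hd u)) = Bd.downT hx e i v := by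
  subst e
  rfl

variable {p : ℕ} [CharP (ResidueField O) p]

theorem upT_residual (hp : p.Prime) (hx : x ∈ U) (e : U.erase x = V) (a b : Fin (Bd.frame V).d → O)
    (h : Bd.upT hx e 0 a + Bd.upT hx e 1 b ∈
      maximalIdeal O • (⊤ : Submodule O (Fin (Bd.frame U).d → O))) :
    residue O ∘ a = 0 ∧ residue O ∘ b = 0 := by
  have h' := Submodule.smul_top_le_comap_smul_top (maximalIdeal O) (Bd.frame U).emb h
  rw [Submodule.mem_comap, map_add, upT, upT, Bd.emb_trans (Bd.inter_up hx e 0),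
    Bd.emb_trans (Bd.inter_up hx e 1)] at h'
  obtain ⟨hA, hB⟩ := sys_up_residual Bd.nonEis hp (Bd.isStepE hx e) ((Bd.frame V).emb a)
    ((Bd.frame V).emb b) ((LinearMap.congr_fun (Bd.frame_e V) _).symm.trans ((Bd.frame V).e_emb a))
    ((LinearMap.congr_fun (Bd.frame_e V) _).symm.trans ((Bd.frame V).e_emb b)) h'
  have ha := Submodule.smul_top_le_comap_smul_top (maximalIdeal O) (Bd.frame V).coord hA
  have hb := Submodule.smul_top_le_comap_smul_top (maximalIdeal O) (Bd.frame V).coord hB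
  rw [Submodule.mem_comap, Frame.coord_emb] at ha hb
  exact ⟨residue_comp_eq_zero ha, residue_comp_eq_zero hb⟩

theorem downT_residual (hp : p.Prime) (hx : x ∈ U) (e : U.erase x = V)
    (a b : Fin (Bd.frame V).d → O) :
    ∃ w, residue O ∘ Bd.downT hx e 0 w = residue O ∘ a ∧
      residue O ∘ Bd.downT hx e 1 w = residue O ∘ b := by
  obtain ⟨X, hX, hmem⟩ := sys_down_residual Bd.nonEis hp (Bd.isStepE hx e)
    (fun ℓ hℓ => Bd.ne_qn x hℓ) ((Bd.frame V).emb a) ((Bd.frame V).emb b)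
    ((LinearMap.congr_fun (Bd.frame_e V) _).symm.trans ((Bd.frame V).e_emb a)) ((LinearMap.congr_fun (Bd.frame_e V) _).symm.trans ((Bd.frame V).e_emb b))
  refine ⟨(Bd.frame U).coord X, ?_⟩
  have hX' : (Bd.frame U).emb ((Bd.frame U).coord X) = X :=
    ((Bd.frame U).emb_coord X).trans ((Bd.frame_e U).symm ▸ hX)
  have key : ∀ (i : Fin 2) (f : (Hom1 (GamH (Bd.lev V) ⊤) O × Hom1 (GamH (Bd.lev V) ⊤) O) →ₗ[O]
      Hom1 (GamH (Bd.lev V) ⊤) O) (c : Fin (Bd.frame V).d → O),
      f ((Corr.cores (Γ := GamH (Bd.lev V) ⊤)).act X - (Bd.frame V).emb a,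
          (Bd.isStepE hx e).J2'.act X - (Bd.frame V).emb b) =
        Bd.homDown hx e i X - (Bd.frame V).emb c →
      residue O ∘ Bd.downT hx e i ((Bd.frame U).coord X) = residue O ∘ c := by
    intro i f c hf
    have h := Submodule.smul_top_le_comap_smul_top (maximalIdeal O) ((Bd.frame V).coord ∘ₗ f) hmem
    rw [Submodule.mem_comap, LinearMap.comp_apply, hf, map_sub, Frame.coord_emb] at h
    have h0 := residue_comp_eq_zero h
    funext u
    have h1 := congrFun h0 u
    rw [Function.comp_apply, Pi.sub_apply, map_sub, Pi.zero_apply, sub_eq_zero] at h1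
    rw [Function.comp_apply, Function.comp_apply, ← h1, downT, trans, Frame.transfer_apply, hX']
  exact ⟨key 0 (LinearMap.fst O _ _) a rfl, key 1 (LinearMap.snd O _ _) b rfl⟩

/-- The degeneracy maps of the base modulo the maximal ideal. -/
structure _root_.FA.Two.BaseMaps (Bd : BaseData O ι) where
  /-- the maps up -/
  up : ∀ (q : ι) (K : Finset ι), Matrix (Fin (Bd.frame K).d)
    (Fin 2 × Fin (Bd.frame (K.erase q)).d) (ResidueField O)
  /-- the maps down -/
  down : ∀ (q : ι) (K : Finset ι), Matrix (Fin 2 × Fin (Bd.frame (K.erase q)).d)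
    (Fin (Bd.frame K).d) (ResidueField O)
  up_inj : ∀ q K, q ∈ K → Function.Injective (up q K).mulVec
  down_surj : ∀ q K, q ∈ K → Function.Surjective (down q K).mulVec
  up_act : ∀ q K, q ∈ K → ∀ a i x,
    ((Bd.redAct K a * up q K) x (i : Fin 2 × Fin (Bd.frame (K.erase q)).d)) =
      (up q K * Matrix.of fun (j l : Fin 2 × Fin (Bd.frame (K.erase q)).d) =>
        if j.1 = l.1 then Bd.redAct (K.erase q) a j.2 l.2 else 0) x i
  down_act : ∀ q K, q ∈ K → ∀ a i x,
    ((down q K * Bd.redAct K a) (i : Fin 2 × Fin (Bd.frame (K.erase q)).d) x) =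
      ((Matrix.of fun (j l : Fin 2 × Fin (Bd.frame (K.erase q)).d) =>
        if j.1 = l.1 then Bd.redAct (K.erase q) a j.2 l.2 else 0) * down q K) i x
  down_up : ∀ (p q : ι) (K : Finset ι), p ∈ K → q ∈ K → p ∈ K.erase q → q ∈ K.erase p →
    ∀ (e : (K.erase q).erase p = (K.erase p).erase q)
      (v : Fin 2 × Fin (Bd.frame (K.erase q)).d → ResidueField O) (i : Fin 2),
      (fun u => (down p K *ᵥ (up q K *ᵥ v)) (i, u)) =
        up q (K.erase p) *ᵥ fun ju => (down p (K.erase q) *ᵥ fun w => v (ju.1, w))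
          (i, Fin.cast (congrArg (fun L => (Bd.frame L).d) e.symm) ju.2)
  down_down : ∀ (p q : ι) (K : Finset ι), p ∈ K → q ∈ K → p ∈ K.erase q → q ∈ K.erase p →
    ∀ (e : (K.erase q).erase p = (K.erase p).erase q)
      (v : Fin (Bd.frame K).d → ResidueField O) (i j : Fin 2),
      (fun u => (down p (K.erase q) *ᵥ fun w => (down q K *ᵥ v) (j, w))
          (i, Fin.cast (congrArg (fun L => (Bd.frame L).d) e.symm) u)) =
        fun u => (down q (K.erase p) *ᵥ fun w => (down p K *ᵥ v) (i, w)) (j, u)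

/-- The matrix of the maps up. -/
def upMat (q : ι) (K : Finset ι) :
    Matrix (Fin (Bd.frame K).d) (Fin 2 × Fin (Bd.frame (K.erase q)).d) (ResidueField O) :=
  if h : q ∈ K then Matrix.of fun a iu => redM (Bd.upT h rfl iu.1) a iu.2 else 0

/-- The matrix of the maps down. -/
def downMat (q : ι) (K : Finset ι) :
    Matrix (Fin 2 × Fin (Bd.frame (K.erase q)).d) (Fin (Bd.frame K).d) (ResidueField O) :=
  if h : q ∈ K then Matrix.of fun iu a => redM (Bd.downT h rfl iu.1) iu.2 a else 0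

theorem upMat_mulVec {q : ι} {K : Finset ι} (h : q ∈ K)
    (w : Fin 2 → Fin (Bd.frame (K.erase q)).d → O) :
    Bd.upMat q K *ᵥ (fun iu => residue O (w iu.1 iu.2)) =
      residue O ∘ (Bd.upT h rfl 0 (w 0) + Bd.upT h rfl 1 (w 1)) := by
  funext a
  rw [upMat, dif_pos h]
  simp only [Matrix.mulVec, dotProduct, Matrix.of_apply, Fintype.sum_prod_type, Fin.sum_univ_two,
    Function.comp_apply, Pi.add_apply, map_add]
  exact congrArg₂ (· + ·) (congrFun (redM_mulVec (Bd.upT h rfl 0) (w 0)) a)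
    (congrFun (redM_mulVec (Bd.upT h rfl 1) (w 1)) a)

theorem downMat_mulVec {q : ι} {K : Finset ι} (h : q ∈ K) (v : Fin (Bd.frame K).d → O)
    (i : Fin 2) (u : Fin (Bd.frame (K.erase q)).d) :
    (Bd.downMat q K *ᵥ (residue O ∘ v)) (i, u) = residue O (Bd.downT h rfl i v u) := by
  rw [downMat, dif_pos h]
  exact congrFun (redM_mulVec (Bd.downT h rfl i) v) u

/-- **The maps of the cube of the base.** -/
def baseMaps (hp : p.Prime) : BaseMaps Bd := by
  refine {
    up := Bd.upMat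
    down := Bd.downMat
    up_inj := fun q K h v w hvw => ?_
    down_surj := fun q K h v => ?_
    up_act := fun q K h a i z => ?_
    down_act := fun q K h a i z => ?_
    down_up := fun p q K hp hq hp' hq' e v i => ?_
    down_down := fun p q K hp hq hp' hq' e v i j => ?_ }
  · obtain ⟨c, hc⟩ := exists_lift_vec (v - w)
    have h0 : Bd.upMat q K *ᵥ (fun iu => residue O (c (iu.1, iu.2))) = 0 := by
      rw [show (fun iu => residue O (c (iu.1, iu.2))) = v - w from hc, Matrix.mulVec_sub,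
        show Bd.upMat q K *ᵥ v = Bd.upMat q K *ᵥ w from hvw, sub_self]
    rw [Bd.upMat_mulVec h fun i u => c (i, u)] at h0
    obtain ⟨h1, h2⟩ := Bd.upT_residual hp h rfl _ _
      (mem_smul_top_of_coord fun a => (residue_eq_zero_iff _).1 (congrFun h0 a))
    refine sub_eq_zero.1 (hc.symm.trans (funext fun iu => ?_))
    obtain ⟨i, u⟩ := iu
    fin_cases i
    exacts [congrFun h1 u, congrFun h2 u]
  · obtain ⟨c, rfl⟩ := exists_lift_vec v
    obtain ⟨w, h1, h2⟩ := Bd.downT_residual hp h rfl (fun u => c (0, u)) (fun u => c (1, u))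
    refine ⟨residue O ∘ w, funext fun iu => ?_⟩
    obtain ⟨i, u⟩ := iu
    rw [Bd.downMat_mulVec h]
    fin_cases i
    exacts [congrFun h1 u, congrFun h2 u]
  · obtain ⟨i, u⟩ := i
    have hm := congrArg redM (Bd.trans_algAct (Bd.inter_up h rfl i) a)
    rw [redM_comp, redM_comp, redM_algAct, redM_algAct] at hm
    have hz := congrFun (congrFun hm z) u
    simp only [Matrix.mul_apply] at hz ⊢
    simp only [upMat, dif_pos h, Matrix.of_apply, mul_ite, mul_zero, Fintype.sum_prod_type]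
    rw [Finset.sum_comm]
    simp only [Finset.sum_ite_eq', Finset.mem_univ, if_true]
    exact hz.symm
  · obtain ⟨i, u⟩ := i
    have hm := congrArg redM (Bd.trans_algAct (Bd.inter_down h rfl i) a)
    rw [redM_comp, redM_comp, redM_algAct, redM_algAct] at hm
    have hz := congrFun (congrFun hm u) z
    simp only [Matrix.mul_apply] at hz ⊢
    simp only [downMat, dif_pos h, Matrix.of_apply, ite_mul, zero_mul, Fintype.sum_prod_type]
    rw [Finset.sum_comm]
    simp only [Finset.sum_ite_eq, Finset.mem_univ, if_true]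
    exact hz
  · obtain ⟨c, rfl⟩ := exists_lift_vec v
    have hne : p ≠ q := fun h => (Finset.mem_erase.1 hp').1 h
    have hL : Bd.upMat q K *ᵥ (residue O ∘ c) =
        residue O ∘ (Bd.upT hq rfl 0 (fun u => c (0, u)) + Bd.upT hq rfl 1 (fun u => c (1, u))) :=
      Bd.upMat_mulVec hq fun i u => c (i, u)
    have hR : (fun ju : Fin 2 × Fin (Bd.frame ((K.erase p).erase q)).d =>
        (Bd.downMat p (K.erase q) *ᵥ fun w => (residue O ∘ c) (ju.1, w))
          (i, Fin.cast (congrArg (fun L => (Bd.frame L).d) e.symm) ju.2)) =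
        fun ju => residue O (Bd.downT hp' e i (fun w => c (ju.1, w)) ju.2) := funext fun ju => by
      rw [← Bd.downT_cast hp' e i (congrArg (fun L => (Bd.frame L).d) e.symm)]
      exact Bd.downMat_mulVec hp' (fun w => c (ju.1, w)) i _
    rw [hR, Bd.upMat_mulVec hq' fun j u => Bd.downT hp' e i (fun w => c (j, w)) u, hL,
      ← Bd.downT_upT hne hp rfl hq rfl hq' rfl hp' e,
      ← Bd.downT_upT hne hp rfl hq rfl hq' rfl hp' e, ← map_add]
    funext u
    exact Bd.downMat_mulVec hp _ i u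
  · obtain ⟨c, rfl⟩ := exists_lift_vec v
    have hne : p ≠ q := fun h => (Finset.mem_erase.1 hp').1 h
    funext u
    rw [show (fun w => (Bd.downMat q K *ᵥ (residue O ∘ c)) (j, w)) =
        residue O ∘ Bd.downT hq rfl j c from funext fun w => Bd.downMat_mulVec hq c j w,
      show (fun w => (Bd.downMat p K *ᵥ (residue O ∘ c)) (i, w)) =
        residue O ∘ Bd.downT hp rfl i c from funext fun w => Bd.downMat_mulVec hp c i w,
      Bd.downMat_mulVec hq', Bd.downMat_mulVec hp', ← Bd.downT_downT hne hp rfl hq rfl hq' rfl hp' e,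
      ← Bd.downT_cast hp' e i (congrArg (fun L => (Bd.frame L).d) e.symm)]

theorem baseMaps_up (hp : p.Prime) : (Bd.baseMaps hp).up = Bd.upMat := rfl

theorem baseMaps_down (hp : p.Prime) : (Bd.baseMaps hp).down = Bd.downMat := rfl

/-- **The maps of the cube of the base exist.** -/
theorem nonempty_baseMaps (hp : p.Prime) : Nonempty (BaseMaps Bd) := ⟨Bd.baseMaps hp⟩

/-- The operator at an auxiliary prime on the frame of a level. -/
def opQ (q : ι) (K : Finset ι) :
    (Fin (Bd.frame K).d → O) →ₗ[O] (Fin (Bd.frame K).d → O) :=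
  Bd.trans (Tc (Bd.lev K) ⊤ (Bd.qn q)).actLin

theorem downT_upT_self (hx : x ∈ U) (i j : Fin 2) (v : Fin (Bd.frame (U.erase x)).d → O) :
    Bd.downT hx rfl i (Bd.upT hx rfl j v) =
      if i = j then (Bd.qn x + 1 : ℕ) • v else Bd.opQ x (U.erase x) v := by
  have hs := Bd.isStepE hx (V := U.erase x) rfl
  have hsub : Subsingleton ((ZMod (Bd.lev (U.erase x)))ˣ ⧸ (⊤ : Subgroup (ZMod (Bd.lev (U.erase x)))ˣ)) :=
    QuotientGroup.subsingleton_quotient_top
  rw [← (Bd.frame (U.erase x)).coord_emb (Bd.downT hx rfl i _)]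
  unfold downT upT
  rw [Bd.emb_trans (Bd.inter_down hx rfl i), Bd.emb_trans (Bd.inter_up hx rfl j)]
  fin_cases i <;> fin_cases j <;>
    simp only [Fin.zero_eta, Fin.mk_one, Fin.isValue, Fin.zero_ne_one, one_ne_zero, ↓reduceIte,
      homUp, homDown, Matrix.cons_val_zero, Matrix.cons_val_one, Corr.actLin_apply,
      opQ, trans, Frame.transfer_apply]
  · rw [hs.cores_res', map_nsmul, Frame.coord_emb]
  · rw [hs.cores_I2', Subsingleton.elim (qDia (Bd.lev (U.erase x)) ⊤ hs.not_dvd)⁻¹ 1, map_one,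
      Module.End.one_apply]
  · rw [hs.J2_res']
  · rw [hs.J2_I2', map_nsmul, Frame.coord_emb]

/-- **Down after up at one prime.** -/
theorem downMat_mul_upMat {q : ι} {K : Finset ι} (h : q ∈ K) :
    Bd.downMat q K * Bd.upMat q K =
      Matrix.of fun (iu jw : Fin 2 × Fin (Bd.frame (K.erase q)).d) =>
        if iu.1 = jw.1 then (if iu.2 = jw.2 then ((Bd.qn q + 1 : ℕ) : ResidueField O) else 0)
        else redM (Bd.opQ q (K.erase q)) iu.2 jw.2 := by
  ext ⟨i, u⟩ ⟨j, w⟩
  have he : Bd.downT h rfl i ∘ₗ Bd.upT h rfl j =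
      if i = j then (Bd.qn q + 1 : ℕ) • LinearMap.id else Bd.opQ q (K.erase q) :=
    LinearMap.ext fun v => by
      rw [LinearMap.comp_apply, Bd.downT_upT_self h i j v]
      split_ifs <;> rfl
  have hM := congrFun (congrFun (congrArg redM he) u) w
  rw [redM_comp, Matrix.mul_apply] at hM
  rw [Matrix.mul_apply, Matrix.of_apply]
  simp only [downMat, upMat, dif_pos h, Matrix.of_apply]
  rw [hM]
  by_cases hij : i = j
  · subst hij
    simp only [if_true, redM, Matrix.map_apply, LinearMap.toMatrix'_apply, LinearMap.smul_apply,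
      LinearMap.id_apply, Pi.smul_apply]
    rw [map_nsmul]
    by_cases huw : u = w
    · subst huw
      simp
    · simp [huw]
  · simp only [if_neg hij]

/-- Down after up is nilpotent when the operator is and `q + 1 = 0`. -/
theorem isNilpotent_downMat_mul_upMat {q : ι} {K : Finset ι} (h : q ∈ K)
    (hq : ((Bd.qn q + 1 : ℕ) : ResidueField O) = 0)
    (hT : IsNilpotent (redM (Bd.opQ q (K.erase q)))) :
    IsNilpotent (Bd.downMat q K * Bd.upMat q K) := by
  obtain ⟨m, hm⟩ := hT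
  set T := redM (Bd.opQ q (K.erase q))
  let A : Matrix (Fin 2) (Fin 2) (Matrix (Fin (Bd.frame (K.erase q)).d)
      (Fin (Bd.frame (K.erase q)).d) (ResidueField O)) := !![0, T; T, 0]
  have e : Bd.downMat q K * Bd.upMat q K = Matrix.compRingEquiv _ _ _ A := by
    rw [Bd.downMat_mul_upMat h]
    ext ⟨i, u⟩ ⟨j, w⟩
    rw [Matrix.of_apply, hq]
    fin_cases i <;> fin_cases j <;> simp [A, T]
  have h2 : A ^ 2 = Matrix.scalar (Fin 2) (T ^ 2) := by
    ext1 i j
    fin_cases i <;> fin_cases j <;> simp [A, pow_two, Matrix.mul_apply, Fin.sum_univ_two]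
  refine ⟨2 * m, ?_⟩
  rw [e, ← map_pow, pow_mul, h2, ← map_pow, ← pow_mul, mul_comm 2 m, pow_mul, hm]
  ext i j
  simp [Matrix.comp]

end BaseData

namespace BaseMaps

variable {Bd : BaseData O ι} (M : BaseMaps Bd) (n : ι → Bd.alg)
  (hlow : ∀ q K, q ∉ K → Bd.redAct K (n q) = 0)
  (hrank : ∀ q K, q ∈ K →
    (Bd.frame K).d ≤ (Bd.redAct K (n q)).rank + 2 * (Bd.frame (K.erase q)).d)

/-- The cube of the base from the operators. -/
def cubeInput : CubeInput ι Bd.alg (ResidueField O) where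
  d K := (Bd.frame K).d
  act := Bd.redAct
  n := n
  up := M.up
  down := M.down
  up_inj := M.up_inj
  down_surj := M.down_surj
  up_act := M.up_act
  down_act := M.down_act
  n_low := hlow
  rank_n := hrank

theorem cast_apply {K K' : Finset ι} (e : K = K') (v : (M.cubeInput n hlow hrank).Mod K)
    (u : Fin (Bd.frame K').d) :
    ((M.cubeInput n hlow hrank).cast e v : Fin (Bd.frame K').d → ResidueField O) u =
      (v : Fin (Bd.frame K).d → ResidueField O)
        (Fin.cast (congrArg (fun L => (Bd.frame L).d) e.symm) u) := by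
  subst e
  rfl

theorem cubeInput_comm : (M.cubeInput n hlow hrank).Comm where
  down_up {p q K} hp hq hp' hq' e y i := by
    refine (M.down_up p q K hp hq hp' hq' e _ i).trans ?_
    refine congrArg (M.up q (K.erase p) *ᵥ ·) (funext fun ju => ?_)
    exact (M.cast_apply n hlow hrank e
      ((M.cubeInput n hlow hrank).downMap p (K.erase q) hp' (y ju.1) i) ju.2).symm
  down_down {p q K} hp hq hp' hq' e x i j := by
    funext u
    exact (M.cast_apply n hlow hrank e _ u).trans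
      (congrFun (M.down_down p q K hp hq hp' hq' e _ i j) u)

end BaseMaps

end FA.Two

end
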