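import Fermat.Agent.NebLocal.Quad
import Fermat.Agent.Deform.MatrixRep
import Fermat.Agent.Density.Places

/-!
# Galois and inverse on a module with a representation over its algebra

If a commutative algebra acts on a module through the good Hecke operators
and carries a representation with their traces at Frobenius elements, then
`σ + det ρ(σ) σ⁻¹` acts as `tr ρ(σ)` for every Galois element.
-/

set_option autoImplicit false
set_option linter.unusedSectionVars false

noncomputable section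

namespace FA.Two

open IsLocalRing

local notation "Qb" => AlgebraicClosure ℚ
local notation "GQ" => AlgebraicClosure ℚ ≃ₐ[ℚ] AlgebraicClosure ℚ

/-- Powers keep the relation `x + d y = t` of an element and its inverse. -/
theorem add_inv_pow {A E : Type*} [CommRing A] [Ring E] (act : A →+* E) (x y : E)
    (hxy : x * y = 1) (hyx : y * x = 1) (hx : ∀ a, Commute (act a) x)
    (M : Matrix (Fin 2) (Fin 2) A) (h : x + act M.det * y = act M.trace) (k : ℕ) :
    x ^ k + act (M.det ^ k) * y ^ k = act (M ^ k).trace := by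
  have hy : ∀ a, Commute (act a) y := fun a => by
    show act a * y = y * act a
    calc act a * y = y * x * (act a * y) := by rw [hyx, one_mul]
      _ = y * (x * act a) * y := by simp only [mul_assoc]
      _ = y * (act a * x) * y := by rw [(hx a).eq]
      _ = y * act a * (x * y) := by simp only [mul_assoc]
      _ = y * act a := by rw [hxy, mul_one]
  induction k using Nat.twoStepInduction with
  | zero => simp [Matrix.trace_one]; rw [map_ofNat, one_add_one_eq_two]
  | one => simpa using h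
  | more n ih0 ih1 =>
    have hsq : (M ^ (n + 2)).trace = M.trace * (M ^ (n + 1)).trace - M.det * (M ^ n).trace := by
      rw [pow_add M n 2, pow_two, FA.NebLocal.matrix_sq, mul_sub, mul_smul_comm, mul_smul_comm,
        mul_one, ← pow_succ, Matrix.trace_sub, Matrix.trace_smul, Matrix.trace_smul, smul_eq_mul,
        smul_eq_mul]
    rw [hsq, map_sub, map_mul, map_mul, ← ih1, ← ih0, ← h]
    have c1 : ∀ a, y * act a = act a * y := fun a => (hy a).eq.symm
    have c2 : ∀ a, x * act a = act a * x := fun a => (hx a).eq.symm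
    have e1 : x * x ^ (n + 1) = x ^ (n + 2) := (pow_succ' x (n + 1)).symm
    have e2 : x * (act (M.det ^ (n + 1)) * y ^ (n + 1)) = act (M.det ^ (n + 1)) * y ^ n := by
      rw [← mul_assoc, c2, mul_assoc, pow_succ' y n, ← mul_assoc x, hxy, one_mul]
    have e3 : act M.det * y * x ^ (n + 1) = act M.det * x ^ n := by
      rw [mul_assoc, pow_succ' x n, ← mul_assoc y, hyx, one_mul]
    have e4 : act M.det * y * (act (M.det ^ (n + 1)) * y ^ (n + 1)) =
        act (M.det ^ (n + 2)) * y ^ (n + 2) := by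
      rw [mul_assoc, ← mul_assoc y, c1, mul_assoc, ← pow_succ', ← mul_assoc, ← map_mul, ← pow_succ']
    rw [add_mul, mul_add, mul_add, e1, e2, e3, e4, mul_add, ← mul_assoc (act M.det), ← map_mul,
      ← pow_succ']
    abel

variable {O A W : Type} [CommRing O] [IsLocalRing O] [CommRing A] [Algebra O A] [AddCommGroup W]
  [Module O W]

/-- **`σ + det ρ(σ) σ⁻¹ = tr ρ(σ)` from Frobenius elements.** -/
theorem add_inv_eq_trace (ξ : GQ →* Module.End O W) (P : ℕ → Submodule O W)
    (hsep : ∀ w, (∀ n, w ∈ P n) → w = 0) (hstab : ∀ σ n, ∀ w ∈ P n, ξ σ w ∈ P n)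
    (hξ : ∀ n, ∃ L : IntermediateField ℚ Qb, FiniteDimensional ℚ L ∧
      ∀ σ : GQ, (∀ a ∈ L, σ a = a) → ∀ w, ξ σ w - w ∈ P n)
    (act : A →ₐ[O] Module.End O W)
    (hsmall : ∀ n, ∀ c ∈ maximalIdeal O ^ n, ∀ w, c • w ∈ P n)
    (hcomm : ∀ σ a, Commute (act a) (ξ σ))
    (Tl : ℕ → A) (S : Finset ℕ)
    (m : GQ →* Matrix (Fin 2) (Fin 2) A)
    (hm : ∀ n : ℕ, ∃ L : IntermediateField ℚ Qb, FiniteDimensional ℚ L ∧
      ∀ σ : GQ, (∀ a ∈ L, σ a = a) → ∀ i j,
        (m σ - 1) i j ∈ (maximalIdeal O ^ n).map (algebraMap O A))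
    (hfrob : ∀ ℓ : ℕ, ℓ.Prime → ℓ ∉ S → ∀ V : ValuationSubring Qb, V.LiesOverPrime ℓ →
      ∀ σ : GQ, V.IsFrobeniusAt σ ℓ → ((m σ).trace = Tl ℓ ∧ (m σ).det = (ℓ : A)) ∧
        ξ σ + (ℓ : Module.End O W) * ξ σ⁻¹ = act (Tl ℓ))
    (τ : GQ) : ξ τ + act (m τ).det * ξ τ⁻¹ = act (m τ).trace := by
  classical
  refine LinearMap.ext fun w => sub_eq_zero.1 (hsep _ fun n => ?_)
  revert w
  have hA : ∀ a ∈ (maximalIdeal O ^ n).map (algebraMap O A), ∀ u, act a u ∈ P n := by
    intro a ha
    refine Submodule.span_induction (fun b hb => ?_) (fun u => ?_) (fun b c _ _ hb hc u => ?_)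
      (fun r b _ hb u => ?_) ha
    · obtain ⟨c, hc, rfl⟩ := hb
      intro u
      rw [AlgHom.commutes, Module.algebraMap_end_apply]
      exact hsmall n c hc u
    · rw [map_zero]; exact zero_mem _
    · rw [map_add]; exact add_mem (hb u) (hc u)
    · rw [smul_eq_mul, mul_comm, map_mul, Module.End.mul_apply]
      exact hb _
  obtain ⟨L₁, hL₁, h₁⟩ := hξ n
  obtain ⟨L₂, hL₂, h₂⟩ := hm n
  let q := Ideal.Quotient.mk ((maximalIdeal O ^ n).map (algebraMap O A))
  let mn := q.mapMatrix.toMonoidHom.comp m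
  let K : Subgroup GQ :=
    { carrier := {σ | mn σ = 1 ∧ ∀ u, ξ σ u - u ∈ P n}
      one_mem' := ⟨map_one mn, fun u => by rw [map_one, Module.End.one_apply, sub_self]; exact zero_mem _⟩
      mul_mem' := fun {a b} ha hb => ⟨by rw [map_mul, ha.1, hb.1, one_mul], fun u => by
        rw [map_mul, Module.End.mul_apply, ← sub_add_sub_cancel _ (ξ a u)]
        refine add_mem ?_ (ha.2 u)
        rw [← map_sub]
        exact hstab a n _ (hb.2 u)⟩
      inv_mem' := fun {a} ha => ⟨by
          have h := map_mul mn a⁻¹ a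
          rw [inv_mul_cancel, map_one, ha.1, mul_one] at h
          exact h.symm, fun u => by
        have h := ha.2 (ξ a⁻¹ u)
        rw [← Module.End.mul_apply, ← map_mul, mul_inv_cancel, map_one, Module.End.one_apply] at h
        rw [← neg_sub]
        exact neg_mem h⟩ }
  haveI : K.Normal := ⟨fun a ha g => ⟨by rw [map_mul, map_mul, ha.1, mul_one, ← map_mul,
      mul_inv_cancel, map_one], fun u => by
    rw [map_mul, map_mul, Module.End.mul_apply, Module.End.mul_apply]
    have h := hstab g n _ (ha.2 (ξ g⁻¹ u))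
    rwa [map_sub, ← Module.End.mul_apply (ξ g) (ξ g⁻¹), ← map_mul, mul_inv_cancel, map_one,
      Module.End.one_apply] at h⟩⟩
  have hK : IsOpen (K : Set GQ) :=
    Subgroup.isOpen_mono (H₁ := (L₁ ⊔ L₂).fixingSubgroup) (fun σ hσ => by
      have hfix := (IntermediateField.mem_fixingSubgroup_iff _ _).1 hσ
      refine ⟨?_, h₁ σ fun a ha => hfix a ((le_sup_left : L₁ ≤ L₁ ⊔ L₂) ha)⟩
      show q.mapMatrix (m σ) = 1
      rw [← map_one q.mapMatrix]
      ext i j
      exact Ideal.Quotient.eq.2 (h₂ σ (fun a ha => hfix a ((le_sup_right : L₂ ≤ L₁ ⊔ L₂) ha)) i j))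
      (IntermediateField.fixingSubgroup_isOpen _)
  refine FA.Density.forall_of_frobenius_pow K hK
    (fun σ => ∀ u, (ξ σ + act (m σ).det * ξ σ⁻¹) u - act (m σ).trace u ∈ P n) ?_ S ?_ τ
  · intro σ η hη hσ u
    have e : mn (σ * η) = mn σ := by rw [map_mul, hη.1, mul_one]
    have ht : (m (σ * η)).trace - (m σ).trace ∈ (maximalIdeal O ^ n).map (algebraMap O A) := by
      rw [← Ideal.Quotient.eq, AddMonoidHom.map_trace q, AddMonoidHom.map_trace q]
      exact congrArg Matrix.trace e
    have hd : (m (σ * η)).det - (m σ).det ∈ (maximalIdeal O ^ n).map (algebraMap O A) := by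
      rw [← Ideal.Quotient.eq, RingHom.map_det, RingHom.map_det]
      exact congrArg Matrix.det e
    have hsw : ∀ a σ' v, act a (ξ σ' v) = ξ σ' (act a v) := fun a σ' v =>
      LinearMap.congr_fun (hcomm σ' a).eq v
    have e1 : ξ (σ * η) u - ξ σ u ∈ P n := by
      rw [map_mul, Module.End.mul_apply, ← map_sub]
      exact hstab σ n _ (hη.2 u)
    have e5 : act (m (σ * η)).det (ξ (σ * η)⁻¹ u) - act (m (σ * η)).det (ξ σ⁻¹ u) ∈ P n := by
      rw [hsw, hsw, mul_inv_rev, map_mul, Module.End.mul_apply]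
      exact (inv_mem hη : η⁻¹ ∈ K).2 _
    have e3 := hA _ ht u
    have e4 := hA _ hd (ξ σ⁻¹ u)
    have := add_mem (add_mem (hσ u) (sub_mem (add_mem e1 e4) e3)) e5
    simp only [LinearMap.sub_apply, LinearMap.add_apply, Module.End.mul_apply, map_sub] at this ⊢
    convert this using 1
    abel
  · intro ℓ hℓ hℓS V hV σ hσ k u
    obtain ⟨⟨htr, hdet⟩, h1⟩ := hfrob ℓ hℓ hℓS V hV σ hσ
    rw [← htr] at h1
    have h2 := add_inv_pow act.toRingHom (ξ σ) (ξ σ⁻¹)
      (by rw [← map_mul, mul_inv_cancel, map_one]) (by rw [← map_mul, inv_mul_cancel, map_one])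
      (hcomm σ) (m σ) (by rw [hdet, map_natCast]; exact h1) k
    rw [← map_pow ξ, ← map_pow ξ, inv_pow, ← Matrix.det_pow, ← map_pow m] at h2
    rw [show ξ (σ ^ k) + act (m (σ ^ k)).det * ξ (σ ^ k)⁻¹ = act (m (σ ^ k)).trace from h2, sub_self]
    exact zero_mem _

end FA.Two
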