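import Fermat.Agent.Two.BaseRed
import Fermat.Agent.Two.BaseGalois
import Fermat.Agent.HeckeH1.MonoPiece
import Fermat.Agent.RT.HeckeAct
import Fermat.Agent.RT.Tower.MonoGlue
import Fermat.Agent.ModField.Semistable.Mono.Eta.Datum

/-!
# The rank of inertia on the frames of the base

The frame of a level modulo the maximal ideal is the part of the system in the torsion of `J₀`, so
the rank of inertia at an auxiliary prime is the dimension less twice the dimension below.
-/

set_option autoImplicit false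
set_option linter.style.haveILetI false
set_option linter.unusedSectionVars false
set_option synthInstance.maxHeartbeats 400000
set_option maxHeartbeats 1600000

noncomputable section

open IsLocalRing Matrix FA.HeckeH1
open FA.RT (blockAct)
open scoped TensorProduct

namespace FA.Two

local notation "Qb" => AlgebraicClosure ℚ
local notation "GQ" => AlgebraicClosure ℚ ≃ₐ[ℚ] AlgebraicClosure ℚ

variable [Algebra Qb ℂ] {O : Type} [CommRing O] [IsDomain O] [IsDiscreteValuationRing O]
  [IsAdicComplete (maximalIdeal O) O] [CharZero O] [Finite (ResidueField O)] {p : ℕ} [Fact p.Prime]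
  [CharP (ResidueField O) p]

/-- An algebra map to endomorphisms over the residue field as one over the ring. -/
def redEnd {R : Type} [CommRing R] [Algebra O R] {d : ℕ}
    (act : R →+* Matrix (Fin d) (Fin d) (ResidueField O))
    (hact : ∀ c, act (algebraMap O R c) = Matrix.scalar (Fin d) (residue O c)) :
    R →ₐ[O] Module.End O (Fin d → ResidueField O) where
  toFun a := (act a).mulVecLin.restrictScalars O
  map_one' := LinearMap.ext fun v => by
    show act 1 *ᵥ v = v
    rw [map_one, Matrix.one_mulVec]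
  map_mul' a b := LinearMap.ext fun v => by
    show act (a * b) *ᵥ v = act a *ᵥ (act b *ᵥ v)
    rw [map_mul, Matrix.mulVec_mulVec]
  map_zero' := LinearMap.ext fun v => by
    show act 0 *ᵥ v = 0
    rw [map_zero, Matrix.zero_mulVec]
  map_add' a b := LinearMap.ext fun v => by
    show act (a + b) *ᵥ v = act a *ᵥ v + act b *ᵥ v
    rw [map_add, Matrix.add_mulVec]
  commutes' c := LinearMap.ext fun v => by
    show act (algebraMap O R c) *ᵥ v = c • v
    rw [hact]
    funext i
    rw [Matrix.scalar_apply, Matrix.mulVec_diagonal, Pi.smul_apply, Algebra.smul_def]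
    rfl

theorem redEnd_apply {R : Type} [CommRing R] [Algebra O R] {d : ℕ}
    (act : R →+* Matrix (Fin d) (Fin d) (ResidueField O))
    (hact : ∀ c, act (algebraMap O R c) = Matrix.scalar (Fin d) (residue O c)) (a : R)
    (v : Fin d → ResidueField O) : redEnd act hact a v = act a *ᵥ v := rfl

namespace BaseData

variable {ι : Type} [DecidableEq ι] (Bd : BaseData O ι)

/-- The coordinates of the frame modulo the maximal ideal as classes. -/
abbrev redCoord (K : Finset ι) :=
  redBasis (Bd.lev K) Bd.S Bd.c (Pi.basisFun O (Fin (Bd.frame K).d))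

theorem redCoord_residue (K : Finset ι) (x : Fin (Bd.frame K).d → O) :
    Bd.redCoord K (residue O ∘ x) = redHom ((Bd.frame K).emb x) := by
  have h := redBasis_residue (Bd.lev K) Bd.S Bd.c (Pi.basisFun O (Fin (Bd.frame K).d)) x
  refine Eq.trans ?_ h
  exact congrArg _ (funext fun i => (congrArg (residue O) (Pi.basisFun_repr O (Fin (Bd.frame K).d) x i)).symm)

variable (p) in
/-- The frame modulo the maximal ideal in the torsion. -/
theorem exists_tors_coord (K : Finset ι) :
    ∃ ψ : (Fin (Bd.frame K).d → ResidueField O) →ₗ[ResidueField O]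
        FA.ModField.ModK (Bd.lev K) p (ResidueField O),
      Function.Injective ψ ∧ LinearMap.range ψ = FA.ModField.eigenPart (Bd.lev K) p (ResidueField O)
        (natSet Bd.S) (natSys Bd.c) ∧
      ∀ v, torsFun (Bd.lev K) p (ResidueField O) (ψ v) = Bd.redCoord K v := by
  set k := ResidueField O
  have hrange : LinearMap.range (Bd.redCoord K) =
      (FA.ModField.eigenPart (Bd.lev K) p k (natSet Bd.S) (natSys Bd.c)).map
        (torsFun (Bd.lev K) p k) :=
    range_redBasis (Bd.lev K) p Bd.S Bd.c (fun _ h => Bd.not_dvd_lev h K)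
      (sysIdem_mem_Par Bd.nonEis (Bd.lev K)) _
  have hex : ∀ i, ∃ x ∈ FA.ModField.eigenPart (Bd.lev K) p k (natSet Bd.S) (natSys Bd.c),
      torsFun (Bd.lev K) p k x = Bd.redCoord K (Pi.single i 1) := fun i => by
    have h : Bd.redCoord K (Pi.single i 1) ∈ LinearMap.range (Bd.redCoord K) :=
      LinearMap.mem_range_self _ _
    rw [hrange] at h
    exact h
  choose xs hxs hxs' using hex
  have hψ : ∀ v, torsFun (Bd.lev K) p k (Fintype.linearCombination k xs v) =
      Bd.redCoord K v := by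
    intro v
    conv_rhs => rw [pi_eq_sum_univ' v, map_sum]
    simp only [Fintype.linearCombination_apply, map_sum, map_smul, hxs']
  refine ⟨Fintype.linearCombination k xs,
    fun u v h => redBasis_injective _ _ _ _ ((hψ u).symm.trans ((congrArg _ h).trans (hψ v))),
    ?_, hψ⟩
  apply Submodule.map_injective_of_injective (torsFun_injective (Bd.lev K) p k)
  rw [← hrange, ← LinearMap.range_comp]
  exact congrArg LinearMap.range (LinearMap.ext hψ)

theorem finrank_eigenPart_frame (K : Finset ι) :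
    Module.finrank (ResidueField O) ↥(FA.ModField.eigenPart (Bd.lev K) p (ResidueField O)
      (natSet Bd.S) (natSys Bd.c)) = (Bd.frame K).d := by
  obtain ⟨ψ, hψ, hr, -⟩ := Bd.exists_tors_coord p K
  rw [← hr, LinearMap.finrank_range_of_inj hψ, Module.finrank_fin_fun]

theorem emb_algAct_Tl (K : Finset ι) (ℓ : Nat.Primes) (x : Fin (Bd.frame K).d → O) :
    (Bd.frame K).emb (Bd.algAct K (Bd.Tl ℓ) x) =
      (Tgen (Bd.lev K) ⊤ O Bd.S ℓ).1 ((Bd.frame K).emb x) := by
  have h : Bd.toGood K (Bd.Tl ℓ) =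
      Ideal.Quotient.mk (annE (Bd.eIdem K)) (Bd.goodPoly K (.X ℓ)) :=
    (Bd.toGood_Tl_gPoly K ℓ).trans (Bd.gPoly_apply _ K)
  rw [algAct_apply, h, emb_goodAct, goodOp_goodPoly, heckePoly, MvPolynomial.aeval_X]

variable {A : Type} [CommRing A] [IsLocalRing A] [Algebra O A] [Module.Finite O A]
  [IsNoetherianRing A]

/-- **The dimension is even and the rank on two copies is twice the rank on the torsion.** -/
theorem rank_blockAct_frame (hpS : (⟨p, Fact.out⟩ : Nat.Primes) ∈ Bd.S) (f : A →ₐ[O] Bd.alg)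
    (m : GQ →* Matrix (Fin 2) (Fin 2) A) (hm : FA.Deform.IsContRep m)
    (hloc : ∀ c ∈ maximalIdeal O, algebraMap O A c ∈ maximalIdeal A)
    (hspan : Submodule.span A (Set.range m) = ⊤)
    (hfrob : ∀ ℓ : Nat.Primes, ℓ ∉ Bd.S → ∀ V : ValuationSubring Qb,
      V.LiesOverPrime (ℓ : ℕ) → ∀ σ : GQ, V.IsFrobeniusAt σ (ℓ : ℕ) →
        f (m σ).trace = Bd.Tl ℓ ∧ f (m σ).det = ((ℓ : ℕ) : Bd.alg)) (K : Finset ι) (s : GQ) :
    Even (Bd.frame K).d ∧ (blockAct ((Bd.redAct K).comp f.toRingHom) (m s - 1)).rank =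
      2 * Module.finrank (ResidueField O) ↥((FA.ModField.eigenPart (Bd.lev K) p (ResidueField O)
        (natSet Bd.S) (natSys Bd.c)).map
          (FA.ModField.galK (Bd.lev K) p (ResidueField O) s - 1)) := by
  classical
  set k := ResidueField O
  set N := Bd.lev K
  set d := (Bd.frame K).d
  obtain ⟨ψ, hψinj, hψrange, hψ⟩ := Bd.exists_tors_coord p K
  -- Galois on the coordinates
  have hinv : ∀ g v, FA.ModField.galK N p k g (ψ v) ∈ LinearMap.range ψ := fun g v => by
    rw [hψrange]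
    refine FA.RT.galK_mem_eigenPart N p k _ _ g (?_ : ψ v ∈ _)
    rw [← hψrange]
    exact LinearMap.mem_range_self ψ v
  choose g₀ hg₀ using hinv
  let G : GQ → Module.End k (Fin d → k) := fun g =>
    { toFun := g₀ g
      map_add' := fun u v => hψinj (by simp only [map_add, hg₀])
      map_smul' := fun r v => hψinj (by simp only [map_smul, RingHom.id_apply, hg₀]) }
  have hG : ∀ g v, ψ (G g v) = FA.ModField.galK N p k g (ψ v) := hg₀
  let π : GQ →* Matrix (Fin d) (Fin d) k :=
    { toFun := fun g => LinearMap.toMatrix' (G g)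
      map_one' := by
        rw [← LinearMap.toMatrix'_one]
        exact congrArg _ (LinearMap.ext fun v => hψinj (by rw [hG, FA.RT.galK_one]; rfl))
      map_mul' := fun g h => by
        rw [← LinearMap.toMatrix'_mul]
        exact congrArg _ (LinearMap.ext fun v => hψinj (by
          rw [hG, FA.RT.galK_mul, Module.End.mul_apply, Module.End.mul_apply, hG, hG])) }
  have hπv : ∀ g v, ψ (π g *ᵥ v) = FA.ModField.galK N p k g (ψ v) := fun g v => by
    rw [← hG]
    exact congrArg ψ (LinearMap.toMatrix'_mulVec _ _)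
  -- the operators
  have hgen : ∀ (ℓ : Nat.Primes) (v : Fin d → k),
      torsFun N p k (ψ (Bd.redAct K (Bd.Tl ℓ) *ᵥ v)) =
        (Tgen N ⊤ k Bd.S ℓ).1 (torsFun N p k (ψ v)) := by
    intro ℓ v
    choose l hl using residue_surjective (R := O)
    obtain ⟨x, rfl⟩ : ∃ x : Fin d → O, residue O ∘ x = v :=
      ⟨fun i => l (v i), funext fun i => hl (v i)⟩
    rw [Bd.redAct_mulVec, hψ, hψ, redCoord_residue, redCoord_residue, emb_algAct_Tl]
    by_cases hℓ : ℓ ∈ Bd.S
    · rw [Tgen_apply_mem N ⊤ O Bd.S hℓ, Tgen_apply_mem N ⊤ k Bd.S hℓ, map_zero]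
    · rw [Tgen_apply N ⊤ O Bd.S hℓ, Tgen_apply N ⊤ k Bd.S hℓ, redHom_act]
  have hT : ∀ (ℓ : Nat.Primes) (hℓ : ℓ ∉ Bd.S) (v : Fin d → k),
      ψ (Bd.redAct K (Bd.Tl ℓ) *ᵥ v) = FA.ModField.heckeK N p k
        (CuspForm.heckeAlgebra.T (k := 2) ℓ.2 (Bd.not_dvd_lev hℓ K) (Set.notMem_empty _))
        (ψ v) := by
    intro ℓ hℓ v
    haveI : Fact (ℓ : ℕ).Prime := ⟨ℓ.2⟩
    refine torsFun_injective N p k ?_
    rw [hgen, Tgen_apply N ⊤ k Bd.S hℓ, torsFun_heckeK N p k (Bd.not_dvd_lev hℓ K)]
  have hcomm : ∀ (a : Bd.alg) g, Commute (Bd.redAct K a) (π g) := by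
    intro a g
    obtain ⟨P, rfl⟩ := Ideal.Quotient.mk_surjective a
    induction P using MvPolynomial.induction_on with
    | C c =>
      rw [show Ideal.Quotient.mk Bd.annAll (MvPolynomial.C c) = algebraMap O Bd.alg c from rfl,
        Bd.redAct_algebraMap]
      exact Matrix.scalar_commute _ (Commute.all _) _
    | add P Q hP hQ => rw [map_add, map_add]; exact hP.add_left hQ
    | mul_X P ℓ hP =>
      rw [map_mul, map_mul]
      refine hP.mul_left ?_
      show Commute (Bd.redAct K (Bd.Tl ℓ)) (π g)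
      by_cases hℓ : ℓ ∈ Bd.S
      · have h0 : Bd.redAct K (Bd.Tl ℓ) = 0 := Matrix.ext_of_mulVec_single fun i => hψinj <| by
          refine torsFun_injective N p k ?_
          rw [hgen, Tgen_apply_mem N ⊤ k Bd.S hℓ, Matrix.zero_mulVec, map_zero, map_zero]
        rw [h0]
        exact Commute.zero_left _
      · refine Matrix.ext_of_mulVec_single fun i => hψinj ?_
        rw [← Matrix.mulVec_mulVec, ← Matrix.mulVec_mulVec, hT ℓ hℓ, hπv, hπv, hT ℓ hℓ]
        exact LinearMap.congr_fun (FA.RT.galK_comm_heckeK N p k g _).symm.eq _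
  -- the relation at all elements
  let ξ : GQ →* Module.End O (Fin d → k) :=
    { toFun := fun g => (π g).mulVecLin.restrictScalars O
      map_one' := LinearMap.ext fun v => by
        show π 1 *ᵥ v = v
        rw [map_one, Matrix.one_mulVec]
      map_mul' := fun g h => LinearMap.ext fun v => by
        show π (g * h) *ᵥ v = π g *ᵥ (π h *ᵥ v)
        rw [map_mul, Matrix.mulVec_mulVec] }
  let T : ℕ → Bd.alg := fun l => if h : l.Prime then Bd.Tl ⟨l, h⟩ else 0
  let nS : Finset ℕ := Bd.S.image fun l : Nat.Primes => (l : ℕ)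
  let m' : GQ →* Matrix (Fin 2) (Fin 2) Bd.alg := FA.Deform.mapRep f.toRingHom m
  have key := fun τ => add_inv_eq_trace ξ
    (fun n => maximalIdeal O ^ n • (⊤ : Submodule O (Fin d → k)))
    (fun w hw => by
      have h1 : maximalIdeal O ^ 1 • (⊤ : Submodule O (Fin d → k)) ≤ ⊥ :=
        Submodule.smul_le.2 fun c hc x _ => (Submodule.mem_bot O).2 (funext fun i => by
          rw [pow_one] at hc
          rw [Pi.smul_apply, Algebra.smul_def, show algebraMap O k c = residue O c from rfl,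
            (residue_eq_zero_iff c).2 hc, zero_mul, Pi.zero_apply])
      exact (Submodule.mem_bot O).1 (h1 (hw 1)))
    (fun σ n w hw => by
      have h := Submodule.mem_map_of_mem (f := ξ σ) hw
      rw [Submodule.map_smul''] at h
      exact Submodule.smul_mono le_rfl le_top h)
    (fun n => by
      obtain ⟨F, hF, h⟩ := FA.JTorsion.exists_field_galMod N (∅ : Set ℕ) p
      refine ⟨F, hF, fun σ hσ w => ?_⟩
      have h1 : π σ = 1 := Matrix.ext_of_mulVec_single fun i => hψinj (by
        rw [hπv, Matrix.one_mulVec, FA.ModField.galK, h σ hσ]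
        exact LinearMap.congr_fun (LinearMap.baseChange_id (R := ℤ) (A := k)) _)
      show π σ *ᵥ w - w ∈ _
      rw [h1, Matrix.one_mulVec, sub_self]
      exact zero_mem _)
    (redEnd (Bd.redAct K) (Bd.redAct_algebraMap K))
    (fun n c hc w => Submodule.smul_mem_smul hc Submodule.mem_top)
    (fun σ a => LinearMap.ext fun v => by
      show Bd.redAct K a *ᵥ (π σ *ᵥ v) = π σ *ᵥ (Bd.redAct K a *ᵥ v)
      rw [Matrix.mulVec_mulVec, Matrix.mulVec_mulVec, (hcomm a σ).eq])
    T nS m'
    (fun n => by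
      obtain ⟨c, hc⟩ := FA.RT.exists_pow_le_span_pow hloc n
      obtain ⟨L, hL, hLc⟩ := hm c
      refine ⟨L, hL, fun σ hσ i j => ?_⟩
      have h1 := Ideal.mem_map_of_mem f.toRingHom (hc (hLc σ hσ i j))
      rw [Ideal.map_map, show f.toRingHom.comp (algebraMap O A) = algebraMap O Bd.alg from
        f.comp_algebraMap] at h1
      have e : (m' σ - 1) i j = f.toRingHom ((m σ - 1) i j) := by
        show f.toRingHom (m σ i j) - _ = _
        rw [Matrix.sub_apply, map_sub]
        rcases eq_or_ne i j with rfl | hne <;> simp [*]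
      rw [e]
      exact h1)
    (fun ℓ hℓ hℓS V hV σ hσ => by
      have hS : (⟨ℓ, hℓ⟩ : Nat.Primes) ∉ Bd.S := fun h =>
        hℓS (Finset.mem_image.2 ⟨_, h, rfl⟩)
      obtain ⟨h1, h2⟩ := hfrob ⟨ℓ, hℓ⟩ hS V hV σ hσ
      have hℓp : ℓ ≠ p := fun e => by subst e; exact hS hpS
      have hT' : T ℓ = Bd.Tl ⟨ℓ, hℓ⟩ := dif_pos hℓ
      refine ⟨⟨?_, ?_⟩, ?_⟩
      · show ((m σ).map f.toRingHom).trace = _
        rw [← AddMonoidHom.map_trace f.toRingHom, hT']
        exact h1
      · show (f.toRingHom.mapMatrix (m σ)).det = _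
        rw [← RingHom.map_det]
        exact h2
      · rw [hT']
        refine LinearMap.ext fun v => hψinj ?_
        rw [LinearMap.add_apply, Module.End.mul_apply, Module.End.natCast_apply,
          ← Nat.cast_smul_eq_nsmul k, map_add, map_smul]
        show ψ (π σ *ᵥ v) + (ℓ : k) • ψ (π σ⁻¹ *ᵥ v) = ψ (Bd.redAct K (Bd.Tl ⟨ℓ, hℓ⟩) *ᵥ v)
        rw [hπv, hπv, hT ⟨ℓ, hℓ⟩ hS, FA.RT.galK_frobenius N p k hℓ
          (Bd.not_dvd_lev hS K) hℓp hV hσ]) τ
  let act : A →+* Matrix (Fin d) (Fin d) k := (Bd.redAct K).comp f.toRingHom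
  have hrel : ∀ g, π g + act (m g).det * π g⁻¹ = act (m g).trace := by
    intro g
    have h := key g
    have e1 : (m' g).det = f (m g).det := (RingHom.map_det f.toRingHom (m g)).symm
    have e2 : (m' g).trace = f (m g).trace := (AddMonoidHom.map_trace f.toRingHom (m g)).symm
    rw [e1, e2] at h
    refine Matrix.ext_of_mulVec_single fun i => ?_
    rw [Matrix.add_mulVec, ← Matrix.mulVec_mulVec]
    exact LinearMap.congr_fun h (Pi.single i 1)
  have hc : ∀ a g, Commute (act a) (π g) := fun a g => hcomm (f a) g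
  refine ⟨FA.RT.even_of_matrixHom (FA.ModField.RankTwo.desc act π hc m hrel hspan), ?_⟩
  rw [show (blockAct ((Bd.redAct K).comp f.toRingHom) (m s - 1)).rank = 2 * (π s - 1).rank from
    FA.ModField.RankTwo.rank_blockAct act π hc m hrel hspan s]
  congr 1
  have hcomp : (FA.ModField.galK N p k s - 1) ∘ₗ ψ = ψ ∘ₗ (π s - 1).mulVecLin :=
    LinearMap.ext fun v => by
      rw [LinearMap.comp_apply, LinearMap.comp_apply, Matrix.mulVecLin_apply, Matrix.sub_mulVec,
        Matrix.one_mulVec, map_sub, hπv]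
      rfl
  have hmap : (LinearMap.range (π s - 1).mulVecLin).map ψ =
      (FA.ModField.eigenPart N p k (natSet Bd.S) (natSys Bd.c)).map
        (FA.ModField.galK N p k s - 1) := by
    rw [← LinearMap.range_comp, ← hcomp, LinearMap.range_comp, hψrange]
  exact ((Submodule.equivMapOfInjective ψ hψinj _).finrank_eq).trans
    (LinearEquiv.ofEq _ _ hmap).finrank_eq

/-- **The rank of inertia at an auxiliary prime on the frame.** -/
theorem rank_mono (hpS : (⟨p, Fact.out⟩ : Nat.Primes) ∈ Bd.S) (f : A →ₐ[O] Bd.alg)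
    (m : GQ →* Matrix (Fin 2) (Fin 2) A) (hm : FA.Deform.IsContRep m)
    (hloc : ∀ c ∈ maximalIdeal O, algebraMap O A c ∈ maximalIdeal A)
    (hspan : Submodule.span A (Set.range m) = ⊤)
    (hfrob : ∀ ℓ : Nat.Primes, ℓ ∉ Bd.S → ∀ V : ValuationSubring Qb,
      V.LiesOverPrime (ℓ : ℕ) → ∀ σ : GQ, V.IsFrobeniusAt σ (ℓ : ℕ) →
        f (m σ).trace = Bd.Tl ℓ ∧ f (m σ).det = ((ℓ : ℕ) : Bd.alg))
    {x : ι} {K : Finset ι} (hx : x ∈ K) (hqp : Bd.qn x ≠ p)
    (hwid : FA.ModField.GoodWidths (Bd.lev (K.erase x)) (Bd.qn x) p)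
    {A_q : ValuationSubring Qb} (hA : A_q.LiesOverPrime (Bd.qn x)) {s : GQ}
    (hs : FA.ModField.IsTameGen p A_q s) :
    (Bd.frame K).d = (blockAct ((Bd.redAct K).comp f.toRingHom) (m s - 1)).rank +
      2 * (Bd.frame (K.erase x)).d := by
  classical
  have hlvl : Bd.lev K = Bd.lev (K.erase x) * Bd.qn x := (Bd.isStep hx).eq
  set M := Bd.lev (K.erase x)
  set q := Bd.qn x
  haveI : NeZero (M * q) := ⟨hlvl ▸ NeZero.ne _⟩
  haveI : NeZero p := ⟨(Fact.out : p.Prime).ne_zero⟩
  have hins : insert q (natSet Bd.S) = natSet Bd.S :=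
    Finset.insert_eq_of_mem ((mem_natSet Bd.S (ℓ := ⟨q, Bd.qn_prime x⟩)).2 (Bd.qn_mem x))
  have hne : ∃ ℓ, ℓ.Prime ∧ ¬ ℓ ∣ M * q ∧ ℓ ∉ natSet Bd.S ∧
      natSys Bd.c ℓ ≠ ((ℓ + 1 : ℕ) : ResidueField O) := by
    obtain ⟨ℓ, hℓN, -, hℓc⟩ := Bd.nonEis (M * q * ∏ r ∈ Bd.S, (r : ℕ))
      (mul_ne_zero (NeZero.ne _) (Finset.prod_ne_zero_iff.2 fun r _ => r.2.ne_zero))
    refine ⟨ℓ, ℓ.2, fun h => hℓN (h.mul_right _), fun h => hℓN
      ((Finset.dvd_prod_of_mem _ ((mem_natSet Bd.S).1 h)).mul_left _), ?_⟩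
    rw [show natSys Bd.c (ℓ : ℕ) = Bd.c ℓ from dif_pos ℓ.2, Nat.cast_add, Nat.cast_one]
    exact hℓc
  obtain ⟨heven, h1⟩ := Bd.rank_blockAct_frame hpS f m hm hloc hspan hfrob K s
  have h2 := Bd.finrank_eigenPart_frame (p := p) K
  have hM := FA.ModField.monoAt M q p (ResidueField O) A_q s (natSet Bd.S) (natSys Bd.c)
    (Bd.qn_prime x) Fact.out hqp (Bd.qn_not_dvd_lev (Finset.notMem_erase x K)) hA hs hwid ‹_› ‹_›
    hne (by rwa [← FA.RT.finrank_eigenPart_congr (Bd.lev K) p _ hlvl, h2])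
  rw [hins, ← FA.RT.finrank_map_galK_congr (Bd.lev K) p _ hlvl,
    ← FA.RT.finrank_eigenPart_congr (Bd.lev K) p _ hlvl, h2,
    Bd.finrank_eigenPart_frame (p := p) (K.erase x), ← h1] at hM
  exact hM.symm

end BaseData

end FA.Two

end
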