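import Fermat.Agent.Two.BaseRank
import Fermat.Agent.Two.BaseMaps
import Fermat.Agent.Two.BaseMono
import Fermat.Agent.RT.FlatPoint

/-!
# The operators of the auxiliary primes on the base at `p = 2`

With places, Frobenius and inertia chosen at each auxiliary prime, the operators of the primes form
a cube on the frames of the base: on the top level the kernel of their product is, modulo the
maximal ideal, the sum of the old parts, and the product is not zero there.
-/

set_option autoImplicit false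
set_option linter.unusedSectionVars false
set_option linter.style.haveILetI false
set_option synthInstance.maxHeartbeats 400000
set_option maxHeartbeats 1600000

noncomputable section

namespace FA.Two

open IsLocalRing Matrix FA.ModField FA.JTorsion
open FA.HeckeH1 (Corr Hom1 GamH Tc)

local notation "Qb" => AlgebraicClosure ℚ
local notation "GQ" => AlgebraicClosure ℚ ≃ₐ[ℚ] AlgebraicClosure ℚ

variable {O : Type} [CommRing O] [IsDomain O] [IsDiscreteValuationRing O]
  [IsAdicComplete (maximalIdeal O) O] [CharZero O] [Finite (ResidueField O)]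

namespace BaseData

variable {ι : Type} [DecidableEq ι] [Fintype ι]

/-- Places, Frobenius and inertia elements at the auxiliary primes, in a basis where Frobenius is
upper unipotent, and an element reducing to a lower unipotent. -/
structure AuxPlaces (Bd : BaseData O ι)
    (rb : GQ →* Matrix (Fin 2) (Fin 2) (ResidueField O)) where
  /-- the places -/
  A : ι → ValuationSubring Qb
  lies : ∀ x, (A x).LiesOverPrime (Bd.qn x)
  /-- Frobenius -/
  φ : ι → GQ
  frob : ∀ x, (A x).IsFrobeniusAt (φ x) (Bd.qn x)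
  φ01 : ∀ x, rb (φ x) 0 1 ≠ 0
  φtr : ∀ x, (rb (φ x)).trace = 0
  /-- inertia -/
  s : ι → GQ
  tame : ∀ x, IsTameGen 2 (A x) (s x)
  unr : ∀ x, ∀ σ ∈ (A x).inertiaSubgroupIn ℚ, rb σ = 1
  /-- the lower unipotent -/
  γ : GQ
  γ10 : rb γ 1 0 ≠ 0
  γ01 : rb γ 0 1 = 0
  γd : rb γ 0 0 = rb γ 1 1
  one_mod : ∀ x, Bd.qn x % 4 = 1

variable [Algebra Qb ℂ] [Fact (Nat.Prime 2)] [CharP (ResidueField O) 2] {Bd : BaseData O ι}
  {rb : GQ →* Matrix (Fin 2) (Fin 2) (ResidueField O)} {Pts : Bd.BasePoints rb 2}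
  {M : Pts.fam.Model} {f : M.R →ₐ[O] Bd.alg} (P : Bd.AuxPlaces rb)

theorem AuxPlaces.ne_two (P : Bd.AuxPlaces rb) (x : ι) : Bd.qn x ≠ 2 := fun h => by
  have := P.one_mod x
  omega

/-- The operator of an auxiliary prime in the algebra of the base. -/
def AuxPlaces.nB (_hf : Pts.IsBaseHom M f) (x : ι) : Bd.alg := f (Pts.nOp M (P.s x) P.γ)

variable (hf : Pts.IsBaseHom M f)

/-- It vanishes on the levels prime to the prime. -/
theorem AuxPlaces.toGood_nB {x : ι} {K : Finset ι} (hx : x ∉ K) :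
    Bd.toGood K (P.nB hf x) = 0 := by
  rw [AuxPlaces.nB, Pts.nOp_eq, Matrix.trace_fin_two, Matrix.mul_apply, Matrix.mul_apply]
  simp only [Fin.sum_univ_two, map_add, map_mul,
    Pts.toGood_eq_zero hf hx (P.ne_two x) (P.lies x) (P.tame x).1, zero_mul, add_zero]

theorem AuxPlaces.algAct_nB {x : ι} {K : Finset ι} (hx : x ∉ K) :
    Bd.algAct K (P.nB hf x) = 0 := by
  rw [algAct_apply, P.toGood_nB hf hx, map_zero]

theorem AuxPlaces.nB_low (x : ι) (K : Finset ι) (hx : x ∉ K) :
    Bd.redAct K (P.nB hf x) = 0 :=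
  Pts.redAct_nOp hf hx (P.ne_two x) (P.lies x) (P.tame x).1 _

/-- Hypotheses on the base. -/
structure BaseOK (Bd : BaseData O ι)
    (rb : GQ →* Matrix (Fin 2) (Fin 2) (ResidueField O)) : Prop where
  two_mem : (2 : O) ∈ maximalIdeal O
  two_S : (⟨2, Nat.prime_two⟩ : Nat.Primes) ∈ Bd.S
  span : Submodule.span (ResidueField O) (Set.range rb) = ⊤

variable (h : Bd.BaseOK rb) (ιp : ℤ_[2] →+* O)

include h in
theorem BaseOK.natCast_two : ((2 : ℕ) : O) ∈ maximalIdeal O := by exact_mod_cast h.two_mem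

include h ιp in
theorem AuxPlaces.nB_rank (x : ι) (K : Finset ι) (hx : x ∈ K) :
    (Bd.frame K).d ≤ (Bd.redAct K (P.nB hf x)).rank + 2 * (Bd.frame (K.erase x)).d := by
  haveI := M.finite
  have hspan : Submodule.span M.R (Set.range M.rR) = ⊤ :=
    FA.RT.span_eq_top_of_lift M.π (fun c => RingHom.congr_fun M.π_algebraMap c) h.span M.lift
  exact Pts.rank_nOp h.natCast_two hf ιp h.two_S hx (P.ne_two x) (P.lies x) (P.unr x) (P.frob x)
    (P.φ01 x) (P.tame x).1 P.γ10 P.γ01 P.γd
    (Bd.rank_mono h.two_S f M.rR M.cont (BasePoints.algebraMap_mem M) hspan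
      (fun ℓ hℓ V hV σ hσ => BasePoints.baseHom_frob hf hℓ hV hσ) hx (P.ne_two x)
      (Or.inr (Or.inr ⟨rfl, 1, one_dvd _, by rw [P.one_mod x]⟩)) (P.lies x) (P.tame x))

/-- The cube of the base. -/
def AuxPlaces.cube : Cube Bd.alg
    ((Bd.baseMaps Nat.prime_two).cubeInput (P.nB hf) (fun q K hq => P.nB_low hf q K hq)
      (fun q K hq => P.nB_rank hf h ιp q K hq)).Mod :=
  ((Bd.baseMaps Nat.prime_two).cubeInput (P.nB hf) (fun q K hq => P.nB_low hf q K hq)
    (fun q K hq => P.nB_rank hf h ιp q K hq)).cube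
      ((Bd.baseMaps Nat.prime_two).cubeInput_comm _ _ _)

/-- The product of the operators. -/
def AuxPlaces.nAll : Bd.alg := ∏ x, P.nB hf x

/-- The columns of the old part at the top. -/
def oldCols (Bd : BaseData O ι) :
    Matrix (Fin (Bd.frame Finset.univ).d)
      (Σ x : ι, Fin 2 × Fin (Bd.frame (Finset.univ.erase x)).d) (ResidueField O) :=
  Matrix.of fun i s => Bd.upMat s.1 Finset.univ i s.2

include h ιp in
/-- **The kernel of the product on the top level is old.** -/
theorem AuxPlaces.exists_old {v : Fin (Bd.frame Finset.univ).d → ResidueField O}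
    (hv : Bd.redAct Finset.univ (P.nAll hf) *ᵥ v = 0) :
    ∃ y, oldCols Bd *ᵥ y = v := by
  let D := (Bd.baseMaps Nat.prime_two).cubeInput (P.nB hf) (fun q K hq => P.nB_low hf q K hq)
    (fun q K hq => P.nB_rank hf h ιp q K hq)
  let w : D.Mod Finset.univ := v
  have hv' : (P.cube hf h ιp).prodN Finset.univ • w = 0 := hv
  have key := (P.cube hf h ιp).mem_oldSum_of_prodN_eq_zero (Finset.Subset.refl _) hv'
  suffices hgoal : (v : Fin (Bd.frame Finset.univ).d → ResidueField O) ∈
      LinearMap.range (oldCols Bd).mulVecLin from hgoal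
  refine Submodule.iSup_induction (motive := fun w =>
      D.vec w ∈ LinearMap.range (oldCols Bd).mulVecLin) _ key ?_ (zero_mem _)
    fun a b ha hb => add_mem ha hb
  rintro ⟨q, hq⟩ _ ⟨y, rfl⟩
  let z : Fin 2 × Fin (Bd.frame (Finset.univ.erase q)).d → ResidueField O := fun iu =>
    CubeInput.vec _ (((LinearEquiv.piCongrRight fun _ : Fin 2 =>
      CubeInput.cast _ (CubeInput.erase_of_insert (Finset.notMem_erase q Finset.univ)
        (Finset.insert_erase hq)).2.symm).toLinearMap y) iu.1) iu.2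
  refine ⟨fun s => if hs : s.1 = q then z (hs ▸ s.2) else 0, ?_⟩
  show oldCols Bd *ᵥ _ = Bd.upMat q Finset.univ *ᵥ z
  funext i
  simp only [Matrix.mulVec, dotProduct, oldCols, Matrix.of_apply]
  rw [Fintype.sum_sigma, Finset.sum_eq_single q (fun x _ hx => Finset.sum_eq_zero fun u _ => by
    rw [dif_neg hx, mul_zero]) (fun hn => absurd (Finset.mem_univ q) hn)]
  exact Finset.sum_congr rfl fun u _ => by rw [dif_pos rfl]

include h ιp in
/-- **The kernel of a map down is the image of the operator.** -/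
theorem AuxPlaces.exists_nB_of_down {x : ι} {K : Finset ι} (hx : x ∈ K)
    {v : Fin (Bd.frame K).d → ResidueField O} (hv : Bd.downMat x K *ᵥ v = 0) :
    ∃ y, Bd.redAct K (P.nB hf x) *ᵥ y = v := by
  have hk := (((Bd.baseMaps Nat.prime_two).cubeInput (P.nB hf) (fun q K hq => P.nB_low hf q K hq)
    (fun q K hq => P.nB_rank hf h ιp q K hq)).ker_range_n x hx).2
  have hv' : v ∈ LinearMap.ker (Bd.downMat x K).mulVecLin := hv
  rw [← baseMaps_down Bd Nat.prime_two] at hv'
  have := hk.ge hv'
  exact this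

/-- The operator at an auxiliary prime prime to the level is the trace of Frobenius. -/
theorem AuxPlaces.algAct_trace_frob (P : Bd.AuxPlaces rb) (hf : Pts.IsBaseHom M f)
    (h : Bd.BaseOK rb) (ιp : ℤ_[2] →+* O) {x : ι} {K : Finset ι}
    (hx : x ∉ K) : Bd.algAct K (f (M.rR (P.φ x)).trace) = Bd.opQ x K := by
  haveI := M.finite
  have hrel := Bd.galFrame_add_inv K h.natCast_two h.two_S f M.rR M.cont
    (BasePoints.algebraMap_mem M) (fun ℓ hℓ V hV σ hσ => BasePoints.baseHom_frob hf hℓ hV hσ)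
    (P.φ x)
  rw [Pts.det_model h.natCast_two ιp, cycP_frobenius 2 (Bd.qn_prime x) (P.ne_two x) (P.lies x)
    (P.frob x), map_natCast, map_natCast, map_natCast, map_natCast] at hrel
  rw [← hrel]
  haveI : NeZero (Bd.qn x) := ⟨(Bd.qn_prime x).ne_zero⟩
  refine LinearMap.ext fun v => ((Bd.frame K).coord_emb _).symm.trans ?_
  show (Bd.frame K).coord _ = (Bd.frame K).coord _
  refine congrArg _ ?_
  rw [LinearMap.add_apply, Module.End.mul_apply, Module.End.natCast_apply,
    ← Nat.cast_smul_eq_nsmul O, ← toH1_latEmb, map_add, map_smul, latEmb_galFrame,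
    latEmb_galFrame]
  rw [FA.NebLocal.galR_frobenius h.natCast_two (Bd.lev K) (Bd.qn x) (Bd.qn_not_dvd_lev hx)
    (P.ne_two x) (P.lies x) (P.frob x)]
  rw [← latT_T O (Bd.lev K) (Bd.qn_not_dvd_lev hx), toH1_latT, toH1_latEmb]
  rfl

theorem AuxPlaces.isNilpotent_down_up (P : Bd.AuxPlaces rb) (hf : Pts.IsBaseHom M f)
    (h : Bd.BaseOK rb) (ιp : ℤ_[2] →+* O) {x : ι} {K : Finset ι} (hx : x ∈ K) :
    IsNilpotent (Bd.downMat x K * Bd.upMat x K) := by
  refine Bd.isNilpotent_downMat_mul_upMat hx ?_ ?_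
  · rw [CharP.cast_eq_zero_iff (ResidueField O) 2]
    have := P.one_mod x
    omega
  · rw [← P.algAct_trace_frob hf h ιp (Finset.notMem_erase x K)]
    refine Pts.isNilpotent_redAct (K.erase x) f ?_
    rw [← eq_maximalIdeal (RingHom.ker_isMaximal_of_surjective _ M.π_surjective), RingHom.mem_ker,
      AddMonoidHom.map_trace M.π]
    exact (congrArg Matrix.trace (DFunLike.congr_fun M.lift (P.φ x))).trans (P.φtr x)

include h ιp in
/-- **The product is not zero on the top level.** -/
theorem AuxPlaces.redAct_nAll_ne_zero :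
    Bd.redAct Finset.univ (P.nAll hf) ≠ 0 := by
  intro h0
  have hd : 0 < (Bd.frame (∅ : Finset ι)).d := by
    by_contra hd
    haveI : IsEmpty (Fin (Bd.frame (∅ : Finset ι)).d) := ⟨fun i => hd i.pos⟩
    haveI := Bd.nontrivial_good ∅
    exact one_ne_zero (α := Bd.Good ∅) (Bd.goodAct_injective ∅ (Subsingleton.elim _ _))
  have hnil : ∀ (q : ι) {K K' : Finset ι} (hK : q ∉ K) (hK' : insert q K = K'), ∃ m : ℕ,
      ∀ y, (fun z => (P.cube hf h ιp).down q hK hK' ((P.cube hf h ιp).up q hK hK' z))^[m] y = 0 := by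
    intro q K K' hK hK'
    obtain ⟨hqK', e⟩ := CubeInput.erase_of_insert hK hK'
    subst e
    obtain ⟨m, hm⟩ := P.isNilpotent_down_up hf h ιp hqK'
    refine ⟨m, fun y => ?_⟩
    have key : ∀ (j : ℕ) (y : Fin 2 → ((Bd.baseMaps Nat.prime_two).cubeInput (P.nB hf)
        (fun q K hq => P.nB_low hf q K hq)
        (fun q K hq => P.nB_rank hf h ιp q K hq)).Mod (K'.erase q)),
        (fun (iu : Fin 2 × Fin (Bd.frame (K'.erase q)).d) => CubeInput.vec _
            ((fun z => (P.cube hf h ιp).down q hK hK' ((P.cube hf h ιp).up q hK hK' z))^[j] y iu.1)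
              iu.2) =
          (Bd.downMat q K' * Bd.upMat q K') ^ j *ᵥ fun iu => CubeInput.vec _ (y iu.1) iu.2 := by
      intro j
      induction j with
      | zero => intro y; rw [pow_zero, Matrix.one_mulVec]; rfl
      | succ j ih =>
        intro y
        rw [pow_succ, ← Matrix.mulVec_mulVec, Function.iterate_succ_apply, ih]
        congr 1
        rw [← Matrix.mulVec_mulVec]
        rfl
    funext i u
    have := congrFun (key m y) (i, u)
    rw [hm, Matrix.zero_mulVec] at this
    exact this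
  obtain ⟨v, hv⟩ := (P.cube hf h ιp).exists_prodN_ne_zero
    ⟨(fun _ => 1 : Fin (Bd.frame (∅ : Finset ι)).d → ResidueField O),
      fun h1 => one_ne_zero (congrFun h1 ⟨0, hd⟩)⟩ hnil Finset.univ
  refine hv ?_
  show Bd.redAct Finset.univ (P.nAll hf) *ᵥ CubeInput.vec _ v = 0
  exact (congrArg (fun X => X *ᵥ CubeInput.vec _ v) h0).trans (Matrix.zero_mulVec _)

end BaseData

end FA.Two
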