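import Fermat.Agent.Two.Tangent

/-!
# From the points to the carried algebra at `p = 2`

The relations and the flatness of all points of a family hold for the carried lift.
-/

set_option autoImplicit false
set_option linter.unusedSectionVars false

noncomputable section

open IsLocalRing Matrix FA.Deform FA.TW FA.LocalDef

namespace FA.Two

local notation "Qb" => AlgebraicClosure ℚ
local notation "GQ" => AlgebraicClosure ℚ ≃ₐ[ℚ] AlgebraicClosure ℚ
local notation "M2" k:max => Matrix (Fin 2) (Fin 2) k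

variable {O : Type} [CommRing O] [IsDomain O] [IsDiscreteValuationRing O]
  [IsAdicComplete (maximalIdeal O) O]
  {rb : GQ →* Matrix (Fin 2) (Fin 2) (ResidueField O)} {Y : Type} {S : Family rb Y}

omit [IsAdicComplete (maximalIdeal O) O] in
/-- **Artin–Rees.** An element small in every projection is small. -/
theorem Family.Model.exists_shift (M : S.Model) (I : Ideal O) :
    ∃ k, ∀ n (x : M.R), (∀ j, M.proj j x ∈ (I ^ (k + n)).map (algebraMap O (S.B j))) →
      x ∈ (I ^ n).map (algebraMap O M.R) := by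
  classical
  have : Fintype S.J := Fintype.ofFinite S.J
  let G : M.R →ₗ[O] ∀ j, S.B j := LinearMap.pi fun j => (M.proj j).toLinearMap
  have hG : Function.Injective G := (injective_iff_map_eq_zero G).mpr fun x hx =>
    M.proj_injective x fun j => congrFun hx j
  obtain ⟨k, hk⟩ := Ideal.exists_pow_inf_eq_pow_smul I (LinearMap.range G)
  refine ⟨k, fun n x hx => ?_⟩
  have h1 : G x ∈ I ^ (k + n) • (⊤ : Submodule O (∀ j, S.B j)) ⊓ LinearMap.range G := by
    refine Submodule.mem_inf.mpr ⟨?_, LinearMap.mem_range_self G x⟩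
    rw [show G x = ∑ j, Pi.single j (G x j) from (Finset.univ_sum_single (G x)).symm]
    refine Submodule.sum_mem _ fun j _ => ?_
    have hj : G x j ∈ I ^ (k + n) • (⊤ : Submodule O (S.B j)) := by
      rw [Ideal.smul_top_eq_map]
      exact hx j
    have := Submodule.mem_map_of_mem (f := LinearMap.single O (fun j => S.B j) j) hj
    rw [Submodule.map_smul''] at this
    exact Submodule.smul_mono le_rfl le_top this
  rw [hk (k + n) (Nat.le_add_right k n), Nat.add_sub_cancel_left] at h1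
  have h2 : G x ∈ (I ^ n • (⊤ : Submodule O M.R)).map G := by
    rw [Submodule.map_smul'', Submodule.map_top]
    exact Submodule.smul_mono le_rfl inf_le_right h1
  obtain ⟨y, hy, hyx⟩ := h2
  rw [← hG hyx]
  rw [Ideal.smul_top_eq_map] at hy
  exact hy

omit [IsAdicComplete (maximalIdeal O) O] in
/-- The structure map of a carried algebra is local. -/
theorem Carried.map_maximalIdeal_le (C : Carried rb Y) :
    (maximalIdeal O).map (algebraMap O C.R) ≤ maximalIdeal C.R := by
  refine Ideal.map_le_iff_le_comap.mpr fun c hc => (mem_maximalIdeal _).mpr fun hu => ?_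
  have h1 := (hu.map C.π)
  rw [show C.π (algebraMap O C.R c) = residue O c from RingHom.congr_fun C.π_algebraMap c,
    (residue_eq_zero_iff c).mpr hc] at h1
  exact not_isUnit_zero h1

omit [IsAdicComplete (maximalIdeal O) O] in
/-- A finite quotient is killed by a power of the maximal ideal. -/
theorem Carried.exists_pow_le (C : Carried rb Y) (I : Ideal C.R) [Finite (C.R ⧸ I)] :
    ∃ t, maximalIdeal C.R ^ t ≤ I := by
  by_cases hI : I = ⊤
  · exact ⟨0, hI ▸ le_top⟩
  have : Finite (Ideal (C.R ⧸ I)) :=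
    Finite.of_injective (fun J : Ideal (C.R ⧸ I) => (J : Set (C.R ⧸ I))) SetLike.coe_injective
  obtain ⟨a, b, hab, he⟩ := Finite.exists_ne_map_eq_of_infinite fun n =>
    (maximalIdeal C.R ^ n).map (Ideal.Quotient.mk I)
  wlog hlt : a < b generalizing a b
  · exact this b a hab.symm he.symm (lt_of_le_of_ne (not_lt.mp hlt) hab.symm)
  refine ⟨a, Submodule.le_of_le_smul_of_le_jacobson_bot (IsNoetherian.noetherian _)
    (maximalIdeal_le_jacobson ⊥) fun x hx => ?_⟩
  have hx' : Ideal.Quotient.mk I x ∈ (maximalIdeal C.R ^ b).map (Ideal.Quotient.mk I) :=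
    he ▸ Ideal.mem_map_of_mem _ hx
  obtain ⟨y, hy, hyx⟩ := (Ideal.mem_map_iff_of_surjective _ Ideal.Quotient.mk_surjective).mp hx'
  rw [Ideal.Quotient.eq] at hyx
  refine Submodule.mem_sup.mpr ⟨x - y, by simpa using I.neg_mem hyx, y, ?_, sub_add_cancel x y⟩
  rw [smul_eq_mul, ← pow_succ']
  exact Ideal.pow_le_pow_right (Nat.succ_le_of_lt hlt) hy

omit [IsAdicComplete (maximalIdeal O) O] in
/-- Powers of the maximal ideal of `O` cut out finite quotients of a point. -/
theorem Family.finite_quotient_map [Finite (ResidueField O)] (S : Family rb Y) (j : S.J)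
    (N : ℕ) : Finite (S.B j ⧸ (maximalIdeal O ^ N).map (algebraMap O (S.B j))) := by
  have : Finite (O ⧸ maximalIdeal O) := ‹Finite (ResidueField O)›
  have : Finite (O ⧸ maximalIdeal O ^ N) :=
    Ideal.finite_quotient_pow (IsNoetherian.noetherian _) N
  have : Module.Finite (O ⧸ maximalIdeal O ^ N)
      (S.B j ⧸ (maximalIdeal O ^ N).map (algebraMap O (S.B j))) :=
    Module.Finite.of_restrictScalars_finite O _ _
  exact Module.finite_of_finite (O ⧸ maximalIdeal O ^ N)

variable {A : ValuationSubring Qb}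

omit [IsAdicComplete (maximalIdeal O) O] in
/-- **Flat points give flat models of the carried lift.** -/
theorem Family.Model.hasFlatModels [Finite (ResidueField O)] (M : S.Model)
    (h : ∀ j, HasFlatModels (ofMatrix (S.r j) (S.cont j)) A) :
    HasFlatModels (ofMatrix M.rR M.cont) A := by
  classical
  intro I hI inst
  have : Fintype S.J := Fintype.ofFinite S.J
  obtain ⟨t, ht⟩ := M.toCarried.exists_pow_le I
  obtain ⟨k, hk⟩ := M.exists_shift (maximalIdeal O)
  let Jd : ∀ j, Ideal (S.B j) := fun j =>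
    (maximalIdeal O ^ (k + t)).map (algebraMap O (S.B j))
  have hJfin : ∀ j, Finite (S.B j ⧸ Jd j) := fun j => S.finite_quotient_map j (k + t)
  let W : S.J → Type := fun j => (Fin 2 → S.B j) ⧸ (Jd j • (⊤ : Submodule (S.B j) (Fin 2 → S.B j)))
  have hWfin : ∀ j, Finite (W j) := fun j => by
    refine Finite.of_surjective (fun v : Fin 2 → S.B j ⧸ Jd j =>
      (Submodule.Quotient.mk fun i => Quotient.out (v i) : W j)) fun w => ?_
    obtain ⟨w, rfl⟩ := Submodule.Quotient.mk_surjective _ w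
    refine ⟨fun i => Ideal.Quotient.mk _ (w i), (Submodule.Quotient.eq _).mpr ?_⟩
    rw [mem_smul_top_iff_repr (Pi.basisFun (S.B j) (Fin 2))]
    intro i
    rw [Pi.basisFun_repr, Pi.sub_apply, ← Ideal.Quotient.eq]
    exact Quotient.out_eq _
  let ftW : ∀ j, Fintype (W j) := fun j => Fintype.ofFinite _
  have hmod : ∀ j, HasModel A (W j) fun σ x =>
      (ofMatrix (S.r j) (S.cont j)).levelAction (Jd j) σ x := fun j => by
    have := hJfin j
    exact @h j (Jd j) (hJfin j) (ftW j)
  choose U hU hUσ using M.proj_rR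
  choose u hu using hU
  let ι₀ : (Fin 2 → M.R) →+ ∀ j, W j := AddMonoidHom.mk'
    (fun v j => Submodule.Quotient.mk
      (((u j)⁻¹ : (M2 (S.B j))ˣ).1 *ᵥ fun i => M.proj j (v i)))
    fun v w => funext fun j => by
      show _ = (_ : W j) + _
      rw [← Submodule.Quotient.mk_add, ← mulVec_add]
      congr 2
      funext i
      exact map_add _ _ _
  have hker : ∀ v, ι₀ v = 0 → v ∈ I • (⊤ : Submodule M.R (Fin 2 → M.R)) := by
    intro v hv
    rw [mem_smul_top_iff_repr (Pi.basisFun M.R (Fin 2))]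
    intro i
    rw [Pi.basisFun_repr]
    refine (Ideal.map_pow (algebraMap O M.R) (maximalIdeal O) t ▸
      (Ideal.pow_right_mono M.toCarried.map_maximalIdeal_le t).trans ht) (hk t _ fun j => ?_)
    have h1 := (mem_smul_top_iff_repr (Pi.basisFun (S.B j) (Fin 2)) _ _).mp
      ((Submodule.Quotient.mk_eq_zero _).mp (congrFun hv j))
    have h2 : (fun i => M.proj j (v i)) = (u j).1 *ᵥ
        (((u j)⁻¹ : (M2 (S.B j))ˣ).1 *ᵥ fun i => M.proj j (v i)) := by
      rw [mulVec_mulVec, Units.mul_inv, one_mulVec]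
    rw [congrFun h2 i]
    simp only [Pi.basisFun_repr] at h1
    rw [Matrix.mulVec_eq_sum, Finset.sum_apply]
    refine Ideal.sum_mem _ fun l _ => ?_
    simp only [Pi.smul_apply, MulOpposite.smul_eq_mul_unop, MulOpposite.unop_op]
    exact Ideal.mul_mem_left _ _ (h1 l)
  have heq : ∀ σ v, ι₀ (M.rR σ *ᵥ v) =
      fun j => (ofMatrix (S.r j) (S.cont j)).levelAction (Jd j) σ (ι₀ v j) := by
    intro σ v
    funext j
    refine Eq.trans ?_ (congrArg Submodule.Quotient.mk (FA.RT.ofMatrix_rho_apply (S.cont j) σ _).symm)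
    show Submodule.Quotient.mk _ = Submodule.Quotient.mk _
    congr 1
    have h1 : ((u j)⁻¹ : (M2 (S.B j))ˣ).1 * (M.rR σ).map (M.proj j) =
        S.r j σ * ((u j)⁻¹ : (M2 (S.B j))ˣ).1 := by
      calc _ = ((u j)⁻¹ : (M2 (S.B j))ˣ).1 * ((M.rR σ).map (M.proj j) * U j) *
            ((u j)⁻¹ : (M2 (S.B j))ˣ).1 := by
            rw [← hu, mul_assoc, mul_assoc, Units.mul_inv, mul_one]
        _ = _ := by rw [← hUσ j σ, ← hu, ← mul_assoc, Units.inv_mul, one_mul]
    rw [show (fun i => M.proj j ((M.rR σ *ᵥ v) i)) =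
        (M.rR σ).map (M.proj j) *ᵥ fun i => M.proj j (v i) from
      funext fun i => RingHom.map_mulVec (M.proj j).toRingHom (M.rR σ) v i, mulVec_mulVec, h1,
      ← mulVec_mulVec]
  let T := ι₀.range
  let _ : Fintype T := Fintype.ofFinite _
  let act' : GQ → T → T := fun σ x =>
    ⟨fun j => (ofMatrix (S.r j) (S.cont j)).levelAction (Jd j) σ (x.1 j), by
      obtain ⟨v, hv⟩ := x.2
      exact ⟨M.rR σ *ᵥ v, by rw [heq, hv]⟩⟩
  have hT : HasModel A T act' :=
    HasModel.of_injective (FA.RT.hasModel_pi hmod) T.subtype Subtype.coe_injective fun σ _ x => rfl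
  let q : (Fin 2 → M.R) →+ (Fin 2 → M.R) ⧸ (I • (⊤ : Submodule M.R (Fin 2 → M.R))) :=
    (I • (⊤ : Submodule M.R (Fin 2 → M.R))).mkQ.toAddMonoidHom
  let π : T →+ (Fin 2 → M.R) ⧸ (I • (⊤ : Submodule M.R (Fin 2 → M.R))) :=
    AddMonoidHom.liftOfSurjective ι₀.rangeRestrict ι₀.rangeRestrict_surjective
      ⟨q, fun v hv => (Submodule.Quotient.mk_eq_zero _).mpr (hker v (congrArg Subtype.val hv))⟩
  have hπ : ∀ v, π (ι₀.rangeRestrict v) = q v := fun v =>
    AddMonoidHom.liftOfRightInverse_comp_apply _ _ _ _ v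
  refine HasModel.of_surjective hT π (fun y => ?_) fun σ _ x => ?_
  · obtain ⟨v, rfl⟩ := Submodule.Quotient.mk_surjective _ y
    exact ⟨_, hπ v⟩
  · obtain ⟨v, rfl⟩ := ι₀.rangeRestrict_surjective x
    have h1 : act' σ (ι₀.rangeRestrict v) = ι₀.rangeRestrict (M.rR σ *ᵥ v) :=
      Subtype.ext (heq σ v).symm
    refine ((congrArg π h1).trans (hπ _)).trans ?_
    refine Eq.trans ?_ (congrArg ((ofMatrix M.rR M.cont).levelAction I σ) (hπ v)).symm
    exact (congrArg (⇑q) (FA.RT.ofMatrix_rho_apply M.cont σ v)).symm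


section transfer

/-- **The matrices of the carried algebra inside those of the points.** -/
theorem Family.Model.exists_transfer (M : S.Model) :
    ∃ Φ : ∀ j, M2 M.R →+* M2 (S.B j), (∀ X Y', (∀ j, Φ j X = Φ j Y') → X = Y') ∧
      (∀ j σ, Φ j (M.rR σ) = S.r j σ) ∧
      (∀ j (a : M.R) X, Φ j (a • X) = M.proj j a • Φ j X) := by
  classical
  choose U hU hUσ using M.proj_rR
  choose c hc using hU
  let Φ : ∀ j, M2 M.R →+* M2 (S.B j) := fun j =>
    (MulSemiringAction.toRingHom (ConjAct (M2 (S.B j))ˣ) _ (ConjAct.toConjAct (c j)⁻¹)).comp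
      (M.proj j).toRingHom.mapMatrix
  have hΦ : ∀ j X, Φ j X = ((c j)⁻¹ : (M2 (S.B j))ˣ).1 * X.map (M.proj j) * U j := fun j X => by
    rw [← hc j]
    show ((c j)⁻¹ : (M2 (S.B j))ˣ).1 * X.map (M.proj j) *
      (((c j)⁻¹)⁻¹ : (M2 (S.B j))ˣ).1 = _
    rw [inv_inv]
  refine ⟨Φ, fun X Y' hXY => ?_, fun j σ => ?_, fun j a X => ?_⟩
  · ext i l
    refine sub_eq_zero.mp (M.proj_injective _ fun j => ?_)
    have h1 := hXY j
    rw [hΦ, hΦ, ← hc j, Units.mul_left_inj, Units.mul_right_inj] at h1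
    rw [map_sub, sub_eq_zero]
    exact congrFun (congrFun h1 i) l
  · rw [hΦ, mul_assoc, ← hUσ j σ, ← hc j, Units.inv_mul_cancel_left]
  · rw [hΦ, hΦ, Matrix.map_smul' _ _ _ (map_mul (M.proj j)), Matrix.mul_smul, Matrix.smul_mul]

end transfer

section conds

variable {O : Type} [CommRing O] [IsDomain O] [IsDiscreteValuationRing O]
  [IsAdicComplete (maximalIdeal O) O] [Fintype (ResidueField O)] [CharP (ResidueField O) 2]

variable (S : Setting (ResidueField O)) (Q0 : Finset ℕ)

/-- The local conditions on the points. -/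
structure Setting.PointConds (U : Set ℕ) (F : Family (O := O) S.r ↥Q0) : Prop where
  unr : ∀ j, ∀ l : ℕ, l.Prime → l ≠ 2 → ¬ l ∣ S.Q.D → l ∉ Q0 → l ∉ U →
    ∀ A : ValuationSubring Qb, A.LiesOverPrime l → ∀ σ ∈ A.inertiaSubgroupIn ℚ, F.r j σ = 1
  ram : ∀ j, ∀ l : ℕ, l.Prime → l ∣ S.Q.D → ∀ A : ValuationSubring Qb, A.LiesOverPrime l →
    ∀ σ ∈ A.inertiaSubgroupIn ℚ, (F.r j σ - 1) ^ 2 = 0
  det_two : ∀ A : ValuationSubring Qb, A.LiesOverPrime 2 → ∀ σ ∈ A.inertiaSubgroupIn ℚ,
    ∃ a : O, ∀ j, (F.r j σ).det = algebraMap O (F.B j) a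
  flat : ∀ j, ∀ A : ValuationSubring Qb, A.LiesOverPrime 2 →
    HasFlatModels (ofMatrix (F.r j) (F.cont j)) A
  aux : ∀ j, ∀ q : ↥Q0, ∀ A : ValuationSubring Qb, A.LiesOverPrime q.1 → ∀ φ : GQ,
    A.IsFrobeniusAt φ q.1 →
    (F.r j φ - ((q.1 : F.B j) * F.al j q) • (1 : M2 (F.B j))) *
        (F.r j φ - F.al j q • (1 : M2 (F.B j))) = 0 ∧
      ∀ σ ∈ A.inertiaSubgroupIn ℚ,
        (F.r j φ - ((q.1 : F.B j) * F.al j q) • (1 : M2 (F.B j))) * (F.r j σ - 1) = 0 ∧
        (F.r j σ - 1) * (F.r j φ - F.al j q • (1 : M2 (F.B j))) = 0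

variable {S Q0}

/-- **Conditions pass to the carried algebra.** -/
theorem Setting.PointConds.conds {U : Set ℕ} {F : Family (O := O) S.r ↥Q0}
    (h : S.PointConds Q0 U F) (M : F.Model) : S.Conds Q0 U M.toCarried := by
  obtain ⟨Φ, hinj, hr, hs⟩ := M.exists_transfer
  have hal : ∀ j q (a : M.R), M.proj j (a * M.al q) = M.proj j a * F.al j q := fun j q a => by
    rw [map_mul, M.proj_al]
  refine ⟨fun l hl hl2 hlD hlQ hlU A hA σ hσ => ?_, fun l hl hlD A hA σ hσ => ?_,
    fun A hA σ hσ => ?_, fun A hA => M.hasFlatModels fun j => h.flat j A hA,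
    fun q A hA φ hφ => ⟨?_, fun σ hσ => ⟨?_, ?_⟩⟩⟩
  · exact hinj _ _ fun j => by rw [hr, map_one]; exact h.unr j l hl hl2 hlD hlQ hlU A hA σ hσ
  · exact hinj _ _ fun j => by
      rw [map_pow, map_sub, hr, map_one, map_zero]; exact h.ram j l hl hlD A hA σ hσ
  · obtain ⟨a, ha⟩ := h.det_two A hA σ hσ
    refine ⟨a, sub_eq_zero.mp (M.proj_injective _ fun j => ?_)⟩
    obtain ⟨V, hV, hVσ⟩ := M.proj_rR j
    have e := congrArg Matrix.det (hVσ σ)
    rw [Matrix.det_mul, Matrix.det_mul, mul_comm V.det] at e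
    rw [map_sub, sub_eq_zero, AlgHom.commutes, ← ha j,
      (hV.map Matrix.detMonoidHom).mul_right_cancel e, AlgHom.map_det, AlgHom.mapMatrix_apply]
  · exact hinj _ _ fun j => by
      rw [map_mul, map_sub, map_sub, hr, hs, hs, map_one, hal, map_natCast, M.proj_al, map_zero]
      exact (h.aux j q A hA φ hφ).1
  · exact hinj _ _ fun j => by
      rw [map_mul, map_sub, map_sub, hr, hr, hs, map_one, hal, map_natCast, map_zero]
      exact ((h.aux j q A hA φ hφ).2 σ hσ).1
  · exact hinj _ _ fun j => by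
      rw [map_mul, map_sub, map_sub, hr, hr, hs, map_one, M.proj_al, map_zero]
      exact ((h.aux j q A hA φ hφ).2 σ hσ).2

end conds

end FA.Two
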