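import Fermat.Agent.Two.CurveBase
import Fermat.Agent.Two.BaseSide
import Fermat.Agent.Two.FromPoints
import Fermat.Agent.RT.Tame
import Fermat.Agent.Density.Places

/-!
# Places at the auxiliary primes of a curve, and its artinian point

For the base of a curve at `p = 2`: places, Frobenius and tame inertia at the auxiliary primes, and
the reduction of the `2`-adic representation modulo `m^(N+1)` as a point with distinguished values
one satisfying the local conditions.
-/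

set_option autoImplicit false
set_option linter.unusedSectionVars false
set_option linter.style.haveILetI false
set_option synthInstance.maxHeartbeats 400000
set_option maxHeartbeats 1000000

noncomputable section

open IsLocalRing Matrix WeierstrassCurve FA.EC FA.Frob FA.Deform FA.LocalDef FA.JTorsion FA.TW
open scoped Pointwise

namespace FA.Two

open FA.RT (curveRep)
open FA.RT.Tate
open FA.Theta (badProd)
open FA.ModField (IsTameGen)

local notation "Qb" => AlgebraicClosure ℚ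
local notation "GQ" => AlgebraicClosure ℚ ≃ₐ[ℚ] AlgebraicClosure ℚ
local notation "M2" k:max => Matrix (Fin 2) (Fin 2) k

local instance : Fact (Nat.Prime 2) := ⟨Nat.prime_two⟩

theorem transp_conj_std : ∀ T : M2 (ZMod 2), IsTransp T →
    ∃ M : M2 (ZMod 2), M.det ≠ 0 ∧ M * T = !![1, 1; 0, 1] * M := by
  intro T hT
  rcases transp_cases hT with rfl | rfl | rfl
  all_goals first
    | exact ⟨1, by decide, by decide⟩
    | exact ⟨!![0, 1; 1, 0], by decide, by decide⟩
    | exact ⟨!![1, 0; 1, 1], by decide, by decide⟩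

/-- A square-zero matrix with a unit corner gives a unipotent of determinant one. -/
theorem det_eq_one_of_sq {R : Type} [CommRing R] {X : M2 R} (hu : IsUnit (X 0 1))
    (h : (X - 1) ^ 2 = 0) : X.det = 1 := by
  rw [pow_two] at h
  have h00 := congrFun (congrFun h 0) 0
  have h01 := congrFun (congrFun h 0) 1
  simp only [Matrix.mul_apply, Fin.sum_univ_two, Matrix.sub_apply, Matrix.zero_apply,
    Matrix.one_apply_eq, Matrix.one_apply_ne zero_ne_one, Matrix.one_apply_ne one_ne_zero,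
    sub_zero] at h00 h01
  have ht : X 0 0 - 1 + (X 1 1 - 1) = 0 :=
    hu.mul_right_eq_zero.1 (by linear_combination h01)
  rw [Matrix.det_fin_two]
  linear_combination X 0 0 * ht - h00

/-- The coefficients of the artinian point. -/
abbrev PtRing (O : Type) [CommRing O] [IsLocalRing O] (N : ℕ) : Type :=
  O ⧸ maximalIdeal O ^ (N + 1)

instance nontrivial_ptRing (O : Type) [CommRing O] [IsLocalRing O] (N : ℕ) :
    Nontrivial (PtRing O N) :=
  Ideal.Quotient.nontrivial_iff.2 fun h => (maximalIdeal.isMaximal O).ne_top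
    (top_le_iff.1 (h ▸ Ideal.pow_le_self N.succ_ne_zero))

instance isLocalRing_ptRing (O : Type) [CommRing O] [IsLocalRing O] (N : ℕ) :
    IsLocalRing (PtRing O N) :=
  IsLocalRing.of_surjective' (Ideal.Quotient.mk _) Ideal.Quotient.mk_surjective

variable {W : WeierstrassCurve ℤ} [(ratCurve W).IsElliptic] {O : Type} [CommRing O] [IsDomain O]
  [IsDiscreteValuationRing O] [IsAdicComplete (maximalIdeal O) O] [CharZero O]
  [CharP (ResidueField O) 2] [Fintype (ResidueField O)]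

namespace CurveBase

variable {N : ℕ} {B : TateBasis 2 W} {avoid : Finset ℕ} (C : CurveBase W O N B avoid)

/-- A place at an auxiliary prime where Frobenius is the upper unipotent modulo `2`. -/
theorem exists_place {q : ℕ} (hq : q ∈ C.Q0) : ∃ (A : ValuationSubring Qb) (φ : GQ),
    A.LiesOverPrime q ∧ A.IsFrobeniusAt φ q ∧ C.S0.r0 φ = !![1, 1; 0, 1] := by
  obtain ⟨hp, -, -, -, hT⟩ := C.aux q hq
  obtain ⟨A, hA⟩ := FA.Deform.exists_liesOverPrime hp
  obtain ⟨φ, hφ⟩ := exists_isFrobeniusAt hp hA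
  obtain ⟨M, hM, hMT⟩ := transp_conj_std _ (hT A hA φ hφ)
  obtain ⟨τ, hτ⟩ := C.S0.surj M hM
  refine ⟨τ • A, τ * φ * τ⁻¹, FA.Density.liesOverPrime_smul hA τ,
    FA.Density.isFrobeniusAt_smul hφ τ, ?_⟩
  rw [map_mul, map_mul, hτ, hMT, mul_assoc, ← hτ, C.S0.mul_inv, mul_one]

/-- The Frobenius elements at the auxiliary primes are unipotent modulo `2^(N+1)`. -/
theorem rep_frob_sq {q : ℕ} (hq : q ∈ C.Q0) {A : ValuationSubring Qb} (hA : A.LiesOverPrime q)
    {φ : GQ} (hφ : A.IsFrobeniusAt φ q) :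
    (PadicInt.toZModPow (N + 1)).mapMatrix ((B.rep φ - 1) ^ 2) = 0 := by
  obtain ⟨S0, hr0, hD, R, hn, hρ, Q0, r, haux, hfine, hcard, htan⟩ := C
  obtain ⟨m, ρ, hker, hred, hunr, hunip⟩ := R
  have hn' : m = N := hn
  subst hn'
  haveI : NeZero (2 ^ (m + 1)) := ⟨pow_ne_zero _ two_ne_zero⟩
  have e : ρ φ = (PadicInt.toZModPow (m + 1)).mapMatrix (B.rep φ) :=
    Matrix.ext fun i j => ZMod.val_injective _ (hρ φ i j)
  rw [map_pow, map_sub, map_one, ← e]
  exact hfine q hq A hA φ hφ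

variable (hW : IsSwitchCurve W)

include hW in
theorem isGood_of_mem {q : ℕ} (hq : q ∈ C.Q0) : W.IsGoodPrimeFor q := fun h =>
  (C.aux q hq).2.2.1 (by rw [C.D_eq]; exact (dvd_badProd_iff hW.neg.ne (C.aux q hq).1).2 h)

include hW in
/-- The auxiliary primes are congruent to `1` modulo `2^(N+1)`. -/
theorem aux_cast_eq_one {q : ℕ} (hq : q ∈ C.Q0) : (q : ZMod (2 ^ (N + 1))) = 1 := by
  obtain ⟨A, φ, hA, hφ, hr⟩ := C.exists_place hq
  have hsq := C.rep_frob_sq hq hA hφ
  have hdet := (B.rep_frobenius (C.aux q hq).1 hA (C.aux q hq).2.1 (C.isGood_of_mem hW hq) hφ).2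
  rw [map_pow, map_sub, map_one] at hsq
  set X := (PadicInt.toZModPow (N + 1)).mapMatrix (B.rep φ) with hX
  haveI : NeZero (2 ^ (N + 1)) := ⟨pow_ne_zero _ two_ne_zero⟩
  have hu : IsUnit (X 0 1) := by
    have h1 : ZMod.castHom (dvd_pow_self 2 N.succ_ne_zero) (ZMod 2) (X 0 1) = 1 := by
      have h0 : C.S0.r0 φ 0 1 = 1 := by rw [hr]; rfl
      have h2 := congrFun (congrFun (C.R.red φ) 0) 1
      rw [h0] at h2
      have h3 : ((C.R.ρ φ 0 1).val : ZMod 2) = 1 := by
        rw [← h2]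
        show _ = ZMod.castHom (dvd_pow_self 2 C.R.n.succ_ne_zero) (ZMod 2) (C.R.ρ φ 0 1)
        haveI : NeZero (2 ^ (C.R.n + 1)) := ⟨pow_ne_zero _ two_ne_zero⟩
        conv_rhs => rw [← ZMod.natCast_zmod_val (C.R.ρ φ 0 1)]
        rw [map_natCast]
      rw [C.R_ρ] at h3
      rw [← ZMod.natCast_zmod_val (X 0 1), map_natCast]
      exact h3
    obtain ⟨a, ha⟩ := ZMod.natCast_zmod_surjective (X 0 1)
    rw [← ha, map_natCast] at h1
    rw [← ha, ZMod.isUnit_iff_coprime]
    refine Nat.Coprime.pow_right _ ((Nat.Prime.coprime_iff_not_dvd Nat.prime_two).2 fun hd => ?_).symm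
    rw [(ZMod.natCast_eq_zero_iff _ _).2 hd] at h1
    exact zero_ne_one h1
  have h := det_eq_one_of_sq hu hsq
  rw [hX, ← RingHom.map_det, hdet, map_natCast] at h
  exact h

include hW in
theorem aux_mod_four (hN : 1 ≤ N) {q : ℕ} (hq : q ∈ C.Q0) : q % 4 = 1 := by
  have h := congrArg (ZMod.castHom (pow_dvd_pow 2 (show 2 ≤ N + 1 by omega)) (ZMod (2 ^ 2)))
    (C.aux_cast_eq_one hW hq)
  rw [map_natCast, map_one, ← Nat.cast_one, ZMod.natCast_eq_natCast_iff'] at h
  simpa using h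

/-- **Places at the auxiliary primes.** -/
theorem exists_auxPlaces (hN : 1 ≤ N) : Nonempty ((C.Bd hW).AuxPlaces C.rb) := by
  choose A φ hA hφ hr using fun x : ↥C.Q0 => C.exists_place x.2
  choose s hs hgen using fun x : ↥C.Q0 =>
    FA.RT.exists_tame_gen Nat.prime_two (C.aux x.1 x.2).1 (C.aux x.1 x.2).2.1.symm (hA x)
  obtain ⟨γ, hγ⟩ := C.S0.surj !![1, 0; 1, 1] (by decide)
  have hrb : ∀ (σ : GQ) (i j : Fin 2), C.rb σ i j =
      ZMod.castHom (dvd_refl 2) (ResidueField O) (C.S0.r0 σ i j) := fun σ i j => rfl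
  exact ⟨{
    A := A
    lies := hA
    φ := φ
    frob := hφ
    φ01 := fun x => by rw [hrb, hr x]; simp
    φtr := fun x => by
      rw [Matrix.trace_fin_two, hrb, hrb, hr x]
      simp [CharTwo.add_self_eq_zero]
    s := s
    tame := fun x => ⟨hs x, hgen x⟩
    unr := fun x σ hσ => (repTwo_eq_one_iff C.S0.r0 σ).2
      (C.S0.unr x.1 (C.aux x.1 x.2).1 (C.aux x.1 x.2).2.1 (C.aux x.1 x.2).2.2.1 (A x) (hA x) σ hσ)
    γ := γ
    γ10 := by rw [hrb, hγ]; simp
    γ01 := by rw [hrb, hγ]; simp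
    γd := by rw [hrb, hrb, hγ]; simp
    one_mod := fun x => C.aux_mod_four hW hN x.2 }⟩

/-- The reduction of the coefficients. -/
def ptEps (_C : CurveBase W O N B avoid) : (PtRing O N) →+* ResidueField O :=
  Ideal.Quotient.lift _ (residue O) fun a ha =>
    (residue_eq_zero_iff a).2 (Ideal.pow_le_self N.succ_ne_zero ha)

theorem ptEps_mk (a : O) : C.ptEps (Ideal.Quotient.mk _ a) = residue O a := rfl

variable (ιp : ℤ_[2] →+* O)

/-- The map from the `2`-adic integers. -/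
abbrev ptHom (_C : CurveBase W O N B avoid) (ιp : ℤ_[2] →+* O) : ℤ_[2] →+* (PtRing O N) := (Ideal.Quotient.mk _).comp ιp

/-- **The artinian point of the curve.** -/
def ptRep : GQ →* M2 (PtRing O N) := mapRep (C.ptHom ιp) B.rep

theorem ptHom_eq_zero (h2 : (2 : O) ∈ maximalIdeal O) {z : ℤ_[2]}
    (hz : PadicInt.toZModPow (N + 1) z = 0) : C.ptHom ιp z = 0 := by
  have hz' : z ∈ Ideal.span {((2 : ℕ) : ℤ_[2]) ^ (N + 1)} := by
    rw [← PadicInt.ker_toZModPow]
    exact hz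
  obtain ⟨c, rfl⟩ := Ideal.mem_span_singleton'.1 hz'
  refine Ideal.Quotient.eq_zero_iff_mem.2 ?_
  rw [map_mul, map_pow, map_natCast]
  exact Ideal.mul_mem_left _ _ (Ideal.pow_mem_pow (by exact_mod_cast h2) _)

include hW in
theorem isCurvePoint (h2 : (2 : O) ∈ maximalIdeal O) :
    IsCurvePoint W (C.ptHom ιp) (C.ptRep ιp) := by
  haveI : IsLocalHom (Ideal.Quotient.mk (maximalIdeal O ^ (N + 1))) :=
    IsLocalHom.of_surjective _ Ideal.Quotient.mk_surjective
  haveI : Finite (ResidueField (PtRing O N)) :=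
    Finite.of_surjective (IsLocalRing.ResidueField.map (Ideal.Quotient.mk (maximalIdeal O ^ (N + 1))))
      (fun y => by
        obtain ⟨y, rfl⟩ := residue_surjective y
        obtain ⟨a, rfl⟩ := Ideal.Quotient.mk_surjective y
        exact ⟨residue O a, rfl⟩)
  refine exists_curvePoint hW.neg.ne hW.ss hW.good B _ ?_
  rw [← map_ofNat (Ideal.Quotient.mk (maximalIdeal O ^ (N + 1))),
    IsLocalRing.mem_maximalIdeal]
  exact fun hu => (IsLocalRing.mem_maximalIdeal _).1 h2 (isUnit_of_map_unit _ _ hu)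

include hW in
theorem ptRep_lift (h2 : (2 : O) ∈ maximalIdeal O) : mapRep C.ptEps (C.ptRep ιp) = C.rb := by
  refine MonoidHom.ext fun σ => ?_
  have h := (exists_curvePoint hW.neg.ne hW.ss hW.good B ιp h2).residual σ
    (ZMod.castHom (dvd_refl 2) (ResidueField O))
  rw [rb_eq]
  exact h

include hW in
theorem ptRep_aux (h2 : (2 : O) ∈ maximalIdeal O) {q : ℕ} (hq : q ∈ C.Q0)
    {A : ValuationSubring Qb} (hA : A.LiesOverPrime q) {φ : GQ} (hφ : A.IsFrobeniusAt φ q) :
    ((q : (PtRing O N)) = 1) ∧ (C.ptRep ιp φ - 1) ^ 2 = 0 ∧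
      ∀ σ ∈ A.inertiaSubgroupIn ℚ, C.ptRep ιp σ = 1 := by
  refine ⟨?_, ?_, fun σ hσ => (C.isCurvePoint hW ιp h2).unr q (C.aux q hq).1 (C.aux q hq).2.1
    (C.isGood_of_mem hW hq) A hA σ hσ⟩
  · refine sub_eq_zero.1 ?_
    rw [← map_natCast (C.ptHom ιp), ← map_one (C.ptHom ιp), ← map_sub]
    refine C.ptHom_eq_zero ιp h2 ?_
    rw [map_sub, map_natCast, map_one, C.aux_cast_eq_one hW hq, sub_self]
  · show ((C.ptHom ιp).mapMatrix (B.rep φ) - 1) ^ 2 = 0
    rw [← map_one (C.ptHom ιp).mapMatrix, ← map_sub, ← map_pow]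
    refine Matrix.ext fun i j => ?_
    exact C.ptHom_eq_zero ιp h2 (congrFun (congrFun (C.rep_frob_sq hq hA hφ) i) j)

/-- The family of the one artinian point, with distinguished values one. -/
def ptFamily (h2 : (2 : O) ∈ maximalIdeal O) : Family (O := O) C.rb ↥C.Q0 where
  J := Unit
  B _ := (PtRing O N)
  r _ := C.ptRep ιp
  ε _ := C.ptEps
  ε_algebraMap _ _ := rfl
  lift _ := C.ptRep_lift hW ιp h2
  cont _ := (C.isCurvePoint hW ιp h2).cont
  al _ _ := 1
  ε_al _ _ := map_one _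

/-- **The artinian point satisfies the local conditions.** -/
theorem ptFamily_conds (h2 : (2 : O) ∈ maximalIdeal O) (U : Set ℕ) :
    C.S0.PointConds C.Q0 U (C.ptFamily hW ιp h2) where
  unr _ l hl hl2 hlD _ _ A hA σ hσ := (C.isCurvePoint hW ιp h2).unr l hl hl2
    (fun h => hlD (by rw [C.D_eq]; exact (dvd_badProd_iff hW.neg.ne hl).2 h)) A hA σ hσ
  ram _ l hl hlD A hA σ hσ := by
    rw [C.D_eq] at hlD
    exact (C.isCurvePoint hW ιp h2).ram l hl
      (fun e => C.two_not_dvd_D hW (e ▸ hlD)) ((dvd_badProd_iff hW.neg.ne hl).1 hlD) A hA σ hσ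
  det_two _ _ σ _ := ⟨ιp ((cycP 2 σ : ℤ_[2]ˣ) : ℤ_[2]), fun _ =>
    (C.isCurvePoint hW ιp h2).det σ⟩
  flat _ A hA := (C.isCurvePoint hW ιp h2).flat A hA
  aux _ q A hA φ hφ := by
    obtain ⟨h1, h3, h4⟩ := C.ptRep_aux hW ιp h2 q.2 hA hφ
    show (C.ptRep ιp φ - ((q.1 : PtRing O N) * 1) • (1 : M2 (PtRing O N))) *
        (C.ptRep ιp φ - (1 : PtRing O N) • (1 : M2 (PtRing O N))) = 0 ∧
      ∀ σ ∈ A.inertiaSubgroupIn ℚ,
        (C.ptRep ιp φ - ((q.1 : PtRing O N) * 1) • (1 : M2 (PtRing O N))) *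
            (C.ptRep ιp σ - 1) = 0 ∧
          (C.ptRep ιp σ - 1) *
            (C.ptRep ιp φ - (1 : PtRing O N) • (1 : M2 (PtRing O N))) = 0
    refine ⟨?_, fun σ hσ => ?_⟩
    · rw [h1, one_mul, one_smul, ← pow_two]
      exact h3
    · rw [h4 σ hσ, sub_self, mul_zero, zero_mul]
      exact ⟨rfl, rfl⟩

include hW in
/-- The traces at Frobenius elements away from the omitted primes are the `a_ℓ`. -/
theorem ptRep_trace (h2 : (2 : O) ∈ maximalIdeal O) {ℓ : Nat.Primes} (hℓ : ℓ ∉ (C.Bd hW).S)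
    {A : ValuationSubring Qb} (hA : A.LiesOverPrime (ℓ : ℕ)) {σ : GQ}
    (hσ : A.IsFrobeniusAt σ (ℓ : ℕ)) :
    (C.ptRep ιp σ).trace = Ideal.Quotient.mk (maximalIdeal O ^ (N + 1))
        ((W.apOfModel ℓ : ℤ) : O) ∧ (C.ptRep ιp σ).det = ((ℓ : ℕ) : (PtRing O N)) := by
  rw [mem_Bd_S, not_or] at hℓ
  obtain ⟨h1, h3⟩ := (C.isCurvePoint hW ιp h2).trace_good ℓ ℓ.2
    (fun e => hℓ.1 (by rw [e]; exact dvd_mul_right _ _))
    (fun h => hℓ.1 (((dvd_badProd_iff hW.neg.ne ℓ.2).2 h).mul_left 2)) A hA σ hσ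
  exact ⟨h1.trans (map_intCast (Ideal.Quotient.mk (maximalIdeal O ^ (N + 1))) _).symm, h3⟩

end CurveBase

end FA.Two

end
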