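import Fermat.Agent.Patch.Crossing
import Fermat.Agent.Patch.LevelData
import Fermat.Agent.Patch.System
import Fermat.Agent.S57
import Mathlib.RingTheory.MvPowerSeries.Rename

/-!
# Patching with as many generators as auxiliary variables

If at every depth the deformation algebra is generated by as many elements as there are auxiliary
variables, the patched module is free over the presentation ring, so the module at the base is free
over the base algebra: every point of the base algebra has an equivariant functional taking the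
value one.
-/

set_option autoImplicit false

noncomputable section

open IsLocalRing Matrix FA.Patch

namespace FA.Two

variable {O : Type} [CommRing O] [IsDomain O] [IsDiscreteValuationRing O]
  [IsAdicComplete (maximalIdeal O) O] [Finite (ResidueField O)]

/-- A regular system of parameters in any finite number of variables. -/
theorem exists_regular_params (σ : Type) [Finite σ] :
    ∃ rs : List (MvPowerSeries σ O), rs.length = Nat.card σ + 1 ∧
      (∀ x ∈ rs, x ∈ maximalIdeal (MvPowerSeries σ O)) ∧
      RingTheory.Sequence.IsWeaklyRegular (MvPowerSeries σ O) rs ∧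
      maximalIdeal (MvPowerSeries σ O) = Ideal.ofList rs := by
  classical
  obtain ⟨ϖ, hϖ⟩ := IsDiscreteValuationRing.exists_irreducible O
  have hmax := (IsDiscreteValuationRing.irreducible_iff_uniformizer ϖ).mp hϖ
  obtain ⟨hreg, hgen⟩ := FA.Deform.paramList_spec O ϖ hϖ.ne_zero hmax (Nat.card σ)
  let e : MvPowerSeries (Fin (Nat.card σ)) O ≃ₐ[O] MvPowerSeries σ O :=
    MvPowerSeries.renameEquiv O (Finite.equivFin σ).symm
  let E : MvPowerSeries (Fin (Nat.card σ)) O →+* MvPowerSeries σ O := e.toRingEquiv.toRingHom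
  have hE : ∀ y, E y = e y := fun y => rfl
  refine ⟨(FA.Deform.paramList O ϖ (Nat.card σ)).map E, ?_, fun x hx => ?_, ?_, ?_⟩
  · simp [FA.Deform.paramList]
  · simp only [List.mem_map] at hx
    obtain ⟨y, hy, rfl⟩ := hx
    have hym : y ∈ maximalIdeal (MvPowerSeries (Fin (Nat.card σ)) O) :=
      hgen ▸ Ideal.subset_span hy
    simp only [IsLocalRing.mem_maximalIdeal, mem_nonunits_iff] at hym ⊢
    exact fun h => hym ((isUnit_map_iff e y).mp ((hE y) ▸ h))
  · exact FA.Deform.isWeaklyRegular_of_semilinear_basis E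
      (d := 1) (fun _ => (1 : MvPowerSeries σ O))
      (fun x => ⟨fun _ => e.symm x, by simp [hE]⟩)
      (fun c hc => funext fun i => by
        have : e (c 0) = 0 := by simpa [hE] using hc
        rw [Subsingleton.elim i 0]
        exact (map_eq_zero_iff e e.injective).mp this) _ hreg
  · have : IsLocalHom E := IsLocalHom.of_surjective _ e.surjective
    rw [← IsLocalRing.map_maximalIdeal_of_surjective E e.surjective, hgen, Ideal.map_ofList]

variable {Y : Type} [Finite Y] {m : ℕ}
  {R₀ : Type} [CommRing R₀] [IsLocalRing R₀] [Algebra O R₀] [IsNoetherianRing R₀]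
  [IsAdicComplete (maximalIdeal R₀) R₀] [Finite (ResidueField R₀)] {ρ : ℕ}
  {act₀ : R₀ →+* Matrix (Fin ρ) (Fin ρ) O}

set_option maxHeartbeats 400000 in
/-- **Points of the base algebra have equivariant functionals taking the value one.** -/
theorem exists_functional (hm : Nat.card Y = m) (hρ : 0 < ρ)
    (L : ∀ n, Level O (Fin m) Empty Y R₀ Unit Empty (fun _ => ρ) Empty.elim Empty.elim
      (fun _ => act₀) n)
    {B : Type} [CommRing B] [Algebra O B] (x : R₀ →ₐ[O] B) :
    ∃ ψ : (Fin ρ → O) →ₗ[O] B,
      (∀ a v, ψ (act₀ a *ᵥ v) = x a * ψ v) ∧ ∃ v, ψ v = 1 := by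
  classical
  let Sy := LevelSystem.ofLevels L
  obtain ⟨Pt⟩ := Sy.nonempty_patched
  let act : MvPowerSeries (Fin m) O →+* Matrix (Fin ρ) (Fin ρ) (Aux O Empty Y) := Pt.act ()
  have hj : IsScalarLift act Pt.j := Pt.isScalarLift ()
  let M := ActMod act
  have : Module.Finite (MvPowerSeries (Fin m) O) M := ActMod.finite act hj
  have : Nonempty (Fin ρ) := ⟨⟨0, hρ⟩⟩
  have : Nontrivial M := (ActMod.of act).injective.nontrivial
  have hof : ∀ (s : Aux O Empty Y) (v : Fin ρ → Aux O Empty Y),
      Pt.j s • ActMod.of act v = ActMod.of act (s • v) := fun s v => by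
    rw [ActMod.smul_of, hj, Algebra.algebraMap_eq_smul_one, Matrix.smul_mulVec, Matrix.one_mulVec]
  have hjloc : ∀ s ∈ maximalIdeal (Aux O Empty Y),
      Pt.j s ∈ maximalIdeal (MvPowerSeries (Fin m) O) := by
    intro s hs
    obtain ⟨n, -, -, -, h3, -⟩ := Pt.approx 1
    have := h3 s
    rw [pow_one] at this
    have h := add_mem this (Sy.j_mem n s hs)
    rwa [sub_add_cancel] at h
  -- freeness
  have hfree : Module.Free (MvPowerSeries (Fin m) O) M := by
    obtain ⟨rs, hlen, hmem, hreg, -⟩ := exists_regular_params (O := O) (Empty ⊕ Y)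
    obtain ⟨gs, hglen, -, -, hgen⟩ := exists_regular_params (O := O) (Fin m)
    have hcard : Nat.card (Empty ⊕ Y) = m := by
      rw [Nat.card_sum, hm]; simp
    have hreg' := FA.Deform.isWeaklyRegular_of_semilinear_basis (N := M) Pt.j
      (fun i => ActMod.of act (Pi.single i 1))
      (fun w => ⟨(ActMod.of act).symm w, by
        simp only [hof, ← map_sum]
        rw [← (ActMod.of act).apply_symm_apply w]
        congr 1
        simp only [AddEquiv.apply_symm_apply]
        funext k
        simp [Pi.single_apply]⟩)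
      (fun c hc => by
        simp only [hof, ← map_sum, map_eq_zero_iff _ (ActMod.of act).injective] at hc
        funext k
        simpa [Pi.single_apply] using congrFun hc k) rs hreg
    have hmem' : ∀ a ∈ rs.map Pt.j, a ∈ maximalIdeal (MvPowerSeries (Fin m) O) := by
      intro a ha
      simp only [List.mem_map] at ha
      obtain ⟨s, hs, rfl⟩ := ha
      exact hjloc s (hmem s hs)
    refine FA.Deform.free_of_isRegular_of_span_eq gs.length (MvPowerSeries (Fin m) O) M
      (fun i => gs.get i) ?_ _ ?_ hmem'
      (RingTheory.Sequence.IsRegular.of_isWeaklyRegular_of_mem_maximalIdeal M hmem' hreg')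
    · rw [Set.range_list_get]; exact hgen
    · rw [List.length_map, hlen, hglen, hcard, Nat.card_fin]
  obtain ⟨I, b⟩ := hfree.exists_basis.some
  obtain ⟨i₀⟩ : Nonempty I := b.index_nonempty
  let Λ : (Fin ρ → Aux O Empty Y) →+ B :=
    ((x.toRingHom.comp Pt.φ).toAddMonoidHom.comp (b.coord i₀).toAddMonoidHom).comp
      (ActMod.of act).toAddMonoidHom
  have hΛ : ∀ w, Λ w = x (Pt.φ (b.repr (ActMod.of act w) i₀)) := fun w => rfl
  have hΛsmul : ∀ (p : MvPowerSeries (Fin m) O) w, Λ (act p *ᵥ w) = x (Pt.φ p) * Λ w := by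
    intro p w
    rw [hΛ, hΛ, ← ActMod.smul_of, map_smul, Finsupp.smul_apply, smul_eq_mul, map_mul, map_mul]
  have hΛ0 : ∀ w, (∀ i, MvPowerSeries.constantCoeff (w i) = 0) → Λ w = 0 := by
    intro w hw
    rw [show w = ∑ i, w i • (Pi.single i 1 : Fin ρ → Aux O Empty Y) from funext fun k => by
      simp [Pi.single_apply], map_sum]
    refine Finset.sum_eq_zero fun i _ => ?_
    rw [show w i • (Pi.single i 1 : Fin ρ → Aux O Empty Y) =
        act (Pt.j (w i)) *ᵥ (Pi.single i 1) by
      rw [hj, Algebra.algebraMap_eq_smul_one, Matrix.smul_mulVec, Matrix.one_mulVec],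
      hΛsmul, Pt.φ_j (w i) (RingHom.mem_ker.mpr (hw i)), map_zero, zero_mul]
  let up : (Fin ρ → O) → Fin ρ → Aux O Empty Y := fun v i => MvPowerSeries.C (v i)
  have hlow : ∀ w, Λ w = Λ (up fun i => MvPowerSeries.constantCoeff (w i)) := fun w => by
    rw [← sub_eq_zero, ← map_sub]
    exact hΛ0 _ fun i => by simp [up]
  have hequiv : ∀ a v, Λ (up (act₀ a *ᵥ v)) = x a * Λ (up v) := by
    intro a v
    obtain ⟨p, rfl⟩ := Pt.φ_surjective a
    rw [← hΛsmul, hlow (act p *ᵥ up v)]
    congr 1
    refine congrArg up (funext fun i => ?_)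
    simp only [Matrix.mulVec, dotProduct, map_sum, map_mul, up, MvPowerSeries.constantCoeff_C]
    refine Finset.sum_congr rfl fun k _ => ?_
    congr 1
    have h := congrFun (congrFun (Pt.act_aug () p) i) k
    change Ideal.Quotient.mk (augIdeal O Empty Y) (act p i k) =
      Ideal.Quotient.mk (augIdeal O Empty Y) (MvPowerSeries.C (act₀ (Pt.φ p) i k)) at h
    have h' : MvPowerSeries.constantCoeff (act p i k - MvPowerSeries.C (act₀ (Pt.φ p) i k)) = 0 :=
      RingHom.mem_ker.mp ((Ideal.Quotient.mk_eq_mk_iff_sub_mem _ _).mp h)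
    rw [map_sub, MvPowerSeries.constantCoeff_C, sub_eq_zero] at h'
    exact h'.symm
  have hconst : ∀ c : O, act₀ (algebraMap O R₀ c) = algebraMap O (Matrix (Fin ρ) (Fin ρ) O) c := by
    intro c
    let := (L 0).commRing
    let := (L 0).algebra
    let := (L 0).commGroup
    have h := (L 0).act_π () (algebraMap O (L 0).R c)
    rw [AlgHom.commutes, (L 0).act_const] at h
    rw [← h, Matrix.scalar_apply, Matrix.diagonal_map (map_zero _), Matrix.algebraMap_eq_diagonal]
    congr 1
    funext i
    simp only [AlgHom.commutes]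
    rfl
  refine ⟨{
    toFun := fun v => Λ (up v)
    map_add' := fun v w => by
      rw [← map_add]; exact congrArg Λ (funext fun i => map_add MvPowerSeries.C _ _)
    map_smul' := fun c v => by
      rw [RingHom.id_apply]
      conv_rhs => rw [Algebra.smul_def, ← x.commutes, ← hequiv, hconst]
      congr 2
      funext i
      simp [Matrix.algebraMap_eq_diagonal, Matrix.mulVec_diagonal] }, hequiv, ?_⟩
  refine ⟨fun i => MvPowerSeries.constantCoeff ((ActMod.of act).symm (b i₀) i), ?_⟩
  show Λ (up _) = 1
  rw [← hlow, hΛ, AddEquiv.apply_symm_apply, b.repr_self, Finsupp.single_eq_same, map_one, map_one]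

end FA.Two
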