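import Fermat.Agent.Two.DepthDelta
import Fermat.Agent.Two.Patched

/-!
# The level of a patching system at `p = 2`

The carried algebra of the new lifts of a Taylor-Wiles level with its diamonds and twists, its
action over the group ring and its map to the base is a level of depth `n` with as many generators
as auxiliary variables.
-/

set_option autoImplicit false
set_option linter.unusedSectionVars false
set_option linter.style.haveILetI false
set_option synthInstance.maxHeartbeats 400000
set_option maxHeartbeats 1600000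

noncomputable section

namespace FA.Two

open IsLocalRing Matrix FA.Deform FA.Patch

local notation "Qb" => AlgebraicClosure ℚ
local notation "GQ" => AlgebraicClosure ℚ ≃ₐ[ℚ] AlgebraicClosure ℚ
local notation "M2" k:max => Matrix (Fin 2) (Fin 2) k

variable {O : Type} [CommRing O] [IsDomain O] [IsDiscreteValuationRing O]
  [IsAdicComplete (maximalIdeal O) O] [CharZero O] [Fintype (ResidueField O)]
  [CharP (ResidueField O) 2]

/-- Units of two-power order of the residue field are trivial. -/
theorem residue_pow_two_eq_one {y : ResidueField O} {m : ℕ} (hy : y ^ 2 ^ m = 1) : y = 1 := by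
  induction m generalizing y with
  | zero => simpa using hy
  | succ m ih =>
    have h1 : y ^ 2 = 1 := ih (by rw [← pow_mul, ← pow_succ']; exact hy)
    have h3 : (y - 1) * (y - 1) = 0 := by
      linear_combination h1 + (1 - y) * (CharTwo.two_eq_zero : (2 : ResidueField O) = 0)
    exact sub_eq_zero.1 (mul_self_eq_zero.1 h3)

namespace BaseData

namespace TWData

variable {S : Setting (ResidueField O)} {Q0 : Finset ℕ} {Bd : BaseData O ↥Q0} {r n : ℕ}
  {T : Bd.TWData r n} {ιp : ℤ_[2] →+* O} {P : Bd.AuxPlaces S.r} {S₀ : SepAlg S.r Bd.alg}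
  {hH : S₀.Hyp P ∅} {E : Family (O := O) S.r ↥Q0} {D : T.DepthAlg ιp P S₀}
  {N₀ : BaseNew hH E}

/-- **The new lifts of a level satisfy the local conditions.** -/
theorem DepthNew.pointConds (L : DepthNew D N₀) (hD : Bd.D = S.Q.D) (hqn : ∀ x, Bd.qn x = x.1)
    (hE : ExtraOK Bd ιp E) : S.Conds Q0 (Set.range T.qv) L.M₁.toCarried := by
  refine Setting.PointConds.conds (F := SepAlg.newFam (D.hyp hH) E) ?_ L.M₁
  have hne : ∀ l, l ∉ Q0 → ∀ x : ↥Q0, l ≠ Bd.qn x := fun l hl x e => hl (by
    rw [e, hqn x]; exact x.2)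
  refine ⟨fun j l hl hl2 hlD hlQ hlU A hA σ hσ => ?_, fun j l hl hlD A hA σ hσ => ?_,
    fun A hA σ hσ => ⟨ιp ((FA.JTorsion.cycP 2 σ : ℤ_[2]ˣ) : ℤ_[2]), fun j => ?_⟩, fun j A hA => ?_,
    fun j q A hA φ hφ => ?_⟩
  · rw [← hD] at hlD
    rcases j with j | j
    · exact D.loc.unr j.1 l hl hl2 hlD (hne l hlQ) hlU A hA σ hσ
    · exact hE.unr j l hl hl2 hlD (hne l hlQ) A hA σ hσ
  · rw [← hD] at hlD
    have hl2 : l ≠ 2 := fun e => S.odd (by rw [← hD, ← e]; exact hlD)
    rcases j with j | j
    · exact D.loc.unip j.1 l hl hl2 (Or.inl hlD) A hA σ hσ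
    · exact hE.ram j l hl hlD A hA σ hσ
  · rcases j with j | j
    · have hg : T.galD σ = 1 :=
        T.galD_inertia Nat.prime_two (fun i => (T.qv_ne_two i).symm) hA hσ
      show (D.sep.fam.r j.1 σ).det = algebraMap O (D.sep.fam.B j.1) _
      rw [D.det, hg, map_one T.diaG, map_one T.twistG, one_pow, one_mul, map_one D.grp,
        map_one, mul_one]
    · exact hE.det j σ
  · rcases j with j | j
    · exact D.loc.flat j.1 A hA
    · exact hE.flat j A hA
  · have hA' : A.LiesOverPrime (Bd.qn q) := by rw [hqn]; exact hA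
    have hφ' : A.IsFrobeniusAt φ (Bd.qn q) := by rw [hqn]; exact hφ
    rcases j with j | j
    · have h := SepAlg.steinberg (D.hyp hH) j q hA' hφ'
      rw [hqn] at h
      exact h
    · have h := hE.aux j q A hA' φ hφ'
      rw [hqn] at h
      exact h

/-- **The level.** -/
theorem DepthNew.nonempty_level (L : DepthNew D N₀) (hD : Bd.D = S.Q.D)
    (hqn : ∀ x, Bd.qn x = x.1) (hE : ExtraOK Bd ιp E) (hrb : Bd.ResidualFrob S.r)
    (hQ0 : S.IsAuxSet ∅ Q0)
    (hbound : ∀ (W : Type) [AddCommGroup W] [Module (ResidueField O) W]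
      (κ : W →ₗ[ResidueField O] (GQ → M2 (ResidueField O))),
      (∀ t, S.IsClass Q0 (Set.range T.qv) (κ t)) →
      (∀ t X, (∀ g, κ t g = S.act g X - X) → t = 0) →
      FiniteDimensional (ResidueField O) W ∧ Module.finrank (ResidueField O) W + Q0.card ≤ 2 * r) :
    Nonempty (Level O (Fin (2 * r)) Empty (Fin r ⊕ Fin r) N₀.M₀.R Unit Empty (fun _ => N₀.ρ)
      Empty.elim Empty.elim (fun _ => N₀.act₀.toRingHom) n) := by
  classical
  let M₁ := L.M₁
  obtain ⟨x, hx, hsurj⟩ : ∃ (x : Fin (2 * r) → M₁.R) (hx : ∀ i, x i ∈ maximalIdeal M₁.R),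
      Function.Surjective (evalHom (maximalIdeal M₁.R) (algebraMap O M₁.R) x hx) :=
    (L.pointConds hD hqn hE).exists_generators hQ0 hbound
  obtain ⟨δ, hδ⟩ := L.exists_delta hE hrb
  have hC : Function.Surjective (MvPowerSeries.C (σ := Empty) (R := M₁.R)) := fun z =>
    ⟨MvPowerSeries.constantCoeff z, MvPowerSeries.ext fun m => by
      rw [Subsingleton.elim m 0, MvPowerSeries.coeff_zero_eq_constantCoeff_apply,
        MvPowerSeries.coeff_zero_eq_constantCoeff_apply, MvPowerSeries.constantCoeff_C]⟩
  have hxC : ∀ i, (MvPowerSeries.C (x i) : MvPowerSeries Empty M₁.R) ∈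
      maximalIdeal (MvPowerSeries Empty M₁.R) := fun i =>
    mem_maximalIdeal_iff_coeff.mpr (by simpa using hx i)
  have hδ1 : ∀ g, M₁.π (δ g) = 1 := fun g => by
    refine residue_pow_two_eq_one (m := n) ?_
    have hg : g ^ 2 ^ n = 1 := funext fun i => by
      rw [Pi.pow_apply, Pi.one_apply]
      refine Multiplicative.toAdd.injective ?_
      rw [toAdd_pow, nsmul_eq_mul, ZMod.natCast_self, zero_mul, toAdd_one]
    rw [← map_pow, ← map_pow, hg, map_one, map_one]
  have hker : RingHom.ker M₁.π = maximalIdeal M₁.R :=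
    eq_maximalIdeal (RingHom.ker_isMaximal_of_surjective _ M₁.π_surjective)
  have hactδ : ∀ g, L.act (δ g) = Matrix.scalar (Fin N₀.ρ) (MonoidAlgebra.single g 1) := by
    intro g
    have h := L.act_spec (δ g) (D.grp g * D.sep.nAll P)
      (fun j => by
        rw [map_mul]
        exact congrArg (· * D.sep.val j.1 (D.sep.nAll P)) ((hδ g).1 j).symm)
      (fun j hj => by rw [map_mul, hj, mul_zero])
    rw [map_mul, D.act_grp, Matrix.mul_assoc] at h
    have e := congrArg (L.p * ·) h
    simp only [Matrix.scalar_apply, ← Matrix.smul_eq_diagonal_mul, Matrix.mul_smul, L.p_mul,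
      ← Matrix.mul_assoc L.p, Matrix.one_mul] at e
    rw [Matrix.scalar_apply, ← Matrix.smul_one_eq_diagonal]
    exact e.symm
  have hπδ : ∀ g, L.π (δ g) = 1 := by
    intro g
    refine sub_eq_zero.1 (N₀.M₀.proj_injective _ fun j => ?_)
    rw [map_sub, map_one, sub_eq_zero]
    rcases j with j | j
    · have e := Carried.hom_ext M₁.toCarried
        (f := (SepAlg.projNew hH N₀.M₀ j).comp L.π)
        (g := (D.toBase j.1).comp (SepAlg.projNew (D.hyp hH) M₁ (D.baseNew j)))
        (fun σ => ((congrArg _ (L.π_trace σ)).trans (N₀.M₀.proj_trace (.inl j) σ)).trans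
          ((congrArg (D.toBase j.1) (M₁.proj_trace (.inl (D.baseNew j)) σ)).trans
            (D.toBase_trace j.1 σ)).symm)
        (fun y => ((congrArg _ (L.π_al y)).trans (N₀.M₀.proj_al (.inl j) y)).trans
          ((congrArg (D.toBase j.1) (M₁.proj_al (.inl (D.baseNew j)) y)).trans
            (D.toBase_al hH j y)).symm)
      exact (AlgHom.congr_fun e (δ g)).trans ((congrArg (D.toBase j.1) ((hδ g).1 _)).trans
        ((D.toBase_val j.1 (D.grp g)).trans ((congrArg (S₀.val j.1) (D.pr_grp g)).trans
          (map_one _))))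
    · let p₀ : N₀.M₀.R →ₐ[O] E.B j := N₀.M₀.proj (.inr j)
      have e := Carried.hom_ext M₁.toCarried (f := p₀.comp L.π) (g := L.projExtra j)
        (fun σ => ((congrArg _ (L.π_trace σ)).trans (N₀.M₀.proj_trace (.inr j) σ)).trans
          (M₁.proj_trace (.inr j) σ).symm)
        (fun y => ((congrArg _ (L.π_al y)).trans (N₀.M₀.proj_al (.inr j) y)).trans
          (M₁.proj_al (.inr j) y).symm)
      exact (AlgHom.congr_fun e (δ g)).trans ((hδ g).2 j)
  exact ⟨{
    R := M₁.R
    complete := inferInstance
    localHom := fun c hc => by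
      rw [← hker, RingHom.mem_ker,
        show M₁.π (algebraMap O M₁.R c) = residue O c from RingHom.congr_fun M₁.π_algebraMap c,
        residue_eq_zero_iff]
      exact hc
    G := T.G2
    gen := FA.RT.dGen 2 fun _ : Fin r ⊕ Fin r => n
    χ := FA.RT.dChi 2 (fun _ : Fin r ⊕ Fin r => n) O Empty n hH.natCast_two fun _ => le_rfl
    χ_gen := FA.RT.dChi_gen 2 (fun _ : Fin r ⊕ Fin r => n) O Empty n hH.natCast_two fun _ => le_rfl
    χ_aug := FA.RT.dChi_aug 2 (fun _ : Fin r ⊕ Fin r => n) O Empty n hH.natCast_two fun _ => le_rfl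
    δ := δ
    δ_gen_mem := fun i => by rw [← hker, RingHom.mem_ker, map_sub, hδ1, map_one, sub_self]
    act := fun _ => L.act.toRingHom
    act_const := fun _ c => by
      show L.act (algebraMap O M₁.R c) = _
      rw [AlgHom.commutes, Matrix.algebraMap_eq_diagonal, Matrix.scalar_apply]
      rfl
    act_δ := fun _ g => hactδ g
    maps := fun t => t.elim
    intertwine := fun t => t.elim
    x := fun i => MvPowerSeries.C (x i)
    x_mem := hxC
    surj := fun z => by
      obtain ⟨y, hy⟩ := hC z
      obtain ⟨s, hs⟩ := hsurj y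
      refine ⟨s, ?_⟩
      haveI : IsAdicComplete (maximalIdeal (MvPowerSeries Empty M₁.R))
          (MvPowerSeries Empty M₁.R) := inferInstance
      rw [← hy, ← hs]
      exact (RingHom.congr_fun (mvPowerSeries_hom_ext (maximalIdeal (MvPowerSeries Empty M₁.R))
        (f := (MvPowerSeries.C (σ := Empty) (R := M₁.R)).comp
          (evalHom (maximalIdeal M₁.R) (algebraMap O M₁.R) x hx))
        (g := evalHom (maximalIdeal (MvPowerSeries Empty M₁.R))
          ((MvPowerSeries.C (σ := Empty)).comp (algebraMap O M₁.R))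
          (fun i => MvPowerSeries.C (x i)) hxC)
        (fun c => by simp only [RingHom.coe_comp, Function.comp_apply, evalHom_C])
        (fun i => by simp only [RingHom.coe_comp, Function.comp_apply, evalHom_X])
        (fun i => by
          simp only [RingHom.coe_comp, Function.comp_apply, evalHom_X]
          exact hxC i)) s).symm
    π := L.π
    π_surjective := L.π_surjective
    π_δ := hπδ
    act_π := fun _ y => L.act_π y }⟩

end TWData

end BaseData

end FA.Two
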