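import Fermat.Agent.Root.LiftTwoEnd
import Fermat.Agent.Two.CurvePlaces
import Fermat.Agent.Two.DepthPatch
import Fermat.Agent.Two.BaseSep
import Fermat.Agent.Two.BaseDescent
import Fermat.Agent.RT.SpanFrame

/-!
# Approximate eigenfunctionals for a curve at `p = 2`

The base of the curve with auxiliary primes, the new part with the artinian point of the curve, levels
at Taylor-Wiles primes of every depth, patching, and the descent to the level of the curve.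
-/

set_option autoImplicit false
set_option linter.unusedSectionVars false
set_option linter.style.haveILetI false
set_option synthInstance.maxHeartbeats 400000
set_option maxHeartbeats 1600000

noncomputable section

namespace FA.Two

open IsLocalRing Matrix WeierstrassCurve FA.EC FA.Frob FA.Deform FA.HeckeH1
open FA.RT.Tate
open FA.Theta (badProd)

local notation "Qb" => AlgebraicClosure ℚ
local notation "GQ" => AlgebraicClosure ℚ ≃ₐ[ℚ] AlgebraicClosure ℚ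

local instance : Fact (Nat.Prime 2) := ⟨Nat.prime_two⟩

section base

variable {O : Type} [CommRing O] [IsDomain O] [IsDiscreteValuationRing O]
  [IsAdicComplete (maximalIdeal O) O] [CharZero O] [Finite (ResidueField O)]
  {ι : Type} [DecidableEq ι] [Fintype ι]

/-- An algebra separated by finitely many homomorphisms into finite algebras is finite. -/
theorem finite_of_separated {A : Type} [CommRing A] [Algebra O A] {κ : Type} [Finite κ]
    (G : κ → Type) [∀ k, CommRing (G k)] [∀ k, Algebra O (G k)] [∀ k, Module.Finite O (G k)]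
    (f : ∀ k, A →ₐ[O] G k) (h : ∀ a, (∀ k, f k a = 0) → a = 0) : Module.Finite O A :=
  Module.Finite.of_injective (AlgHom.pi f).toLinearMap
    ((injective_iff_map_eq_zero _).2 fun a ha => h a fun k => congrFun ha k)

/-- The algebra of the base is finite. -/
theorem BaseData.finite_alg (Bd : BaseData O ι) : Module.Finite O Bd.alg :=
  finite_of_separated (fun K : Finset ι => Bd.Good K) Bd.toGood fun _ => Bd.toGood_injective

variable [CharP (ResidueField O) 2] {Bd : BaseData O ι}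
  {rb : GQ →* Matrix (Fin 2) (Fin 2) (ResidueField O)} {P : Bd.AuxPlaces rb}
  {S₀ : SepAlg rb Bd.alg} {U : Set ℕ} {hH : S₀.Hyp P U} {E : Family (O := O) rb ι}
  (N₀ : BaseNew hH E) {R : Type} [CommRing R] [Algebra O R]

/-- The functional of the top level of a functional of the new part. -/
def BaseNew.lift (ψ : (Fin N₀.ρ → O) →ₗ[O] R) : (Fin (Bd.frame Finset.univ).d → O) →ₗ[O] R :=
  ψ.comp (N₀.p₀ * Bd.matAct Finset.univ (S₀.nAll P)).mulVecLin

variable {N₀} {ψ : (Fin N₀.ρ → O) →ₗ[O] R}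

theorem BaseNew.lift_one (h : ∃ v, ψ v = 1) : ∃ v, N₀.lift ψ v = 1 := by
  obtain ⟨v, hv⟩ := h
  refine ⟨N₀.V₀ *ᵥ v, ?_⟩
  show ψ ((N₀.p₀ * Bd.matAct Finset.univ (S₀.nAll P)) *ᵥ (N₀.V₀ *ᵥ v)) = 1
  rw [Matrix.mulVec_mulVec, Matrix.mul_assoc, N₀.p₀_mul, Matrix.one_mulVec, hv]

/-- The functional has the eigenvalues of the point on elements known at the new lifts. -/
theorem BaseNew.lift_eigen (x : N₀.M₀.R →ₐ[O] R)
    (hψ : ∀ y v, ψ (N₀.act₀ y *ᵥ v) = x y * ψ v) (a : Bd.alg) (y₀ : N₀.M₀.R)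
    (hy : ∀ j : S₀.New P, S₀.val j.1 a = SepAlg.projNew hH N₀.M₀ j y₀)
    (v : Fin (Bd.frame Finset.univ).d → O) :
    N₀.lift ψ (Bd.algAct Finset.univ a v) = x y₀ * N₀.lift ψ v := by
  set n := Bd.matAct Finset.univ (S₀.nAll P) with hn
  have hspec := N₀.act₀_spec y₀ (a * S₀.nAll P)
    (fun j => (map_mul _ _ _).trans (congrArg (· * S₀.val j.1 (S₀.nAll P)) (hy j)))
    fun j hj => by rw [map_mul, hj, mul_zero]
  obtain ⟨y, hyv⟩ := N₀.range v
  rw [← hn] at hyv hspec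
  have e1 : (N₀.p₀ * n) *ᵥ v = y := by
    rw [← Matrix.mulVec_mulVec, ← hyv, Matrix.mulVec_mulVec, N₀.p₀_mul, Matrix.one_mulVec]
  have e2 : (N₀.p₀ * n) *ᵥ (Bd.algAct Finset.univ a v) = N₀.act₀ y₀ *ᵥ y := by
    rw [← Bd.matAct_mulVec, Matrix.mulVec_mulVec, Matrix.mul_assoc, ← map_mul, mul_comm (S₀.nAll P) a,
      map_mul, ← Matrix.mul_assoc, ← hn, ← Matrix.mulVec_mulVec, ← hyv, Matrix.mulVec_mulVec,
      Matrix.mul_assoc, ← Matrix.mul_assoc (Bd.matAct Finset.univ a), ← map_mul, hspec,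
      ← Matrix.mul_assoc, N₀.p₀_mul, Matrix.one_mul]
  show ψ ((N₀.p₀ * n) *ᵥ Bd.algAct Finset.univ a v) = x y₀ * ψ ((N₀.p₀ * n) *ᵥ v)
  rw [e1, e2]
  exact hψ y₀ y

end base

variable {W : WeierstrassCurve ℤ} [(ratCurve W).IsElliptic] {O : Type} [CommRing O] [IsDomain O]
  [IsDiscreteValuationRing O] [IsAdicComplete (maximalIdeal O) O] [CharZero O]
  [CharP (ResidueField O) 2] [Fintype (ResidueField O)]
  {N : ℕ} {B : TateBasis 2 W} {avoid : Finset ℕ} (C : CurveBase W O N B avoid)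

/-- The artinian point of the curve satisfies the conditions on further lifts. -/
theorem CurveBase.extraOK (hW : IsSwitchCurve W) (ιp : ℤ_[2] →+* O) (h2 : (2 : O) ∈ maximalIdeal O) :
    ExtraOK (C.Bd hW) ιp (C.ptFamily hW ιp h2) where
  unr _ l hl hl2 hlD _ A hA σ hσ := (C.isCurvePoint hW ιp h2).unr l hl hl2
    (fun h => hlD ((dvd_badProd_iff hW.neg.ne hl).2 h)) A hA σ hσ
  ram _ l hl hlD A hA σ hσ := (C.isCurvePoint hW ιp h2).ram l hl
    (fun e => C.two_not_dvd_D hW (e ▸ hlD)) ((dvd_badProd_iff hW.neg.ne hl).1 hlD) A hA σ hσ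
  det _ σ := (C.isCurvePoint hW ιp h2).det σ
  flat _ A hA := (C.isCurvePoint hW ιp h2).flat A hA
  aux _ x A hA φ hφ := (C.ptFamily_conds hW ιp h2 ∅).aux () x A hA φ hφ

/-- Depth algebras over the base of a curve exist at Taylor-Wiles data of every depth. -/
def CurveBase.HasDepthAlg (hW : IsSwitchCurve W) : Prop :=
  ∀ (ιp : ℤ_[2] →+* O) (P : (C.Bd hW).AuxPlaces C.rb) (S₀ : SepAlg C.rb (C.Bd hW).alg),
    S₀.Local (C.Bd hW) ∅ →
    (∀ j σ, (S₀.fam.r j σ).det =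
      algebraMap O (S₀.fam.B j) (ιp ((FA.JTorsion.cycP 2 σ : ℤ_[2]ˣ) : ℤ_[2]))) →
    (∀ ℓ : Nat.Primes, ℓ ∉ (C.Bd hW).S → ∀ V : ValuationSubring Qb, V.LiesOverPrime (ℓ : ℕ) →
      ∀ σ : GQ, V.IsFrobeniusAt σ (ℓ : ℕ) → S₀.f (S₀.M.rR σ).trace = (C.Bd hW).Tl ℓ) →
    ∀ (n : ℕ) (T : (C.Bd hW).TWData C.r n), Nonempty (T.DepthAlg ιp P S₀)

/-- A prime is unramified in the residual representation away from the omitted primes. -/
theorem CurveBase.rb_unr (hW : IsSwitchCurve W) {ℓ : Nat.Primes} (hℓ : ℓ ∉ (C.Bd hW).S)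
    (A : ValuationSubring Qb) (hA : A.LiesOverPrime (ℓ : ℕ)) (σ : GQ)
    (hσ : σ ∈ A.inertiaSubgroupIn ℚ) : C.rb σ = 1 := by
  rw [C.mem_Bd_S hW, not_or] at hℓ
  exact (FA.LocalDef.repTwo_eq_one_iff C.S0.r0 σ).2 (C.S0.unr ℓ ℓ.2
    (fun e => hℓ.1 (by rw [e]; exact dvd_mul_right _ _))
    (fun h => hℓ.1 (by rw [C.D_eq] at h; exact h.mul_left 2)) A hA σ hσ)

/-- **Approximate eigenfunctionals of a curve at `p = 2`**, from the depth algebras. -/
theorem CurveBase.exists_approx (hω : ∃ w : ResidueField O, w ^ 2 + w + 1 = 0)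
    (hW : IsSwitchCurve W) (h2 : (2 : O) ∈ maximalIdeal O) (ιp : ℤ_[2] →+* O)
    (hD : ∀ [Algebra Qb ℂ], C.HasDepthAlg hW) :
    ∃ ψ : Hom1 (GamH (C.Bd hW).D ⊤) O →ₗ[O] O ⧸ maximalIdeal O ^ N,
      (∃ z ∈ Par (GamH (C.Bd hW).D ⊤) O, ψ z = 1) ∧
      ∀ ℓ : Nat.Primes, ℓ ∉ (C.Bd hW).S → ∀ z ∈ Par (GamH (C.Bd hW).D ⊤) O,
        ψ ((Tc (C.Bd hW).D ⊤ (ℓ : ℕ)).act z) =
          Ideal.Quotient.mk (maximalIdeal O ^ N) ((W.apOfModel ℓ : ℤ) : O) * ψ z := by
  classical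
  rcases Nat.eq_zero_or_pos N with rfl | hN
  · haveI : Subsingleton (O ⧸ maximalIdeal O ^ 0) :=
      Ideal.Quotient.subsingleton_iff.2 (by rw [pow_zero, Ideal.one_eq_top])
    exact ⟨0, ⟨0, zero_mem _, Subsingleton.elim _ _⟩, fun _ _ _ _ => Subsingleton.elim _ _⟩
  obtain ⟨alg⟩ := FA.JTorsion.exists_algebra_qbar
  letI := alg
  obtain ⟨P⟩ := C.exists_auxPlaces hW hN
  have hB : (C.Bd hW).BaseOK C.rb := ⟨h2, C.two_mem hW, C.span_rb⟩
  have hsq : ∀ l : ℕ, l.Prime → ¬ l * l ∣ (C.Bd hW).D := fun l hl h =>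
    hl.not_isUnit (FA.Root.squarefree_badProd W l h)
  obtain ⟨Pts, M, f, hf, S₀, hloc, hdet, hT0, hop⟩ :=
    P.exists_baseSep hB ιp C.isOpen_ker_rb (C.residualFrob hW) (C.two_not_dvd_lev hW) hsq
  have hH : S₀.Hyp P ∅ := ⟨h2, C.det_rb, hloc⟩
  obtain ⟨Fr, hFr⟩ := FA.RT.exists_frame_of_span C.rb C.span_rb
  have hup := FA.RT.exists_upper_ne_zero C.rb C.span_rb
  haveI := (C.Bd hW).finite_alg
  obtain ⟨N₀⟩ := exists_baseNew P hB ιp hf S₀ hop hH (C.ptFamily hW ιp h2) Fr hFr hup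
  haveI : Finite (ResidueField N₀.M₀.R) := by
    have hker : RingHom.ker N₀.M₀.π = maximalIdeal N₀.M₀.R :=
      eq_maximalIdeal (RingHom.ker_isMaximal_of_surjective _ N₀.M₀.π_surjective)
    exact Finite.of_equiv _ ((RingHom.quotientKerEquivOfSurjective N₀.M₀.π_surjective).symm.trans
      (Ideal.quotEquivOfEq hker)).toEquiv
  have hL : ∀ n, Nonempty (FA.Patch.Level O (Fin (2 * C.r)) Empty (Fin C.r ⊕ Fin C.r) N₀.M₀.R
      Unit Empty (fun _ => N₀.ρ) Empty.elim Empty.elim (fun _ => N₀.act₀.toRingHom) n) := fun n => by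
    obtain ⟨T, -, -, -, hbound⟩ := C.exists_twData hW hω n
    obtain ⟨D⟩ := hD ιp P S₀ hloc hdet hT0 n T
    obtain ⟨L⟩ := BaseData.TWData.nonempty_depthNew D N₀ Fr hFr hup
    exact L.nonempty_level (S := C.S0) C.D_eq.symm (fun _ => rfl) (C.extraOK hW ιp h2)
      (C.residualFrob hW) (fun q hq => ⟨(C.aux q hq).1, (C.aux q hq).2.1, (C.aux q hq).2.2.1,
        Finset.notMem_empty q, (C.aux q hq).2.2.2.2⟩) hbound
  let L := fun n => (hL n).some
  let fc : O ⧸ maximalIdeal O ^ (N + 1) →ₐ[O] O ⧸ maximalIdeal O ^ N :=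
    Ideal.Quotient.factorₐ O (Ideal.pow_le_pow_right N.le_succ)
  let x : N₀.M₀.R →ₐ[O] O ⧸ maximalIdeal O ^ N := fc.comp (N₀.M₀.proj (.inr ()))
  obtain ⟨ψ, hψ, hone⟩ := exists_functional (Y := Fin C.r ⊕ Fin C.r) (by simp [two_mul]) N₀.pos L x
  refine P.exists_descent hf hB ιp hN (fun ℓ : Nat.Primes => ((W.apOfModel ℓ : ℤ) : O))
    (N₀.lift ψ) (BaseNew.lift_one hone) (fun ℓ hℓ v => ?_) fun q v => ?_
  · obtain ⟨A, hA⟩ := FA.Deform.exists_liesOverPrime ℓ.2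
    obtain ⟨σ, hσ⟩ := exists_isFrobeniusAt ℓ.2 hA
    rw [BaseNew.lift_eigen x hψ _ (N₀.M₀.rR σ).trace (fun j => ?_) v]
    · refine congrArg (· * _) ?_
      show fc (N₀.M₀.proj (.inr ()) (N₀.M₀.rR σ).trace) = _
      exact congrArg fc ((N₀.M₀.proj_trace (.inr ()) σ).trans (C.ptRep_trace hW ιp h2 hℓ hA hσ).1)
    · rw [← hT0 ℓ hℓ A hA σ hσ, S₀.val_trace]
      exact (N₀.M₀.proj_trace (.inl j) σ).symm
  · rw [BaseNew.lift_eigen x hψ _ ((N₀.M₀.rR (P.s q * P.γ)).trace - (N₀.M₀.rR P.γ).trace)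
      (fun j => ?_) v]
    · have h1 : C.ptRep ιp (P.s q) = 1 :=
        (C.ptRep_aux hW ιp h2 q.2 (P.lies q) (P.frob q)).2.2 _ (P.tame q).1
      have e : x ((N₀.M₀.rR (P.s q * P.γ)).trace - (N₀.M₀.rR P.γ).trace) = 0 := by
        have ep : ∀ g, x (N₀.M₀.rR g).trace = fc (C.ptRep ιp g).trace := fun g =>
          congrArg fc (N₀.M₀.proj_trace (.inr ()) g)
        rw [map_sub x, ep, ep, map_mul, h1, one_mul, sub_self]
      rw [e, zero_mul]
    · rw [← hop, SepAlg.nOp, SepAlg.op_eq, map_sub, S₀.val_trace, S₀.val_trace, map_sub]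
      exact (congrArg₂ (fun a b : S₀.fam.B j.1 => a - b) (N₀.M₀.proj_trace (.inl j) _) (N₀.M₀.proj_trace (.inl j) _)).symm

end FA.Two

end
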