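import Fermat.Agent.Two.Family

/-!
# Maps out of carried algebras

Restriction to a subfamily, and the map to an algebra of operators which contains the Frobenius
traces and determinants and the distinguished elements of some of the points.
-/

set_option autoImplicit false
set_option linter.unusedSectionVars false

noncomputable section

open IsLocalRing Matrix FA.Deform

namespace FA.Two

local notation "Qb" => AlgebraicClosure ℚ
local notation "GQ" => AlgebraicClosure ℚ ≃ₐ[ℚ] AlgebraicClosure ℚ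

variable {O : Type} [CommRing O] [IsDomain O] [IsDiscreteValuationRing O]
  [IsAdicComplete (maximalIdeal O) O]
  {rb : GQ →* Matrix (Fin 2) (Fin 2) (ResidueField O)} {Y : Type}

omit [IsAdicComplete (maximalIdeal O) O] in
/-- **Restriction to a subfamily of points.** -/
theorem Family.Model.exists_restrict {F₀ F₁ : Family rb Y} (M₁ : F₁.Model) (M₀ : F₀.Model)
    (ι : F₀.J → F₁.J) (f : ∀ j, F₁.B (ι j) →ₐ[O] F₀.B j)
    (hf : ∀ j σ, f j (F₁.r (ι j) σ).trace = (F₀.r j σ).trace)
    (hal : ∀ j y, f j (F₁.al (ι j) y) = F₀.al j y) :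
    ∃ π : M₁.R →ₐ[O] M₀.R, Function.Surjective π ∧
      (∀ σ, π (M₁.rR σ).trace = (M₀.rR σ).trace) ∧ ∀ y, π (M₁.al y) = M₀.al y := by
  classical
  let G₀ : M₀.R →ₐ[O] ∀ j, F₀.B j := AlgHom.pi fun j => M₀.proj j
  let G₁ : M₁.R →ₐ[O] ∀ j, F₀.B j := AlgHom.pi fun j => (f j).comp (M₁.proj (ι j))
  have hG₀ : Function.Injective G₀ := (injective_iff_map_eq_zero G₀).mpr fun x hx =>
    M₀.proj_injective x fun j => congrFun hx j
  have htr : ∀ σ, G₁ (M₁.rR σ).trace = G₀ (M₀.rR σ).trace := fun σ => funext fun j => by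
    show f j (M₁.proj (ι j) (M₁.rR σ).trace) = M₀.proj j (M₀.rR σ).trace
    rw [M₁.proj_trace, M₀.proj_trace, hf]
  have hy : ∀ y, G₁ (M₁.al y) = G₀ (M₀.al y) := fun y => funext fun j => by
    show f j (M₁.proj (ι j) (M₁.al y)) = M₀.proj j (M₀.al y)
    rw [M₁.proj_al, M₀.proj_al, hal]
  have hsub : ∀ x, G₁ x ∈ G₀.range := by
    intro x
    have hx : x ∈ Algebra.adjoin O ((Set.range fun σ => (M₁.rR σ).trace) ∪ Set.range M₁.al) := by
      rw [M₁.generated]; exact Algebra.mem_top
    induction hx using Algebra.adjoin_induction with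
    | mem y hy' =>
      rcases hy' with ⟨σ, rfl⟩ | ⟨y, rfl⟩
      · exact ⟨_, (htr σ).symm⟩
      · exact ⟨_, (hy y).symm⟩
    | algebraMap c => exact ⟨algebraMap O _ c, by simp⟩
    | add y z _ _ hy hz => rw [map_add]; exact add_mem hy hz
    | mul y z _ _ hy hz => rw [map_mul]; exact mul_mem hy hz
  let e := AlgEquiv.ofInjective G₀ hG₀
  let π : M₁.R →ₐ[O] M₀.R :=
    (e.symm : G₀.range →ₐ[O] M₀.R).comp (G₁.codRestrict G₀.range hsub)
  have hπ : ∀ x, G₀ (π x) = G₁ x := fun x =>
    congrArg Subtype.val (e.apply_symm_apply ⟨G₁ x, hsub x⟩)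
  have hπtr : ∀ σ, π (M₁.rR σ).trace = (M₀.rR σ).trace := fun σ => hG₀ ((hπ _).trans (htr σ))
  have hπy : ∀ y, π (M₁.al y) = M₀.al y := fun y => hG₀ ((hπ _).trans (hy y))
  refine ⟨π, fun z => ?_, hπtr, hπy⟩
  have hz : z ∈ Algebra.adjoin O ((Set.range fun σ => (M₀.rR σ).trace) ∪ Set.range M₀.al) := by
    rw [M₀.generated]; exact Algebra.mem_top
  suffices z ∈ π.range from this
  induction hz using Algebra.adjoin_induction with
  | mem z hz =>
    rcases hz with ⟨σ, rfl⟩ | ⟨y, rfl⟩
    · exact ⟨_, hπtr σ⟩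
    · exact ⟨_, hπy y⟩
  | algebraMap c => exact π.range.algebraMap_mem c
  | add y z _ _ hy hz => exact add_mem hy hz
  | mul y z _ _ hy hz => exact mul_mem hy hz

omit [IsAdicComplete (maximalIdeal O) O] in
/-- The carried algebra is a finite module. -/
theorem Family.Model.finite {F : Family rb Y} (M : F.Model) : Module.Finite O M.R := by
  have : Fintype F.J := Fintype.ofFinite _
  have : IsNoetherian O (∀ j, F.B j) := isNoetherian_of_isNoetherianRing_of_finite O _
  exact Module.Finite.of_injective (LinearMap.pi fun j => (M.proj j).toLinearMap)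
    ((injective_iff_map_eq_zero _).mpr fun x hx => M.proj_injective x fun j => congrFun hx j)

variable [Finite (ResidueField O)]

omit [IsAdicComplete (maximalIdeal O) O] in
/-- **The action of the carried algebra** through some of its points. -/
theorem Family.Model.exists_hom {F : Family rb Y} (M : F.Model) {J' : Type} (ι : J' → F.J)
    {A : Type} [CommRing A] [Algebra O A] (ev : A →ₐ[O] ∀ j : J', F.B (ι j))
    (hev : Function.Injective ev) (S₀ : Finset ℕ)
    (htr : ∀ q : ℕ, q.Prime → q ∉ S₀ → ∀ P : ValuationSubring Qb, P.LiesOverPrime q →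
      ∀ σ : GQ, P.IsFrobeniusAt σ q → ∃ a b, ∀ j, ev a j = (F.r (ι j) σ).trace ∧
        ev b j = (F.r (ι j) σ).det)
    (hal : ∀ y, ∃ a, ∀ j, ev a j = F.al (ι j) y) :
    ∃ f : M.R →ₐ[O] A, ∀ x j, ev (f x) j = M.proj (ι j) x := by
  classical
  have := M.finite
  let G : M.R →ₐ[O] ∀ j, F.B (ι j) := AlgHom.pi fun j => M.proj (ι j)
  let N : Subalgebra O M.R := ev.range.comap G
  have hfrob : ∀ q : ℕ, q.Prime → q ∉ S₀ → ∀ P : ValuationSubring Qb, P.LiesOverPrime q →
      ∀ σ : GQ, P.IsFrobeniusAt σ q → ∀ k : ℕ, (M.rR (σ ^ k)).trace ∈ N := by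
    intro q hq hq0 P hP σ hσ k
    obtain ⟨a, b, hab⟩ := htr q hq hq0 P hP σ hσ
    rw [map_pow]
    refine FA.RT.trace_pow_mem N _ ⟨a, funext fun j => ?_⟩ ⟨b, funext fun j => ?_⟩ k
    · show ev a j = M.proj (ι j) (M.rR σ).trace
      rw [(hab j).1, M.proj_trace]
    · show ev b j = M.proj (ι j) (M.rR σ).det
      obtain ⟨U, hU, hUσ⟩ := M.proj_rR (ι j)
      have h := congrArg Matrix.det (hUσ σ)
      rw [Matrix.det_mul, Matrix.det_mul, mul_comm U.det] at h
      rw [(hab j).2, (hU.map Matrix.detMonoidHom).mul_right_cancel h, AlgHom.map_det,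
        AlgHom.mapMatrix_apply]
  have hloc : ∀ c ∈ maximalIdeal O, algebraMap O M.R c ∈ maximalIdeal M.R := fun c hc => by
    refine (IsLocalRing.mem_maximalIdeal _).mpr fun hu => not_isUnit_zero (M₀ := ResidueField O) ?_
    have h := hu.map M.π
    rwa [show M.π (algebraMap O M.R c) = residue O c from RingHom.congr_fun M.π_algebraMap c,
      (residue_eq_zero_iff c).mpr hc] at h
  have hall : ∀ σ, (M.rR σ).trace ∈ N := by
    intro σ
    suffices hQ : Submodule.Quotient.mk (p := N.toSubmodule) (M.rR σ).trace = 0 from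
      (Submodule.Quotient.mk_eq_zero _).mp hQ
    rw [← Submodule.mem_bot O, ← Ideal.iInf_pow_smul_eq_bot_of_isLocalRing (M := M.R ⧸
      N.toSubmodule) (maximalIdeal O) (maximalIdeal.isMaximal O).ne_top, Submodule.mem_iInf]
    intro n
    obtain ⟨c, hc⟩ := FA.RT.exists_pow_le_span_pow hloc n
    obtain ⟨L, hL, hLc⟩ := M.cont c
    let f := mapRep (Ideal.Quotient.mk (maximalIdeal M.R ^ c)) M.rR
    have hfo : IsOpen (f.ker : Set GQ) := by
      refine Subgroup.isOpen_mono (H₁ := L.fixingSubgroup) (fun τ hτ => ?_)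
        (IntermediateField.fixingSubgroup_isOpen L)
      refine MonoidHom.mem_ker.mpr (Matrix.ext fun a b => ?_)
      have h1 := Ideal.Quotient.eq_zero_iff_mem.mpr
        (hLc τ ((IntermediateField.mem_fixingSubgroup_iff L τ).mp hτ) a b)
      rw [Matrix.sub_apply, map_sub, sub_eq_zero] at h1
      show Ideal.Quotient.mk _ (M.rR τ a b) = _
      rw [h1]
      rcases eq_or_ne a b with rfl | hne <;> simp [*]
    have key : ∃ y ∈ N, (M.rR σ).trace - y ∈ maximalIdeal M.R ^ c := by
      refine FA.Density.forall_of_frobenius_pow f.ker hfo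
        (fun τ => ∃ y ∈ N, (M.rR τ).trace - y ∈ maximalIdeal M.R ^ c) ?_ S₀
        (fun q hq hq0 P hP τ hτ k => ⟨_, hfrob q hq hq0 P hP τ hτ k, by simp⟩) σ
      rintro τ ν hν ⟨y, hy, hyc⟩
      refine ⟨y, hy, ?_⟩
      rw [← Ideal.Quotient.eq_zero_iff_mem, map_sub, sub_eq_zero] at hyc ⊢
      rw [← hyc, AddMonoidHom.map_trace (Ideal.Quotient.mk (maximalIdeal M.R ^ c)),
        AddMonoidHom.map_trace (Ideal.Quotient.mk (maximalIdeal M.R ^ c))]
      show (f (τ * ν)).trace = (f τ).trace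
      rw [map_mul, MonoidHom.mem_ker.mp hν, mul_one]
    obtain ⟨y, hy, hyc⟩ := key
    have h0 : Submodule.Quotient.mk (p := N.toSubmodule) (M.rR σ).trace =
        Submodule.Quotient.mk ((M.rR σ).trace - y) := by
      rw [Submodule.Quotient.mk_sub, (Submodule.Quotient.mk_eq_zero N.toSubmodule).mpr hy,
        sub_zero]
    rw [h0]
    have h1 : (M.rR σ).trace - y ∈ maximalIdeal O ^ n • (⊤ : Submodule O M.R) := by
      rw [Ideal.smul_top_eq_map]
      exact hc hyc
    have h2 := Submodule.mem_map_of_mem (f := N.toSubmodule.mkQ) h1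
    rw [Submodule.map_smul'', Submodule.map_top, Submodule.range_mkQ] at h2
    exact h2
  have htop : ∀ x, G x ∈ ev.range := fun x => by
    have hx : x ∈ Algebra.adjoin O ((Set.range fun σ => (M.rR σ).trace) ∪ Set.range M.al) := by
      rw [M.generated]; exact Algebra.mem_top
    refine (Algebra.adjoin_le (S := N) ?_) hx
    rintro _ (⟨σ, rfl⟩ | ⟨y, rfl⟩)
    · exact hall σ
    · obtain ⟨a, ha⟩ := hal y
      exact ⟨a, funext fun j => (ha j).trans (M.proj_al (ι j) y).symm⟩
  let e := AlgEquiv.ofInjective ev hev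
  refine ⟨(e.symm : ev.range →ₐ[O] A).comp (G.codRestrict ev.range htop), fun x j => ?_⟩
  exact congrFun (congrArg Subtype.val (e.apply_symm_apply ⟨G x, htop x⟩)) j

end FA.Two
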