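import Fermat.Agent.Two.DepthAlgData
import Fermat.Agent.Two.DepthPointOf
import Fermat.Agent.Two.FamilyMaps
import Fermat.Agent.RT.SpanFrame
import Fermat.Agent.RT.AlgPoints

/-!
# The algebra of the pieces at a Taylor-Wiles level with the twists

Lifts of points of the pieces at the top level and below each auxiliary prime, with the lifts of
the base, separate an algebra generated by the twisted operators and the group; it acts on the top
piece over the group ring, its determinants and lines at the Taylor-Wiles primes are given by the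
group, and the product of the auxiliary operators kills the old part.
-/

set_option autoImplicit false
set_option linter.unusedSectionVars false
set_option linter.style.haveILetI false
set_option synthInstance.maxHeartbeats 400000
set_option maxHeartbeats 1200000

noncomputable section

namespace FA.Two

open IsLocalRing Matrix FA.Deform
open FA.JTorsion (cycP)

local notation "Qb" => AlgebraicClosure ℚ
local notation "GQ" => AlgebraicClosure ℚ ≃ₐ[ℚ] AlgebraicClosure ℚ

/-- Scalars commute with rectangular matrices. -/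
theorem scalar_mul_rect {R m k : Type} [CommRing R] [Fintype m] [DecidableEq m] [Fintype k]
    [DecidableEq k] (X : Matrix m k R) (s : R) :
    Matrix.scalar m s * X = X * Matrix.scalar k s := by
  refine Matrix.ext fun a b => ?_
  simp only [Matrix.scalar_apply, Matrix.diagonal_mul, Matrix.mul_diagonal]
  exact mul_comm _ _

variable {O : Type} [CommRing O] [IsDomain O] [IsDiscreteValuationRing O]
  [IsAdicComplete (maximalIdeal O) O]

/-- A simple residual root of a quadratic lifts to a finite local algebra. -/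
theorem exists_root_over [Finite (ResidueField O)] {B : Type} [CommRing B] [IsLocalRing B]
    [Algebra O B] [Module.Finite O B] (ε : B →+* ResidueField O)
    (hε : ∀ c, ε (algebraMap O B c) = residue O c) (t d : B) (a₀ : O)
    (h0 : residue O a₀ * residue O a₀ - ε t * residue O a₀ + ε d = 0)
    (h1 : 2 * residue O a₀ - ε t ≠ 0) :
    ∃ a : B, ε a = residue O a₀ ∧ a * a - t * a + d = 0 := by
  haveI : IsLocalHom (algebraMap O B) := ⟨fun c hc => by
    have h := hc.map ε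
    rw [hε] at h
    exact (inferInstance : IsLocalHom (residue O)).map_nonunit c h⟩
  haveI : IsAdicComplete (maximalIdeal B) B :=
    IsLocalRing.isAdicComplete_of_module_finite (𝒪 := O)
  have hker : RingHom.ker ε = maximalIdeal B :=
    eq_maximalIdeal (RingHom.ker_isMaximal_of_surjective ε fun a => by
      obtain ⟨c, rfl⟩ := residue_surjective a
      exact ⟨algebraMap O B c, hε c⟩)
  have hunit : ∀ x : B, ε x ≠ 0 → IsUnit x := fun x hx => by
    by_contra hu
    exact hx (RingHom.mem_ker.1 (hker.symm ▸ (IsLocalRing.mem_maximalIdeal x).2 hu))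
  obtain ⟨a, ha, ha1⟩ := HenselianRing.is_henselian (I := maximalIdeal B)
    (Polynomial.X ^ 2 - Polynomial.C t * Polynomial.X + Polynomial.C d) (by monicity!)
    (algebraMap O B a₀) (by
      rw [← hker, RingHom.mem_ker]
      simp only [Polynomial.eval_add, Polynomial.eval_sub, Polynomial.eval_mul, Polynomial.eval_pow,
        Polynomial.eval_X, Polynomial.eval_C, map_add, map_sub, map_mul, map_pow, hε]
      linear_combination h0)
    (IsUnit.map _ (hunit _ (by
      simpa [Polynomial.derivative_pow, hε, map_ofNat, one_add_one_eq_two] using h1)))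
  refine ⟨a, ?_, ?_⟩
  · rw [← hker, RingHom.mem_ker, map_sub, sub_eq_zero, hε] at ha1
    exact ha1
  · simpa [Polynomial.IsRoot, pow_two] using ha

/-- Algebra maps out of a generated algebra agree if they agree on the generators. -/
theorem adjoin_hom_apply_eq {A C : Type} [CommRing A] [Algebra O A] [Ring C] [Algebra O C]
    {s : Set A} {S : Subalgebra O A} (hS : S = Algebra.adjoin O s) (φ ψ : S →ₐ[O] C)
    (h : ∀ a : S, (a : A) ∈ s → φ a = ψ a) (a : S) : φ a = ψ a := by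
  subst hS
  obtain ⟨a, ha⟩ := a
  induction ha using Algebra.adjoin_induction with
  | mem y hy => exact h _ hy
  | algebraMap c => exact (φ.commutes c).trans (ψ.commutes c).symm
  | add y z hy hz ihy ihz =>
    show φ (⟨y, hy⟩ + ⟨z, hz⟩) = ψ (⟨y, hy⟩ + ⟨z, hz⟩)
    rw [map_add, map_add, ihy, ihz]
  | mul y z hy hz ihy ihz =>
    show φ (⟨y, hy⟩ * ⟨z, hz⟩) = ψ (⟨y, hy⟩ * ⟨z, hz⟩)
    rw [map_mul, map_mul, ihy, ihz]

/-- Intertwining two actions of a generated algebra is checked on the generators. -/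
theorem adjoin_intertwine {A R : Type} [CommRing A] [Algebra O A] [CommRing R] [Algebra O R]
    {s : Set A} {S : Subalgebra O A} (hS : S = Algebra.adjoin O s)
    {m k : Type} [Fintype m] [DecidableEq m] [Fintype k] [DecidableEq k]
    (φ : S →ₐ[O] Matrix m m R) (ψ : S →ₐ[O] Matrix k k R) (X : Matrix m k R)
    (h : ∀ a : S, (a : A) ∈ s → φ a * X = X * ψ a) (a : S) : φ a * X = X * ψ a := by
  subst hS
  obtain ⟨a, ha⟩ := a
  induction ha using Algebra.adjoin_induction with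
  | mem y hy => exact h _ hy
  | algebraMap c =>
    show φ (algebraMap O _ c) * X = X * ψ (algebraMap O _ c)
    rw [AlgHom.commutes, AlgHom.commutes, Algebra.algebraMap_eq_smul_one,
      Algebra.algebraMap_eq_smul_one, Matrix.smul_mul, Matrix.one_mul, Matrix.mul_smul,
      Matrix.mul_one]
  | add y z hy hz ihy ihz =>
    show φ (⟨y, hy⟩ + ⟨z, hz⟩) * X = X * ψ (⟨y, hy⟩ + ⟨z, hz⟩)
    rw [map_add, map_add, Matrix.add_mul, Matrix.mul_add, ihy, ihz]
  | mul y z hy hz ihy ihz =>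
    show φ (⟨y, hy⟩ * ⟨z, hz⟩) * X = X * ψ (⟨y, hy⟩ * ⟨z, hz⟩)
    rw [map_mul, map_mul, Matrix.mul_assoc, ihz, ← Matrix.mul_assoc, ihy, Matrix.mul_assoc]

/-- Reduction of a scalar. -/
theorem map_scalar_eq_one {R S m : Type} [CommRing R] [Algebra O R] [CommRing S] [Algebra O S]
    [Fintype m] [DecidableEq m] (g : R →ₐ[O] S) {s : R} (hs : g s = 1) :
    (Matrix.scalar m s).map g = 1 := by
  rw [Matrix.scalar_apply, Matrix.diagonal_map (map_zero g)]
  simp [hs]

/-- Reduction of a mapped matrix times a scalar. -/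
theorem map_mul_scalar_map {A R S m : Type} [CommRing A] [Algebra O A] [CommRing R] [Algebra O R]
    [CommRing S] [Algebra O S] [Fintype m] [DecidableEq m] (f : A →ₐ[O] R) (g : R →ₐ[O] S)
    (h : A →ₐ[O] S) (hgf : ∀ x, g (f x) = h x) (X : Matrix m m A) {s : R} (hs : g s = 1) :
    (X.map f * Matrix.scalar m s).map g = X.map h := by
  rw [Matrix.map_mul, map_scalar_eq_one g hs, mul_one, Matrix.map_map]
  exact congrArg X.map (funext hgf)

/-- Intertwining survives mapping and scalars. -/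
theorem intertwine_map_scalar {A R m k : Type} [CommRing A] [Algebra O A] [CommRing R] [Algebra O R]
    [Fintype m] [DecidableEq m] [Fintype k] [DecidableEq k] (f : A →ₐ[O] R)
    {X : Matrix m m A} {Y : Matrix k k A} {U : Matrix m k A} (h : X * U = U * Y) (s : R) :
    (X.map f * Matrix.scalar m s) * U.map f = U.map f * (Y.map f * Matrix.scalar k s) := by
  rw [Matrix.mul_assoc, scalar_mul_rect, ← Matrix.mul_assoc, ← Matrix.mul_assoc, ← Matrix.map_mul,
    ← Matrix.map_mul, h]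

variable [CharZero O] {ι : Type} [DecidableEq ι]

namespace BaseData

/-- Squares of primes dividing a level divide the least level. -/
theorem not_sq_dvd_lev (Bd : BaseData O ι) {l : ℕ} (hl : l.Prime) (h : ¬ l * l ∣ Bd.D)
    (K : Finset ι) : ¬ l * l ∣ Bd.lev K := by
  intro hd
  rcases Bd.dvd_lev hl ((dvd_mul_right l l).trans hd) with hD | ⟨x, hx, rfl⟩
  · refine h (Nat.Coprime.dvd_of_dvd_mul_right ?_ hd)
    refine Nat.Coprime.prod_right fun y _ => ?_
    have hne : l ≠ Bd.qn y := fun e => Bd.qn_not_dvd y (e ▸ hD)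
    exact Nat.Coprime.mul_left ((Nat.coprime_primes hl (Bd.qn_prime y)).2 hne)
      ((Nat.coprime_primes hl (Bd.qn_prime y)).2 hne)
  · rw [(Bd.isStep hx).eq] at hd
    exact (Bd.isStep hx).not_dvd (Nat.dvd_of_mul_dvd_mul_right hl.pos hd)

namespace TWData

variable [CharP (ResidueField O) 2] {Bd : BaseData O ι} {r n : ℕ} (T : Bd.TWData r n)

/-- The diamond part of an element of the group. -/
def diaPart : T.G2 →* T.Dgrp where
  toFun g i := g (Sum.inl i)
  map_one' := rfl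
  map_mul' _ _ := rfl

/-- The twist part of an element of the group. -/
def twistPart : T.G2 →* T.Dgrp where
  toFun g i := g (Sum.inr i)
  map_one' := rfl
  map_mul' _ _ := rfl

theorem diaG_mul_twistG (g : T.G2) : T.diaG (T.diaPart g) * T.twistG (T.twistPart g) = g := by
  funext i
  cases i <;> simp [diaG, twistG, diaPart, twistPart]

theorem diaPart_split (a b : T.Dgrp) : T.diaPart (T.diaG a * T.twistG b) = a := by
  funext i
  simp [diaG, twistG, diaPart]

theorem twistPart_split (a b : T.Dgrp) : T.twistPart (T.diaG a * T.twistG b) = b := by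
  funext i
  simp [diaG, twistG, twistPart]

theorem not_dvd_lvl_of_notMem (K : Finset ι) {ℓ : Nat.Primes} (hℓ : ℓ ∉ Bd.S) (hQ : ℓ ∉ T.Q) :
    ¬ (ℓ : ℕ) ∣ T.lvl K := fun h => by
  rcases T.dvd_lvl ℓ.2 h with h | ⟨i, hi⟩
  · exact Bd.not_dvd_lev hℓ K h
  · exact hQ (T.mem_Q.2 ⟨i, Subtype.ext hi.symm⟩)

/-- The algebra of a piece with the twists. -/
abbrev twAlg (K : Finset ι) : Type := MonoidAlgebra (T.alg K) T.Dgrp

/-- The group in the algebra of a piece with the twists. -/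
def grpK (K : Finset ι) : T.G2 →* T.twAlg K where
  toFun g := MonoidAlgebra.single (T.twistPart g) (T.dia K (T.diaPart g))
  map_one' := by
    have e1 : T.twistPart 1 = 1 := map_one _
    have e2 : T.diaPart 1 = 1 := map_one _
    have e3 : T.dia K 1 = 1 := map_one _
    simp only [e1, e2, e3]
    exact MonoidAlgebra.one_def.symm
  map_mul' g g' := by
    have e1 : T.twistPart (g * g') = T.twistPart g * T.twistPart g' := map_mul _ _ _
    have e2 : T.diaPart (g * g') = T.diaPart g * T.diaPart g' := map_mul _ _ _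
    have e3 : T.dia K (T.diaPart g * T.diaPart g') =
      T.dia K (T.diaPart g) * T.dia K (T.diaPart g') := map_mul _ _ _
    simp only [e1, e2, e3]
    exact (MonoidAlgebra.single_mul_single _ _ _ _).symm

theorem grpK_split (K : Finset ι) (a b : T.Dgrp) :
    T.grpK K (T.diaG a * T.twistG b) = MonoidAlgebra.single b (T.dia K a) := by
  show MonoidAlgebra.single (T.twistPart _) (T.dia K (T.diaPart _)) = _
  rw [T.diaPart_split, T.twistPart_split]

/-- The diamonds among group rings. -/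
def diaRing : MonoidAlgebra O T.Dgrp →ₐ[O] MonoidAlgebra O T.G2 :=
  MonoidAlgebra.mapDomainAlgHom O O T.diaG

theorem diaRing_single (a : T.Dgrp) (c : O) :
    T.diaRing (MonoidAlgebra.single a c) = MonoidAlgebra.single (T.diaG a) c := by
  simp [diaRing, MonoidAlgebra.mapDomainAlgHom]

theorem aug2_diaRing (x : MonoidAlgebra O T.Dgrp) : T.aug2 (T.diaRing x) = T.aug x := by
  induction x using MonoidAlgebra.induction_linear with
  | zero => simp
  | add x y hx hy => rw [map_add, map_add, map_add, hx, hy]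
  | single a c => simp [diaRing_single]

theorem aug2_single (g : T.G2) : T.aug2 (MonoidAlgebra.single g 1) = 1 := by simp

/-- The twists as scalars. -/
def twScalar (K : Finset ι) :
    T.Dgrp →* Matrix (Fin (Bd.frame K).d) (Fin (Bd.frame K).d) (MonoidAlgebra O T.G2) :=
  (Matrix.scalar (Fin (Bd.frame K).d)).toMonoidHom.comp
    ((MonoidAlgebra.of O T.G2).comp T.twistG)

/-- The action with the twists. -/
def actK (K : Finset ι) : T.twAlg K →ₐ[O]
    Matrix (Fin (Bd.frame K).d) (Fin (Bd.frame K).d) (MonoidAlgebra O T.G2) :=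
  MonoidAlgebra.liftNCAlgHom (T.diaRing.mapMatrix.comp (T.act K)) (T.twScalar K) fun _ _ =>
    (Matrix.scalar_commute _ (fun _ => Commute.all _ _) _).symm

theorem actK_single (K : Finset ι) (b : T.Dgrp) (x : T.alg K) :
    T.actK K (MonoidAlgebra.single b x) = (T.act K x).map T.diaRing *
      Matrix.scalar (Fin (Bd.frame K).d) (MonoidAlgebra.single (T.twistG b) 1) := by
  simp [actK, twScalar, MonoidAlgebra.liftNCAlgHom, MonoidAlgebra.liftNCRingHom]

theorem actK_grpK (K : Finset ι) (g : T.G2) : T.actK K (T.grpK K g) =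
    Matrix.scalar (Fin (Bd.frame K).d) (MonoidAlgebra.single g 1) := by
  refine (T.actK_single K _ _).trans ?_
  rw [T.act_dia, Matrix.scalar_apply, Matrix.diagonal_map (map_zero _)]
  simp only [diaRing_single, Matrix.scalar_apply, Matrix.diagonal_mul_diagonal,
    MonoidAlgebra.single_mul_single, one_mul, T.diaG_mul_twistG]

/-- The maps up over the group of diamonds and twists. -/
def upG {K : Finset ι} {x : ι} (hx : x ∈ K) (i : Fin 2) :
    Matrix (Fin (Bd.frame K).d) (Fin (Bd.frame (K.erase x)).d) (MonoidAlgebra O T.G2) :=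
  (T.up hx i).map T.diaRing

theorem both_single_mul {rb : GQ →* Matrix (Fin 2) (Fin 2) (ResidueField O)} {ιp : ℤ_[2] →+* O}
    {K : Finset ι} (L : T.DepthPoint rb ιp K) (d : T.Dgrp) (x : T.alg K) :
    L.both (MonoidAlgebra.single d x) = L.val x * L.psi d := by
  simp [DepthPoint.both, MonoidAlgebra.liftNCAlgHom, MonoidAlgebra.liftNCRingHom]

theorem actK_gen_aug (K : Finset ι) (ℓ : Nat.Primes) (hℓ : ℓ ∉ Bd.S) (h : ¬ (ℓ : ℕ) ∣ T.lvl K) :
    (T.actK K (MonoidAlgebra.single (T.kap ℓ) (T.gT K ℓ hℓ h))).map T.aug2 =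
      Bd.matAct K (Bd.Tl ℓ) := by
  rw [T.actK_single]
  exact (map_mul_scalar_map T.diaRing T.aug2 T.aug T.aug2_diaRing _ (T.aug2_single _)).trans
    (T.act_aug_T K ℓ hℓ h)

theorem actK_gen_up {K : Finset ι} {x : ι} (hx : x ∈ K) (i : Fin 2) (ℓ : Nat.Primes)
    (hℓ : ℓ ∉ Bd.S) (hQ : ℓ ∉ T.Q) :
    T.actK K (MonoidAlgebra.single (T.kap ℓ)
        (T.gT K ℓ hℓ (T.not_dvd_lvl_of_notMem K hℓ hQ))) * T.upG hx i =
      T.upG hx i * T.actK (K.erase x) (MonoidAlgebra.single (T.kap ℓ)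
        (T.gT (K.erase x) ℓ hℓ (T.not_dvd_lvl_of_notMem _ hℓ hQ))) := by
  rw [T.actK_single, T.actK_single]
  exact intertwine_map_scalar T.diaRing
    (T.up_act hx i ℓ hℓ (T.not_dvd_lvl_of_notMem K hℓ hQ)) _

theorem det_frob {rb : GQ →* Matrix (Fin 2) (Fin 2) (ResidueField O)} {ιp : ℤ_[2] →+* O}
    {K : Finset ι} (L : T.DepthPoint rb ιp K) {q : ℕ} {σ : GQ}
    (hcyc : ιp ((cycP 2 σ : ℤ_[2]ˣ) : ℤ_[2]) = (q : O)) {d : T.Dgrp} (hgal : T.galD σ = d) :
    (L.r σ).det = (q : L.B) * (L.val (T.dia K d) * L.psi (d ^ 2)) := by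
  subst hgal
  rw [L.det σ, hcyc, map_natCast]
  exact (mul_assoc _ _ _).trans (congrArg _ (congrArg _ (map_pow L.psi _ 2).symm))

variable [Fintype ι]

/-- The levels of the lifts: the top and those below each auxiliary prime. -/
abbrev kSet (_T : Bd.TWData r n) (k : Option ι) : Finset ι :=
  Option.rec Finset.univ (fun x => Finset.univ.erase x) k

variable (rb : GQ →* Matrix (Fin 2) (Fin 2) (ResidueField O)) (ιp : ℤ_[2] →+* O)

/-- The data of the pieces from which the algebra is built. -/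
structure DepthParts where
  /-- the algebras of the pieces -/
  W : Option ι → Type
  [commRing : ∀ k, CommRing (W k)]
  [algebra : ∀ k, Algebra O (W k)]
  /-- the group -/
  g : ∀ k, T.G2 →* W k
  /-- the twisted operators -/
  t : ∀ k (ℓ : Nat.Primes), ℓ ∉ Bd.S → ℓ ∉ T.Q → W k
  /-- the action on the top piece -/
  top : W none →ₐ[O] Matrix (Fin (Bd.frame Finset.univ).d) (Fin (Bd.frame Finset.univ).d)
    (MonoidAlgebra O T.G2)
  /-- the actions below the top -/
  low : ∀ x, W (some x) →ₐ[O] Matrix (Fin (Bd.frame (Finset.univ.erase x)).d)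
    (Fin (Bd.frame (Finset.univ.erase x)).d) (MonoidAlgebra O T.G2)
  top_g : ∀ a, top (g none a) =
    Matrix.scalar (Fin (Bd.frame Finset.univ).d) (MonoidAlgebra.single a 1)
  low_g : ∀ x a, low x (g (some x) a) =
    Matrix.scalar (Fin (Bd.frame (Finset.univ.erase x)).d) (MonoidAlgebra.single a 1)
  top_t : ∀ ℓ hℓ hQ, (top (t none ℓ hℓ hQ)).map T.aug2 = Bd.matAct Finset.univ (Bd.Tl ℓ)
  up_t : ∀ x i ℓ hℓ hQ, top (t none ℓ hℓ hQ) * T.upG (Finset.mem_univ x) i =
    T.upG (Finset.mem_univ x) i * low x (t (some x) ℓ hℓ hQ)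
  /-- the index types of the lifts -/
  J : Option ι → Type
  [finite : ∀ k, Finite (J k)]
  /-- the lifts -/
  L : ∀ k, J k → T.DepthPoint rb ιp (T.kSet k)
  /-- the values at the lifts -/
  value : ∀ k i, W k →ₐ[O] (L k i).B
  value_g : ∀ k i (a b : T.Dgrp),
    value k i (g k (T.diaG a * T.twistG b)) = (L k i).val (T.dia (T.kSet k) a) * (L k i).psi b
  value_t : ∀ k i ℓ (hℓ : ℓ ∉ Bd.S) (hQ : ℓ ∉ T.Q), value k i (t k ℓ hℓ hQ) =
    (L k i).psi (T.kap ℓ) *
      (L k i).val (T.gT (T.kSet k) ℓ hℓ (T.not_dvd_lvl_of_notMem _ hℓ hQ))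
  separate : ∀ k (x : W k), (∀ i, value k i x = 0) → x = 0
  line : ∀ k i, HasEigenLine (L k i).ε

attribute [instance] DepthParts.commRing DepthParts.algebra DepthParts.finite

variable {rb ιp}

/-- The data of the pieces exist. -/
theorem nonempty_depthParts [Finite (ResidueField O)] (hpO : (2 : O) ∈ maximalIdeal O)
    (hspan : Submodule.span (ResidueField O) (Set.range rb) = ⊤)
    (hopen : IsOpen (rb.ker : Set GQ)) (hrb : Bd.ResidualFrob rb)
    (hp2S : (⟨2, Nat.prime_two⟩ : Nat.Primes) ∈ Bd.S)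
    (hunr : ∀ l : Nat.Primes, l ∉ Bd.S → ∀ A : ValuationSubring Qb, A.LiesOverPrime (l : ℕ) →
      ∀ σ ∈ A.inertiaSubgroupIn ℚ, rb σ = 1)
    (h2 : ∀ K, ¬ 2 ∣ Bd.lev K) : Nonempty (T.DepthParts rb ιp) := by
  classical
  have hpts : ∀ k : Option ι, ∃ (J : Type) (_ : Finite J)
      (P : J → FA.RT.AlgPoint O (T.twAlg (T.kSet k))), ∀ x, (∀ j, (P j).hom x = 0) → x = 0 :=
    fun k => by
      haveI := T.algGroup_isReduced (T.kSet k)
      haveI := T.algGroup_torsionFree (T.kSet k)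
      haveI := T.algGroup_finite (T.kSet k)
      exact FA.RT.exists_algPoints
  choose J hJ P hP using hpts
  choose L hL hE using fun (k : Option ι) (i : J k) =>
    T.exists_depthPoint (T.kSet k) ιp hpO hspan hopen hrb hp2S hunr (h2 _) (P k i)
  haveI := hJ
  exact ⟨{
    W := fun k => T.twAlg (T.kSet k)
    g := fun k => T.grpK (T.kSet k)
    t := fun k ℓ hℓ hQ => MonoidAlgebra.single (T.kap ℓ)
      (T.gT (T.kSet k) ℓ hℓ (T.not_dvd_lvl_of_notMem _ hℓ hQ))
    top := T.actK (T.kSet none)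
    low := fun x => T.actK (T.kSet (some x))
    top_g := T.actK_grpK (T.kSet none)
    low_g := fun x => T.actK_grpK (T.kSet (some x))
    top_t := fun ℓ hℓ hQ => T.actK_gen_aug (T.kSet none) ℓ hℓ _
    up_t := fun x i ℓ hℓ hQ => T.actK_gen_up (Finset.mem_univ x) i ℓ hℓ hQ
    J := J
    L := L
    value := fun k i => (L k i).both
    value_g := fun k i a b => (congrArg (L k i).both (T.grpK_split _ a b)).trans
      (T.both_single_mul (L k i) b _)
    value_t := fun k i ℓ hℓ hQ => (T.both_single_mul (L k i) (T.kap ℓ) _).trans (mul_comm _ _)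
    separate := fun k x hx => hP k x fun i => hL k i x (hx i)
    line := hE }⟩

variable {T} (Pt : T.DepthParts rb ιp) (S₀ : SepAlg rb Bd.alg)

/-- The twisted operator of a prime in the product. -/
def DepthParts.genT (ℓ : Nat.Primes) (hℓ : ℓ ∉ Bd.S) (hQ : ℓ ∉ T.Q) :
    (∀ k, Pt.W k) × Bd.alg :=
  (fun k => Pt.t k ℓ hℓ hQ, Bd.Tl ℓ)

/-- The group in the product. -/
def DepthParts.grpTop : T.G2 →* (∀ k, Pt.W k) × Bd.alg :=
  (MonoidHom.pi Pt.g).prod 1

/-- The generated algebra. -/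
def DepthParts.sub : Subalgebra O ((∀ k, Pt.W k) × Bd.alg) :=
  Algebra.adjoin O ({a | ∃ (ℓ : Nat.Primes) (hℓ : ℓ ∉ Bd.S) (hQ : ℓ ∉ T.Q),
    Pt.genT ℓ hℓ hQ = a} ∪ Set.range Pt.grpTop)

theorem DepthParts.sub_eq : Pt.sub = Algebra.adjoin O ({a | ∃ (ℓ : Nat.Primes) (hℓ : ℓ ∉ Bd.S)
    (hQ : ℓ ∉ T.Q), Pt.genT ℓ hℓ hQ = a} ∪ Set.range Pt.grpTop) := rfl

/-- The operators in the generated algebra. -/
def DepthParts.subT (ℓ : Nat.Primes) (hℓ : ℓ ∉ Bd.S) (hQ : ℓ ∉ T.Q) : Pt.sub :=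
  ⟨Pt.genT ℓ hℓ hQ, Algebra.subset_adjoin (Or.inl ⟨ℓ, hℓ, hQ, rfl⟩)⟩

/-- The group in the generated algebra. -/
def DepthParts.subGrp : T.G2 →* Pt.sub :=
  Pt.grpTop.codRestrict Pt.sub fun g => Algebra.subset_adjoin (Or.inr ⟨g, rfl⟩)

/-- The component of a level. -/
def DepthParts.prK (k : Option ι) : Pt.sub →ₐ[O] Pt.W k :=
  (Pi.evalAlgHom O Pt.W k).comp ((AlgHom.fst O (∀ k, Pt.W k) Bd.alg).comp Pt.sub.val)

/-- The component of the base. -/
def DepthParts.prB : Pt.sub →ₐ[O] Bd.alg :=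
  (AlgHom.snd O (∀ k, Pt.W k) Bd.alg).comp Pt.sub.val

theorem DepthParts.prB_subGrp (g : T.G2) : Pt.prB (Pt.subGrp g) = 1 := rfl

/-- The action on the top piece. -/
def DepthParts.actTop : Pt.sub →ₐ[O] Matrix (Fin (Bd.frame Finset.univ).d)
    (Fin (Bd.frame Finset.univ).d) (MonoidAlgebra O T.G2) :=
  Pt.top.comp (Pt.prK none)

/-- The action on a piece below the top. -/
def DepthParts.actLow (x : ι) : Pt.sub →ₐ[O] Matrix (Fin (Bd.frame (Finset.univ.erase x)).d)
    (Fin (Bd.frame (Finset.univ.erase x)).d) (MonoidAlgebra O T.G2) :=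
  (Pt.low x).comp (Pt.prK (some x))

theorem DepthParts.actTop_subGrp (g : T.G2) : Pt.actTop (Pt.subGrp g) =
    Matrix.scalar (Fin (Bd.frame Finset.univ).d) (MonoidAlgebra.single g 1) :=
  Pt.top_g g

theorem DepthParts.actTop_aug (a : Pt.sub) :
    (Pt.actTop a).map T.aug2 = Bd.matAct Finset.univ (Pt.prB a) := by
  refine adjoin_hom_apply_eq Pt.sub_eq (T.aug2.mapMatrix.comp Pt.actTop)
    ((Bd.matAct Finset.univ).comp Pt.prB) (fun a ha => ?_) a
  rcases ha with ⟨ℓ, hℓ, hQ, he⟩ | ⟨g, he⟩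
  · obtain rfl : Pt.subT ℓ hℓ hQ = a := Subtype.ext he
    exact Pt.top_t ℓ hℓ hQ
  · obtain rfl : Pt.subGrp g = a := Subtype.ext he
    show (Pt.actTop (Pt.subGrp g)).map T.aug2 = Bd.matAct Finset.univ (Pt.prB (Pt.subGrp g))
    rw [Pt.actTop_subGrp, Pt.prB_subGrp, map_one]
    exact map_scalar_eq_one T.aug2 (T.aug2_single g)

theorem DepthParts.actTop_upG (x : ι) (i : Fin 2) (a : Pt.sub) :
    Pt.actTop a * T.upG (Finset.mem_univ x) i = T.upG (Finset.mem_univ x) i * Pt.actLow x a := by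
  refine adjoin_intertwine Pt.sub_eq Pt.actTop (Pt.actLow x) (T.upG (Finset.mem_univ x) i)
    (fun a ha => ?_) a
  rcases ha with ⟨ℓ, hℓ, hQ, he⟩ | ⟨g, he⟩
  · obtain rfl : Pt.subT ℓ hℓ hQ = a := Subtype.ext he
    exact Pt.up_t x i ℓ hℓ hQ
  · obtain rfl : Pt.subGrp g = a := Subtype.ext he
    show Pt.top (Pt.g none g) * T.upG (Finset.mem_univ x) i =
      T.upG (Finset.mem_univ x) i * Pt.low x (Pt.g (some x) g)
    rw [Pt.top_g, Pt.low_g, scalar_mul_rect]

/-- The lifts of the pieces with those of the base. -/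
def DepthParts.family : Family (O := O) rb Empty where
  J := (Σ k, Pt.J k) ⊕ S₀.fam.J
  nonempty := ⟨Sum.inr S₀.fam.nonempty.some⟩
  B := Sum.elim (fun j => (Pt.L j.1 j.2).B) S₀.fam.B
  commRing := Sum.rec (fun j => (Pt.L j.1 j.2).commRing) S₀.fam.commRing
  isLocalRing := Sum.rec (fun j => (Pt.L j.1 j.2).isLocalRing) S₀.fam.isLocalRing
  algebra := Sum.rec (fun j => (Pt.L j.1 j.2).algebra) S₀.fam.algebra
  moduleFinite := Sum.rec (fun j => (Pt.L j.1 j.2).moduleFinite) S₀.fam.moduleFinite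
  r := Sum.rec (fun j => (Pt.L j.1 j.2).r) S₀.fam.r
  ε := Sum.rec (fun j => (Pt.L j.1 j.2).ε) S₀.fam.ε
  ε_algebraMap := Sum.rec (fun j => (Pt.L j.1 j.2).ε_algebraMap) S₀.fam.ε_algebraMap
  lift := Sum.rec (fun j => (Pt.L j.1 j.2).lift) S₀.fam.lift
  cont := Sum.rec (fun j => (Pt.L j.1 j.2).cont) S₀.fam.cont
  al := fun _ => Empty.elim
  ε_al := fun _ y => y.elim

/-- The values at the lifts. -/
def DepthParts.valueAt : ∀ j : (Pt.family S₀).J, Pt.sub →ₐ[O] (Pt.family S₀).B j :=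
  Sum.rec (fun j => (Pt.value j.1 j.2).comp (Pt.prK j.1)) fun j => (S₀.val j).comp Pt.prB

theorem DepthParts.valueAt_separate (a : Pt.sub) (h : ∀ j, Pt.valueAt S₀ j a = 0) : a = 0 := by
  refine Subtype.ext (Prod.ext (funext fun k => ?_) ?_)
  · exact Pt.separate k _ fun i => h (Sum.inl ⟨k, i⟩)
  · exact S₀.separate _ fun j => h (Sum.inr j)

include Pt S₀ in
theorem DepthParts.finite_sub : Module.Finite O Pt.sub := by
  classical
  haveI : Fintype (Pt.family S₀).J := Fintype.ofFinite _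
  haveI : IsNoetherian O (∀ j, (Pt.family S₀).B j) :=
    isNoetherian_of_isNoetherianRing_of_finite O _
  exact Module.Finite.of_injective (LinearMap.pi fun j => (Pt.valueAt S₀ j).toLinearMap)
    ((injective_iff_map_eq_zero _).2 fun a ha => Pt.valueAt_separate S₀ a fun j => congrFun ha j)

theorem DepthParts.valueAt_grp_inl (j : Σ k, Pt.J k) (a b : T.Dgrp) :
    Pt.valueAt S₀ (Sum.inl j) (Pt.subGrp (T.diaG a * T.twistG b)) =
      (Pt.L j.1 j.2).val (T.dia (T.kSet j.1) a) * (Pt.L j.1 j.2).psi b := by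
  exact Pt.value_g j.1 j.2 a b

theorem DepthParts.valueAt_grp_inr (j : S₀.fam.J) (g : T.G2) :
    Pt.valueAt S₀ (Sum.inr j) (Pt.subGrp g) = (1 : S₀.fam.B j) :=
  map_one (S₀.val j)

theorem DepthParts.value_natCast_mul (j : Σ k, Pt.J k) (q : ℕ) (a b : T.Dgrp) :
    (Pt.value j.1 j.2).comp (Pt.prK j.1) ((q : Pt.sub) * Pt.subGrp (T.diaG a * T.twistG b)) =
      (q : (Pt.L j.1 j.2).B) *
        ((Pt.L j.1 j.2).val (T.dia (T.kSet j.1) a) * (Pt.L j.1 j.2).psi b) := by
  rw [map_mul, map_natCast]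
  exact congrArg _ (Pt.value_g j.1 j.2 a b)

theorem DepthParts.base_natCast_mul (j : S₀.fam.J) (q : ℕ) (g : T.G2) :
    (S₀.val j).comp Pt.prB ((q : Pt.sub) * Pt.subGrp g) = (q : S₀.fam.B j) := by
  rw [map_mul, map_natCast, AlgHom.comp_apply, Pt.prB_subGrp, map_one, mul_one]

/-- **The algebra acts through the traces and determinants of Frobenius.** -/
theorem DepthParts.exists_action [Finite (ResidueField O)]
    (hp2S : (⟨2, Nat.prime_two⟩ : Nat.Primes) ∈ Bd.S)
    (hT0 : ∀ ℓ : Nat.Primes, ℓ ∉ Bd.S → ∀ V : ValuationSubring Qb, V.LiesOverPrime (ℓ : ℕ) →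
      ∀ σ : GQ, V.IsFrobeniusAt σ (ℓ : ℕ) → S₀.f (S₀.M.rR σ).trace = Bd.Tl ℓ)
    (hdet0 : ∀ j σ, (S₀.fam.r j σ).det =
      algebraMap O (S₀.fam.B j) (ιp ((cycP 2 σ : ℤ_[2]ˣ) : ℤ_[2])))
    (M : (Pt.family S₀).Model) :
    ∃ f : M.R →ₐ[O] Pt.sub, ∀ x j, Pt.valueAt S₀ j (f x) = M.proj j x := by
  classical
  haveI : Fact (Nat.Prime 2) := ⟨Nat.prime_two⟩
  let ev : Pt.sub →ₐ[O] ∀ j, (Pt.family S₀).B j := AlgHom.pi (Pt.valueAt S₀)
  refine M.exists_hom (A := Pt.sub) (J' := (Pt.family S₀).J) id ev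
    (fun a b hab => sub_eq_zero.1 (Pt.valueAt_separate S₀ _ fun j =>
      (map_sub (Pt.valueAt S₀ j) a b).trans (sub_eq_zero.2 (congrFun hab j))))
    ((Bd.S ∪ T.Q).image fun l : Nat.Primes => (l : ℕ)) (fun q hq hq0 A hA σ hσ => ?_)
    fun y => y.elim
  have hS : (⟨q, hq⟩ : Nat.Primes) ∉ Bd.S := fun h =>
    hq0 (Finset.mem_image.2 ⟨_, Finset.mem_union_left _ h, rfl⟩)
  have hQ : (⟨q, hq⟩ : Nat.Primes) ∉ T.Q := fun h =>
    hq0 (Finset.mem_image.2 ⟨_, Finset.mem_union_right _ h, rfl⟩)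
  have hne : ∀ i, q ≠ T.qv i := fun i e => hQ (T.mem_Q.2 ⟨i, Subtype.ext e.symm⟩)
  have hq2 : q ≠ 2 := fun e => hS (by
    rw [show (⟨q, hq⟩ : Nat.Primes) = ⟨2, Nat.prime_two⟩ from Subtype.ext e]; exact hp2S)
  have hcyc : ιp ((cycP 2 σ : ℤ_[2]ˣ) : ℤ_[2]) = (q : O) := by
    rw [FA.JTorsion.cycP_frobenius 2 hq hq2 hA hσ, map_natCast]
  have hgal := T.galD_frobenius hq hne hA hσ
  refine ⟨Pt.subT ⟨q, hq⟩ hS hQ,
    (q : Pt.sub) * Pt.subGrp (T.diaG (T.kap q) * T.twistG (T.kap q ^ 2)), ?_⟩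
  rintro (j | j)
  · refine ⟨?_, ?_⟩
    · exact (Pt.value_t j.1 j.2 ⟨q, hq⟩ hS hQ).trans ((Pt.L j.1 j.2).frob ⟨q, hq⟩
        (T.not_dvd_lvl_of_notMem _ hS hQ) hS A hA σ hσ).symm
    · exact (Pt.value_natCast_mul j q (T.kap q) (T.kap q ^ 2)).trans
        (T.det_frob (Pt.L j.1 j.2) hcyc hgal).symm
  · refine ⟨?_, ?_⟩
    · show S₀.val j (Bd.Tl ⟨q, hq⟩) = (S₀.fam.r j σ).trace
      rw [← hT0 ⟨q, hq⟩ hS A hA σ hσ, S₀.val_trace]
    · refine Eq.trans (Pt.base_natCast_mul S₀ j q _) ?_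
      show _ = (S₀.fam.r j σ).det
      rw [hdet0, hcyc, map_natCast]

/-- The algebra separated by the lifts. -/
def DepthParts.sepAlg (M : (Pt.family S₀).Model) (f : M.R →ₐ[O] Pt.sub)
    (hf : ∀ x j, Pt.valueAt S₀ j (f x) = M.proj j x) : SepAlg rb Pt.sub where
  fam := Pt.family S₀
  isDomain := Sum.rec (fun j => (Pt.L j.1 j.2).isDomain) S₀.isDomain
  torsionFree := Sum.rec (fun j => (inferInstance : Module.IsTorsionFree O (Pt.L j.1 j.2).B))
    S₀.torsionFree
  val := Pt.valueAt S₀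
  separate := Pt.valueAt_separate S₀
  eigenLine := Sum.rec (fun j => Pt.line j.1 j.2) S₀.eigenLine
  M := M
  f := f
  val_f := hf

variable (M : (Pt.family S₀).Model) (f : M.R →ₐ[O] Pt.sub)
  (hf : ∀ x j, Pt.valueAt S₀ j (f x) = M.proj j x)

/-- The local conditions. -/
theorem DepthParts.local_sepAlg
    (h0 : S₀.Local Bd ∅)
    (hdet0 : ∀ j σ, (S₀.fam.r j σ).det =
      algebraMap O (S₀.fam.B j) (ιp ((cycP 2 σ : ℤ_[2]ˣ) : ℤ_[2])))
    (hsq : ∀ l : ℕ, l.Prime → l ≠ 2 → ¬ l * l ∣ Bd.D) :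
    (Pt.sepAlg S₀ M f hf).Local Bd (Set.range T.qv) where
  unr j l hl hl2 hD hqn hU A hA σ hσ := by
    rcases j with j | j
    · refine (Pt.L j.1 j.2).unr l hl (fun hd => ?_) hl2 A hA σ hσ
      rcases T.dvd_lvl hl hd with hd | ⟨i, hi⟩
      · rcases Bd.dvd_lev hl hd with hd | ⟨x, -, hx⟩
        · exact hD hd
        · exact hqn x hx
      · exact hU ⟨i, hi.symm⟩
    · exact h0.unr j l hl hl2 hD hqn (Set.notMem_empty l) A hA σ hσ
  unip j l hl hl2 hl' A hA σ hσ := by
    rcases j with j | j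
    · show ((Pt.L j.1 j.2).r σ - 1) ^ 2 = 0
      by_cases hd : l ∣ Bd.lev (T.kSet j.1)
      · exact (Pt.L j.1 j.2).unip l hl hl2 hd (Bd.not_sq_dvd_lev hl (hsq l hl hl2) _) A hA σ hσ
      · have h1 : (Pt.L j.1 j.2).r σ = 1 := by
          refine (Pt.L j.1 j.2).unr l hl (fun h => ?_) hl2 A hA σ hσ
          rcases T.dvd_lvl hl h with h | ⟨i, hi⟩
          · exact hd h
          · rcases hl' with h' | ⟨x, hx⟩
            · exact T.not_dvd i (hi ▸ h')
            · exact T.ne_qn i x (hi.symm.trans hx)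
        rw [h1, sub_self]
        exact zero_pow two_ne_zero
    · exact h0.unip j l hl hl2 hl' A hA σ hσ
  det_two A hA σ hσ := by
    refine ⟨ιp ((cycP 2 σ : ℤ_[2]ˣ) : ℤ_[2]), ?_⟩
    rintro (j | j)
    · show ((Pt.L j.1 j.2).r σ).det = _
      rw [(Pt.L j.1 j.2).det, T.galD_inertia Nat.prime_two (fun i => (T.qv_ne_two i).symm) hA hσ,
        map_one, map_one, map_one, one_pow, mul_one, mul_one]
      rfl
    · exact hdet0 j σ
  flat j A hA := by
    rcases j with j | j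
    · exact (Pt.L j.1 j.2).flat A hA
    · exact h0.flat j A hA

theorem DepthParts.det_sepAlg
    (hdet0 : ∀ j σ, (S₀.fam.r j σ).det =
      algebraMap O (S₀.fam.B j) (ιp ((cycP 2 σ : ℤ_[2]ˣ) : ℤ_[2])))
    (j : (Pt.family S₀).J) (σ : GQ) : ((Pt.family S₀).r j σ).det =
      algebraMap O ((Pt.family S₀).B j) (ιp ((cycP 2 σ : ℤ_[2]ˣ) : ℤ_[2])) *
        Pt.valueAt S₀ j (Pt.subGrp (T.diaG (T.galD σ) * T.twistG (T.galD σ) ^ 2)) := by
  rcases j with j | j
  · rw [← map_pow T.twistG, Pt.valueAt_grp_inl, map_pow]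
    exact ((Pt.L j.1 j.2).det σ).trans (mul_assoc _ _ _)
  · rw [Pt.valueAt_grp_inr]
    exact (hdet0 j σ).trans (mul_one _).symm

theorem DepthParts.line_sepAlg [Finite (ResidueField O)] (h0 : S₀.Local Bd ∅)
    (hrb : Bd.ResidualFrob rb) (j : (Pt.family S₀).J) (i : T.Idx) (V : ValuationSubring Qb)
    (hV : V.LiesOverPrime (T.qv i)) (φ : GQ) (hφ : V.IsFrobeniusAt φ (T.qv i)) (s : GQ)
    (hs : s ∈ V.inertiaSubgroupIn ℚ) :
    ∃ a : (Pt.family S₀).B j, (Pt.family S₀).ε j a = residue O (T.α i) ∧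
      a * a - ((Pt.family S₀).r j φ).trace * a + ((Pt.family S₀).r j φ).det = 0 ∧
      (2 * a - ((Pt.family S₀).r j φ).trace) *
          Pt.valueAt S₀ j (Pt.subGrp (T.twistG (T.galD s))) =
        ((Pt.family S₀).r j φ * (Pt.family S₀).r j s).trace -
          (((Pt.family S₀).r j φ).trace - a) * ((Pt.family S₀).r j s).trace := by
  have hg : T.twistG (T.galD s) = T.diaG 1 * T.twistG (T.galD s) := by rw [map_one, one_mul]
  rcases j with j | j
  · obtain ⟨a, h1, h2, h3⟩ := (Pt.L j.1 j.2).line i V hV φ hφ s hs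
    refine ⟨a, h1, h2, ?_⟩
    rw [hg, Pt.valueAt_grp_inl, map_one, map_one, one_mul]
    exact h3
  · obtain ⟨ht, hd⟩ := hrb ⟨T.qv i, T.prime i⟩ (T.notMem_S i) V hV φ hφ
    have hl : mapRep (S₀.fam.ε j) (S₀.fam.r j) φ = rb φ := DFunLike.congr_fun (S₀.fam.lift j) φ
    have hεt : S₀.fam.ε j (S₀.fam.r j φ).trace = Bd.c ⟨T.qv i, T.prime i⟩ := by
      rw [AddMonoidHom.map_trace, ← ht, ← hl]
      rfl
    have hεd : S₀.fam.ε j (S₀.fam.r j φ).det = 1 := by
      rw [RingHom.map_det, RingHom.mapMatrix_apply,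
        show ((S₀.fam.r j φ).map (S₀.fam.ε j)) = rb φ from hl, hd]
      exact T.qv_cast i
    obtain ⟨a, ha, ha'⟩ := exists_root_over (S₀.fam.ε j) (S₀.fam.ε_algebraMap j)
      (S₀.fam.r j φ).trace (S₀.fam.r j φ).det (T.α i)
      (by rw [hεt, hεd, ← pow_two]; exact T.root i)
      (by rw [hεt, CharTwo.two_eq_zero, zero_mul, zero_sub]; exact neg_ne_zero.2 (T.simple i))
    refine ⟨a, ha, ha', ?_⟩
    have hone : S₀.fam.r j s = 1 := h0.unr j (T.qv i) (T.prime i) (T.qv_ne_two i) (T.not_dvd i)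
      (T.ne_qn i) (Set.notMem_empty _) V hV s hs
    rw [Pt.valueAt_grp_inr]
    show (2 * a - (S₀.fam.r j φ).trace) * 1 =
      (S₀.fam.r j φ * S₀.fam.r j s).trace - ((S₀.fam.r j φ).trace - a) * (S₀.fam.r j s).trace
    rw [hone, mul_one, mul_one, Matrix.trace_one, Fintype.card_fin]
    push_cast
    ring

/-- **The product of the operators kills the old part.** -/
theorem DepthParts.actTop_nAll_upG (P : Bd.AuxPlaces rb) (x : ι) (i : Fin 2) :
    Pt.actTop ((Pt.sepAlg S₀ M f hf).nAll P) * T.upG (Finset.mem_univ x) i = 0 := by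
  have h1 : Pt.prK (some x) ((Pt.sepAlg S₀ M f hf).nOp P x) = 0 := by
    refine Pt.separate (some x) _ fun k => ?_
    have h2 := (Pt.sepAlg S₀ M f hf).val_op (Sum.inl ⟨some x, k⟩) (P.s x) P.γ
    have h3 : (Pt.L (some x) k).r (P.s x) = 1 := by
      refine (Pt.L (some x) k).unr (Bd.qn x) (Bd.qn_prime x) (fun hd => ?_)
        (fun e => by have := P.one_mod x; omega) (P.A x) (P.lies x) (P.s x) (P.tame x).1
      rcases T.dvd_lvl (Bd.qn_prime x) hd with hd | ⟨i, hi⟩
      · exact Bd.qn_not_dvd_lev (Finset.notMem_erase x Finset.univ) hd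
      · exact T.ne_qn i x hi.symm
    refine Eq.trans h2 ?_
    show (((Pt.L (some x) k).r (P.s x) - 1) * (Pt.L (some x) k).r P.γ).trace = 0
    rw [h3, sub_self, zero_mul, Matrix.trace_zero]
  rw [Pt.actTop_upG, show Pt.actLow x ((Pt.sepAlg S₀ M f hf).nAll P) = 0 from ?_, Matrix.mul_zero]
  show Pt.low x (Pt.prK (some x) (∏ y, (Pt.sepAlg S₀ M f hf).nOp P y)) = 0
  rw [map_prod, Finset.prod_eq_zero (Finset.mem_univ x) h1, map_zero]

variable (T) in
/-- **The algebra of the pieces with the twists exists.** -/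
theorem exists_depthAlg [Finite (ResidueField O)] (P : Bd.AuxPlaces rb) (h : Bd.BaseOK rb)
    (S₀ : SepAlg rb Bd.alg) (h0 : S₀.Local Bd ∅)
    (hT0 : ∀ ℓ : Nat.Primes, ℓ ∉ Bd.S → ∀ V : ValuationSubring Qb, V.LiesOverPrime (ℓ : ℕ) →
      ∀ σ : GQ, V.IsFrobeniusAt σ (ℓ : ℕ) → S₀.f (S₀.M.rR σ).trace = Bd.Tl ℓ)
    (hdet0 : ∀ j σ, (S₀.fam.r j σ).det =
      algebraMap O (S₀.fam.B j) (ιp ((cycP 2 σ : ℤ_[2]ˣ) : ℤ_[2])))
    (hopen : IsOpen (rb.ker : Set GQ)) (hrb : Bd.ResidualFrob rb)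
    (hunr : ∀ l : Nat.Primes, l ∉ Bd.S → ∀ A : ValuationSubring Qb, A.LiesOverPrime (l : ℕ) →
      ∀ σ ∈ A.inertiaSubgroupIn ℚ, rb σ = 1)
    (h2 : ¬ 2 ∣ Bd.D) (hsq : ∀ l : ℕ, l.Prime → l ≠ 2 → ¬ l * l ∣ Bd.D) :
    Nonempty (T.DepthAlg ιp P S₀) := by
  classical
  have h2' : ∀ K, ¬ 2 ∣ Bd.lev K := fun K hd => by
    rcases Bd.dvd_lev Nat.prime_two hd with hd | ⟨x, -, hx⟩
    · exact h2 hd
    · have := P.one_mod x
      omega
  obtain ⟨Pt⟩ := T.nonempty_depthParts (ιp := ιp) h.two_mem h.span hopen hrb h.two_S hunr h2'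
  obtain ⟨Fr, hFr⟩ := FA.RT.exists_frame_of_span rb h.span
  obtain ⟨M⟩ := (Pt.family S₀).nonempty_model Fr hFr (FA.RT.exists_upper_ne_zero rb h.span)
  obtain ⟨f, hf⟩ := Pt.exists_action S₀ h.two_S hT0 hdet0 M
  haveI := Pt.finite_sub S₀
  refine ⟨{
    A := Pt.sub
    sep := Pt.sepAlg S₀ M f hf
    pr := Pt.prB
    grp := Pt.subGrp
    pr_grp := Pt.prB_subGrp
    act := Pt.actTop
    act_grp := Pt.actTop_subGrp
    act_aug := Pt.actTop_aug
    base := Sum.inr
    toBase := fun j => AlgHom.id O (S₀.fam.B j)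
    toBase_val := fun j a => rfl
    toBase_trace := fun j σ => rfl
    loc := Pt.local_sepAlg S₀ M f hf h0 hdet0 hsq
    det := Pt.det_sepAlg S₀ hdet0
    line := fun j i V hV φ hφ s hs => Pt.line_sepAlg S₀ h0 hrb j i V hV φ hφ s hs
    old := ⟨Matrix.of fun a s => T.upG (Finset.mem_univ s.1) s.2.1 a s.2.2, ?_, ?_⟩ }⟩
  · refine Matrix.ext fun a s => ?_
    exact congrFun (congrFun (Pt.actTop_nAll_upG S₀ M f hf P s.1 s.2.1) a) s.2.2
  · refine Matrix.ext fun a s => ?_
    show residue O (T.aug2 (T.diaRing (T.up (Finset.mem_univ s.1) s.2.1 a s.2.2))) =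
      Bd.upMat s.1 Finset.univ a s.2
    rw [T.aug2_diaRing, upMat, dif_pos (Finset.mem_univ s.1), Matrix.of_apply, redM,
      Matrix.map_apply, ← T.aug_up (Finset.mem_univ s.1) s.2.1]
    rfl

end TWData

end BaseData

end FA.Two
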