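import Fermat.Agent.LocalDef.Qbar
import Fermat.Agent.Density.Places
import Fermat.Agent.TW.Global
import Fermat.Agent.Local.Primes
import Fermat.Agent.Mazur.Count

/-!
# An imaginary quadratic field inside `ℚ̄` and its quadratic characters

Kummer theory for `p = 2` over `K = ℚ(√-D)` by hand, and the parities of the exponents of the norm
of an element whose square root is unramified at a prime.
-/

set_option autoImplicit false
set_option linter.unusedSectionVars false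

noncomputable section

open FA.LocalDef FA.Deform
open scoped Pointwise

namespace FA.Two

local notation "Qb" => AlgebraicClosure ℚ
local notation "GQ" => AlgebraicClosure ℚ ≃ₐ[ℚ] AlgebraicClosure ℚ

/-- A square root of `-D`, unramified outside `D`. -/
structure Quad where
  D : ℕ
  s : Qb
  pos : 0 < D
  sqf : Squarefree D
  sq : s ^ 2 = -(D : Qb)
  unr : ∀ l : ℕ, l.Prime → ¬ l ∣ D → ∀ A : ValuationSubring Qb, A.LiesOverPrime l →
    ∀ σ ∈ A.inertiaSubgroupIn ℚ, σ s = s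
  ram : ∀ l : ℕ, l.Prime → l ∣ D → ∀ A : ValuationSubring Qb, A.LiesOverPrime l →
    ∃ σ ∈ A.inertiaSubgroupIn ℚ, σ s ≠ s

/-- A chosen square root. -/
def sqrtQ (a : Qb) : Qb := (IsAlgClosed.exists_pow_nat_eq a (n := 2) (by norm_num)).choose

lemma sqrtQ_sq (a : Qb) : sqrtQ a ^ 2 = a :=
  (IsAlgClosed.exists_pow_nat_eq a (n := 2) (by norm_num)).choose_spec

lemma apply_sqrtQ {a : Qb} {σ : GQ} (h : σ a = a) :
    σ (sqrtQ a) = sqrtQ a ∨ σ (sqrtQ a) = -sqrtQ a := by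
  rw [← sq_eq_sq_iff_eq_or_eq_neg, ← map_pow, sqrtQ_sq, h]

lemma sqrtQ_ne_zero {a : Qb} (h : a ≠ 0) : sqrtQ a ≠ 0 := fun h0 => h (by
  rw [← sqrtQ_sq a, h0, zero_pow two_ne_zero])

lemma neg_ne_self {x : Qb} (h : x ≠ 0) : -x ≠ x := by
  intro e
  exact h (by linear_combination (-1 / 2 : Qb) * e)

namespace Quad

variable (Q : Quad)

/-- The subgroup fixing the quadratic field. -/
def H : Subgroup GQ where
  carrier := {σ | σ Q.s = Q.s}
  one_mem' := rfl
  mul_mem' {σ τ} (h : σ Q.s = Q.s) (h' : τ Q.s = Q.s) := by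
    show σ (τ Q.s) = Q.s
    rw [h', h]
  inv_mem' {σ} (h : σ Q.s = Q.s) := by
    show σ⁻¹ Q.s = Q.s
    conv_lhs => rw [← h]
    rw [AlgEquiv.aut_inv, AlgEquiv.symm_apply_apply]

lemma mem_H {σ : GQ} : σ ∈ Q.H ↔ σ Q.s = Q.s := Iff.rfl

lemma s_ne_zero : Q.s ≠ 0 := fun h => by
  have := Q.sq
  rw [h, zero_pow two_ne_zero, eq_comm, neg_eq_zero, Nat.cast_eq_zero] at this
  exact Q.pos.ne' this

lemma apply_s (σ : GQ) : σ Q.s = Q.s ∨ σ Q.s = -Q.s := by
  rw [← sq_eq_sq_iff_eq_or_eq_neg, ← map_pow, Q.sq, map_neg, map_natCast]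

lemma apply_of_not_mem {σ : GQ} (h : σ ∉ Q.H) : σ Q.s = -Q.s :=
  (Q.apply_s σ).resolve_left h

lemma mul_mem_of_not_mem {σ τ : GQ} (h : σ ∉ Q.H) (h' : τ ∉ Q.H) : σ * τ ∈ Q.H := by
  show σ (τ Q.s) = Q.s
  rw [Q.apply_of_not_mem h', map_neg, Q.apply_of_not_mem h, neg_neg]

lemma conj_mem (g : GQ) {h : GQ} (hh : h ∈ Q.H) : g * h * g⁻¹ ∈ Q.H := by
  by_cases hg : g ∈ Q.H
  · exact mul_mem (mul_mem hg hh) (inv_mem hg)
  · refine Q.mul_mem_of_not_mem (fun h' => hg ?_) (fun h' => hg (by simpa using inv_mem h'))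
    simpa using mul_mem h' (inv_mem hh)

lemma exists_not_mem : ∃ σ : GQ, σ ∉ Q.H := by
  by_contra h
  push Not at h
  obtain ⟨c, hc⟩ := FA.Local.exists_ratCast_of_fixed Q.s h
  have h2 : (c : Qb) ^ 2 = -(Q.D : Qb) := by rw [hc, Q.sq]
  have h3 : c ^ 2 = -(Q.D : ℚ) := Rat.cast_injective (α := Qb) (by push_cast; exact h2)
  have : (0 : ℚ) < Q.D := by exact_mod_cast Q.pos
  nlinarith [sq_nonneg c]

/-- Membership in the quadratic field. -/
def InK (a : Qb) : Prop := ∀ σ ∈ Q.H, σ a = a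

variable {Q}

lemma InK.mul {a b : Qb} (ha : Q.InK a) (hb : Q.InK b) : Q.InK (a * b) := fun σ hσ => by
  rw [map_mul, ha σ hσ, hb σ hσ]

lemma InK.ratCast (c : ℚ) : Q.InK (c : Qb) := fun σ _ => map_ratCast σ c

lemma InK.natCast (c : ℕ) : Q.InK (c : Qb) := fun σ _ => map_natCast σ c

lemma InK.s : Q.InK Q.s := fun _ h => h

lemma InK.apply {a : Qb} (ha : Q.InK a) (g : GQ) : Q.InK (g a) := fun σ hσ => by
  have h := ha _ (show g⁻¹ * σ * g ∈ Q.H by simpa using Q.conj_mem g⁻¹ hσ)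
  rw [show σ (g a) = g ((g⁻¹ * σ * g) a) by simp [AlgEquiv.mul_apply, AlgEquiv.aut_inv], h]

/-- Two elements outside the subgroup act alike on the field. -/
lemma InK.apply_eq {a : Qb} (ha : Q.InK a) {σ τ : GQ} (h : σ ∉ Q.H) (h' : τ ∉ Q.H) : σ a = τ a := by
  have e := ha _ (Q.mul_mem_of_not_mem (fun hm => h' (by simpa using inv_mem hm)) h :
    τ⁻¹ * σ ∈ Q.H)
  rw [show σ a = τ ((τ⁻¹ * σ) a) by simp [AlgEquiv.mul_apply, AlgEquiv.aut_inv], e]

lemma InK.apply_apply {a : Qb} (ha : Q.InK a) (σ : GQ) : σ (σ a) = a := by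
  refine ha (σ * σ) ?_
  by_cases h : σ ∈ Q.H
  · exact mul_mem h h
  · exact Q.mul_mem_of_not_mem h h

/-- The coordinates of an element of the field. -/
lemma InK.exists_coords {a : Qb} (ha : Q.InK a) :
    ∃ x y : ℚ, a = x + y * Q.s ∧ ∀ σ ∉ Q.H, σ a = x - y * Q.s := by
  obtain ⟨τ, hτ⟩ := Q.exists_not_mem
  have key : ∀ σ : GQ, σ (a + τ a) = a + τ a ∧ σ ((a - τ a) / Q.s) = (a - τ a) / Q.s := by
    intro σ
    by_cases hσ : σ ∈ Q.H
    · rw [map_add, map_div₀, map_sub, ha σ hσ, (ha.apply τ) σ hσ, show σ Q.s = Q.s from hσ]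
      exact ⟨rfl, rfl⟩
    · rw [map_add, map_div₀, map_sub, ha.apply_eq hσ hτ, (ha.apply τ).apply_eq hσ hτ,
        ha.apply_apply, Q.apply_of_not_mem hσ, add_comm, div_neg, ← neg_div, neg_sub]
      exact ⟨rfl, rfl⟩
  obtain ⟨x, hx⟩ := FA.Local.exists_ratCast_of_fixed _ fun σ => (key σ).1
  obtain ⟨y, hy⟩ := FA.Local.exists_ratCast_of_fixed _ fun σ => (key σ).2
  have hy' : (y : Qb) * Q.s = a - τ a := by rw [hy, div_mul_cancel₀ _ Q.s_ne_zero]
  refine ⟨x / 2, y / 2, by push_cast; linear_combination (-1 / 2 : Qb) * hx + (-1 / 2 : Qb) * hy',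
    fun σ hσ => ?_⟩
  rw [ha.apply_eq hσ hτ]
  push_cast
  linear_combination (-1 / 2 : Qb) * hx + (1 / 2 : Qb) * hy'

/-- The norm is positive. -/
lemma InK.exists_norm {a : Qb} (ha : Q.InK a) (h0 : a ≠ 0) :
    ∃ m : ℚ, 0 < m ∧ ∀ σ ∉ Q.H, a * σ a = m := by
  obtain ⟨x, y, e, e'⟩ := ha.exists_coords
  refine ⟨x ^ 2 + Q.D * y ^ 2, ?_, fun σ hσ => ?_⟩
  · have hD : (0 : ℚ) < Q.D := by exact_mod_cast Q.pos
    have : x ≠ 0 ∨ y ≠ 0 := by
      by_contra h
      push Not at h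
      exact h0 (by rw [e, h.1, h.2]; simp)
    rcases this with h | h
    · have : 0 < x ^ 2 := by positivity
      nlinarith [sq_nonneg y]
    · have : 0 < (Q.D : ℚ) * y ^ 2 := by positivity
      nlinarith [sq_nonneg x]
  · rw [e' σ hσ, e]
    push_cast
    linear_combination (-(y : Qb) ^ 2) * Q.sq

/-- Hilbert's theorem 90. -/
lemma InK.exists_of_norm_eq_sq {a : Qb} (ha : Q.InK a) (h0 : a ≠ 0) {τ : GQ} (hτ : τ ∉ Q.H)
    {m : ℚ} (hm : a * τ a = (m : Qb) ^ 2) :
    ∃ (c : ℚ) (w : Qb), c ≠ 0 ∧ Q.InK w ∧ w ≠ 0 ∧ a = c * w ^ 2 := by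
  have hm0 : (m : Qb) ≠ 0 := fun h => by
    rw [h, zero_pow two_ne_zero, mul_eq_zero] at hm
    rcases hm with h | h
    · exact h0 h
    · exact h0 ((_root_.map_eq_zero _).mp h)
  by_cases hd : a = -(m : Qb)
  · -- `a` itself is rational
    exact ⟨-m, 1, fun h => h0 (by rw [hd, neg_eq_zero.mp h]; simp), fun σ _ => map_one σ, one_ne_zero,
      by rw [hd]; push_cast; ring⟩
  set w := (m : Qb) + a with hw
  have hw0 : w ≠ 0 := fun h => hd (by linear_combination h)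
  have hwK : Q.InK w := fun σ hσ => by rw [hw, map_add, map_ratCast, ha σ hσ]
  obtain ⟨u, hu, hu'⟩ := hwK.exists_norm hw0
  have hτw : a * τ w = (m : Qb) * w := by
    rw [hw, map_add, map_ratCast]; linear_combination hm
  refine ⟨m / u, w, div_ne_zero (fun h => hm0 (by rw [h]; simp)) hu.ne', hwK, hw0, ?_⟩
  have hu'' := hu' τ hτ
  have hune : (u : Qb) ≠ 0 := Rat.cast_ne_zero.mpr hu.ne'
  push_cast
  rw [div_mul_eq_mul_div, eq_div_iff hune]
  linear_combination (-a) * hu'' + w * hτw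

variable (Q)

/-! ### Quadratic characters -/

/-- The quadratic character of an element of the field. -/
def chi (a : Qb) (σ : Q.H) : ZMod 2 :=
  open Classical in if (σ : GQ) (sqrtQ a) = sqrtQ a then 0 else 1

variable {Q}

lemma chi_eq_zero_iff {a : Qb} {σ : Q.H} : Q.chi a σ = 0 ↔ (σ : GQ) (sqrtQ a) = sqrtQ a := by
  unfold chi
  split <;> simp_all

lemma apply_root {a y : Qb} (ha : Q.InK a) (h0 : a ≠ 0) (hy : y ^ 2 = a) (σ : Q.H) :
    (Q.chi a σ = 0 ↔ (σ : GQ) y = y) := by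
  rw [chi_eq_zero_iff]
  rcases sq_eq_sq_iff_eq_or_eq_neg.mp (hy.trans (sqrtQ_sq a).symm) with rfl | rfl
  · rfl
  · rw [map_neg, neg_inj]

lemma chi_mul {a b : Qb} (ha : Q.InK a) (hb : Q.InK b) (a0 : a ≠ 0) (b0 : b ≠ 0) :
    Q.chi (a * b) = Q.chi a + Q.chi b := by
  funext σ
  have hy : (sqrtQ a * sqrtQ b) ^ 2 = a * b := by rw [mul_pow, sqrtQ_sq, sqrtQ_sq]
  have h := apply_root (ha.mul hb) (mul_ne_zero a0 b0) hy σ
  have hne : -(sqrtQ a * sqrtQ b) ≠ sqrtQ a * sqrtQ b :=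
    neg_ne_self (mul_ne_zero (sqrtQ_ne_zero a0) (sqrtQ_ne_zero b0))
  have key : ∀ x : ZMod 2, x = 0 ∨ x = 1 := by decide
  have hA := chi_eq_zero_iff (a := a) (σ := σ)
  have hB := chi_eq_zero_iff (a := b) (σ := σ)
  have sA := apply_sqrtQ (ha _ σ.2)
  have sB := apply_sqrtQ (hb _ σ.2)
  rw [map_mul] at h
  rw [Pi.add_apply]
  rcases key (Q.chi a σ) with ea | ea <;> rcases key (Q.chi b σ) with eb | eb <;> rw [ea, eb]
  · rw [hA.mp ea, hB.mp eb] at h
    exact (h.mpr rfl).trans (by decide)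
  · have eA := hA.mp ea
    have eB := sB.resolve_left fun e => by rw [hB.mpr e] at eb; exact zero_ne_one eb
    rw [eA, eB, mul_neg] at h
    exact ((key _).resolve_left fun e => hne (h.mp e)).trans (by decide)
  · have eA := sA.resolve_left fun e => by rw [hA.mpr e] at ea; exact zero_ne_one ea
    have eB := hB.mp eb
    rw [eA, eB, neg_mul] at h
    exact ((key _).resolve_left fun e => hne (h.mp e)).trans (by decide)
  · have eA := sA.resolve_left fun e => by rw [hA.mpr e] at ea; exact zero_ne_one ea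
    have eB := sB.resolve_left fun e => by rw [hB.mpr e] at eb; exact zero_ne_one eb
    rw [eA, eB, neg_mul_neg] at h
    exact (h.mpr rfl).trans (by decide)

lemma chi_sq {w : Qb} (hw : Q.InK w) (w0 : w ≠ 0) : Q.chi (w ^ 2) = 0 := funext fun σ => by
  rw [Pi.zero_apply, apply_root (by rw [pow_two]; exact hw.mul hw) (pow_ne_zero 2 w0) rfl]
  exact hw _ σ.2

lemma chi_one : Q.chi 1 = 0 := by
  simpa using chi_sq (Q := Q) (w := 1) (fun σ _ => map_one σ) one_ne_zero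

lemma chi_prod {ι : Type*} (S : Finset ι) (f : ι → Qb) (hf : ∀ i ∈ S, Q.InK (f i) ∧ f i ≠ 0) :
    Q.chi (∏ i ∈ S, f i) = ∑ i ∈ S, Q.chi (f i) := by
  classical
  induction S using Finset.induction_on with
  | empty => simp [chi_one]
  | insert a S ha ih =>
    have h := fun i hi => hf i (Finset.mem_insert_of_mem hi)
    rw [Finset.prod_insert ha, Finset.sum_insert ha, chi_mul (hf a (Finset.mem_insert_self _ _)).1
      (fun σ hσ => by rw [map_prod]; exact Finset.prod_congr rfl fun i hi => (h i hi).1 σ hσ)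
      (hf a (Finset.mem_insert_self _ _)).2 (Finset.prod_ne_zero_iff.mpr fun i hi => (h i hi).2),
      ih h]

/-- Every quadratic character of the field is a Kummer character. -/
theorem exists_chi {χ : Q.H → ZMod 2} (hom : ∀ σ τ, χ (σ * τ) = χ σ + χ τ)
    (hlc : ∃ N : Subgroup GQ, IsOpen (N : Set GQ) ∧ ∀ σ : Q.H, (σ : GQ) ∈ N → χ σ = 0) :
    ∃ a : Qb, Q.InK a ∧ a ≠ 0 ∧ χ = Q.chi a := by
  have key : ∀ x : ZMod 2, x = 0 ∨ x = 1 := by decide
  by_cases hz : χ = 0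
  · exact ⟨1, fun σ _ => map_one σ, one_ne_zero, by rw [hz, chi_one]⟩
  obtain ⟨t, ht⟩ : ∃ t, χ t ≠ 0 := by
    by_contra h; push Not at h; exact hz (funext h)
  have ht1 : χ t = 1 := (key _).resolve_left ht
  let f : Q.H →* Multiplicative (ZMod 2) :=
    MonoidHom.mk' (fun σ => Multiplicative.ofAdd (χ σ)) fun σ τ => by rw [hom, ofAdd_add]
  let H' : Subgroup GQ := f.ker.map Q.H.subtype
  have hmem : ∀ σ : Q.H, (σ : GQ) ∈ H' ↔ χ σ = 0 := fun σ => by
    constructor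
    · rintro ⟨τ, hτ, e⟩
      obtain rfl : τ = σ := Subtype.ext e
      exact hτ
    · exact fun h => ⟨σ, h, rfl⟩
  obtain ⟨N, hN, hN0⟩ := hlc
  have hHopen : IsOpen (Q.H : Set GQ) := by
    have := IntermediateField.adjoin.finiteDimensional
      ((Algebra.IsAlgebraic.isAlgebraic (R := ℚ) Q.s).isIntegral)
    refine Subgroup.isOpen_mono (H₁ := (IntermediateField.adjoin ℚ {Q.s}).fixingSubgroup) ?_
      (IntermediateField.fixingSubgroup_isOpen _)
    intro σ hσ
    exact (IntermediateField.mem_fixingSubgroup_iff _ _).mp hσ _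
      (IntermediateField.mem_adjoin_simple_self ℚ Q.s)
  have hopen : IsOpen (H' : Set GQ) := by
    refine Subgroup.isOpen_mono (H₁ := N ⊓ Q.H) (fun σ hσ => ?_)
      (by rw [Subgroup.coe_inf]; exact hN.inter hHopen)
    exact (hmem ⟨σ, hσ.2⟩).mpr (hN0 _ hσ.1)
  obtain ⟨y, hyf, hyt⟩ : ∃ y : Qb, (∀ σ ∈ H', σ y = y) ∧ (t : GQ) y ≠ y := by
    by_contra h
    push Not at h
    refine ht ((hmem t).mp ?_)
    have hfix : (IntermediateField.fixedField H').fixingSubgroup = H' :=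
      InfiniteGalois.fixingSubgroup_fixedField ⟨H', Subgroup.isClosed_of_isOpen H' hopen⟩
    rw [← hfix]
    exact (IntermediateField.mem_fixingSubgroup_iff _ _).mpr fun z hz =>
      h z fun σ hσ => hz ⟨σ, hσ⟩
  set x := y - (t : GQ) y with hx
  have hx0 : x ≠ 0 := fun h => hyt (sub_eq_zero.mp h).symm
  have hfix : ∀ σ : Q.H, χ σ = 0 → (σ : GQ) x = x := fun σ hσ => by
    have h' : χ (t⁻¹ * σ * t) = 0 := by
      have e := hom t (t⁻¹ * σ * t)
      rw [show t * (t⁻¹ * σ * t) = σ * t by group, hom, hσ, zero_add, eq_comm, add_eq_left] at e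
      exact e
    have e1 := hyf _ ((hmem σ).mpr hσ)
    have e2 := hyf _ ((hmem _).mpr h')
    rw [hx, map_sub, e1]
    congr 1
    rw [show (σ : GQ) ((t : GQ) y) = (t : GQ) (((t⁻¹ * σ * t : Q.H) : GQ) y) by
      simp [AlgEquiv.mul_apply, AlgEquiv.aut_inv], e2]
  have htx : (t : GQ) x = -x := by
    have e := hyf _ ((hmem (t * t)).mpr (by rw [hom, ht1]; decide))
    rw [hx, map_sub, show (t : GQ) ((t : GQ) y) = ((t * t : Q.H) : GQ) y from rfl, e, neg_sub]
  have hcases : ∀ σ : Q.H, χ σ = 1 → (σ : GQ) x = -x := fun σ hσ => by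
    have h0 : χ (t⁻¹ * σ) = 0 := by
      have e := hom t (t⁻¹ * σ)
      rw [mul_inv_cancel_left, hσ, ht1, left_eq_add] at e
      exact e
    rw [show (σ : GQ) x = (t : GQ) (((t⁻¹ * σ : Q.H) : GQ) x) by
      simp [AlgEquiv.mul_apply, AlgEquiv.aut_inv], hfix _ h0, htx]
  have hK : Q.InK (x ^ 2) := fun σ hσ => by
    rcases key (χ ⟨σ, hσ⟩) with h | h
    · rw [map_pow, show σ x = x from hfix ⟨σ, hσ⟩ h]
    · rw [map_pow, show σ x = -x from hcases ⟨σ, hσ⟩ h, neg_sq]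
  refine ⟨x ^ 2, hK, pow_ne_zero 2 hx0, funext fun σ => ?_⟩
  have h := apply_root hK (pow_ne_zero 2 hx0) rfl σ
  rcases key (χ σ) with e | e
  · rw [e, h.mpr (hfix σ e)]
  · rw [e]
    exact ((key _).resolve_left fun e' => neg_ne_self hx0
      ((hcases σ e).symm.trans (h.mp e'))).symm

end Quad

/-! ### Valuations -/

section Val

variable {A : ValuationSubring Qb} {l : ℕ}

lemma val_ratCast (hl : l.Prime) (hA : A.LiesOverPrime l) {c : ℚ} (hc : c ≠ 0) :
    A.valuation (c : Qb) = A.valuation (l : Qb) ^ padicValRat l c := by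
  obtain ⟨m, hm⟩ := exists_zpow_of_mem_kur hl hA
    (x := (c : Qb)) (mem_kur.mpr fun σ _ => map_ratCast σ c) (Rat.cast_ne_zero.mpr hc)
  rw [hm, FA.Mazur.padicValRat_eq_of_valuation hl hA hc hm]

lemma zpow_val_injective (hl : l.Prime) (hA : A.LiesOverPrime l) {i j : ℤ}
    (h : A.valuation (l : Qb) ^ i = A.valuation (l : Qb) ^ j) : i = j :=
  (zpow_right_strictAnti₀ (valuation_p_pos hl) (valuation_p_lt_one hA)).injective h

/-- A rational square of an element fixed by inertia has an even exponent. -/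
lemma even_of_sq (hl : l.Prime) (hA : A.LiesOverPrime l) {c : ℚ} (hc : c ≠ 0) {y : Qb}
    (hy : y ^ 2 = c) (hfix : ∀ σ ∈ A.inertiaSubgroupIn ℚ, σ y = y) :
    2 ∣ padicValRat l c := by
  have hy0 : y ≠ 0 := fun h => hc (by
    rw [h, zero_pow two_ne_zero] at hy; exact_mod_cast hy.symm)
  obtain ⟨k, hk⟩ := exists_zpow_of_mem_kur hl hA (mem_kur.mpr hfix) hy0
  have h := congrArg A.valuation hy
  rw [map_pow, hk, val_ratCast hl hA hc, ← zpow_natCast, ← zpow_mul] at h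
  exact ⟨k, by rw [← zpow_val_injective hl hA h]; push_cast; ring⟩

/-- The residue of an element fixed by Frobenius comes from the prime field. -/
lemma exists_res_eq (hl : l.Prime) (hA : A.LiesOverPrime l) {φ : GQ} (hφ : A.IsFrobeniusAt φ l)
    {z : Qb} (hz : A.valuation z ≤ 1) (hfix : φ z = z) : ∃ j : ℕ, res A z = (j : Res A) := by
  have := Fact.mk hl
  have := res_charP hl hA
  have h := hφ.smul_residue_eq (IsLocalRing.residue A ⟨z, mem_of_map_le hz⟩)
  rw [← IsLocalRing.ResidueField.residue_smul] at h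
  have e : (⟨φ, hφ.mem_decompositionSubgroup⟩ : A.decompositionSubgroup ℚ) •
      (⟨z, mem_of_map_le hz⟩ : A) = ⟨z, mem_of_map_le hz⟩ := Subtype.ext hfix
  rw [e] at h
  rw [res_eq hz]
  set x := IsLocalRing.residue A ⟨z, mem_of_map_le hz⟩
  have hx : x ∈ (ZMod.castHom (dvd_refl l) (Res A)).fieldRange := by
    rw [ZMod.fieldRange_castHom_eq_bot, Subfield.mem_bot_iff_pow_eq_self (Res A) l]
    exact h.symm
  obtain ⟨j, hj⟩ := hx
  refine ⟨j.val, ?_⟩
  rw [← hj]
  conv_lhs => rw [← ZMod.natCast_zmod_val j, map_natCast]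

/-- An integer which is, modulo the place, the square of an element fixed by Frobenius is a square
modulo the prime. -/
lemma isSquare_of_sq (hl : l.Prime) (hA : A.LiesOverPrime l) {φ : GQ} (hφ : A.IsFrobeniusAt φ l)
    {P : ℕ} {z : Qb} (hz : A.valuation z ≤ 1) (hfix : φ z = z)
    (hP : A.valuation (z ^ 2 - (P : Qb)) < 1) : IsSquare (P : ZMod l) := by
  have := Fact.mk hl
  have := res_charP hl hA
  obtain ⟨j, hj⟩ := exists_res_eq hl hA hφ hz hfix
  have h := res_congr (FA.Local.natCast_le_one P) hP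
  rw [res_pow hz, hj, res_natCast] at h
  refine ⟨(j : ZMod l), ?_⟩
  have h' : ((j ^ 2 : ℕ) : Res A) = (P : Res A) := by exact_mod_cast h
  rw [CharP.natCast_eq_natCast (Res A) l] at h'
  rw [← ZMod.natCast_eq_natCast_iff] at h'
  rw [← h']
  push_cast
  ring

end Val

namespace Quad

variable {Q : Quad}

/-- The exponent of the norm is even where the square root is unramified. -/
theorem even_norm {l : ℕ} (hl : l.Prime) {a : Qb}
    (hunr : ∀ A : ValuationSubring Qb, A.LiesOverPrime l → ∀ σ ∈ A.inertiaSubgroupIn ℚ, σ ∈ Q.H →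
      σ (sqrtQ a) = sqrtQ a)
    {m : ℚ} (hm : 0 < m) (hN : ∀ σ ∉ Q.H, a * σ a = m) : 2 ∣ padicValRat l m := by
  obtain ⟨A, hA⟩ := exists_liesOverPrime hl
  by_cases hD : l ∣ Q.D
  · obtain ⟨t, ht, hts⟩ := Q.ram l hl hD A hA
    have htH : t ∉ Q.H := hts
    refine even_of_sq hl hA hm.ne' (y := sqrtQ a * t (sqrtQ a))
      (by rw [mul_pow, ← map_pow, sqrtQ_sq]; exact hN t htH) fun σ hσ => ?_
    have ht2 : t (t (sqrtQ a)) = sqrtQ a :=
      hunr A hA _ (mul_mem ht ht) (Q.mul_mem_of_not_mem htH htH)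
    have hH : ∀ τ ∈ A.inertiaSubgroupIn ℚ, τ ∈ Q.H →
        τ (sqrtQ a * t (sqrtQ a)) = sqrtQ a * t (sqrtQ a) := fun τ hτ hτH => by
      have e := hunr A hA _ (mul_mem (mul_mem (inv_mem ht) hτ) ht)
        (show t⁻¹ * τ * t ∈ Q.H by simpa using Q.conj_mem t⁻¹ hτH)
      rw [map_mul, hunr A hA τ hτ hτH, show τ (t (sqrtQ a)) = t ((t⁻¹ * τ * t) (sqrtQ a)) by
        simp [AlgEquiv.mul_apply, AlgEquiv.aut_inv], e]
    by_cases hσH : σ ∈ Q.H
    · exact hH σ hσ hσH
    · have e := hH (σ * t) (mul_mem hσ ht) (Q.mul_mem_of_not_mem hσH htH)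
      rw [AlgEquiv.mul_apply, map_mul t, ht2, mul_comm (t (sqrtQ a))] at e
      exact e
  · obtain ⟨τ, hτ⟩ := Q.exists_not_mem
    refine even_of_sq hl hA hm.ne' (y := sqrtQ a * τ (sqrtQ a))
      (by rw [mul_pow, ← map_pow, sqrtQ_sq]; exact hN τ hτ) fun σ hσ => ?_
    have hσH : σ ∈ Q.H := Q.unr l hl hD A hA σ hσ
    have hmem : τ⁻¹ * σ * τ ∈ (τ⁻¹ • A).inertiaSubgroupIn ℚ := by
      simpa using FA.TW.conj_mem_inertia hl hA hσ τ⁻¹
    have e := hunr _ (FA.Density.liesOverPrime_smul hA τ⁻¹) _ hmem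
      (by simpa using Q.conj_mem τ⁻¹ hσH)
    rw [map_mul, hunr A hA σ hσ hσH, show σ (τ (sqrtQ a)) = τ ((τ⁻¹ * σ * τ) (sqrtQ a)) by
      simp [AlgEquiv.mul_apply, AlgEquiv.aut_inv], e]

/-- A norm is a square modulo the ramified primes. -/
theorem isSquare_of_ram {l : ℕ} (hl : l.Prime) (hD : l ∣ Q.D) {a : Qb} (ha : Q.InK a)
    {P : ℕ} (hP : ¬ l ∣ P) {m : ℚ} (hm : m ≠ 0)
    (hN : ∀ σ ∉ Q.H, a * σ a = (m : Qb) ^ 2 * (P : Qb)) : IsSquare (P : ZMod l) := by
  have := Fact.mk hl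
  obtain ⟨A, hA⟩ := exists_liesOverPrime hl
  obtain ⟨φ, hφ⟩ := exists_isFrobeniusAt hl hA
  obtain ⟨τ, hτ⟩ := Q.exists_not_mem
  obtain ⟨x, y, e, e'⟩ := ha.exists_coords
  have hN' := hN τ hτ
  rw [e' τ hτ, e] at hN'
  set u := x / m
  set w := y / m
  have hsum : ((u : Qb)) ^ 2 + (Q.D : Qb) * (w : Qb) ^ 2 = (P : Qb) := by
    have hm0 : (m : Qb) ≠ 0 := Rat.cast_ne_zero.mpr hm
    simp only [u, w, Rat.cast_div]
    field_simp
    linear_combination hN' + (y : Qb) ^ 2 * Q.sq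
  have hvP : A.valuation (P : Qb) = 1 := by
    have := FA.Local.natCast_eq_one_of_not_dvd hl (valuation_p_lt_one hA) (n := (P : ℤ))
      (by exact_mod_cast hP)
    simpa using this
  refine isSquare_of_sq hl hA hφ (z := (u : Qb)) ?_ (map_ratCast φ u) ?_ <;>
    by_cases hw : w = 0
  · rw [hw, Rat.cast_zero, zero_pow two_ne_zero, mul_zero, add_zero] at hsum
    have h := congrArg A.valuation hsum
    rw [map_pow, hvP] at h
    exact ((pow_eq_one_iff_of_nonneg zero_le two_ne_zero).mp h).le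
  rotate_left
  · rw [hw, Rat.cast_zero, zero_pow two_ne_zero, mul_zero, add_zero] at hsum
    rw [hsum, sub_self, map_zero]; exact zero_lt_one
  all_goals
    have hDval : padicValRat l (Q.D : ℚ) = 1 := by
      rw [padicValRat.of_nat]
      have : padicValNat l Q.D = 1 := by
        refine le_antisymm ?_ (one_le_padicValNat_of_dvd Q.pos.ne' hD)
        rw [← Nat.factorization_def _ hl]
        exact (Nat.squarefree_iff_factorization_le_one Q.pos.ne').mp Q.sqf l
      rw [this]; rfl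
    have hDw : A.valuation ((Q.D : Qb) * (w : Qb) ^ 2) =
        A.valuation (l : Qb) ^ (1 + 2 * padicValRat l w) := by
      have h := val_ratCast hl hA (c := (Q.D : ℚ) * w ^ 2)
        (mul_ne_zero (Nat.cast_ne_zero.mpr Q.pos.ne') (pow_ne_zero 2 hw))
      push_cast at h
      rw [h, padicValRat.mul (Nat.cast_ne_zero.mpr Q.pos.ne') (pow_ne_zero 2 hw),
        padicValRat.pow, hDval]
      norm_num
    have hne : A.valuation ((u : Qb) ^ 2) ≠ A.valuation ((Q.D : Qb) * (w : Qb) ^ 2) := by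
      rw [hDw]
      by_cases hu : u = 0
      · rw [hu, Rat.cast_zero, zero_pow two_ne_zero, map_zero]
        exact (zpow_ne_zero _ (valuation_p_pos hl).ne').symm
      · rw [map_pow, val_ratCast hl hA hu, ← zpow_natCast, ← zpow_mul]
        intro h
        have := zpow_val_injective hl hA h
        omega
    have hmax := A.valuation.map_add_of_distinct_val hne
    rw [hsum, hvP] at hmax
    have hle2 : A.valuation ((Q.D : Qb) * (w : Qb) ^ 2) ≤ 1 := hmax ▸ le_max_right _ _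
    have hle1 : A.valuation ((u : Qb) ^ 2) ≤ 1 := hmax ▸ le_max_left _ _
    have hlt : A.valuation ((Q.D : Qb) * (w : Qb) ^ 2) < 1 := lt_of_le_of_ne hle2 fun h => by
      rw [hDw, ← zpow_zero (A.valuation (l : Qb))] at h
      have := zpow_val_injective hl hA h
      omega
  · rw [show (u : Qb) ^ 2 - (P : Qb) = -((Q.D : Qb) * (w : Qb) ^ 2) by linear_combination hsum,
      Valuation.map_neg]
    exact hlt
  · rw [map_pow] at hle1
    exact (pow_le_one_iff two_ne_zero).mp hle1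

/-- A norm is a square modulo an inert prime whose squared Frobenius fixes the square root. -/
theorem isSquare_of_inert {l : ℕ} (hl : l.Prime) {A : ValuationSubring Qb} (hA : A.LiesOverPrime l)
    {φ : GQ} (hφ : A.IsFrobeniusAt φ l) (hφH : φ ∉ Q.H) {a : Qb}
    (hfix : φ (φ (sqrtQ a)) = sqrtQ a) {P : ℕ} (hP : ¬ l ∣ P) {m : ℚ} (hm : m ≠ 0)
    (hN : ∀ σ ∉ Q.H, a * σ a = (m : Qb) ^ 2 * (P : Qb)) : IsSquare (P : ZMod l) := by
  set z := sqrtQ a * φ (sqrtQ a) / (m : Qb) with hz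
  have hm0 : (m : Qb) ≠ 0 := Rat.cast_ne_zero.mpr hm
  have hz2 : z ^ 2 = (P : Qb) := by
    rw [hz, div_pow, mul_pow, ← map_pow, sqrtQ_sq, hN φ hφH, mul_div_cancel_left₀ _ (pow_ne_zero 2 hm0)]
  refine isSquare_of_sq hl hA hφ (z := z) ?_ ?_ ?_
  · have h := congrArg A.valuation hz2
    rw [map_pow, show A.valuation (P : Qb) = 1 by
      simpa using FA.Local.natCast_eq_one_of_not_dvd hl (valuation_p_lt_one hA) (n := (P : ℤ))
        (by exact_mod_cast hP)] at h
    exact ((pow_eq_one_iff_of_nonneg zero_le two_ne_zero).mp h).le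
  · rw [hz, map_div₀, map_mul, hfix, map_ratCast, mul_comm]
  · rw [hz2, sub_self, map_zero]; exact zero_lt_one

end Quad

end FA.Two
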