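import Fermat.Agent.NebLocal.Base
import Fermat.Agent.HeckeH1.OldPiece
import Fermat.Agent.JTorsion.LatMod
import Mathlib.RingTheory.TensorProduct.Maps
import Mathlib.RingTheory.Flat.TorsionFree
import Mathlib.RingTheory.Flat.Equalizer
import Mathlib.LinearAlgebra.TensorProduct.Pi
import Mathlib.Algebra.Module.Torsion.Basic

/-!
# The lattice with coefficients and the homomorphisms of `Γ₀`

`O ⊗ cuspLat` is the parabolic part of the homomorphisms of `Γ₀(N)`; integral operators killed in a
second representation are combinations of integral operators killed there.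
-/

set_option autoImplicit false
set_option linter.style.haveILetI false
set_option linter.unusedSectionVars false
set_option synthInstance.maxHeartbeats 200000
set_option maxHeartbeats 800000

noncomputable section

namespace FA.Two

open FA.Level FA.JTorsion FA.NebLocal
open FA.HeckeH1 (Corr Par Hom1 hv GamH Tc heckeAlg heckePoly Tgen)
open scoped MatrixGroups TensorProduct

local notation "Qb" => AlgebraicClosure ℚ

variable [Algebra Qb ℂ] (O : Type) [CommRing O] (N : ℕ) [NeZero N]

/-- The lattice with coefficients. -/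
abbrev LatO : Type := O ⊗[ℤ] cuspLat (lvlGamma0 N)

/-- The lattice as homomorphisms on `Γ₀(N)`. -/
def toH1 : LatO O N →ₗ[O] Hom1 (GamH N ⊤) O :=
  (Corr.res (gamH_top_eq N).le).actLin.comp (parEmb O (lvlGamma0 N))

theorem toH1_apply (z : LatO O N) :
    toH1 O N z = (Corr.res (gamH_top_eq N).le).act (parEmb O (lvlGamma0 N) z) := rfl

theorem res_ge_le (y : Hom1 (lvlGamma0 N).grp O) :
    (Corr.res (gamH_top_eq N).ge).act ((Corr.res (gamH_top_eq N).le).act y) = y :=
  AddMonoidHom.ext fun x => by
    show hv _ x.toMul = hv _ x.toMul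
    rw [Corr.res_act, Corr.res_act]

theorem res_le_ge (y : Hom1 (GamH N ⊤) O) :
    (Corr.res (gamH_top_eq N).le).act ((Corr.res (gamH_top_eq N).ge).act y) = y :=
  AddMonoidHom.ext fun x => by
    show hv _ x.toMul = hv _ x.toMul
    rw [Corr.res_act, Corr.res_act]

theorem toH1_mem_Par (z : LatO O N) : toH1 O N z ∈ Par (GamH N ⊤) O := by
  rw [toH1_apply]
  exact FA.HeckeH1.Par_act _ (parEmb_mem z)

theorem toH1_injective [IsDomain O] [CharZero O] : Function.Injective (toH1 O N) := fun a b h => by
  refine parEmb_injective ?_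
  rw [← res_ge_le O N (parEmb O (lvlGamma0 N) a), ← res_ge_le O N (parEmb O (lvlGamma0 N) b)]
  exact congrArg _ h

theorem exists_toH1_eq [IsDomain O] [CharZero O] {z : Hom1 (GamH N ⊤) O}
    (hz : z ∈ Par (GamH N ⊤) O) : ∃ x, toH1 O N x = z := by
  obtain ⟨x, hx⟩ := exists_parEmb_eq (V := lvlGamma0 N)
    (FA.HeckeH1.Par_act (Corr.res (gamH_top_eq N).ge) hz)
  exact ⟨x, by rw [toH1_apply, hx, res_le_ge]⟩

/-- An integral operator on the lattice with coefficients. -/
def baseEnd : Module.End ℤ (cuspLat (lvlGamma0 N)) →ₐ[ℤ] Module.End O (LatO O N) :=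
  Module.End.baseChangeHom ℤ O _

theorem baseEnd_tmul (e : Module.End ℤ (cuspLat (lvlGamma0 N))) (c : O)
    (φ : cuspLat (lvlGamma0 N)) : baseEnd O N e (c ⊗ₜ φ) = c ⊗ₜ e φ := rfl

/-- The action of the integral Hecke algebra on the lattice with coefficients. -/
def latT : CuspForm.heckeAlgebra N 2 (∅ : Set ℕ) →+* Module.End O (LatO O N) :=
  (baseEnd O N).toRingHom.comp (latRep N (∅ : Set ℕ))

theorem latT_tmul (t : CuspForm.heckeAlgebra N 2 (∅ : Set ℕ)) (c : O) (φ : cuspLat (lvlGamma0 N)) :
    latT O N t (c ⊗ₜ φ) = c ⊗ₜ latRep N (∅ : Set ℕ) t φ := rfl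

theorem latT_T {ℓ : ℕ} [hℓ : Fact ℓ.Prime] [NeZero ℓ] (hℓN : ¬ ℓ ∣ N) :
    latT O N (CuspForm.heckeAlgebra.T (k := 2) hℓ.out hℓN (Set.notMem_empty _)) =
      tensC O (tcZero N ℓ) := by
  refine TensorProduct.AlgebraTensorModule.ext fun c φ => ?_
  rw [latT_tmul, tensC_tmul, latC_tcZero N ℓ hℓN, latRep_T N hℓ.out hℓN]

/-- Good Hecke operators on the two sides. -/
theorem toH1_latT {ℓ : ℕ} [hℓ : Fact ℓ.Prime] [NeZero ℓ] (hℓN : ¬ ℓ ∣ N) (z : LatO O N) :
    toH1 O N (latT O N (CuspForm.heckeAlgebra.T (k := 2) hℓ.out hℓN (Set.notMem_empty _)) z) =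
      (Tc N ⊤ ℓ).act (toH1 O N z) := by
  rw [latT_T, toH1_apply, parEmb_tensC, tcZero, Corr.comp_act, Corr.comp_act, res_le_ge]
  rfl

section kernel

variable {O}

/-- A coefficient combination of integral operators vanishing on a free lattice is one of
operators vanishing there. -/
theorem mem_range_lTensor_ker {D L : Type} [AddCommGroup D] [AddCommGroup L] [Module.Free ℤ L]
    [Module.Finite ℤ L] [IsDomain O] [CharZero O] (f : D →ₗ[ℤ] Module.End ℤ L) (x : O ⊗[ℤ] D)
    (hx : ∀ v : L, LinearMap.lTensor O ((LinearMap.applyₗ v).comp f) x = 0) :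
    x ∈ LinearMap.range (LinearMap.lTensor O (LinearMap.ker f).subtype) := by
  classical
  haveI : Module.IsTorsionFree ℤ O := Module.isTorsionFree_iff_algebraMap_injective.mpr
    (fun a b h => by simpa using h)
  let b := Module.Free.chooseBasis ℤ L
  let g : D →ₗ[ℤ] (Module.Free.ChooseBasisIndex ℤ L → L) :=
    LinearMap.pi fun i => (LinearMap.applyₗ (b i)).comp f
  have hker : LinearMap.ker g = LinearMap.ker f := by
    ext d
    constructor
    · intro h
      exact b.ext fun i => congrFun h i
    · intro h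
      funext i
      show f d (b i) = 0
      rw [LinearMap.mem_ker.1 h, LinearMap.zero_apply]
  have hg : LinearMap.lTensor O g x = 0 := by
    refine (TensorProduct.piRight ℤ ℤ O fun _ : Module.Free.ChooseBasisIndex ℤ L => L).injective ?_
    rw [map_zero]
    funext i
    suffices key : ∀ y : O ⊗[ℤ] D, TensorProduct.piRight ℤ ℤ O (fun _ => L)
        (LinearMap.lTensor O g y) i = LinearMap.lTensor O ((LinearMap.applyₗ (b i)).comp f) y from
      (key x).trans (hx (b i))
    intro y
    induction y with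
    | zero => simp
    | add u v hu hv => simp only [map_add, Pi.add_apply, hu, hv]
    | tmul c d => simp [g]
  have hex := Module.Flat.lTensor_exact O (LinearMap.exact_subtype_ker_map g)
  rw [← hker]
  exact (hex x).1 hg

end kernel

end FA.Two
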