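import Fermat.Agent.Two.BasePointOf
import Fermat.Agent.Two.FamilyMaps

/-!
# The family of lifts of the base levels

Finitely many lifts separate the algebra of the base; the carried algebra of their family acts on
every level through it.
-/

set_option autoImplicit false
set_option linter.unusedSectionVars false
set_option linter.style.haveILetI false
set_option synthInstance.maxHeartbeats 400000
set_option maxHeartbeats 1000000

noncomputable section

namespace FA.Two

open IsLocalRing Matrix FA.Deform FA.HeckeH1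

local notation "Qb" => AlgebraicClosure ℚ
local notation "GQ" => AlgebraicClosure ℚ ≃ₐ[ℚ] AlgebraicClosure ℚ

variable {O : Type} [CommRing O] [IsDomain O] [IsDiscreteValuationRing O]
  [IsAdicComplete (maximalIdeal O) O] [CharZero O] [Finite (ResidueField O)]

namespace BaseData

variable {ι : Type} [DecidableEq ι] (Bd : BaseData O ι)

theorem nontrivial_good (K : Finset ι) : Nontrivial (Bd.Good K) := by
  obtain ⟨χ, e, hχ, he, hee⟩ := exists_sysPiece (Bd.hasSys_lev K)
  refine Ideal.Quotient.nontrivial_iff.mpr fun h => ?_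
  have h1 := mem_annE.1 ((Ideal.eq_top_iff_one _).1 h)
  have h0 : e.1 = 0 := hee.trans (LinearMap.ext fun v => by
    have h2 := h1 v
    rwa [map_one, Module.End.one_apply] at h2)
  have h3 : χ e = 1 := he.char
  rw [show e = 0 from Subtype.ext h0, map_zero] at h3
  exact zero_ne_one h3

variable [Fintype ι] (rb : GQ →* Matrix (Fin 2) (Fin 2) (ResidueField O))

/-- Lifts of the eigen systems of the levels which separate the algebra of the base. -/
structure BasePoints (p : ℕ) where
  /-- the index type -/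
  J : Type
  [finite : Finite J]
  [nonempty : Nonempty J]
  /-- the levels -/
  K : J → Finset ι
  /-- the lifts -/
  L : ∀ j, Bd.LevelPoint (K j) rb p
  separate : ∀ a : Bd.alg, (∀ j, (L j).val a = 0) → a = 0
  separate_level : ∀ (K₀ : Finset ι) (a : Bd.alg),
    (∀ j, K j = K₀ → (L j).val a = 0) → Bd.toGood K₀ a = 0

attribute [instance] BasePoints.finite BasePoints.nonempty

variable {rb}

/-- **Separating lifts exist.** -/
theorem nonempty_basePoints (p : ℕ) [hp : Fact p.Prime] (hpO : (p : O) ∈ maximalIdeal O)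
    (hpS : (⟨p, hp.out⟩ : Nat.Primes) ∈ Bd.S) (hopen : IsOpen (rb.ker : Set GQ))
    (hspan : Submodule.span (ResidueField O) (Set.range rb) = ⊤) (hrb : Bd.ResidualFrob rb) :
    Nonempty (Bd.BasePoints rb p) := by
  classical
  have hred : ∀ K, IsReduced (Bd.Good K) := fun K =>
    isReduced_goodAlg (Bd.eIdem K) (Bd.eIdem_mem_Par K) ∅
      (fun q hq => absurd hq (Finset.notMem_empty q)) (fun u _ => Subgroup.mem_top u)
  choose J hJ P hP using fun K => (haveI := hred K; FA.RT.exists_algPoints (O := O) (A := Bd.Good K))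
  haveI := hJ
  choose L hL using fun (K : Finset ι) (j : J K) =>
    Bd.exists_levelPoint K p hpO hpS hopen hspan hrb (P K j)
  have hne : Nonempty (Σ K, J K) := by
    haveI := Bd.nontrivial_good ∅
    by_contra h
    exact one_ne_zero (hP ∅ 1 fun j => absurd ⟨⟨∅, j⟩⟩ h)
  have hsep : ∀ (K₀ : Finset ι) (a : Bd.alg),
      (∀ j : Σ K, J K, j.1 = K₀ → (L j.1 j.2).val a = 0) → Bd.toGood K₀ a = 0 := fun K₀ a h =>
    hP K₀ _ fun j => hL K₀ j a (h ⟨K₀, j⟩ rfl)
  haveI := hne
  exact ⟨{
    J := Σ K, J K
    K := Sigma.fst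
    L := fun j => L j.1 j.2
    separate := fun a h => Bd.toGood_injective fun K => hsep K a fun j _ => h j
    separate_level := hsep }⟩

variable {Bd} {p : ℕ} (Pts : Bd.BasePoints rb p)

/-- The family of the lifts. -/
def BasePoints.fam : Family rb Empty where
  J := Pts.J
  B := fun j => (Pts.L j).B
  r := fun j => (Pts.L j).r
  ε := fun j => (Pts.L j).ε
  ε_algebraMap := fun j => (Pts.L j).ε_algebraMap
  lift := fun j => (Pts.L j).lift
  cont := fun j => (Pts.L j).cont
  al := fun _ => Empty.elim
  ε_al := fun _ y => y.elim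

/-- **The action of the carried algebra on the base.** -/
theorem BasePoints.exists_baseHom (M : Pts.fam.Model) :
    ∃ f : M.R →ₐ[O] Bd.alg, ∀ x j, (Pts.L j).val (f x) = M.proj j x := by
  let ev : Bd.alg →ₐ[O] ∀ j, Pts.fam.B j := AlgHom.pi fun j => (Pts.L j).val
  have hev : Function.Injective ev := (injective_iff_map_eq_zero ev).2 fun a ha =>
    Pts.separate a fun j => congrFun ha j
  refine M.exists_hom id ev hev (Bd.S.image fun l : Nat.Primes => (l : ℕ)) ?_ (fun y => y.elim)
  intro q hq hqS A hA σ hσ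
  have hqS' : (⟨q, hq⟩ : Nat.Primes) ∉ Bd.S := fun h => hqS (Finset.mem_image.2 ⟨_, h, rfl⟩)
  refine ⟨Bd.Tl ⟨q, hq⟩, (q : Bd.alg), fun j => ?_⟩
  obtain ⟨h1, h2⟩ := (Pts.L j).frob ⟨q, hq⟩ hqS' A hA σ hσ
  exact ⟨h1, (map_natCast (Pts.L j).val q).trans h2.symm⟩

end BaseData

end FA.Two
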