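import Fermat.Agent.Two.BaseBridge
import Fermat.Agent.ModField.Semistable.FrobRelation
import Fermat.Agent.ModField.Semistable.HasFibre
import Fermat.Agent.ModField.Semistable.NewformFrobenius

/-!
# Frobenius at `q` on the part killed at level `M`

A coefficient combination of pairs of good operators whose second component vanishes maps the
lattice of level `M q` to where `σ + q σ⁻¹ = (q + 1) U_q` for a Frobenius `σ` at `q`.
-/

set_option autoImplicit false
set_option linter.style.haveILetI false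
set_option linter.unusedSectionVars false
set_option synthInstance.maxHeartbeats 200000
set_option maxHeartbeats 4000000

noncomputable section

namespace FA.Two

open IsLocalRing FA.Level FA.JTorsion FA.NebLocal FA.ModField
open scoped TensorProduct

local notation "Qb" => AlgebraicClosure ℚ
local notation "GQ" => AlgebraicClosure ℚ ≃ₐ[ℚ] AlgebraicClosure ℚ

variable [Algebra Qb ℂ] {N : ℕ} [NeZero N] {M : ℕ} [NeZero M] {B : Finset ℕ} (hMN : M ∣ N)
  (O : Type) [CommRing O]

/-- The action of coefficient combinations of pairs at the upper level. -/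
def pairActTop : O ⊗[ℤ] pairRing N M hMN B →ₗ[O] Module.End O (LatO O N) :=
  LinearMap.liftBaseChange O
    ((latT O N).comp ((RingHom.fst _ _).comp (pairRing N M hMN B).subtype)).toAddMonoidHom.toIntLinearMap

/-- The action of coefficient combinations of pairs at the lower level. -/
def pairActBot : O ⊗[ℤ] pairRing N M hMN B →ₗ[O] Module.End O (LatO O M) :=
  LinearMap.liftBaseChange O
    ((latT O M).comp ((RingHom.snd _ _).comp (pairRing N M hMN B).subtype)).toAddMonoidHom.toIntLinearMap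

theorem pairActTop_tmul (c : O) (t : pairRing N M hMN B) :
    pairActTop hMN O (c ⊗ₜ t) = c • latT O N t.1.1 := LinearMap.liftBaseChange_tmul _ _ _ _

theorem pairActBot_tmul (c : O) (t : pairRing N M hMN B) :
    pairActBot hMN O (c ⊗ₜ t) = c • latT O M t.1.2 := LinearMap.liftBaseChange_tmul _ _ _ _

omit N in
/-- A multiple of `p ^ n` in the lattice lies in the `n`-th step. -/
theorem one_tmul_nsmul_mem [IsLocalRing O] {p : ℕ} (hpO : (p : O) ∈ maximalIdeal O) (n : ℕ)
    {V : Lvl} (φ : cuspLat V) :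
    (1 : O) ⊗ₜ[ℤ] (p ^ n • φ) ∈ powTop (T := ℤ) (X := cuspLat V) (maximalIdeal O) n := by
  rw [← natCast_zsmul, TensorProduct.tmul_smul, ← Int.cast_smul_eq_zsmul O, Int.cast_natCast,
    Nat.cast_pow]
  exact Submodule.smul_mem_smul (Ideal.pow_mem_pow hpO n) Submodule.mem_top

omit N in
/-- A linear relation on the pure tensors with trivial coefficient holds everywhere. -/
theorem relation_of_one_tmul {X Y : Type} [AddCommGroup X] [AddCommGroup Y] [Module O Y]
    (a b e : O ⊗[ℤ] X →ₗ[O] Y) (r s : O)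
    (h : ∀ φ : X, a (1 ⊗ₜ φ) + r • b (1 ⊗ₜ φ) = s • e (1 ⊗ₜ φ)) (z : O ⊗[ℤ] X) :
    a z + r • b z = s • e z := by
  have h0 : a + r • b = s • e := TensorProduct.AlgebraTensorModule.ext fun c φ => by
    rw [show c ⊗ₜ[ℤ] φ = c • ((1 : O) ⊗ₜ[ℤ] φ) by
      rw [TensorProduct.smul_tmul', smul_eq_mul, mul_one]]
    simp only [map_smul, LinearMap.add_apply, LinearMap.smul_apply, h]
  exact LinearMap.congr_fun h0 z

omit N in
/-- A linear relation on the images of the pure tensors with trivial coefficient. -/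
theorem relation_comp_of_one_tmul {X Y : Type} [AddCommGroup X] [AddCommGroup Y] [Module O Y]
    (T : O ⊗[ℤ] X →ₗ[O] Y) (a b e : Y →ₗ[O] Y) (r s : O)
    (h : ∀ φ : X, a (T (1 ⊗ₜ φ)) + r • b (T (1 ⊗ₜ φ)) = s • e (T (1 ⊗ₜ φ))) (c : O) (z : O ⊗[ℤ] X) :
    a ((c • T) z) + r • b ((c • T) z) = s • e ((c • T) z) := by
  rw [LinearMap.smul_apply, ← map_smul T]
  exact relation_of_one_tmul O (a.comp T) (b.comp T) (e.comp T) r s h (c • z)

variable {O} [IsDomain O] [IsDiscreteValuationRing O] [IsAdicComplete (maximalIdeal O) O]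
  [CharZero O] {p : ℕ} [hp : Fact p.Prime] (hpO : (p : O) ∈ maximalIdeal O)

omit N M B hMN

variable (M q : ℕ) [NeZero M] [hq : Fact q.Prime] [NeZero q] {B : Finset ℕ} (hqM : ¬ q ∣ M)
  (hpB : p ∈ B) (hqp : q ≠ p) {A : ValuationSubring Qb} (hA : A.LiesOverPrime q) {σ : GQ}
  (hσ : A.IsFrobeniusAt σ q)

include hqM hpB hqp hA hσ in
/-- **`σ + q σ⁻¹ = (q + 1) U_q` on integral operators killed at level `M`.** -/
theorem galR_add_eq_U_lat (t : pairRing (M * q) M (dvd_mul_right M q) B) (ht2 : t.1.2 = 0)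
    (φ : cuspLat (lvlGamma0 (M * q))) :
    galR hpO (lvlGamma0 (M * q)) σ ((1 : O) ⊗ₜ latRep (M * q) (∅ : Set ℕ) t.1.1 φ) +
      (q : O) • galR hpO (lvlGamma0 (M * q)) σ⁻¹ ((1 : O) ⊗ₜ latRep (M * q) (∅ : Set ℕ) t.1.1 φ) =
      ((q : O) + 1) • latT O (M * q) (uQ M q) ((1 : O) ⊗ₜ latRep (M * q) (∅ : Set ℕ) t.1.1 φ) := by
  classical
  haveI : NeZero p := ⟨hp.out.ne_zero⟩
  haveI : IsAlgClosed (IsLocalRing.ResidueField A) := FA.Frob.residueField_isAlgClosed A
  haveI : CharP (IsLocalRing.ResidueField A) q := residueAt_charP hA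
  haveI : Algebra.IsAlgebraic ℚ Qb := AlgebraicClosure.isAlgebraic ℚ
  haveI := isAdicComplete_tensor O (lvlGamma0 (M * q))
  haveI := (cuspLat_free_finite (lvlGamma0 (M * q))).1
  obtain ⟨D⟩ := hasFibreData M q hqM A residueAt_eq_zero
    (fun c hc => exists_pow_lt_valuation hq.out hA c hc) hA
  obtain ⟨K, c, hK, hrel⟩ := exists_frob_relation_lin M q hqM p hpB t.2 ht2 D hA hqp hσ
    (inducesOn_frobenius hσ)
  set ψ := latRep (M * q) (∅ : Set ℕ) t.1.1 φ with hψ
  refine sub_eq_zero.1 ((smul_eq_zero.1 (show (K : O) • (_ : LatO O (M * q)) = 0 from ?_)).resolve_left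
    (Nat.cast_ne_zero.2 hK))
  refine IsHausdorff.haus (I := maximalIdeal O) inferInstance _ fun n => SModEq.zero.2 ?_
  let P := p ^ (n + c)
  have hkill : ∀ z : ModN (M * q) (∅ : Set ℕ) P, P • z = 0 := fun z =>
    toTors_injective (M * q) _ _ (by rw [map_nsmul, nsmul_toTors, map_zero])
  let bad : Finset ℕ := insert p (M * q).primeFactors
  obtain ⟨h, hh, -, -⟩ := exists_hecke_of_gal p (n + c) hkill
    (galMod (M * q) (∅ : Set ℕ) P) (Q := PUnit) (Subsingleton.elim _ _) 1
    { toFun := fun _ => PUnit.unit, map_one' := rfl, map_mul' := fun _ _ => rfl,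
      map_zero' := rfl, map_add' := fun _ _ => rfl }
    (exists_field_galMod (M * q) (∅ : Set ℕ) P) ⟨⊥, inferInstance, fun _ _ => Subsingleton.elim _ _⟩
    bad (Finset.mem_insert_self _ _)
    (fun ℓ hℓ hℓbad C hC τ hτ => by
      simp only [bad, Finset.mem_insert, Nat.mem_primeFactors, not_or] at hℓbad
      have hℓN : ¬ ℓ ∣ M * q := fun hd => hℓbad.2 ⟨hℓ, hd, NeZero.ne _⟩
      exact ⟨_, fun x => galMod_frobenius (M * q) (∅ : Set ℕ) P (goodRed_all _) hℓ hℓN (fun hd =>
          hℓbad.1 ((Nat.prime_dvd_prime_iff_eq hℓ hp.out).1 (hℓ.dvd_of_dvd_pow hd))) hC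
          (Set.notMem_empty _) hτ x, Subsingleton.elim _ _, Subsingleton.elim _ _⟩)
    σ
  have hh' : ∀ z : ModN (M * q) (∅ : Set ℕ) P,
      galMod (M * q) (∅ : Set ℕ) P σ z + q • galMod (M * q) (∅ : Set ℕ) P σ⁻¹ z = h • z := fun z => by
    have e := hh z
    rwa [cycMod_frobenius p (n + c) hq.out hqp hA hσ, ZMod.val_natCast,
      nsmul_mod_of_kill (hkill _)] at e
  obtain ⟨y, hy⟩ := hrel n h hh'
  have hU : K • ((((q : HFull (M * q)) + 1) * uQ M q - h) * t.1.1) = p ^ n • (uQ M q * y) := by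
    rw [← mul_smul_comm (p ^ n) (uQ M q) y, ← hy, nsmul_eq_mul, nsmul_eq_mul]
    linear_combination ((K : HFull (M * q)) * h) * uQ_sq_mul M q hqM p hpB t.2 ht2
  -- the two representatives
  obtain ⟨φ₁, h₁⟩ := exists_galRel (n := p ^ (n + c)) σ ψ
  obtain ⟨φ₂, h₂⟩ := exists_galRel (n := p ^ (n + c)) σ⁻¹ ψ
  have hmod : ∀ (τ : GQ) (φ' : cuspLat (lvlGamma0 (M * q))), GalRel (lvlGamma0 (M * q)) (p ^ (n + c)) τ ψ φ' →
      galMod (M * q) (∅ : Set ℕ) P τ (Submodule.Quotient.mk ((LatMod.val (M * q) (∅ : Set ℕ)).symm ψ)) =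
        Submodule.Quotient.mk ((LatMod.val (M * q) (∅ : Set ℕ)).symm φ') := fun τ φ' hr => by
    refine toTors_injective (M * q) _ _ ?_
    rw [toTors_galMod, toTors_mk, toTors_mk]
    exact hr.symm
  have e := hh' (Submodule.Quotient.mk ((LatMod.val (M * q) (∅ : Set ℕ)).symm ψ))
  rw [hmod σ φ₁ h₁, hmod σ⁻¹ φ₂ h₂, ← Submodule.Quotient.mk_smul, ← Submodule.Quotient.mk_smul,
    ← Submodule.Quotient.mk_add, Submodule.Quotient.eq, mem_nMultiples] at e
  obtain ⟨y₁, hy₁⟩ := e
  have e1 : φ₁ + q • φ₂ - latRep (M * q) (∅ : Set ℕ) h ψ =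
      P • LatMod.val (M * q) (∅ : Set ℕ) y₁ := by
    rw [← map_nsmul, hy₁]
    rfl
  have e2 : K • ((q + 1) • latRep (M * q) (∅ : Set ℕ) (uQ M q) ψ -
      latRep (M * q) (∅ : Set ℕ) h ψ) = p ^ n • latRep (M * q) (∅ : Set ℕ) (uQ M q * y) φ := by
    have := LinearMap.congr_fun (congrArg (latRep (M * q) (∅ : Set ℕ)) hU) φ
    simp only [map_nsmul, map_mul, map_sub, map_add, map_one, map_natCast, Module.End.mul_apply,
      LinearMap.smul_apply, LinearMap.sub_apply, LinearMap.add_apply, Module.End.one_apply,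
      Module.End.natCast_apply] at this
    rw [add_nsmul, one_nsmul, map_mul, Module.End.mul_apply, hψ]
    exact this
  -- congruences
  have g1 := galR_spec hpO h₁
  have g2 := galR_spec hpO h₂
  have hle : powTop (T := ℤ) (X := cuspLat (lvlGamma0 (M * q))) (maximalIdeal O) (n + c) ≤
      powTop (T := ℤ) (X := cuspLat (lvlGamma0 (M * q))) (maximalIdeal O) n :=
    Submodule.smul_mono_left (Ideal.pow_le_pow_right (Nat.le_add_right n c))
  have g3 := hle (one_tmul_nsmul_mem (O := O) hpO (n + c) (LatMod.val (M * q) (∅ : Set ℕ) y₁))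
  have g4 := one_tmul_nsmul_mem (O := O) hpO n (latRep (M * q) (∅ : Set ℕ) (uQ M q * y) φ)
  rw [← e1] at g3
  rw [← e2] at g4
  have := sub_mem (Submodule.smul_mem _ (K : O) (add_mem (add_mem (hle g1)
    (Submodule.smul_mem _ (q : O) (hle g2))) g3)) g4
  rw [latT_tmul]
  convert this using 1
  simp only [← Nat.cast_smul_eq_nsmul ℤ, TensorProduct.tmul_sub, TensorProduct.tmul_add,
    TensorProduct.tmul_smul, ← Int.cast_smul_eq_zsmul O, Int.cast_natCast, Nat.cast_add,
    Nat.cast_one, smul_sub, smul_add, add_smul, one_smul]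
  abel

variable {M q}

include hqM hpB hqp hA hσ in
/-- **The relation on combinations killed at level `M`.** -/
theorem galR_add_eq_U (x : O ⊗[ℤ] pairRing (M * q) M (dvd_mul_right M q) B)
    (hx : pairActBot (dvd_mul_right M q) O x = 0) (z : LatO O (M * q)) :
    galR hpO (lvlGamma0 (M * q)) σ (pairActTop (dvd_mul_right M q) O x z) +
      (q : O) • galR hpO (lvlGamma0 (M * q)) σ⁻¹ (pairActTop (dvd_mul_right M q) O x z) =
      ((q : O) + 1) • latT O (M * q) (uQ M q) (pairActTop (dvd_mul_right M q) O x z) := by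
  haveI := (cuspLat_free_finite (lvlGamma0 M)).1
  haveI := (cuspLat_free_finite (lvlGamma0 M)).2
  let f : pairRing (M * q) M (dvd_mul_right M q) B →ₗ[ℤ] Module.End ℤ (cuspLat (lvlGamma0 M)) :=
    ((latRep M (∅ : Set ℕ)).comp ((RingHom.snd _ _).comp (pairRing (M * q) M (dvd_mul_right M q) B).subtype)).toAddMonoidHom.toIntLinearMap
  have hmem := mem_range_lTensor_ker f x fun v => by
    suffices key : ∀ u : O ⊗[ℤ] (pairRing (M * q) M (dvd_mul_right M q) B), LinearMap.lTensor O ((LinearMap.applyₗ v).comp f) u =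
        pairActBot (dvd_mul_right M q) O u ((1 : O) ⊗ₜ v) by
      rw [key, hx, LinearMap.zero_apply]
    intro u
    induction u with
    | zero => simp
    | add a b ha hb => simp only [map_add, LinearMap.add_apply, ha, hb]
    | tmul c t =>
      rw [LinearMap.lTensor_tmul, pairActBot_tmul, LinearMap.smul_apply, latT_tmul,
        TensorProduct.smul_tmul', smul_eq_mul, mul_one]
      rfl
  obtain ⟨u, rfl⟩ := hmem
  clear hx
  induction u with
  | zero => simp
  | add a b ha hb =>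
    simp only [map_add, LinearMap.add_apply, smul_add] at ha hb ⊢
    rw [← ha, ← hb]
    abel
  | tmul c t =>
    rw [LinearMap.lTensor_tmul, pairActTop_tmul]
    have hf : f t.1 = 0 := LinearMap.mem_ker.1 t.2
    have hf' : latRep M (∅ : Set ℕ) (t.1 : pairRing (M * q) M (dvd_mul_right M q) B).1.2 =
        latRep M (∅ : Set ℕ) 0 := by
      rw [map_zero (latRep M (∅ : Set ℕ))]
      simpa only [f, AddMonoidHom.coe_toIntLinearMap, RingHom.toAddMonoidHom_eq_coe,
        AddMonoidHom.coe_coe, RingHom.coe_comp, Function.comp_apply, RingHom.coe_snd,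
        Subring.coe_subtype] using hf
    have ht2 : (t.1 : pairRing (M * q) M (dvd_mul_right M q) B).1.2 = 0 :=
      latRep_injective M (∅ : Set ℕ) hf'
    simp only [Submodule.subtype_apply]
    refine relation_comp_of_one_tmul O (latT O (M * q) t.1.1.1) (galR hpO (lvlGamma0 (M * q)) σ)
      (galR hpO (lvlGamma0 (M * q)) σ⁻¹) (latT O (M * q) (uQ M q)) (q : O) ((q : O) + 1)
      (fun φ => ?_) c z
    rw [latT_tmul O (M * q) t.1.1.1 1 φ]
    exact galR_add_eq_U_lat hpO M q hqM hpB hqp hA hσ t.1 ht2 φ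

end FA.Two
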