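import Fermat.Agent.HeckeH1.BaseIhara
import Fermat.Agent.HeckeH1.Points

/-!
# The levels of the base

The levels `D ∏ q` for the sets of auxiliary primes, the frames of a residual system on them, the
good algebra acting on each, and one algebra of polynomials in the Hecke operators mapping to all.
-/

set_option autoImplicit false
set_option linter.unusedSectionVars false
set_option linter.style.haveILetI false
set_option synthInstance.maxHeartbeats 400000
set_option maxHeartbeats 800000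

noncomputable section

namespace FA.Two

open IsLocalRing FA.HeckeH1
open scoped MatrixGroups

/-- A residual system at level `D` and auxiliary primes. -/
structure BaseData (O : Type) [CommRing O] [IsDomain O] [IsDiscreteValuationRing O]
    [IsAdicComplete (maximalIdeal O) O] [CharZero O] (ι : Type) where
  /-- the level -/
  D : ℕ
  [neZeroD : NeZero D]
  /-- the auxiliary primes -/
  qn : ι → ℕ
  qn_prime : ∀ x, (qn x).Prime
  qn_inj : Function.Injective qn
  qn_not_dvd : ∀ x, ¬ qn x ∣ D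
  /-- the omitted primes -/
  S : Finset Nat.Primes
  dvd_mem : ∀ ℓ : Nat.Primes, (ℓ : ℕ) ∣ D → ℓ ∈ S
  qn_mem : ∀ x, (⟨qn x, qn_prime x⟩ : Nat.Primes) ∈ S
  /-- the residual values -/
  c : Nat.Primes → ResidueField O
  hasSys : HasSys S c D
  nonEis : ∀ L : ℕ, L ≠ 0 → ∃ ℓ : Nat.Primes, ¬ (ℓ : ℕ) ∣ L ∧
    ((ℓ : ℕ) : ZMod L) = 1 ∧ c ℓ ≠ ((ℓ : ℕ) : ResidueField O) + 1

attribute [instance] BaseData.neZeroD

namespace BaseData

variable {O : Type} [CommRing O] [IsDomain O] [IsDiscreteValuationRing O]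
  [IsAdicComplete (maximalIdeal O) O] [CharZero O] {ι : Type} (B : BaseData O ι)

instance fact_qn (x : ι) : Fact (B.qn x).Prime := ⟨B.qn_prime x⟩

/-- The level of a set of auxiliary primes. -/
def lev (K : Finset ι) : ℕ := B.D * ∏ x ∈ K, B.qn x

instance neZero_lev (K : Finset ι) : NeZero (B.lev K) :=
  ⟨mul_ne_zero (NeZero.ne B.D) (Finset.prod_ne_zero_iff.2 fun x _ => (B.qn_prime x).ne_zero)⟩

theorem lev_empty : B.lev ∅ = B.D := by simp [lev]

theorem D_dvd_lev (K : Finset ι) : B.D ∣ B.lev K := dvd_mul_right _ _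

theorem dvd_lev {r : ℕ} (hr : r.Prime) {K : Finset ι} (h : r ∣ B.lev K) :
    r ∣ B.D ∨ ∃ x ∈ K, r = B.qn x := by
  rcases (Nat.Prime.dvd_mul hr).1 h with h | h
  · exact Or.inl h
  · obtain ⟨x, hx, hd⟩ := (Prime.dvd_finsetProd_iff hr.prime _).1 h
    exact Or.inr ⟨x, hx, (Nat.prime_dvd_prime_iff_eq hr (B.qn_prime x)).1 hd⟩

theorem not_dvd_lev {ℓ : Nat.Primes} (h : ℓ ∉ B.S) (K : Finset ι) : ¬ (ℓ : ℕ) ∣ B.lev K := by
  intro hd
  rcases B.dvd_lev ℓ.2 hd with hd | ⟨x, -, hx⟩
  · exact h (B.dvd_mem ℓ hd)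
  · exact h (by rw [show ℓ = ⟨B.qn x, B.qn_prime x⟩ from Subtype.ext hx]; exact B.qn_mem x)

theorem qn_dvd_lev {x : ι} {K : Finset ι} (hx : x ∈ K) : B.qn x ∣ B.lev K :=
  (Finset.dvd_prod_of_mem _ hx).mul_left _

theorem qn_not_dvd_lev {x : ι} {K : Finset ι} (hx : x ∉ K) : ¬ B.qn x ∣ B.lev K := by
  intro hd
  rcases B.dvd_lev (B.qn_prime x) hd with hd | ⟨y, hy, he⟩
  · exact B.qn_not_dvd x hd
  · exact hx (B.qn_inj he ▸ hy)

theorem ne_qn (x : ι) {ℓ : Nat.Primes} (h : ℓ ∉ B.S) : (ℓ : ℕ) ≠ B.qn x := fun e =>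
  h (by rw [show ℓ = ⟨B.qn x, B.qn_prime x⟩ from Subtype.ext e]; exact B.qn_mem x)

variable [DecidableEq ι]

theorem lev_insert {x : ι} {K : Finset ι} (hx : x ∉ K) :
    B.lev (insert x K) = B.lev K * B.qn x := by
  rw [lev, lev, Finset.prod_insert hx]; ring

/-- Adding one prime is a step. -/
theorem isStep {x : ι} {K : Finset ι} (hx : x ∈ K) :
    IsStep (B.lev (K.erase x)) (B.qn x) ⊤ (B.lev K) ⊤ where
  not_dvd := B.qn_not_dvd_lev (Finset.notMem_erase x K)
  eq := by
    conv_lhs => rw [← Finset.insert_erase hx]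
    exact B.lev_insert (Finset.notMem_erase x K)
  dvd := mul_dvd_mul_left _ (Finset.prod_dvd_prod_of_subset _ _ _ (Finset.erase_subset x K))
  mem _ := ⟨fun _ => Subgroup.mem_top _, fun _ => Subgroup.mem_top _⟩

theorem hasSys_lev (K : Finset ι) : HasSys B.S B.c (B.lev K) := by
  induction K using Finset.induction_on with
  | empty =>
    have h : ∀ (N : ℕ) [NeZero N], N = B.D → HasSys B.S B.c N := by
      intro N _ hN
      subst hN
      exact B.hasSys
    exact h _ B.lev_empty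
  | @insert x K hx ih =>
    have hs := B.isStep (Finset.mem_insert_self x K)
    rw [Finset.erase_insert hx] at hs
    exact ih.of_injective hs.res.actLin (res_injective_of_finite hs.le)
      fun ℓ hℓ z => hs.res_Tc (B.ne_qn x hℓ) z

/-- The idempotent of a level. -/
abbrev eIdem (K : Finset ι) : Module.End O (Hom1 (GamH (B.lev K) ⊤) O) :=
  sysIdem B.S B.c (B.lev K)

/-- The frame of a level. -/
def frame (K : Finset ι) :
    Frame (Frame.scalarsHom O (Hom1 (GamH (B.lev K) ⊤) O)) :=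
  sysFrame B.S B.c (B.lev K)

theorem frame_e (K : Finset ι) : (B.frame K).e = B.eIdem K := sysFrame_e (B.lev K)

/-- The idempotent commutes with the good operators. -/
theorem eIdem_goodOp (K : Finset ι) (a : pairGood (B.lev K) ⊤ O)
    (v : Hom1 (GamH (B.lev K) ⊤) O) :
    goodOp (B.lev K) ⊤ O a (B.eIdem K v) = B.eIdem K (goodOp (B.lev K) ⊤ O a v) :=
  goodOp_comm (B.lev K) ⊤ O a (pair_mem_of_mem (B.lev K) O B.S (sysIdem_mem (B.lev K))) v

theorem eIdem_mem_Par (K : Finset ι) (v : Hom1 (GamH (B.lev K) ⊤) O) :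
    B.eIdem K v ∈ Par (GamH (B.lev K) ⊤) O :=
  sysIdem_mem_Par B.nonEis _ v

/-- The good algebra of a level. -/
abbrev Good (K : Finset ι) : Type := GoodAlg (B.eIdem K)

/-- The action of good operators on the frame. -/
def frameOp (K : Finset ι) :
    pairGood (B.lev K) ⊤ O →ₐ[O] Module.End O (Fin (B.frame K).d → O) :=
  (B.frame K).act (goodOp (B.lev K) ⊤ O)
    (fun a r x => by
      rw [Algebra.ofId_apply, Module.algebraMap_end_apply, Module.algebraMap_end_apply, map_smul])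
    (fun a x => by rw [B.frame_e K]; exact B.eIdem_goodOp K a x)

theorem frameOp_eq_zero_iff (K : Finset ι) (a : pairGood (B.lev K) ⊤ O) :
    B.frameOp K a = 0 ↔ a ∈ annE (B.eIdem K) := by
  rw [mem_annE, ← B.frame_e K]
  exact (B.frame K).act_eq_zero_iff _ _ _ a

/-- The action of the good algebra on the frame. -/
def goodAct (K : Finset ι) : B.Good K →ₐ[O] Module.End O (Fin (B.frame K).d → O) :=
  Ideal.Quotient.liftₐ _ (B.frameOp K) fun a ha => (B.frameOp_eq_zero_iff K a).2 ha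

theorem emb_goodAct (K : Finset ι) (a : pairGood (B.lev K) ⊤ O) (x : Fin (B.frame K).d → O) :
    (B.frame K).emb (B.goodAct K (Ideal.Quotient.mk _ a) x) =
      goodOp (B.lev K) ⊤ O a ((B.frame K).emb x) := by
  have h : B.goodAct K (Ideal.Quotient.mk _ a) = B.frameOp K a :=
    Ideal.Quotient.lift_mk (annE (B.eIdem K)) _ _
  rw [h, frameOp]
  exact (B.frame K).emb_act _ _ _ a x

theorem goodAct_injective (K : Finset ι) : Function.Injective (B.goodAct K) := by
  rw [injective_iff_map_eq_zero]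
  intro a ha
  obtain ⟨a, rfl⟩ := Ideal.Quotient.mk_surjective a
  exact Ideal.Quotient.eq_zero_iff_mem.2 ((B.frameOp_eq_zero_iff K a).1 ha)

/-- Polynomials in the good operators of a level. -/
def goodPoly (K : Finset ι) : MvPolynomial Nat.Primes O →ₐ[O] pairGood (B.lev K) ⊤ O :=
  MvPolynomial.aeval fun ℓ : Nat.Primes =>
    if h : ℓ ∈ B.S then 0 else goodTp (B.lev K) ⊤ O ⟨ℓ, ℓ.2, B.not_dvd_lev h K⟩

theorem goodOp_goodPoly (K : Finset ι) (P : MvPolynomial Nat.Primes O) :
    goodOp (B.lev K) ⊤ O (B.goodPoly K P) = (heckePoly (B.lev K) ⊤ O B.S P).1 := by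
  have h : (goodOp (B.lev K) ⊤ O).comp (B.goodPoly K) =
      (heckeAlg (B.lev K) ⊤ O B.S).val.comp (heckePoly (B.lev K) ⊤ O B.S) := by
    refine MvPolynomial.algHom_ext fun ℓ => LinearMap.ext fun z => ?_
    simp only [AlgHom.comp_apply, goodPoly, heckePoly, MvPolynomial.aeval_X, Subalgebra.coe_val]
    split_ifs with h
    · rw [map_zero, Tgen_apply_mem _ _ _ _ h]
      rfl
    · rw [goodOp_goodTp, Tgen_apply _ _ _ _ h]
  exact AlgHom.congr_fun h P

/-- Polynomials in the good algebra of a level. -/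
def gPoly (K : Finset ι) : MvPolynomial Nat.Primes O →ₐ[O] B.Good K :=
  (Ideal.Quotient.mkₐ O (annE (B.eIdem K))).comp (B.goodPoly K)

theorem gPoly_apply (P : MvPolynomial Nat.Primes O) (K : Finset ι) :
    B.gPoly K P = Ideal.Quotient.mk (annE (B.eIdem K)) (B.goodPoly K P) := rfl

/-- The polynomials vanishing at all levels. -/
def annAll : Ideal (MvPolynomial Nat.Primes O) := ⨅ K : Finset ι, RingHom.ker (B.gPoly K)

theorem mem_annAll {P : MvPolynomial Nat.Primes O} : P ∈ B.annAll ↔ ∀ K, B.gPoly K P = 0 :=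
  Ideal.mem_iInf.trans (forall_congr' fun _ => RingHom.mem_ker)

/-- The algebra of the base. -/
abbrev alg : Type := MvPolynomial Nat.Primes O ⧸ B.annAll

/-- Its projection to a level. -/
def toGood (K : Finset ι) : B.alg →ₐ[O] B.Good K :=
  Ideal.Quotient.liftₐ B.annAll (B.gPoly K) fun _ hP => B.mem_annAll.1 hP K

theorem toGood_mk (K : Finset ι) (P : MvPolynomial Nat.Primes O) :
    B.toGood K (Ideal.Quotient.mk B.annAll P) = B.gPoly K P :=
  Ideal.Quotient.lift_mk B.annAll _ _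

theorem toGood_eq_gPoly (K : Finset ι) (a : B.alg) : ∃ P, B.toGood K a = B.gPoly K P := by
  obtain ⟨P, rfl⟩ := Ideal.Quotient.mk_surjective a
  exact ⟨P, B.toGood_mk K P⟩

theorem toGood_injective {a : B.alg} (h : ∀ K, B.toGood K a = 0) : a = 0 := by
  obtain ⟨P, rfl⟩ := Ideal.Quotient.mk_surjective a
  exact Ideal.Quotient.eq_zero_iff_mem.2 (B.mem_annAll.2 fun K => (B.toGood_mk K P).symm.trans (h K))

/-- The Hecke operators in the algebra. -/
def Tl (ℓ : Nat.Primes) : B.alg := Ideal.Quotient.mk B.annAll (.X ℓ)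

theorem toGood_Tl_gPoly (K : Finset ι) (ℓ : Nat.Primes) :
    B.toGood K (B.Tl ℓ) = B.gPoly K (.X ℓ) :=
  B.toGood_mk K _

theorem toGood_Tl {ℓ : Nat.Primes} (h : ℓ ∉ B.S) (K : Finset ι) :
    B.toGood K (B.Tl ℓ) = goodT (B.eIdem K) ⟨ℓ, ℓ.2, B.not_dvd_lev h K⟩ := by
  refine (B.toGood_Tl_gPoly K ℓ).trans ((B.gPoly_apply (.X ℓ) K).trans ?_)
  have e : B.goodPoly K (.X ℓ) = goodTp (B.lev K) ⊤ O ⟨ℓ, ℓ.2, B.not_dvd_lev h K⟩ :=
    (MvPolynomial.aeval_X _ ℓ).trans (dif_neg h)
  exact congrArg (Ideal.Quotient.mk (annE (B.eIdem K))) e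

/-- The operator of the algebra on the frame of a level. -/
def algAct (K : Finset ι) : B.alg →ₐ[O] Module.End O (Fin (B.frame K).d → O) :=
  (B.goodAct K).comp (B.toGood K)

theorem algAct_apply (K : Finset ι) (a : B.alg) :
    B.algAct K a = B.goodAct K (B.toGood K a) := rfl

theorem exists_poly (a : B.alg) : ∃ P : MvPolynomial Nat.Primes O,
    ∀ K x, (B.frame K).emb (B.algAct K a x) =
      (heckePoly (B.lev K) ⊤ O B.S P).1 ((B.frame K).emb x) := by
  obtain ⟨P, rfl⟩ := Ideal.Quotient.mk_surjective a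
  refine ⟨P, fun K x => ?_⟩
  have h : B.toGood K (Ideal.Quotient.mk B.annAll P) =
      Ideal.Quotient.mk (annE (B.eIdem K)) (B.goodPoly K P) :=
    (B.toGood_mk K P).trans (B.gPoly_apply P K)
  rw [algAct_apply, h, emb_goodAct, goodOp_goodPoly]

variable [Fintype ι]

/-- **One polynomial gives the idempotents of all levels.** -/
theorem exists_idemPoly : ∃ P : MvPolynomial Nat.Primes O,
    ∀ K, (heckePoly (B.lev K) ⊤ O B.S P).1 = B.eIdem K := by
  classical
  choose χ e hχ he hee using fun K => exists_sysPiece (B.hasSys_lev K)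
  haveI : ∀ K, Module.Finite O (heckeAlg (B.lev K) ⊤ O B.S) := fun K => heckeAlg_finite _ _ _ _
  let π := AlgHom.pi fun K : Finset ι => heckePoly (B.lev K) ⊤ O B.S
  let C := π.range
  haveI : Module.Finite O C := Module.Finite.of_injective C.val.toLinearMap Subtype.val_injective
  let pr : ∀ K, C →ₐ[O] heckeAlg (B.lev K) ⊤ O B.S := fun K =>
    (Pi.evalAlgHom O (fun K : Finset ι => heckeAlg (B.lev K) ⊤ O B.S) K).comp C.val
  have hpr : ∀ K, Function.Surjective (pr K) := fun K a => by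
    obtain ⟨P, hP⟩ := heckePoly_surjective (B.lev K) ⊤ O B.S a
    exact ⟨⟨π P, ⟨P, rfl⟩⟩, hP⟩
  obtain ⟨eC, heC⟩ := exists_piece ((χ ∅).comp (pr ∅))
  have hχeq : ∀ K, (χ K).comp (pr K) = (χ ∅).comp (pr ∅) := fun K => AlgHom.ext fun y => by
    obtain ⟨y, P, rfl⟩ := y
    have h : (χ K).comp (heckePoly (B.lev K) ⊤ O B.S) =
        (χ ∅).comp (heckePoly (B.lev ∅) ⊤ O B.S) := MvPolynomial.algHom_ext fun ℓ => by
      simp only [AlgHom.comp_apply, heckePoly, MvPolynomial.aeval_X]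
      exact (hχ K).eq_on_gens (hχ ∅) ℓ
    exact AlgHom.congr_fun h P
  have hmap : ∀ K, pr K eC = e K := fun K =>
    (IsPiece.map (hpr K) (show IsPiece ((χ K).comp (pr K)) eC by rw [hχeq K]; exact heC)).unique
      (he K)
  obtain ⟨P, hP⟩ := eC.2
  refine ⟨P, fun K => ?_⟩
  refine Eq.trans ?_ (hee K)
  rw [← hmap K]
  exact congrArg Subtype.val (congrFun hP K)

end BaseData

end FA.Two
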