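import Fermat.Agent.Two.BaseLat
import Fermat.Agent.Two.BaseLevels
import Fermat.Agent.Two.BaseGalois
import Fermat.Agent.RT.HeckeAct

/-!
# Galois on the frames of the base

The Galois action on the lattice with coefficients cuts down to the frame of a level; there it
commutes with the algebra of the base and satisfies the relation of a representation over it.
-/

set_option autoImplicit false
set_option linter.unusedSectionVars false
set_option linter.style.haveILetI false
set_option synthInstance.maxHeartbeats 400000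
set_option maxHeartbeats 1600000

noncomputable section

namespace FA.Two

open IsLocalRing Matrix FA.Level FA.JTorsion FA.NebLocal FA.ModField
open FA.HeckeH1 (Hom1 GamH Par heckePoly sysIdem_idem)
open scoped TensorProduct

local notation "Qb" => AlgebraicClosure ℚ
local notation "GQ" => AlgebraicClosure ℚ ≃ₐ[ℚ] AlgebraicClosure ℚ

variable [Algebra Qb ℂ] {O : Type} [CommRing O] [IsDomain O] [IsDiscreteValuationRing O]
  [IsAdicComplete (maximalIdeal O) O] [CharZero O]

namespace BaseData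

variable {ι : Type} [DecidableEq ι] [Fintype ι] (Bd : BaseData O ι) (K : Finset ι)

/-- Polynomials on the lattice of a level. -/
abbrev levPoly : MvPolynomial Nat.Primes O →ₐ[O] Module.End O (LatO O (Bd.lev K)) :=
  latPoly O (Bd.lev K) Bd.S fun _ h => Bd.not_dvd_lev h K

theorem exists_latEmb : ∃ E : (Fin (Bd.frame K).d → O) →ₗ[O] LatO O (Bd.lev K),
    ∀ x, toH1 O (Bd.lev K) (E x) = (Bd.frame K).emb x := by
  have hpar : ∀ x, (Bd.frame K).emb x ∈ Par (GamH (Bd.lev K) ⊤) O := fun x => by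
    have h := Bd.eIdem_mem_Par K ((Bd.frame K).emb x)
    rwa [← Bd.frame_e K, (Bd.frame K).e_emb] at h
  have hmem : ∀ x, (Bd.frame K).emb x ∈ LinearMap.range (toH1 O (Bd.lev K)) := fun x =>
    exists_toH1_eq O (Bd.lev K) (hpar x)
  exact ⟨(LinearEquiv.ofInjective (toH1 O (Bd.lev K)) (toH1_injective O (Bd.lev K))).symm.toLinearMap.comp
    ((Bd.frame K).emb.codRestrict _ hmem), fun x =>
    congrArg Subtype.val ((LinearEquiv.ofInjective (toH1 O (Bd.lev K))
      (toH1_injective O (Bd.lev K))).apply_symm_apply ⟨_, hmem x⟩)⟩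

/-- The frame in the lattice. -/
def latEmb : (Fin (Bd.frame K).d → O) →ₗ[O] LatO O (Bd.lev K) := (Bd.exists_latEmb K).choose

theorem toH1_latEmb (x : Fin (Bd.frame K).d → O) :
    toH1 O (Bd.lev K) (Bd.latEmb K x) = (Bd.frame K).emb x :=
  (Bd.exists_latEmb K).choose_spec x

/-- The coordinates of the lattice. -/
def latCoord : LatO O (Bd.lev K) →ₗ[O] (Fin (Bd.frame K).d → O) :=
  (Bd.frame K).coord.comp (toH1 O (Bd.lev K))

theorem latCoord_latEmb (x : Fin (Bd.frame K).d → O) : Bd.latCoord K (Bd.latEmb K x) = x := by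
  rw [latCoord, LinearMap.comp_apply, toH1_latEmb, (Bd.frame K).coord_emb]

/-- A polynomial giving all idempotents. -/
def idemPoly : MvPolynomial Nat.Primes O := Bd.exists_idemPoly.choose

theorem latEmb_latCoord (z : LatO O (Bd.lev K)) :
    Bd.latEmb K (Bd.latCoord K z) = Bd.levPoly K Bd.idemPoly z := by
  refine toH1_injective O (Bd.lev K) ?_
  rw [toH1_latEmb, latCoord, LinearMap.comp_apply, (Bd.frame K).emb_coord, Bd.frame_e K,
    toH1_latPoly]
  exact (LinearMap.congr_fun (Bd.exists_idemPoly.choose_spec K) _).symm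

theorem idemPoly_latEmb (x : Fin (Bd.frame K).d → O) :
    Bd.levPoly K Bd.idemPoly (Bd.latEmb K x) = Bd.latEmb K x := by
  rw [← latEmb_latCoord, latCoord_latEmb]

/-- An operator of the lattice on the frame. -/
def frameLat (T : Module.End O (LatO O (Bd.lev K))) : Module.End O (Fin (Bd.frame K).d → O) :=
  (Bd.latCoord K).comp (T.comp (Bd.latEmb K))

theorem frameLat_apply (T : Module.End O (LatO O (Bd.lev K))) (x : Fin (Bd.frame K).d → O) :
    Bd.frameLat K T x = Bd.latCoord K (T (Bd.latEmb K x)) := rfl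

theorem latEmb_frameLat (T : Module.End O (LatO O (Bd.lev K)))
    (hT : ∀ z, T (Bd.levPoly K Bd.idemPoly z) = Bd.levPoly K Bd.idemPoly (T z))
    (x : Fin (Bd.frame K).d → O) : Bd.latEmb K (Bd.frameLat K T x) = T (Bd.latEmb K x) := by
  rw [frameLat_apply, latEmb_latCoord, ← hT, idemPoly_latEmb]

theorem algAct_eq_frameLat (a : Bd.alg) : ∃ P : MvPolynomial Nat.Primes O,
    (∀ x, Bd.latEmb K (Bd.algAct K a x) = Bd.levPoly K P (Bd.latEmb K x)) ∧
      Bd.algAct K a = Bd.frameLat K (Bd.levPoly K P) := by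
  obtain ⟨P, hP⟩ := Bd.exists_poly a
  have h : ∀ x, Bd.latEmb K (Bd.algAct K a x) = Bd.levPoly K P (Bd.latEmb K x) := fun x =>
    toH1_injective O (Bd.lev K) (by rw [toH1_latEmb, hP, toH1_latPoly, toH1_latEmb])
  exact ⟨P, h, LinearMap.ext fun x => by rw [frameLat_apply, ← h, latCoord_latEmb]⟩

variable {p : ℕ} [hp : Fact p.Prime] (hpO : (p : O) ∈ maximalIdeal O)

/-- The Galois action on the frame. -/
def galFrame : GQ →* Module.End O (Fin (Bd.frame K).d → O) where
  toFun σ := Bd.frameLat K (galR hpO (lvlGamma0 (Bd.lev K)) σ)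
  map_one' := LinearMap.ext fun x => by
    rw [frameLat_apply, map_one, Module.End.one_apply, latCoord_latEmb, Module.End.one_apply]
  map_mul' σ τ := LinearMap.ext fun x => by
    rw [Module.End.mul_apply, frameLat_apply Bd K (galR hpO (lvlGamma0 (Bd.lev K)) σ),
      latEmb_frameLat Bd K _ (fun z => galR_latPoly O _ _ _ hpO _ τ z), frameLat_apply, map_mul,
      Module.End.mul_apply]

theorem latEmb_galFrame (σ : GQ) (x : Fin (Bd.frame K).d → O) :
    Bd.latEmb K (Bd.galFrame K hpO σ x) =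
      galR hpO (lvlGamma0 (Bd.lev K)) σ (Bd.latEmb K x) :=
  Bd.latEmb_frameLat K _ (fun z => galR_latPoly O _ _ _ hpO _ σ z) x

theorem latEmb_injective : Function.Injective (Bd.latEmb K) :=
  Function.LeftInverse.injective (Bd.latCoord_latEmb K)

/-- Galois commutes with the algebra of the base. -/
theorem galFrame_comm (σ : GQ) (a : Bd.alg) :
    Commute (Bd.algAct K a) (Bd.galFrame K hpO σ) := by
  obtain ⟨P, hP, -⟩ := Bd.algAct_eq_frameLat K a
  refine LinearMap.ext fun x => Bd.latEmb_injective K ?_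
  rw [Module.End.mul_apply, Module.End.mul_apply, hP, latEmb_galFrame, latEmb_galFrame, hP,
    galR_latPoly]

theorem algAct_Tl_apply (ℓ : Nat.Primes) (x : Fin (Bd.frame K).d → O) :
    Bd.latEmb K (Bd.algAct K (Bd.Tl ℓ) x) = Bd.levPoly K (.X ℓ) (Bd.latEmb K x) := by
  refine toH1_injective O (Bd.lev K) ?_
  rw [toH1_latEmb, toH1_latPoly, toH1_latEmb]
  have h : Bd.toGood K (Bd.Tl ℓ) =
      Ideal.Quotient.mk (FA.HeckeH1.annE (Bd.eIdem K)) (Bd.goodPoly K (.X ℓ)) :=
    (Bd.toGood_Tl_gPoly K ℓ).trans (Bd.gPoly_apply _ K)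
  rw [algAct_apply, h, emb_goodAct, goodOp_goodPoly]

/-- Eichler–Shimura on the frame. -/
theorem galFrame_frobenius {ℓ : Nat.Primes} (hℓ : ℓ ∉ Bd.S) (hℓp : (ℓ : ℕ) ≠ p)
    {A : ValuationSubring Qb} (hA : A.LiesOverPrime (ℓ : ℕ)) {σ : GQ}
    (hσ : A.IsFrobeniusAt σ (ℓ : ℕ)) :
    Bd.galFrame K hpO σ +
        ((ℓ : ℕ) : Module.End O (Fin (Bd.frame K).d → O)) * Bd.galFrame K hpO σ⁻¹ =
      Bd.algAct K (Bd.Tl ℓ) := by
  refine LinearMap.ext fun x => Bd.latEmb_injective K ?_
  rw [LinearMap.add_apply, Module.End.mul_apply, Module.End.natCast_apply,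
    ← Nat.cast_smul_eq_nsmul O, map_add, map_smul, latEmb_galFrame, latEmb_galFrame,
    Bd.algAct_Tl_apply K ℓ x]
  exact galR_frobenius_latPoly O _ _ _ hpO hℓ hℓp hA hσ _

/-- Galois is continuous on the frame. -/
theorem exists_field_galFrame (n : ℕ) : ∃ L : IntermediateField ℚ Qb, FiniteDimensional ℚ L ∧
    ∀ σ : GQ, (∀ a ∈ L, σ a = a) → ∀ x, Bd.galFrame K hpO σ x - x ∈
      maximalIdeal O ^ n • (⊤ : Submodule O (Fin (Bd.frame K).d → O)) := by
  haveI := isAdicComplete_tensor O (lvlGamma0 (Bd.lev K))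
  obtain ⟨L, hL, h⟩ := exists_field_galQ (Bd.lev K) (p ^ n)
  refine ⟨L, hL, fun σ hσ x => ?_⟩
  have h1 : galR hpO (lvlGamma0 (Bd.lev K)) σ (Bd.latEmb K x) - Bd.latEmb K x ∈
      powTop (T := ℤ) (X := cuspLat (lvlGamma0 (Bd.lev K))) (maximalIdeal O) n :=
    limRep_sub_one_mem _ (powCompat_nMul hpO (lvlGamma0 (Bd.lev K)))
      (fun k => galQ (lvlGamma0 (Bd.lev K)) (p ^ k)) (galQ_compat (lvlGamma0 (Bd.lev K))) (h σ hσ) _
  have h2 := Submodule.mem_map_of_mem (f := Bd.latCoord K) h1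
  rw [powTop, Submodule.map_smul'', map_sub, latCoord_latEmb] at h2
  exact Submodule.smul_mono le_rfl le_top h2

variable [Finite (ResidueField O)] {A : Type} [CommRing A] [IsLocalRing A] [Algebra O A]
  [Module.Finite O A] [IsNoetherianRing A]

include hp in
/-- **The relation of a representation over the algebra on the frame.** -/
theorem galFrame_add_inv (hpS : (⟨p, hp.out⟩ : Nat.Primes) ∈ Bd.S)
    (f : A →ₐ[O] Bd.alg) (m : GQ →* Matrix (Fin 2) (Fin 2) A) (hm : FA.Deform.IsContRep m)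
    (hloc : ∀ c ∈ maximalIdeal O, algebraMap O A c ∈ maximalIdeal A)
    (hfrob : ∀ ℓ : Nat.Primes, ℓ ∉ Bd.S → ∀ V : ValuationSubring Qb,
      V.LiesOverPrime (ℓ : ℕ) → ∀ σ : GQ, V.IsFrobeniusAt σ (ℓ : ℕ) →
        f (m σ).trace = Bd.Tl ℓ ∧ f (m σ).det = ((ℓ : ℕ) : Bd.alg)) (τ : GQ) :
    Bd.galFrame K hpO τ + Bd.algAct K (f (m τ).det) * Bd.galFrame K hpO τ⁻¹ =
      Bd.algAct K (f (m τ).trace) := by
  classical
  let T : ℕ → Bd.alg := fun l => if h : l.Prime then Bd.Tl ⟨l, h⟩ else 0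
  let nS : Finset ℕ := Bd.S.image fun l : Nat.Primes => (l : ℕ)
  let m' : GQ →* Matrix (Fin 2) (Fin 2) Bd.alg := FA.Deform.mapRep f.toRingHom m
  have key := add_inv_eq_trace (Bd.galFrame K hpO)
    (fun n => maximalIdeal O ^ n • (⊤ : Submodule O (Fin (Bd.frame K).d → O)))
    (fun w hw => (Submodule.mem_bot O).1 (by
      rw [← Ideal.iInf_pow_smul_eq_bot_of_isLocalRing (M := Fin (Bd.frame K).d → O)
        (maximalIdeal O) (maximalIdeal.isMaximal O).ne_top, Submodule.mem_iInf]
      exact hw))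
    (fun σ n w hw => by
      have h := Submodule.mem_map_of_mem (f := Bd.galFrame K hpO σ) hw
      rw [Submodule.map_smul''] at h
      exact Submodule.smul_mono le_rfl le_top h)
    (fun n => Bd.exists_field_galFrame K hpO n) (Bd.algAct K)
    (fun n c hc w => Submodule.smul_mem_smul hc Submodule.mem_top)
    (fun σ a => Bd.galFrame_comm K hpO σ a) T nS m'
    (fun n => by
      obtain ⟨c, hc⟩ := FA.RT.exists_pow_le_span_pow hloc n
      obtain ⟨L, hL, hLc⟩ := hm c
      refine ⟨L, hL, fun σ hσ i j => ?_⟩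
      have h1 := Ideal.mem_map_of_mem f.toRingHom (hc (hLc σ hσ i j))
      rw [Ideal.map_map, show f.toRingHom.comp (algebraMap O A) = algebraMap O Bd.alg from
        f.comp_algebraMap] at h1
      have e : (m' σ - 1) i j = f.toRingHom ((m σ - 1) i j) := by
        show f.toRingHom (m σ i j) - _ = _
        rw [Matrix.sub_apply, map_sub]
        rcases eq_or_ne i j with rfl | hne <;> simp [*]
      rw [e]
      exact h1)
    (fun ℓ hℓ hℓS V hV σ hσ => by
      have hS : (⟨ℓ, hℓ⟩ : Nat.Primes) ∉ Bd.S := fun h =>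
        hℓS (Finset.mem_image.2 ⟨_, h, rfl⟩)
      obtain ⟨h1, h2⟩ := hfrob ⟨ℓ, hℓ⟩ hS V hV σ hσ
      have hℓp : ℓ ≠ p := fun e => by subst e; exact hS hpS
      have hT : T ℓ = Bd.Tl ⟨ℓ, hℓ⟩ := dif_pos hℓ
      refine ⟨⟨?_, ?_⟩, ?_⟩
      · show ((m σ).map f.toRingHom).trace = _
        rw [← AddMonoidHom.map_trace f.toRingHom, hT]
        exact h1
      · show (f.toRingHom.mapMatrix (m σ)).det = _
        rw [← RingHom.map_det]
        exact h2
      · rw [hT]
        exact Bd.galFrame_frobenius K hpO hS hℓp hV hσ) τ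
  have e1 : (m' τ).det = f (m τ).det := (RingHom.map_det f.toRingHom (m τ)).symm
  have e2 : (m' τ).trace = f (m τ).trace := (AddMonoidHom.map_trace f.toRingHom (m τ)).symm
  rw [e1, e2] at key
  exact key

end BaseData

end FA.Two
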