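import Fermat.Agent.Two.BaseFrobenius

/-!
# Polynomials in the good operators on the lattice with coefficients

Polynomials in the good operators act on the lattice as on the homomorphisms of `Γ₀(N)`; they commute
with Galois, and for two levels they are combinations of pairs of integral operators.
-/

set_option autoImplicit false
set_option linter.style.haveILetI false
set_option linter.unusedSectionVars false
set_option synthInstance.maxHeartbeats 200000
set_option maxHeartbeats 1600000

noncomputable section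

namespace FA.Two

open IsLocalRing FA.Level FA.JTorsion FA.NebLocal FA.ModField
open FA.HeckeH1 (Corr Par Hom1 GamH Tc heckePoly Tgen Tgen_apply Tgen_apply_mem)
open scoped TensorProduct

local notation "Qb" => AlgebraicClosure ℚ
local notation "GQ" => AlgebraicClosure ℚ ≃ₐ[ℚ] AlgebraicClosure ℚ

variable [Algebra Qb ℂ] (O : Type) [CommRing O]

/-- Coefficient combinations of integral operators on the lattice. -/
def latTO (N : ℕ) [NeZero N] : O ⊗[ℤ] HFull N →ₐ[O] Module.End O (LatO O N) :=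
  Algebra.TensorProduct.lift (Algebra.ofId O _) (latT O N).toIntAlgHom
    fun c _ => show Commute (algebraMap O (Module.End O (LatO O N)) c) _ from
      Algebra.commute_algebraMap_left c _

theorem latTO_tmul (N : ℕ) [NeZero N] (c : O) (t : HFull N) :
    latTO O N (c ⊗ₜ t) = c • latT O N t := by
  exact (Algebra.TensorProduct.lift_tmul _ _ _ c t).trans (Algebra.smul_def c _).symm

/-- Two combinations commute. -/
theorem latTO_comm (N : ℕ) [NeZero N] (a b : O ⊗[ℤ] HFull N) (z : LatO O N) :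
    latTO O N a (latTO O N b z) = latTO O N b (latTO O N a z) :=
  LinearMap.congr_fun ((Commute.all a b).map (latTO O N)).eq z

/-- Integral operators commute with combinations. -/
theorem latT_comm (N : ℕ) [NeZero N] (t : HFull N) (b : O ⊗[ℤ] HFull N) (z : LatO O N) :
    latT O N t (latTO O N b z) = latTO O N b (latT O N t z) := by
  have h := latTO_comm O N (1 ⊗ₜ t) b z
  rwa [latTO_tmul, one_smul] at h

section poly

variable (N : ℕ) [NeZero N] (S : Finset Nat.Primes)
  (hS : ∀ ℓ : Nat.Primes, ℓ ∉ S → ¬ (ℓ : ℕ) ∣ N)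

/-- Polynomials as combinations of integral operators. -/
def tensPoly : MvPolynomial Nat.Primes O →ₐ[O] O ⊗[ℤ] HFull N :=
  MvPolynomial.aeval fun ℓ : Nat.Primes => if h : ℓ ∈ S then 0
    else 1 ⊗ₜ CuspForm.heckeAlgebra.T (k := 2) ℓ.2 (hS ℓ h) (Set.notMem_empty _)

/-- Polynomials on the lattice. -/
def latPoly : MvPolynomial Nat.Primes O →ₐ[O] Module.End O (LatO O N) :=
  (latTO O N).comp (tensPoly O N S hS)

theorem latPoly_comm (P Q : MvPolynomial Nat.Primes O) (z : LatO O N) :
    latPoly O N S hS P (latPoly O N S hS Q z) = latPoly O N S hS Q (latPoly O N S hS P z) :=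
  latTO_comm O N _ _ z

theorem latT_latPoly (t : HFull N) (Q : MvPolynomial Nat.Primes O) (z : LatO O N) :
    latT O N t (latPoly O N S hS Q z) = latPoly O N S hS Q (latT O N t z) :=
  latT_comm O N t _ z

theorem latPoly_X_of_mem {ℓ : Nat.Primes} (h : ℓ ∈ S) : latPoly O N S hS (.X ℓ) = 0 := by
  rw [latPoly, AlgHom.comp_apply, tensPoly, MvPolynomial.aeval_X, dif_pos h, map_zero]

theorem latPoly_X_of_notMem {ℓ : Nat.Primes} (h : ℓ ∉ S) :
    latPoly O N S hS (.X ℓ) =
      latT O N (CuspForm.heckeAlgebra.T (k := 2) ℓ.2 (hS ℓ h) (Set.notMem_empty _)) := by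
  rw [latPoly, AlgHom.comp_apply, tensPoly, MvPolynomial.aeval_X, dif_neg h, latTO_tmul, one_smul]

/-- **Polynomials on the two sides.** -/
theorem toH1_latPoly [IsDomain O] [CharZero O] (P : MvPolynomial Nat.Primes O) (z : LatO O N) :
    toH1 O N (latPoly O N S hS P z) = (heckePoly N ⊤ O S P).1 (toH1 O N z) := by
  induction P using MvPolynomial.induction_on generalizing z with
  | C c =>
    rw [show (MvPolynomial.C c : MvPolynomial Nat.Primes O) = algebraMap O _ c from rfl,
      AlgHom.commutes, AlgHom.commutes, Subalgebra.coe_algebraMap, Module.algebraMap_end_apply,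
      Module.algebraMap_end_apply, map_smul]
  | add p q hp hq =>
    rw [map_add, map_add, AddMemClass.coe_add, LinearMap.add_apply, LinearMap.add_apply, map_add,
      hp, hq]
  | mul_X p ℓ hp =>
    rw [map_mul, map_mul, MulMemClass.coe_mul, Module.End.mul_apply, Module.End.mul_apply, hp,
      show heckePoly N ⊤ O S (.X ℓ) = Tgen N ⊤ O S ℓ from MvPolynomial.aeval_X _ ℓ]
    refine congrArg _ ?_
    by_cases h : ℓ ∈ S
    · rw [latPoly_X_of_mem O N S hS h, LinearMap.zero_apply, map_zero, Tgen_apply_mem _ _ _ _ h]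
    · haveI : Fact (ℓ : ℕ).Prime := ⟨ℓ.2⟩
      haveI : NeZero (ℓ : ℕ) := ⟨ℓ.2.ne_zero⟩
      rw [latPoly_X_of_notMem O N S hS h, Tgen_apply _ _ _ _ h, toH1_latT O N (hS ℓ h)]

variable [IsDomain O] [IsDiscreteValuationRing O] [IsAdicComplete (maximalIdeal O) O]
  [CharZero O] {p : ℕ} [Fact p.Prime] (hpO : (p : O) ∈ maximalIdeal O)

/-- Galois commutes with polynomials. -/
theorem galR_latPoly (P : MvPolynomial Nat.Primes O) (σ : GQ) (z : LatO O N) :
    galR hpO (lvlGamma0 N) σ (latPoly O N S hS P z) =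
      latPoly O N S hS P (galR hpO (lvlGamma0 N) σ z) := by
  induction P using MvPolynomial.induction_on generalizing z with
  | C c =>
    rw [show (MvPolynomial.C c : MvPolynomial Nat.Primes O) = algebraMap O _ c from rfl,
      AlgHom.commutes, Module.algebraMap_end_apply, Module.algebraMap_end_apply, map_smul]
  | add p q hp hq => rw [map_add, LinearMap.add_apply, LinearMap.add_apply, map_add, hp, hq]
  | mul_X p ℓ hp =>
    rw [map_mul, Module.End.mul_apply, Module.End.mul_apply, hp]
    refine congrArg _ ?_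
    by_cases h : ℓ ∈ S
    · rw [latPoly_X_of_mem O N S hS h, LinearMap.zero_apply, LinearMap.zero_apply, map_zero]
    · haveI : Fact (ℓ : ℕ).Prime := ⟨ℓ.2⟩
      haveI : NeZero (ℓ : ℕ) := ⟨ℓ.2.ne_zero⟩
      rw [latPoly_X_of_notMem O N S hS h, latT_T, galR_tcZero hpO N ℓ (hS ℓ h)]

/-- Eichler–Shimura in terms of polynomials. -/
theorem galR_frobenius_latPoly {ℓ : Nat.Primes} (h : ℓ ∉ S) (hℓp : (ℓ : ℕ) ≠ p)
    {A : ValuationSubring Qb} (hA : A.LiesOverPrime (ℓ : ℕ)) {σ : GQ}
    (hσ : A.IsFrobeniusAt σ (ℓ : ℕ)) (z : LatO O N) :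
    galR hpO (lvlGamma0 N) σ z + ((ℓ : ℕ) : O) • galR hpO (lvlGamma0 N) σ⁻¹ z =
      latPoly O N S hS (.X ℓ) z := by
  haveI : Fact (ℓ : ℕ).Prime := ⟨ℓ.2⟩
  haveI : NeZero (ℓ : ℕ) := ⟨ℓ.2.ne_zero⟩
  rw [latPoly_X_of_notMem O N S hS h, latT_T]
  exact galR_frobenius hpO N (ℓ : ℕ) (hS ℓ h) hℓp hA hσ z

end poly

section pair

variable {N : ℕ} [NeZero N] {M : ℕ} [NeZero M] {B : Finset ℕ} (hMN : M ∣ N)
  (S : Finset Nat.Primes) (hS : ∀ ℓ : Nat.Primes, ℓ ∉ S → ¬ (ℓ : ℕ) ∣ N ∧ (ℓ : ℕ) ∉ B)

/-- Polynomials as combinations of pairs. -/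
def pairPoly : MvPolynomial Nat.Primes O →ₐ[O] O ⊗[ℤ] pairRing N M hMN B :=
  MvPolynomial.aeval fun ℓ : Nat.Primes => if h : ℓ ∈ S then 0
    else 1 ⊗ₜ ⟨_, pairT_mem N M hMN ℓ.2 (hS ℓ h).1 (hS ℓ h).2⟩

/-- Combinations of pairs at the upper level. -/
def pairTopAlg : O ⊗[ℤ] pairRing N M hMN B →ₐ[O] Module.End O (LatO O N) :=
  (latTO O N).comp (Algebra.TensorProduct.map (AlgHom.id O O)
    ((RingHom.fst (HFull N) (HFull M)).comp (pairRing N M hMN B).subtype).toIntAlgHom)

/-- Combinations of pairs at the lower level. -/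
def pairBotAlg : O ⊗[ℤ] pairRing N M hMN B →ₐ[O] Module.End O (LatO O M) :=
  (latTO O M).comp (Algebra.TensorProduct.map (AlgHom.id O O)
    ((RingHom.snd (HFull N) (HFull M)).comp (pairRing N M hMN B).subtype).toIntAlgHom)

theorem pairActTop_eq (x : O ⊗[ℤ] pairRing N M hMN B) :
    pairActTop hMN O x = pairTopAlg O hMN x := by
  induction x with
  | zero => rw [map_zero, map_zero]
  | add a b ha hb => rw [map_add, map_add, ha, hb]
  | tmul c t =>
    rw [pairActTop_tmul, pairTopAlg, AlgHom.comp_apply, Algebra.TensorProduct.map_tmul, latTO_tmul]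
    rfl

theorem pairActBot_eq (x : O ⊗[ℤ] pairRing N M hMN B) :
    pairActBot hMN O x = pairBotAlg O hMN x := by
  induction x with
  | zero => rw [map_zero, map_zero]
  | add a b ha hb => rw [map_add, map_add, ha, hb]
  | tmul c t =>
    rw [pairActBot_tmul, pairBotAlg, AlgHom.comp_apply, Algebra.TensorProduct.map_tmul, latTO_tmul]
    rfl

theorem pairActTop_pairPoly (P : MvPolynomial Nat.Primes O) :
    pairActTop hMN O (pairPoly O hMN S hS P) = latPoly O N S (fun ℓ h => (hS ℓ h).1) P := by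
  rw [pairActTop_eq]
  have h : (pairTopAlg O hMN).comp (pairPoly O hMN S hS) =
      latPoly O N S (fun ℓ h => (hS ℓ h).1) := MvPolynomial.algHom_ext fun ℓ => by
    simp only [AlgHom.comp_apply, pairPoly, latPoly, tensPoly, MvPolynomial.aeval_X]
    split_ifs with hℓ
    · rw [map_zero, map_zero]
    · rw [pairTopAlg, AlgHom.comp_apply, Algebra.TensorProduct.map_tmul]
      rfl
  exact AlgHom.congr_fun h P

theorem pairActBot_pairPoly (hSM : ∀ ℓ : Nat.Primes, ℓ ∉ S → ¬ (ℓ : ℕ) ∣ M)
    (P : MvPolynomial Nat.Primes O) :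
    pairActBot hMN O (pairPoly O hMN S hS P) = latPoly O M S hSM P := by
  rw [pairActBot_eq]
  have h : (pairBotAlg O hMN).comp (pairPoly O hMN S hS) = latPoly O M S hSM :=
    MvPolynomial.algHom_ext fun ℓ => by
    simp only [AlgHom.comp_apply, pairPoly, latPoly, tensPoly, MvPolynomial.aeval_X]
    split_ifs with hℓ
    · rw [map_zero, map_zero]
    · rw [pairBotAlg, AlgHom.comp_apply, Algebra.TensorProduct.map_tmul]
      rfl
  exact AlgHom.congr_fun h P

end pair

end FA.Two
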