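import Fermat.Agent.Two.NewFamily
import Fermat.Agent.Two.SplitImage

/-!
# The new part of the base

The image of the product of the operators of the auxiliary primes on the top level is a direct
summand, and the carried algebra of the new lifts, with further lifts, acts on it.
-/

set_option autoImplicit false
set_option linter.unusedSectionVars false
set_option linter.style.haveILetI false
set_option synthInstance.maxHeartbeats 400000
set_option maxHeartbeats 1000000

noncomputable section

namespace FA.Two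

open IsLocalRing Matrix FA.Deform

local notation "Qb" => AlgebraicClosure ℚ
local notation "GQ" => AlgebraicClosure ℚ ≃ₐ[ℚ] AlgebraicClosure ℚ

variable {O : Type} [CommRing O] [IsDomain O] [IsDiscreteValuationRing O]
  [IsAdicComplete (maximalIdeal O) O] [CharZero O] [Finite (ResidueField O)]
  [CharP (ResidueField O) 2]
  {ι : Type} [DecidableEq ι] [Fintype ι]

namespace BaseData

variable (Bd : BaseData O ι)

/-- The old part of the top level. -/
def oldO : Matrix (Fin (Bd.frame Finset.univ).d)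
    (Σ x : ι, Fin 2 × Fin (Bd.frame (Finset.univ.erase x)).d) O :=
  Matrix.of fun i s =>
    LinearMap.toMatrix' (Bd.upT (Finset.mem_univ s.1) rfl s.2.1) i s.2.2

theorem oldO_map : (Bd.oldO).map (residue O) = oldCols Bd := by
  refine Matrix.ext fun i s => ?_
  show residue O (Bd.oldO i s) = Bd.upMat s.1 Finset.univ i s.2
  rw [upMat, dif_pos (Finset.mem_univ s.1)]
  rfl

end BaseData

variable {Bd : BaseData O ι} {rb : GQ →* Matrix (Fin 2) (Fin 2) (ResidueField O)}

/-- The new part of the base with the action of the carried algebra of the new lifts. -/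
structure BaseNew {P : Bd.AuxPlaces rb} {S₀ : SepAlg rb Bd.alg} {U : Set ℕ}
    (hH : S₀.Hyp P U) (E : Family (O := O) rb ι) where
  /-- the rank -/
  ρ : ℕ
  pos : 0 < ρ
  /-- vectors whose images form a basis -/
  V₀ : Matrix (Fin (Bd.frame Finset.univ).d) (Fin ρ) O
  /-- the coordinates on the image -/
  p₀ : Matrix (Fin ρ) (Fin (Bd.frame Finset.univ).d) O
  p₀_mul : p₀ * (Bd.matAct Finset.univ (S₀.nAll P) * V₀) = 1
  range : ∀ v : Fin (Bd.frame Finset.univ).d → O,
    ∃ y, (Bd.matAct Finset.univ (S₀.nAll P) * V₀) *ᵥ y = Bd.matAct Finset.univ (S₀.nAll P) *ᵥ v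
  residual_inj : Function.Injective
    ((Bd.matAct Finset.univ (S₀.nAll P) * V₀).map (residue O)).mulVec
  residual_span : ∀ v : Fin (Bd.frame Finset.univ).d → ResidueField O,
    ∃ y z, V₀.map (residue O) *ᵥ y + BaseData.oldCols Bd *ᵥ z = v
  /-- the carried algebra -/
  M₀ : (SepAlg.newFam hH E).Model
  /-- its action -/
  act₀ : M₀.R →ₐ[O] Matrix (Fin ρ) (Fin ρ) O
  act₀_spec : ∀ (y : M₀.R) (b : Bd.alg),
    (∀ j : S₀.New P, S₀.val j.1 b = SepAlg.projNew hH M₀ j y * S₀.val j.1 (S₀.nAll P)) →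
    (∀ j, S₀.val j (S₀.nAll P) = 0 → S₀.val j b = 0) →
    Bd.matAct Finset.univ b * V₀ = Bd.matAct Finset.univ (S₀.nAll P) * V₀ * act₀ y

variable [Algebra Qb ℂ] [Fact (Nat.Prime 2)] {Pts : Bd.BasePoints rb 2} {M : Pts.fam.Model}
  {f : M.R →ₐ[O] Bd.alg} (P : Bd.AuxPlaces rb)

/-- **The new part of the base exists.** -/
theorem exists_baseNew (h : Bd.BaseOK rb) (ιp : ℤ_[2] →+* O) (hf : Pts.IsBaseHom M f)
    (S₀ : SepAlg rb Bd.alg) (hop : ∀ x, S₀.nOp P x = P.nB hf x) {U : Set ℕ} (hH : S₀.Hyp P U)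
    (E : Family (O := O) rb ι) (Fr : FA.Deform.Frame O) (hFr : Fr.Adapted rb)
    (hup : ∃ σ, rb σ 0 1 ≠ 0) [Module.Finite O Bd.alg] : Nonempty (BaseNew hH E) := by
  classical
  set n := S₀.nAll P with hn
  have hnB : n = P.nAll hf := Finset.prod_congr rfl fun x _ => hop x
  set N := Bd.matAct Finset.univ n with hN
  have hNr : N.map (residue O) = Bd.redAct Finset.univ (P.nAll hf) := by
    rw [hN, hnB, BaseData.redAct_apply]
  obtain ⟨ρ, Vk, hpos, hinj, hcompl⟩ := exists_kernel_complement (N.map (residue O))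
  have hNW : N * Bd.oldO = 0 := by
    refine Matrix.ext fun i s => ?_
    obtain ⟨x, c, u⟩ := s
    have hz : Bd.algAct (Finset.univ.erase x) n = 0 := by
      have e : n = P.nB hf x * ∏ y ∈ Finset.univ.erase x, P.nB hf y :=
        hnB.trans (Finset.mul_prod_erase _ _ (Finset.mem_univ x)).symm
      rw [e, map_mul, P.algAct_nB hf (Finset.notMem_erase x Finset.univ), zero_mul]
    have h1 : (N * Bd.oldO) i ⟨x, c, u⟩ =
        Bd.algAct Finset.univ n (Bd.upT (Finset.mem_univ x) rfl c (Pi.single u 1)) i := by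
      rw [← Bd.matAct_mulVec, ← LinearMap.toMatrix'_mulVec, Matrix.mulVec_single_one]
      rfl
    rw [h1, ← LinearMap.comp_apply, BaseData.upT,
      ← Bd.trans_algAct (Bd.inter_up (Finset.mem_univ x) rfl c), LinearMap.comp_apply, hz,
      LinearMap.zero_apply, map_zero]
    rfl
  let V₀ : Matrix (Fin (Bd.frame Finset.univ).d) (Fin ρ) O :=
    Vk.map (Function.surjInv residue_surjective)
  have hV₀ : V₀.map (residue O) = Vk := Matrix.ext fun i j => by
    simp [V₀, Function.surjInv_eq residue_surjective]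
  have hspan : ∀ v : Fin (Bd.frame Finset.univ).d → ResidueField O,
      ∃ y z, V₀.map (residue O) *ᵥ y + BaseData.oldCols Bd *ᵥ z = v := by
    intro v
    obtain ⟨y, z, hz, hyz⟩ := hcompl v
    rw [hNr] at hz
    obtain ⟨z', hz'⟩ := P.exists_old hf h ιp hz
    exact ⟨y, z', by rw [hV₀, hz', hyz]⟩
  have hinj' : Function.Injective ((N * V₀).map (residue O)).mulVec := by
    rw [Matrix.map_mul, hV₀]
    exact hinj
  obtain ⟨p₀, hp₀, hrange⟩ := exists_split_image residue_surjective
    (fun c hc => by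
      by_contra hu
      exact hc ((residue_eq_zero_iff c).2 ((IsLocalRing.mem_maximalIdeal _).2 hu)))
    N Bd.oldO hNW V₀ hinj' (fun v => by rw [Bd.oldO_map]; exact hspan v)
  obtain ⟨F, hF⟩ := exists_newHom S₀.vals n (Bd.matAct Finset.univ) V₀ p₀
    (fun a ha => by rw [S₀.vals_eq_zero ha, map_zero]) hp₀ hrange
  obtain ⟨M₀⟩ := (SepAlg.newFam hH E).nonempty_model Fr hFr hup
  obtain ⟨G, hG⟩ := SepAlg.exists_newMap hH M₀
  exact ⟨{
    ρ := ρ
    pos := hpos (by rw [hNr]; exact P.redAct_nAll_ne_zero hf h ιp)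
    V₀ := V₀
    p₀ := p₀
    p₀_mul := hp₀
    range := hrange
    residual_inj := hinj'
    residual_span := hspan
    M₀ := M₀
    act₀ := F.comp G
    act₀_spec := fun y b hb hb0 => hF (G y) b
      (fun j => by rw [hG y j]; exact hb j) hb0 }⟩

end FA.Two
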