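import Fermat.Agent.Two.Steinberg
import Fermat.Agent.RT.PointOf
import Fermat.Agent.RT.Tame
import Fermat.Agent.RT.Diamond
import Mathlib.RingTheory.DiscreteValuationRing.Basic

/-!
# Points at `p = 2`

A representation over an extension of the coefficients gives a lift over the point ring, with any
determinant. Where inertia at `q` is unipotent and the trace of `(ρ(σ) - 1) g` does not vanish, the
eigenvalue of Frobenius on the fixed line is integral, reduces to one and gives the Steinberg
relations for all of inertia.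
-/

set_option autoImplicit false

noncomputable section

open IsLocalRing Matrix FA.Deform

namespace FA.Two

local notation "Qb" => AlgebraicClosure ℚ
local notation "GQ" => AlgebraicClosure ℚ ≃ₐ[ℚ] AlgebraicClosure ℚ

section point

open FA.RT

variable {O O' : Type} [CommRing O] [IsDomain O] [IsDiscreteValuationRing O] [CommRing O']
  [IsLocalRing O'] [Algebra O O'] [IsLocalHom (algebraMap O O')]

/-- Powers of the maximal ideal of the extension lie in those of the point ring. -/
theorem exists_mem_pow_pointRing : ∀ (n : ℕ) (x : O'), x ∈ maximalIdeal O' ^ (n + 1) →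
    ∃ hx : x ∈ pointRing O O', (⟨x, hx⟩ : pointRing O O') ∈
      maximalIdeal (pointRing O O') ^ (n + 1) := by
  intro n
  induction n with
  | zero =>
    intro x hx
    rw [pow_one] at hx
    exact ⟨mem_pointRing_of_mem_maximalIdeal hx, by
      rw [pow_one]; exact mem_maximalIdeal_pointRing hx⟩
  | succ n ih =>
    intro x hx
    rw [pow_succ] at hx
    refine Submodule.mul_induction_on hx (fun a ha b hb => ?_) fun a b ha hb => ?_
    · obtain ⟨ha', ha''⟩ := ih a ha
      have hb' := mem_pointRing_of_mem_maximalIdeal (O := O) hb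
      refine ⟨mul_mem ha' hb', ?_⟩
      rw [pow_succ]
      exact Ideal.mul_mem_mul ha'' (mem_maximalIdeal_pointRing (x := ⟨b, hb'⟩) hb)
    · obtain ⟨ha', ha''⟩ := ha
      obtain ⟨hb', hb''⟩ := hb
      exact ⟨add_mem ha' hb', add_mem ha'' hb''⟩

/-- **A lift over the point ring from a representation over an extension.** -/
theorem exists_point {rb : GQ →* Matrix (Fin 2) (Fin 2) (ResidueField O)}
    (hspan : Submodule.span (ResidueField O') (Set.range fun g =>
      (rb g).map (ResidueField.map (algebraMap O O'))) = ⊤)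
    (m : GQ →* Matrix (Fin 2) (Fin 2) O') (hm : IsContRep m)
    (htr : ∀ σ, residue O' (m σ).trace = ResidueField.map (algebraMap O O') (rb σ).trace) :
    ∃ r : GQ →* Matrix (Fin 2) (Fin 2) (pointRing O O'),
      mapRep (pointRes O O') r = rb ∧ IsContRep r ∧
      ∃ P : (Matrix (Fin 2) (Fin 2) O')ˣ, ∀ σ,
        (r σ).map (pointRing O O').val =
          (P : Matrix (Fin 2) (Fin 2) O') * m σ * ((P⁻¹ : (Matrix (Fin 2) (Fin 2) O')ˣ) : Matrix (Fin 2) (Fin 2) O') := by
  classical
  let ρ₁ : GQ →* Matrix (Fin 2) (Fin 2) (ResidueField O') :=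
    mapRep (ResidueField.map (algebraMap O O')) rb
  let ρ₂ : GQ →* Matrix (Fin 2) (Fin 2) (ResidueField O') := mapRep (residue O') m
  obtain ⟨U, hU, hUc⟩ := FA.Density.exists_conj_of_trace_eq ρ₁ ρ₂ hspan fun σ => by
    exact ((AddMonoidHom.map_trace (ResidueField.map (algebraMap O O')).toAddMonoidHom _).symm.trans
      (htr σ).symm).trans (AddMonoidHom.map_trace (residue O').toAddMonoidHom _)
  let U' : Matrix (Fin 2) (Fin 2) O' := U.map (Function.surjInv residue_surjective)
  have hU' : U'.map (residue O') = U := Matrix.ext fun i j => by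
    simp [U', Function.surjInv_eq residue_surjective]
  have hu : IsUnit U'.det := by
    refine IsLocalRing.notMem_maximalIdeal.mp fun h => not_isUnit_zero (M₀ := ResidueField O') ?_
    rw [← (residue_eq_zero_iff _).mpr h, RingHom.map_det, RingHom.mapMatrix_apply, hU']
    exact hU
  let P : (Matrix (Fin 2) (Fin 2) O')ˣ := ((Matrix.isUnit_iff_isUnit_det _).mpr hu).unit⁻¹
  have hPU : ((P⁻¹ : (Matrix (Fin 2) (Fin 2) O')ˣ) : Matrix (Fin 2) (Fin 2) O') = U' := by
    simp [P]
  let r' : GQ →* Matrix (Fin 2) (Fin 2) O' :=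
    (MulSemiringAction.toRingHom (ConjAct (Matrix (Fin 2) (Fin 2) O')ˣ) _
      (ConjAct.toConjAct P)).toMonoidHom.comp m
  have hr' : ∀ σ, r' σ = (P : Matrix (Fin 2) (Fin 2) O') * m σ * ((P⁻¹ : (Matrix (Fin 2) (Fin 2) O')ˣ) : Matrix (Fin 2) (Fin 2) O') := fun σ => rfl
  have hres : ∀ σ, (r' σ).map (residue O') = (rb σ).map (ResidueField.map (algebraMap O O')) := by
    intro σ
    have h1 : (P : Matrix (Fin 2) (Fin 2) O').map (residue O') * U = 1 := by
      rw [← hU', ← Matrix.map_mul, ← hPU, Units.mul_inv]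
      exact Matrix.map_one _ (map_zero _) (map_one _)
    rw [hr', Matrix.map_mul, Matrix.map_mul, hPU, hU', Matrix.mul_assoc,
      show (m σ).map (residue O') * U = U * (rb σ).map (ResidueField.map (algebraMap O O')) from
        hUc σ, ← Matrix.mul_assoc, h1, Matrix.one_mul]
  have hmem : ∀ σ i j, r' σ i j ∈ pointRing O O' := fun σ i j =>
    ⟨rb σ i j, congrFun (congrFun (hres σ) i) j⟩
  let r : GQ →* Matrix (Fin 2) (Fin 2) (pointRing O O') :=
    { toFun := fun σ => Matrix.of fun i j => ⟨r' σ i j, hmem σ i j⟩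
      map_one' := Matrix.ext fun i j => Subtype.ext (by
        show r' 1 i j = _
        rw [map_one]
        rcases eq_or_ne i j with rfl | hne <;> simp [*])
      map_mul' := fun a b => Matrix.ext fun i j => Subtype.ext (by
        show r' (a * b) i j = _
        rw [map_mul]
        simp [Matrix.mul_apply, Fin.sum_univ_two]) }
  refine ⟨r, ?_, ?_, P, fun σ => hr' σ⟩
  · refine MonoidHom.ext fun σ => Matrix.ext fun i j =>
      (ResidueField.map (algebraMap O O')).injective ?_
    show ResidueField.map (algebraMap O O') (pointRes O O' (r σ i j)) = _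
    rw [map_pointRes]
    exact congrFun (congrFun (hres σ) i) j
  · intro n
    obtain ⟨L, hL, hLn⟩ := hm (n + 1)
    refine ⟨L, hL, fun σ hσ i j => ?_⟩
    have h1 : (r' σ - 1) i j ∈ maximalIdeal O' ^ (n + 1) := by
      rw [show r' σ - 1 = (P : Matrix (Fin 2) (Fin 2) O') * (m σ - 1) * ((P⁻¹ : (Matrix (Fin 2) (Fin 2) O')ˣ) : Matrix (Fin 2) (Fin 2) O') by
        rw [hr', Matrix.mul_sub, Matrix.mul_one, Matrix.sub_mul, Units.mul_inv]]
      simp only [Matrix.mul_apply, Fin.sum_univ_two]
      refine add_mem (Ideal.mul_mem_right _ _ (add_mem ?_ ?_))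
        (Ideal.mul_mem_right _ _ (add_mem ?_ ?_)) <;>
      exact Ideal.mul_mem_left _ _ (hLn σ hσ _ _)
    obtain ⟨hx, hx'⟩ := exists_mem_pow_pointRing (O := O) n _ h1
    refine Ideal.pow_le_pow_right n.le_succ ?_
    convert hx' using 1
    refine Subtype.ext ?_
    rcases eq_or_ne i j with rfl | hne <;> simp [r, *]

end point

section inertia

variable {R : Type} [CommRing R] [IsLocalRing R] [IsHausdorff (maximalIdeal R) R]

/-- **Linear conditions on a tame generator hold on inertia.** Inertia acting residually through a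
`p`-group is topologically generated by the tame generator; if that is unipotent, a linear map
killing `ρ(s) - 1` kills `ρ(σ) - 1` for all `σ` in inertia. -/
theorem eq_zero_on_inertia (rR : GQ →* Matrix (Fin 2) (Fin 2) R) (hcont : IsContRep rR) {p : ℕ}
    (hpR : (p : R) ∈ maximalIdeal R) {A : ValuationSubring Qb} {s : GQ}
    (hgen : ∀ (X : Type) [Monoid X] (f : GQ →* X), IsOpen (f.ker : Set GQ) →
      (∀ σ ∈ A.inertiaSubgroupIn ℚ, ∃ m : ℕ, f σ ^ p ^ m = 1) →
      ∀ σ ∈ A.inertiaSubgroupIn ℚ, ∃ i : ℕ, f σ = f s ^ i)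
    (hres : ∀ σ ∈ A.inertiaSubgroupIn ℚ, ∃ m : ℕ, ∀ i j, (rR σ ^ p ^ m - 1) i j ∈ maximalIdeal R)
    (hN : (rR s - 1) * (rR s - 1) = 0)
    (Φ : Matrix (Fin 2) (Fin 2) R →ₗ[R] Matrix (Fin 2) (Fin 2) R) (hΦ : Φ (rR s - 1) = 0)
    {σ : GQ} (hσ : σ ∈ A.inertiaSubgroupIn ℚ) : Φ (rR σ - 1) = 0 := by
  refine Matrix.ext fun a b => IsHausdorff.haus (inferInstance : IsHausdorff (maximalIdeal R) R)
    _ fun n => ?_
  rw [SModEq.zero, smul_eq_mul, Ideal.mul_top]
  let q := Ideal.Quotient.mk (maximalIdeal R ^ n)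
  let f := mapRep q rR
  have hfo : IsOpen (f.ker : Set GQ) := by
    obtain ⟨L, hL, hn⟩ := hcont n
    refine Subgroup.isOpen_mono (H₁ := L.fixingSubgroup) (fun τ hτ => ?_)
      (IntermediateField.fixingSubgroup_isOpen L)
    refine MonoidHom.mem_ker.mpr (Matrix.ext fun i j => ?_)
    have h := Ideal.Quotient.eq_zero_iff_mem.mpr
      (hn τ ((IntermediateField.mem_fixingSubgroup_iff L τ).mp hτ) i j)
    rw [Matrix.sub_apply, map_sub, sub_eq_zero] at h
    show q (rR τ i j) = _
    rw [h]
    rcases eq_or_ne i j with rfl | hne <;> simp [*]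
  obtain ⟨i, hi⟩ := hgen _ f hfo (fun τ hτ => by
    obtain ⟨m, hm⟩ := hres τ hτ
    refine ⟨m + n, ?_⟩
    show q.mapMatrix (rR τ) ^ p ^ (m + n) = 1
    rw [← map_pow, pow_add, pow_mul]
    refine Matrix.ext fun u v => ?_
    have h := Ideal.Quotient.eq_zero_iff_mem.mpr (Ideal.pow_le_pow_right n.le_succ
      (FA.RT.pow_sub_one_mem hpR hm n u v))
    rw [Matrix.sub_apply, map_sub, sub_eq_zero] at h
    rw [RingHom.mapMatrix_apply, Matrix.map_apply, h]
    rcases eq_or_ne u v with rfl | hne <;> simp [*]) σ hσ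
  have hpow : ∀ i : ℕ, rR s ^ i = 1 + (i : R) • (rR s - 1) := by
    intro i
    induction i with
    | zero => simp
    | succ i ih =>
      obtain ⟨N, hN', hs⟩ : ∃ N, rR s - 1 = N ∧ rR s = 1 + N := ⟨_, rfl, by abel⟩
      rw [hN'] at hN ih ⊢
      rw [pow_succ, ih, hs, Nat.cast_succ, add_smul, one_smul, add_mul, one_mul, mul_add, mul_one,
        smul_mul_assoc, hN, smul_zero, add_zero]
      abel
  have hd : ∀ u v, (rR σ - 1 - (i : R) • (rR s - 1)) u v ∈ maximalIdeal R ^ n := fun u v => by
    have h0 : q.mapMatrix (rR σ - 1 - (i : R) • (rR s - 1)) = 0 := by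
      rw [sub_sub, ← hpow, map_sub, sub_eq_zero, map_pow]
      exact hi
    exact Ideal.Quotient.eq_zero_iff_mem.mp (congrFun (congrFun h0 u) v)
  have e : Φ (rR σ - 1) = ∑ u, ∑ v, (rR σ - 1 - (i : R) • (rR s - 1)) u v •
      Φ (Matrix.single u v 1) := by
    set D := rR σ - 1 - (i : R) • (rR s - 1) with hD
    have h1 : Φ D = Φ (rR σ - 1) := by
      rw [hD, map_sub, map_smul, hΦ, smul_zero, sub_zero]
    rw [← h1]
    conv_lhs => rw [Matrix.matrix_eq_sum_single D]
    simp only [map_sum, ← map_smul, Matrix.smul_single, smul_eq_mul, mul_one]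
  rw [e]
  simp only [Matrix.sum_apply, Matrix.smul_apply, smul_eq_mul]
  exact Ideal.sum_mem _ fun u _ => Ideal.sum_mem _ fun v _ => Ideal.mul_mem_right _ _ (hd u v)

end inertia

section eigen

variable {B : Type} [CommRing B] [IsDomain B] [IsDiscreteValuationRing B]

/-- **The eigenvalue on the fixed line.** -/
theorem exists_al {q : ℕ} {F N g : Matrix (Fin 2) (Fin 2) B} (hN : N * N = 0)
    (htame : F * N = (q : B) • (N * F)) (hq : IsUnit (q : B)) (hn : (N * g).trace ≠ 0)
    (hres2 : (2 : ResidueField B) = 0)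
    (htr : residue B F.trace = 0) (hdet : residue B F.det = 1) :
    ∃ c : B, residue B c = 1 ∧ (q : B) * c * (N * g).trace = (F * N * g).trace ∧
      (F - ((q : B) * c) • 1) * (F - c • 1) = 0 ∧
      (F - ((q : B) * c) • 1) * N = 0 ∧ N * (F - c • 1) = 0 := by
  classical
  have hN0 : N ≠ 0 := fun h => hn (by simp [h])
  -- an entry of least valuation
  obtain ⟨a, b, hab, hmin⟩ : ∃ a b, N a b ≠ 0 ∧ ∀ i j, N a b ∣ N i j := by
    let v := IsDiscreteValuationRing.addVal B
    obtain ⟨⟨a, b⟩, -, hmin⟩ := Finset.exists_min_image (Finset.univ : Finset (Fin 2 × Fin 2))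
      (fun x => v (N x.1 x.2)) Finset.univ_nonempty
    have hdvd : ∀ i j, N a b ∣ N i j := fun i j =>
      IsDiscreteValuationRing.addVal_le_iff_dvd.1 (hmin (i, j) (Finset.mem_univ _))
    refine ⟨a, b, fun h => hN0 (Matrix.ext fun i j => ?_), hdvd⟩
    exact zero_dvd_iff.1 (h ▸ hdvd i j)
  obtain ⟨lam, hlam⟩ : N a b ∣ (F * N) a b := by
    rw [Matrix.mul_apply]
    exact Finset.dvd_sum fun k _ => (hmin k b).mul_left _
  have hm : (F * N * g).trace = (N * g).trace * lam := by
    have h := congrFun (congrFun (smul_frob_mul (g := g) hN htame) a) b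
    rw [Matrix.smul_apply, Matrix.smul_apply, smul_eq_mul, smul_eq_mul, hlam] at h
    exact mul_right_cancel₀ hab (by linear_combination -h)
  obtain ⟨u, hu⟩ := hq
  obtain ⟨c, hcl⟩ : ∃ c : B, (q : B) * c = lam := ⟨↑u⁻¹ * lam, by simp [← hu]⟩
  have hc : (q : B) * c * (N * g).trace = (F * N * g).trace := by
    rw [hm, hcl]
    ring
  obtain ⟨h1, h2, h3⟩ := steinberg_relations hN htame (hu ▸ u.ne_zero) hn hc
  refine ⟨c, ?_, hc, h3, h1, h2⟩
  -- residually one
  have hd : (F - c • 1).det = 0 := by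
    by_contra h
    refine hn ?_
    have h4 := congrArg (fun X => X * (F - c • (1 : Matrix (Fin 2) (Fin 2) B)).adjugate) h2
    simp only [zero_mul, mul_assoc, Matrix.mul_adjugate, Matrix.mul_smul, mul_one] at h4
    rw [(smul_eq_zero.1 h4).resolve_left h, zero_mul, Matrix.trace_zero]
  have h5 : (F - c • 1).det = F.det - F.trace * c + c * c := by
    simp [Matrix.det_fin_two, Matrix.trace_fin_two]
    ring
  have h6 : (residue B c + 1) * (residue B c + 1) = 0 := by
    have := congrArg (residue B) hd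
    rw [h5, map_add, map_sub, map_mul, map_mul, htr, hdet, map_zero] at this
    linear_combination this + residue B c * hres2
  have h7 := mul_self_eq_zero.1 h6
  linear_combination h7 - hres2

end eigen

end FA.Two
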