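import Fermat.Agent.Two.BaseLevels
import Fermat.Agent.Two.Points
import Fermat.Agent.RT.AlgPoints
import Fermat.Agent.Twist.Rep
import Fermat.Agent.Density.Traces

/-!
# The lifts of the eigen systems of one base level

A homomorphism of the good algebra of a level reduces to the residual system, and gives a lift over
a point ring, unramified away from the level, with the Hecke values as traces of Frobenius.
-/

set_option autoImplicit false
set_option linter.unusedSectionVars false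
set_option linter.style.haveILetI false
set_option synthInstance.maxHeartbeats 400000
set_option maxHeartbeats 1000000

noncomputable section

namespace FA.Two

open IsLocalRing Matrix FA.Deform FA.HeckeH1
open FA.RT (AlgPoint pointRing pointRes)

local notation "Qb" => AlgebraicClosure ℚ
local notation "GQ" => AlgebraicClosure ℚ ≃ₐ[ℚ] AlgebraicClosure ℚ

variable {O : Type} [CommRing O] [IsDomain O] [IsDiscreteValuationRing O]
  [IsAdicComplete (maximalIdeal O) O] [CharZero O]

/-- A finite extension of an extension. -/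
theorem isLocalHom_trans (B C : Type) [CommRing B] [CommRing C] [Algebra O B] [Algebra B C]
    [Algebra O C] [IsScalarTower O B C] [IsLocalHom (algebraMap O B)]
    [IsLocalHom (algebraMap B C)] : IsLocalHom (algebraMap O C) :=
  ⟨fun a ha => by
    rw [IsScalarTower.algebraMap_apply O B C] at ha
    exact isUnit_of_map_unit (algebraMap O B) _ (isUnit_of_map_unit (algebraMap B C) _ ha)⟩

/-- Spanning is preserved by extension of the field. -/
theorem span_map_eq_top {k k' G : Type*} [Field k] [Field k'] (f : k →+* k')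
    (r : G → Matrix (Fin 2) (Fin 2) k) (h : Submodule.span k (Set.range r) = ⊤) :
    Submodule.span k' (Set.range fun s => (r s).map f) = ⊤ := by
  have key : ∀ M : Matrix (Fin 2) (Fin 2) k,
      M.map f ∈ Submodule.span k' (Set.range fun s => (r s).map f) := by
    intro M
    have hM : M ∈ Submodule.span k (Set.range r) := h ▸ Submodule.mem_top
    induction hM using Submodule.span_induction with
    | mem x hx => obtain ⟨s, rfl⟩ := hx; exact Submodule.subset_span ⟨s, rfl⟩
    | zero => rw [Matrix.map_zero _ (map_zero f)]; exact zero_mem _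
    | add x y _ _ hx hy => rw [Matrix.map_add _ (map_add f)]; exact add_mem hx hy
    | smul c x _ hx =>
      rw [Matrix.map_smul' _ _ x (map_mul f)]
      exact Submodule.smul_mem _ (f c) hx
  refine eq_top_iff.2 fun M _ => ?_
  rw [Matrix.matrix_eq_sum_single M]
  refine Submodule.sum_mem _ fun i _ => Submodule.sum_mem _ fun j _ => ?_
  have h1 : Matrix.single i j (M i j) = M i j • (Matrix.single i j (1 : k)).map f := by
    ext a b
    by_cases hij : i = a ∧ j = b <;> simp [Matrix.single, hij]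
  rw [h1]
  exact Submodule.smul_mem _ _ (key _)

/-- Values of a piece reduce to its system. -/
theorem exists_residual_piece {σ T R : Type} [CommRing T] [Algebra O T] [Module.Finite O T]
    [CommRing R] [IsLocalRing R] [Algebra O R] [IsLocalHom (algebraMap O R)]
    (π : MvPolynomial σ O →ₐ[O] T) (hπ : Function.Surjective π) (χ : T →ₐ[O] ResidueField O)
    (e : T) (he : IsPiece χ e) (G₀ : MvPolynomial σ O →ₐ[O] R)
    (h0 : ∀ Q, π Q = 0 → G₀ Q = 0) (h1 : ∀ Q, π Q = e → G₀ Q = 1) (Q : MvPolynomial σ O) :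
    residue R (G₀ Q) = ResidueField.map (algebraMap O R) (χ (π Q)) := by
  classical
  choose sec hsec using hπ
  have hker : ∀ Q Q', π Q = π Q' → G₀ Q = G₀ Q' := fun Q Q' h => by
    rw [← sub_eq_zero, ← map_sub]
    exact h0 _ (by rw [map_sub]; exact sub_eq_zero.2 h)
  let G : T →+* R :=
    { toFun := fun a => G₀ (sec a)
      map_one' := (hker _ 1 (by rw [hsec, map_one])).trans (map_one G₀)
      map_zero' := (hker _ 0 (by rw [hsec, map_zero])).trans (map_zero G₀)
      map_add' := fun a b => (hker _ (sec a + sec b) (by rw [map_add, hsec, hsec, hsec])).trans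
        (map_add G₀ _ _)
      map_mul' := fun a b => (hker _ (sec a * sec b) (by rw [map_mul, hsec, hsec, hsec])).trans
        (map_mul G₀ _ _) }
  have hGπ : ∀ Q, G (π Q) = G₀ Q := fun Q => hker _ _ (hsec _)
  have hGalg : ∀ c, G (algebraMap O _ c) = algebraMap O R c := fun c => by
    rw [← π.commutes, hGπ, AlgHom.commutes]
  let m : Ideal T := RingHom.ker ((residue R).comp G)
  have hmO : m.comap (algebraMap O _) = maximalIdeal O := by
    refine Ideal.ext fun c => ?_
    rw [Ideal.mem_comap, RingHom.mem_ker, RingHom.comp_apply, hGalg, residue_eq_zero_iff]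
    exact ⟨fun h => (IsLocalRing.mem_maximalIdeal _).2 fun hu =>
      (IsLocalRing.mem_maximalIdeal _).1 h (hu.map _), fun h => map_nonunit _ c h⟩
  haveI : m.IsPrime := RingHom.ker_isPrime _
  have hm : m.IsMaximal := by
    refine Ideal.isMaximal_of_isIntegral_of_isMaximal_comap (R := O) m ?_
    rw [hmO]; exact maximalIdeal.isMaximal O
  have hme : m = RingHom.ker χ := by
    by_contra hne
    have hem := he.mem_of_ne hm hne
    have he1 : G e = 1 := h1 (sec e) (hsec e)
    rw [RingHom.mem_ker, RingHom.comp_apply, he1, map_one] at hem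
    exact one_ne_zero hem
  obtain ⟨c, hc⟩ := residue_surjective (χ (π Q))
  have h2 : π Q - algebraMap O _ c ∈ m := by
    rw [hme, RingHom.mem_ker, map_sub, AlgHom.commutes, ← hc]
    exact sub_self _
  rw [RingHom.mem_ker, RingHom.comp_apply, map_sub, hGπ, hGalg, map_sub, sub_eq_zero] at h2
  rw [h2, ← hc]
  rfl

/-- The diamonds are trivial at full level. -/
theorem goodDia_top {M : ℕ} [NeZero M] {R : Type} [CommRing R]
    (e : Module.End R (Hom1 (GamH M ⊤) R)) (x : (ZMod M)ˣ ⧸ (⊤ : Subgroup (ZMod M)ˣ)) :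
    goodDia e x = 1 := by
  haveI : Subsingleton ((ZMod M)ˣ ⧸ (⊤ : Subgroup (ZMod M)ˣ)) :=
    QuotientGroup.subsingleton_quotient_top
  rw [Subsingleton.elim x 1, map_one]

set_option maxHeartbeats 8000000 in
/-- The representation of a point of the good algebra at full diamond group. -/
theorem exists_rep_of_goodPoint [Finite (ResidueField O)] {M : ℕ} [NeZero M]
    (e : Module.End O (Hom1 (GamH M ⊤) O))
    (hpar : ∀ v, e v ∈ Par (GamH M ⊤) O)
    (hcomm : ∀ a v, goodOp M ⊤ O a (e v) = e (goodOp M ⊤ O a v))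
    (p : ℕ) [hp : Fact p.Prime] (hpO : (p : O) ∈ maximalIdeal O)
    (nS : Finset ℕ) (hpS : p ∈ nS) (hS : ∀ q : ℕ, q.Prime → q ∣ M → q ∈ nS)
    (P : AlgPoint O (GoodAlg e)) :
    ∃ (O' : Type) (_ : CommRing O') (_ : IsDomain O') (_ : IsDiscreteValuationRing O')
      (_ : IsAdicComplete (maximalIdeal O') O') (_ : Finite (ResidueField O')) (_ : CharZero O')
      (_ : Algebra O O') (_ : Module.Finite O O') (_ : IsLocalHom (algebraMap O O'))
      (g : GoodAlg e →ₐ[O] O'), Function.Injective (algebraMap O O') ∧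
    (∀ a, g a = 0 → P.hom a = 0) ∧
    ∃ m : GQ →* Matrix (Fin 2) (Fin 2) O', FA.Deform.IsContRep m ∧
      (∀ (ℓ : ℕ) (hℓ : ℓ.Prime ∧ ¬ ℓ ∣ M), ℓ ∉ nS → ∀ B : ValuationSubring Qb,
        B.LiesOverPrime ℓ → ∀ σ : GQ, B.IsFrobeniusAt σ ℓ →
          (m σ).trace = g (goodT e ⟨ℓ, hℓ.1, hℓ.2⟩) ∧ (m σ).det = (ℓ : O')) ∧
      ∀ ℓ : ℕ, ℓ.Prime → ¬ ℓ ∣ M → ℓ ≠ p → ∀ B : ValuationSubring Qb, B.LiesOverPrime ℓ →
        ∀ σ ∈ B.inertiaSubgroupIn ℚ, m σ = 1 := by
  obtain ⟨z, hzp, hz0, hdia, hT⟩ := exists_eigenclass e hpar hcomm P.hom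
  have hloc : ∀ x : O, x ∈ maximalIdeal O → algebraMap O P.B x ∈ maximalIdeal P.B := fun x hx =>
    (IsLocalRing.mem_maximalIdeal _).2 fun hu =>
      (IsLocalRing.mem_maximalIdeal _).1 hx (isUnit_of_map_unit (algebraMap O P.B) _ hu)
  have hnat : algebraMap O P.B (p : O) = (p : P.B) := map_natCast (algebraMap O P.B) p
  have hpB : (p : P.B) ∈ maximalIdeal P.B := hnat ▸ hloc _ hpO
  let c : ℕ → P.B := fun l => if h : l.Prime ∧ ¬ l ∣ M then
    P.hom (goodT e ⟨l, h.1, h.2⟩) else 0
  have hlS : ∀ l : ℕ, l.Prime → l ∉ nS → ¬ l ∣ M := fun l hl h hd => h (hS l hl hd)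
  have hone : ∀ x, P.hom (goodDia e x) = 1 := fun x =>
    (congrArg P.hom (goodDia_top e x)).trans (map_one P.hom)
  have hdia' : ∀ g : GamH M ⊤, dia M ⊤ P.B g z =
      (∏ q ∈ (∅ : Finset ℕ), (1 : MulChar (ZMod q) P.B) (ZMod.cast (ulHom M g : ZMod M)) ^ 2) • z :=
    fun g => (hdia g).trans (congrArg (fun b : P.B => b • z) ((hone _).trans Finset.prod_empty.symm))
  obtain ⟨-, -, O', i1, i2, i3, i4, i5, i6, i7, i8, i9, hinj, -, m, hm, -, hfr, hun⟩ :=
    FA.Twist.exists_rep_of_nebentypus p P.B hpB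
      M ⊤ nS hpS hS ∅ (fun _ => 1)
      (fun r hr => absurd hr (Finset.notMem_empty r)) z hzp hz0
      hdia'
      c (fun l hl hlnS => by
        have h : l.Prime ∧ ¬ l ∣ M := ⟨Fact.out, hlS l Fact.out hlnS⟩
        rw [show c l = _ from dif_pos h]
        exact hT ⟨l, h.1, h.2⟩)
  letI : Algebra O O' := ((algebraMap P.B O').comp (algebraMap O P.B)).toAlgebra
  haveI : IsScalarTower O P.B O' := IsScalarTower.of_algebraMap_eq fun _ => rfl
  haveI : Module.Finite O O' := Module.Finite.trans P.B O'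
  haveI : IsLocalHom (algebraMap O O') := isLocalHom_trans P.B O'
  have hinjO : Function.Injective (algebraMap O O') := hinj.comp
    (FaithfulSMul.algebraMap_injective O P.B)
  refine ⟨O', i1, i2, i3, i4, i5, i6, inferInstance, inferInstance, inferInstance,
    (IsScalarTower.toAlgHom O P.B O').comp P.hom, hinjO, fun a ha => hinj ?_, m, hm,
    fun ℓ hℓ hℓS B hB σ hσ => ?_, fun ℓ hℓ hℓM hℓp B hB σ hσ => (hun ℓ hℓ hℓM hℓp B hB σ hσ).1⟩
  · have ha' : algebraMap P.B O' (P.hom a) = 0 := ha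
    exact ha'.trans (map_zero (algebraMap P.B O')).symm
  · obtain ⟨h1, h2, -, -⟩ := hfr ℓ hℓ.1 hℓS B hB σ hσ
    have hc : c ℓ = P.hom (goodT e ⟨ℓ, hℓ.1, hℓ.2⟩) := dif_pos hℓ
    have key : ∀ t : P.B, t = 1 → algebraMap P.B O' (t * c ℓ) =
        algebraMap P.B O' (P.hom (goodT e ⟨ℓ, hℓ.1, hℓ.2⟩)) := fun t ht =>
      congrArg (algebraMap P.B O') ((congrArg (· * c ℓ) ht).trans ((one_mul (c ℓ)).trans hc))
    exact ⟨h1.trans (key _ Finset.prod_empty), h2⟩

namespace BaseData

variable {ι : Type} [DecidableEq ι] (Bd : BaseData O ι) (K : Finset ι)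

theorem gPoly_eq_zero {Q : MvPolynomial Nat.Primes O}
    (h : heckePoly (Bd.lev K) ⊤ O Bd.S Q = 0) : Bd.gPoly K Q = 0 := by
  refine Ideal.Quotient.eq_zero_iff_mem.2 (mem_annE.2 fun v => ?_)
  exact LinearMap.congr_fun ((Bd.goodOp_goodPoly K Q).trans (congrArg Subtype.val h)) (Bd.eIdem K v)

theorem gPoly_eq_one {Q : MvPolynomial Nat.Primes O}
    (h : (heckePoly (Bd.lev K) ⊤ O Bd.S Q).1 = Bd.eIdem K) : Bd.gPoly K Q = 1 := by
  have h1 : Bd.goodPoly K Q - 1 ∈ annE (Bd.eIdem K) := mem_annE.2 fun v => by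
    rw [map_sub, map_one, LinearMap.sub_apply, goodOp_goodPoly, h, Module.End.one_apply]
    exact sub_eq_zero.2 (sysIdem_idem _ v)
  exact (Ideal.Quotient.eq.2 h1).trans (map_one _)

/-- **Values of the good algebra reduce to the system.** -/
theorem exists_residual {R : Type} [CommRing R] [IsLocalRing R] [Algebra O R]
    [IsLocalHom (algebraMap O R)] (g : Bd.Good K →ₐ[O] R) (Q : MvPolynomial Nat.Primes O) :
    ∃ a : ResidueField O, residue R (g (Bd.gPoly K Q)) = ResidueField.map (algebraMap O R) a ∧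
      ∀ ℓ : Nat.Primes, ℓ ∉ Bd.S → Q = .X ℓ → a = Bd.c ℓ := by
  haveI := heckeAlg_finite (Bd.lev K) ⊤ O Bd.S
  obtain ⟨χ, e, hχ, he, hee⟩ := exists_sysPiece (Bd.hasSys_lev K)
  let π := heckePoly (Bd.lev K) ⊤ O Bd.S
  refine ⟨χ (π Q), exists_residual_piece π (heckePoly_surjective _ _ _ _) χ e he
    (g.comp (Bd.gPoly K)) (fun Q h => (congrArg g (Bd.gPoly_eq_zero K h)).trans (map_zero g))
    (fun Q h => (congrArg g (Bd.gPoly_eq_one K ((congrArg Subtype.val h).trans hee))).trans
      (map_one g)) Q, fun ℓ hℓ hQ => ?_⟩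
  subst hQ
  rw [show π (.X ℓ) = Tgen (Bd.lev K) ⊤ O Bd.S ℓ from MvPolynomial.aeval_X _ ℓ]
  exact hχ ℓ hℓ

variable (rb : GQ →* Matrix (Fin 2) (Fin 2) (ResidueField O))

/-- A lift of an eigen system of the level. -/
structure LevelPoint (p : ℕ) where
  /-- the ring -/
  B : Type
  [commRing : CommRing B]
  [isDomain : IsDomain B]
  [isLocalRing : IsLocalRing B]
  [algebra : Algebra O B]
  [moduleFinite : Module.Finite O B]
  [moduleFree : Module.Free O B]
  /-- the lift -/
  r : GQ →* Matrix (Fin 2) (Fin 2) B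
  /-- the reduction -/
  ε : B →+* ResidueField O
  ε_algebraMap : ∀ c, ε (algebraMap O B c) = residue O c
  lift : mapRep ε r = rb
  cont : IsContRep r
  /-- the values -/
  val : Bd.alg →ₐ[O] B
  frob : ∀ ℓ : Nat.Primes, ℓ ∉ Bd.S → ∀ A : ValuationSubring Qb, A.LiesOverPrime (ℓ : ℕ) →
    ∀ σ : GQ, A.IsFrobeniusAt σ (ℓ : ℕ) →
      val (Bd.Tl ℓ) = (r σ).trace ∧ (r σ).det = ((ℓ : ℕ) : B)
  unr : ∀ l : ℕ, l.Prime → ¬ l ∣ Bd.lev K → l ≠ p → ∀ A : ValuationSubring Qb,
    A.LiesOverPrime l → ∀ σ ∈ A.inertiaSubgroupIn ℚ, r σ = 1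

attribute [instance] LevelPoint.commRing LevelPoint.isDomain LevelPoint.isLocalRing
  LevelPoint.algebra LevelPoint.moduleFinite LevelPoint.moduleFree

variable {rb} [Finite (ResidueField O)]

/-- The residual traces and determinants at Frobenius elements. -/
def ResidualFrob (rb : GQ →* Matrix (Fin 2) (Fin 2) (ResidueField O)) : Prop :=
  ∀ ℓ : Nat.Primes, ℓ ∉ Bd.S → ∀ A : ValuationSubring Qb, A.LiesOverPrime (ℓ : ℕ) →
    ∀ σ : GQ, A.IsFrobeniusAt σ (ℓ : ℕ) →
      (rb σ).trace = Bd.c ℓ ∧ (rb σ).det = ((ℓ : ℕ) : ResidueField O)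

set_option maxHeartbeats 10000000 in
/-- The representation and the lift of a point of the good algebra, with all their data. -/
theorem exists_goodPoint_lift (p : ℕ) [hp : Fact p.Prime] (hpO : (p : O) ∈ maximalIdeal O)
    (hpS : (⟨p, hp.out⟩ : Nat.Primes) ∈ Bd.S) (hopen : IsOpen (rb.ker : Set GQ))
    (hspan : Submodule.span (ResidueField O) (Set.range rb) = ⊤) (hrb : Bd.ResidualFrob rb)
    (P : AlgPoint O (Bd.Good K)) :
    ∃ (O' : Type) (_ : CommRing O') (_ : IsDomain O') (_ : IsDiscreteValuationRing O')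
      (_ : IsAdicComplete (maximalIdeal O') O') (_ : Finite (ResidueField O')) (_ : CharZero O')
      (_ : Algebra O O') (_ : Module.Finite O O') (_ : Module.Free O O')
      (_ : IsLocalHom (algebraMap O O'))
      (g : Bd.Good K →ₐ[O] O') (m : GQ →* Matrix (Fin 2) (Fin 2) O')
      (r : GQ →* Matrix (Fin 2) (Fin 2) (pointRing O O')) (val : Bd.alg →ₐ[O] pointRing O O'),
      (∀ a, g a = 0 → P.hom a = 0) ∧ IsContRep m ∧
      (∀ ℓ : Nat.Primes, ℓ ∉ Bd.S → ∀ A : ValuationSubring Qb, A.LiesOverPrime (ℓ : ℕ) →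
        ∀ σ : GQ, A.IsFrobeniusAt σ (ℓ : ℕ) →
          (m σ).trace = g (Bd.toGood K (Bd.Tl ℓ)) ∧ (m σ).det = ((ℓ : ℕ) : O')) ∧
      mapRep (pointRes O O') r = rb ∧ IsContRep r ∧
      (∀ σ, (r σ).trace.1 = (m σ).trace ∧ (r σ).det.1 = (m σ).det) ∧
      (∀ a, (val a).1 = g (Bd.toGood K a)) ∧
      ∀ l : ℕ, l.Prime → ¬ l ∣ Bd.lev K → l ≠ p → ∀ A : ValuationSubring Qb,
        A.LiesOverPrime l → ∀ σ ∈ A.inertiaSubgroupIn ℚ, r σ = 1 := by
  classical
  let nS : Finset ℕ := Bd.S.image fun l : Nat.Primes => (l : ℕ)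
  have hnS : ∀ (l : ℕ) (hl : l.Prime), l ∉ nS → (⟨l, hl⟩ : Nat.Primes) ∉ Bd.S := fun l hl h hm =>
    h (Finset.mem_image.2 ⟨_, hm, rfl⟩)
  obtain ⟨O', i1, i2, i3, i4, i5, i6, i7, i8, i9, g, hinjO, hgP, m, hm, hfr, hun⟩ :=
    exists_rep_of_goodPoint (Bd.eIdem K) (Bd.eIdem_mem_Par K) (fun a v => Bd.eIdem_goodOp K a v)
      p hpO nS (Finset.mem_image.2 ⟨_, hpS, rfl⟩)
      (fun r hr hd => by_contra fun h => Bd.not_dvd_lev (hnS r hr h) K hd) P
  haveI : Module.IsTorsionFree O O' := Module.isTorsionFree_iff_algebraMap_injective.mpr hinjO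
  haveI : Module.Free O O' := inferInstance
  have hfr' : ∀ ℓ : Nat.Primes, ℓ ∉ Bd.S → ∀ A : ValuationSubring Qb,
      A.LiesOverPrime (ℓ : ℕ) → ∀ σ : GQ, A.IsFrobeniusAt σ (ℓ : ℕ) →
      (m σ).trace = g (Bd.toGood K (Bd.Tl ℓ)) ∧ (m σ).det = ((ℓ : ℕ) : O') := by
    intro ℓ hℓ A hA σ hσ
    have hℓn : (ℓ : ℕ) ∉ nS := fun hm => by
      obtain ⟨l, hl, e⟩ := Finset.mem_image.1 hm
      exact hℓ (Subtype.ext e ▸ hl)
    obtain ⟨h1, h2⟩ := hfr _ ⟨ℓ.2, Bd.not_dvd_lev hℓ K⟩ hℓn A hA σ hσ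
    exact ⟨h1.trans (congrArg g (Bd.toGood_Tl hℓ K)).symm, h2⟩
  have hres := Bd.exists_residual K g
  have hval : ∀ a : Bd.alg, g (Bd.toGood K a) ∈ pointRing O O' := fun a => by
    obtain ⟨Q, hQ⟩ := Bd.toGood_eq_gPoly K a
    obtain ⟨x, hx, -⟩ := hres Q
    refine ⟨x, ?_⟩
    rw [hQ]
    exact hx
  -- residual traces
  let ρ₁ := mapRep (ResidueField.map (algebraMap O O')) rb
  let ρ₂ := mapRep (residue O') m
  have hopen₂ : IsOpen (ρ₂.ker : Set GQ) := by
    obtain ⟨L, hL, hLn⟩ := hm 1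
    refine Subgroup.isOpen_mono (H₁ := L.fixingSubgroup) (fun τ hτ => MonoidHom.mem_ker.2 ?_)
      (IntermediateField.fixingSubgroup_isOpen L)
    refine Matrix.ext fun i j => ?_
    have h := hLn τ ((IntermediateField.mem_fixingSubgroup_iff L τ).1 hτ) i j
    rw [pow_one, ← residue_eq_zero_iff, Matrix.sub_apply, map_sub, sub_eq_zero] at h
    show residue O' (m τ i j) = _
    rw [h]
    rcases eq_or_ne i j with rfl | hne <;> simp [*]
  have htr : ∀ σ, residue O' (m σ).trace = ResidueField.map (algebraMap O O') (rb σ).trace := by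
    intro σ
    have key := FA.Density.trace_det_eq_of_frobenius ρ₂ ρ₁ hopen₂
      (Subgroup.isOpen_mono (fun τ hτ => MonoidHom.mem_ker.2 (by
        show (rb τ).map (ResidueField.map (algebraMap O O')) = 1
        rw [MonoidHom.mem_ker.1 hτ]
        exact Matrix.map_one _ (map_zero _) (map_one _))) hopen) nS
      (fun l hl hln A hA τ hτ => by
        obtain ⟨h1, h2⟩ := hfr' ⟨l, hl⟩ (hnS l hl hln) A hA τ hτ
        obtain ⟨hb1, hb2⟩ := hrb ⟨l, hl⟩ (hnS l hl hln) A hA τ hτ
        obtain ⟨x, hx, hxc⟩ := hres (.X ⟨l, hl⟩)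
        have e1 := hxc ⟨l, hl⟩ (hnS l hl hln) rfl
        subst e1
        constructor
        · show ((m τ).map (residue O')).trace =
            ((rb τ).map (ResidueField.map (algebraMap O O'))).trace
          rw [← AddMonoidHom.map_trace (residue O'), ← AddMonoidHom.map_trace
            (ResidueField.map (algebraMap O O')), hb1, h1]
          exact (congrArg (residue O') (congrArg g (Bd.toGood_Tl_gPoly K _))).trans hx
        · show ((residue O').mapMatrix (m τ)).det =
            ((ResidueField.map (algebraMap O O')).mapMatrix (rb τ)).det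
          rw [← RingHom.map_det, ← RingHom.map_det, hb2, h2, map_natCast, map_natCast]) σ
    exact ((AddMonoidHom.map_trace (residue O') (m σ)).trans key.1).trans
      (AddMonoidHom.map_trace (ResidueField.map (algebraMap O O')) (rb σ)).symm
  have hspan' : Submodule.span (ResidueField O') (Set.range fun s =>
      (rb s).map (ResidueField.map (algebraMap O O'))) = ⊤ :=
    span_map_eq_top (ResidueField.map (algebraMap O O')) rb hspan
  obtain ⟨r, hlift, hcont, U, hU⟩ := exists_point hspan' m hm htr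
  have hconj : ∀ σ, (r σ).trace.1 = (m σ).trace ∧ (r σ).det.1 = (m σ).det := fun σ => by
    refine ⟨?_, ?_⟩
    · rw [show ((r σ).trace).1 = ((r σ).map (pointRing O O').val).trace from
        AddMonoidHom.map_trace (pointRing O O').val.toRingHom.toAddMonoidHom (r σ), hU,
        Matrix.trace_mul_cycle, Units.inv_mul, Matrix.one_mul]
    · rw [show ((r σ).det).1 = ((r σ).map (pointRing O O').val).det from
        RingHom.map_det (pointRing O O').val.toRingHom (r σ), hU, Matrix.det_mul, Matrix.det_mul,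
        mul_right_comm, ← Matrix.det_mul, Units.mul_inv, Matrix.det_one, one_mul]
  refine ⟨O', i1, i2, i3, i4, i5, i6, i7, i8, inferInstance, i9, g, m, r,
    (g.comp (Bd.toGood K)).codRestrict (pointRing O O') hval, hgP, hm, hfr', hlift, hcont, hconj,
    fun a => rfl, fun l hl hlM hlp A hA σ hσ => ?_⟩
  have h1 := hun l hl hlM hlp A hA σ hσ
  refine Matrix.ext fun i j => Subtype.ext ?_
  have h := congrFun (congrFun (hU σ) i) j
  rw [h1, Matrix.mul_one, Units.mul_inv] at h
  rw [show ((r σ i j : pointRing O O') : O') = ((r σ).map (pointRing O O').val) i j from rfl, h]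
  rcases eq_or_ne i j with rfl | hne <;> simp [*]

/-- **The lift of a point of the good algebra.** -/
theorem exists_levelPoint (p : ℕ) [hp : Fact p.Prime] (hpO : (p : O) ∈ maximalIdeal O)
    (hpS : (⟨p, hp.out⟩ : Nat.Primes) ∈ Bd.S) (hopen : IsOpen (rb.ker : Set GQ))
    (hspan : Submodule.span (ResidueField O) (Set.range rb) = ⊤) (hrb : Bd.ResidualFrob rb)
    (P : AlgPoint O (Bd.Good K)) :
    ∃ L : Bd.LevelPoint K rb p, ∀ a, L.val a = 0 → P.hom (Bd.toGood K a) = 0 := by
  obtain ⟨O', i1, i2, i3, i4, i5, i6, i7, i8, i9, i10, g, m, r, val, hgP, -, hfr, hlift, hcont,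
    hconj, hval, hunr⟩ := Bd.exists_goodPoint_lift K p hpO hpS hopen hspan hrb P
  refine ⟨{
    B := pointRing O O'
    r := r
    ε := pointRes O O'
    ε_algebraMap := fun c => FA.RT.pointRes_algebraMap c
    lift := hlift
    cont := hcont
    val := val
    frob := fun ℓ hℓ A hA σ hσ => by
      obtain ⟨h1, h2⟩ := hfr ℓ hℓ A hA σ hσ
      exact ⟨Subtype.ext (((hval _).trans h1.symm).trans (hconj σ).1.symm),
        Subtype.ext ((hconj σ).2.trans (h2.trans (by simp)))⟩
    unr := hunr }, fun a ha => hgP _ ((hval a).symm.trans (congrArg Subtype.val ha))⟩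

end BaseData

end FA.Two
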