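import Fermat.Agent.Two.BaseLevels
import Mathlib.LinearAlgebra.Matrix.ToLin

/-!
# The algebra of the base on the frames modulo the maximal ideal
-/

set_option autoImplicit false
set_option linter.unusedSectionVars false
set_option synthInstance.maxHeartbeats 400000
set_option maxHeartbeats 800000

noncomputable section

namespace FA.Two

open IsLocalRing

variable {O : Type} [CommRing O] [IsDomain O] [IsDiscreteValuationRing O]
  [IsAdicComplete (maximalIdeal O) O] [CharZero O]

namespace BaseData

variable {ι : Type} [DecidableEq ι] (Bd : BaseData O ι)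

/-- The algebra of the base as matrices on a frame. -/
def matAct (K : Finset ι) : Bd.alg →ₐ[O] Matrix (Fin (Bd.frame K).d) (Fin (Bd.frame K).d) O :=
  LinearMap.toMatrixAlgEquiv'.toAlgHom.comp (Bd.algAct K)

theorem matAct_mulVec (K : Finset ι) (a : Bd.alg) (x : Fin (Bd.frame K).d → O) :
    Matrix.mulVec (Bd.matAct K a) x = Bd.algAct K a x :=
  LinearMap.toMatrix'_mulVec (Bd.algAct K a) x

/-- The algebra of the base on a frame modulo the maximal ideal. -/
def redAct (K : Finset ι) :
    Bd.alg →+* Matrix (Fin (Bd.frame K).d) (Fin (Bd.frame K).d) (ResidueField O) :=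
  (residue O).mapMatrix.comp (Bd.matAct K).toRingHom

theorem redAct_apply (K : Finset ι) (a : Bd.alg) :
    Bd.redAct K a = (Bd.matAct K a).map (residue O) := rfl

theorem redAct_mulVec (K : Finset ι) (a : Bd.alg) (x : Fin (Bd.frame K).d → O) :
    Matrix.mulVec (Bd.redAct K a) (residue O ∘ x) = residue O ∘ Bd.algAct K a x := by
  funext i
  rw [← matAct_mulVec, redAct_apply, Function.comp_apply, RingHom.map_mulVec]

theorem redAct_algebraMap (K : Finset ι) (c : O) :
    Bd.redAct K (algebraMap O Bd.alg c) = Matrix.scalar (Fin (Bd.frame K).d) (residue O c) := by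
  rw [redAct_apply, AlgHom.commutes, Matrix.algebraMap_eq_diagonal,
    Matrix.diagonal_map (map_zero _)]
  rfl

end BaseData

end FA.Two
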