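import Fermat.Agent.RT.PatchedMazur
import Mathlib.LinearAlgebra.Matrix.Rank
import Mathlib.RingTheory.Nilpotent.Basic

/-!
# The rank of the trace of inertia against a transposition

`N` is inertia minus one, `F` Frobenius with a unit upper right entry, and `F N = U N` as operators
for an operator `U` commuting with the Hecke action.  Then the operator `tr (N g)`, `g` residually
a lower triangular transposition, has at least the rank of `N` on two copies of the module.
-/

set_option autoImplicit false

noncomputable section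

open Matrix FA.RT

namespace FA.Two

variable {A k : Type} [CommRing A] [Field k] {d : ℕ} (act : A →+* Matrix (Fin d) (Fin d) k)

/-- **Lower bound for the rank of the trace.** -/
theorem rank_blockAct_le_rank_trace (hnil : ∀ x : A, ¬ IsUnit x → IsNilpotent (act x))
    (N F g : Matrix (Fin 2) (Fin 2) A) (U : Matrix (Fin d) (Fin d) k)
    (hU : ∀ x, Commute (act x) U) (htr : N 1 1 = -N 0 0)
    (hFN : ∀ i j, act ((F * N) i j) = U * act (N i j))
    (hF : IsUnit (F 0 1)) (hg : IsUnit (g 1 0)) (hg01 : ¬ IsUnit (g 0 1))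
    (hgd : ¬ IsUnit (g 0 0 - g 1 1)) :
    (blockAct act N).rank ≤ (act (N * g).trace).rank := by
  classical
  obtain ⟨w, hw⟩ := hF
  set a := act (N 0 0)
  set b := act (N 0 1)
  set c := act (N 1 0)
  set P := act (↑w⁻¹ : A) * (act (F 0 0) - U)
  have hcomm : ∀ x, Commute (act x) P := fun x => by
    have h : ∀ y, Commute (act x) (act y) := fun y => (Commute.all x y).map act
    exact (h _).mul_right ((h _).sub_right (hU x))
  have hwinv : act (↑w⁻¹ : A) * act (F 0 1) = 1 := by rw [← map_mul, ← hw, Units.inv_mul, map_one]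
  have e01 : a = P * b := by
    have h := hFN 0 1
    rw [Matrix.mul_apply, Fin.sum_univ_two, map_add, map_mul, map_mul, htr, map_neg] at h
    have h' : act (F 0 1) * a = (act (F 0 0) - U) * b := by
      rw [sub_mul, ← h, mul_neg]; abel
    calc a = act (↑w⁻¹ : A) * (act (F 0 1) * a) := by rw [← mul_assoc, hwinv, one_mul]
      _ = _ := by rw [h', mul_assoc]
  have e00 : c = -(P * a) := by
    have h := hFN 0 0
    rw [Matrix.mul_apply, Fin.sum_univ_two, map_add, map_mul, map_mul] at h
    have h' : act (F 0 1) * c = -((act (F 0 0) - U) * a) := by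
      rw [sub_mul, ← h]; abel
    calc c = act (↑w⁻¹ : A) * (act (F 0 1) * c) := by rw [← mul_assoc, hwinv, one_mul]
      _ = _ := by rw [h', mul_neg, mul_assoc]
  -- the factorisation of inertia
  let L : Matrix (Fin 2 × Fin d) (Fin d) k :=
    Matrix.of fun iu v => if iu.1 = 0 then (1 : Matrix (Fin d) (Fin d) k) iu.2 v else -(P iu.2 v)
  let R : Matrix (Fin d) (Fin 2 × Fin d) k :=
    Matrix.of fun u jv => if jv.1 = 0 then P u jv.2 else (1 : Matrix (Fin d) (Fin d) k) u jv.2
  have hfac : blockAct act N = L * b * R := by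
    have hbP : b * P = P * b := hcomm _
    ext ⟨i, u⟩ ⟨j, v⟩
    rw [blockAct_apply]
    have hR : ∀ (X : Matrix (Fin d) (Fin d) k), (X * R) u (j, v) =
        if j = 0 then (X * P) u v else X u v := fun X => by
      fin_cases j <;> simp [R, Matrix.mul_apply, Matrix.one_apply]
    have hL : ∀ (Y : Matrix (Fin d) (Fin 2 × Fin d) k), (L * Y) (i, u) (j, v) =
        if i = 0 then Y u (j, v) else -((P * Y) u (j, v)) := fun Y => by
      fin_cases i <;> simp [L, Matrix.mul_apply, Matrix.one_apply]
    rw [Matrix.mul_assoc, hL, ← Matrix.mul_assoc, hR, hR]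
    fin_cases i <;> fin_cases j
    · show a u v = _
      simp [e01, hbP]
    · show b u v = _
      simp
    · show c u v = _
      simp [e00, e01, hbP, Matrix.mul_assoc]
    · show act (N 1 1) u v = _
      simp [htr, ← e01, a]
  -- the trace
  set W := act (g 1 0) + (act (g 0 0 - g 1 1) * P - act (g 0 1) * (P * P))
  have hn : act (N * g).trace = W * b := by
    rw [trace_fin_two, Matrix.mul_apply, Matrix.mul_apply, Fin.sum_univ_two, Fin.sum_univ_two, htr]
    rw [show N 0 0 * g 0 0 + N 0 1 * g 1 0 + (N 1 0 * g 0 1 + -N 0 0 * g 1 1) =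
      g 1 0 * N 0 1 + (g 0 0 - g 1 1) * N 0 0 + g 0 1 * N 1 0 by ring, map_add, map_add, map_mul,
      map_mul, map_mul]
    show act (g 1 0) * b + act (g 0 0 - g 1 1) * a + act (g 0 1) * c = _
    rw [e00, e01]
    simp only [W, add_mul, sub_mul, mul_neg, Matrix.mul_assoc]
    abel
  have hW : IsUnit W := by
    have h1 : IsNilpotent (act (g 0 0 - g 1 1) * P) :=
      Commute.isNilpotent_mul_right (hcomm _) (hnil _ hgd)
    have h2 : IsNilpotent (act (g 0 1) * (P * P)) :=
      Commute.isNilpotent_mul_right ((hcomm _).mul_right (hcomm _)) (hnil _ hg01)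
    have hc : ∀ x y, Commute (act x) (act y) := fun x y => (Commute.all x y).map act
    have h3 : IsNilpotent (act (g 0 0 - g 1 1) * P - act (g 0 1) * (P * P)) :=
      Commute.isNilpotent_sub (((hc _ _).mul_right ((hcomm _).mul_right (hcomm _))).mul_left
        (((hcomm _).symm).mul_right ((Commute.refl P).mul_right (Commute.refl P)))) h1 h2
    refine IsNilpotent.isUnit_add_left_of_commute h3 (hg.map act) ?_
    exact (((hc _ _).mul_right (hcomm _)).sub_right
      ((hc _ _).mul_right ((hcomm _).mul_right (hcomm _)))).symm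
  rw [hn, hfac]
  refine (rank_mul_le_left _ _).trans ((rank_mul_le_right _ _).trans ?_)
  obtain ⟨V, hV⟩ := hW
  calc b.rank = ((↑V⁻¹ : Matrix (Fin d) (Fin d) k) * (W * b)).rank := by
        rw [← Matrix.mul_assoc, ← hV, Units.inv_mul, Matrix.one_mul]
    _ ≤ (W * b).rank := rank_mul_le_right _ _

end FA.Two
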