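import Fermat.Agent.Two.BaseRankRel
import Fermat.Agent.Two.BaseRed
import Fermat.Agent.Two.NewRank

/-!
# The rank of the operator of an auxiliary prime on the base modulo the maximal ideal

The trace of inertia minus one against a lift of a lower unipotent vanishes on the levels prime to
the auxiliary prime; where the prime divides the level its rank is at least the new dimension.
-/

set_option autoImplicit false
set_option linter.unusedSectionVars false
set_option linter.style.haveILetI false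
set_option synthInstance.maxHeartbeats 400000
set_option maxHeartbeats 2000000

noncomputable section

namespace FA.Two

open IsLocalRing Matrix FA.Deform FA.Level FA.JTorsion FA.NebLocal
open FA.RT (blockAct)
open scoped TensorProduct

local notation "Qb" => AlgebraicClosure ℚ
local notation "GQ" => AlgebraicClosure ℚ ≃ₐ[ℚ] AlgebraicClosure ℚ
local notation "M2" => Matrix (Fin 2) (Fin 2)

theorem one_add_pow_of_sq_zero {R : Type*} [Ring R] {N : R} (hN : N * N = 0) (n : ℕ) :
    (1 + N) ^ n = 1 + n • N := by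
  induction n with
  | zero => simp
  | succ n ih =>
    rw [pow_succ, ih, add_mul, one_mul, mul_add, mul_one, smul_mul_assoc, hN, smul_zero, add_zero,
      succ_nsmul']
    abel

theorem sq_eq_zero_of_unipotent {R : Type*} [CommRing R] (S : M2 R) (hd : S.det = 1)
    (ht : S.trace = 2) : (S - 1) * (S - 1) = 0 := by
  rw [Matrix.det_fin_two] at hd
  rw [Matrix.trace_fin_two] at ht
  ext i j
  fin_cases i <;> fin_cases j <;> simp [Matrix.mul_apply, Fin.sum_univ_two]
  · linear_combination S 0 0 * ht - hd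
  · linear_combination S 0 1 * ht
  · linear_combination S 1 0 * ht
  · linear_combination S 1 1 * ht - hd

variable {O : Type} [CommRing O] [IsDomain O] [IsDiscreteValuationRing O]
  [IsAdicComplete (maximalIdeal O) O] [CharZero O] [Finite (ResidueField O)] [Algebra Qb ℂ]
  {rb : GQ →* M2 (ResidueField O)} {p : ℕ} [hp : Fact p.Prime]

namespace BaseData

variable {ι : Type} [DecidableEq ι] [Fintype ι] {Bd : BaseData O ι}
  {Pts : Bd.BasePoints rb p} {M : Pts.fam.Model} {f : M.R →ₐ[O] Bd.alg}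

/-- The operator of an auxiliary prime. -/
def BasePoints.nOp (M : Pts.fam.Model) (s γ : GQ) : M.R :=
  (M.rR (s * γ)).trace - (M.rR γ).trace

theorem BasePoints.nOp_eq (M : Pts.fam.Model) (s γ : GQ) :
    Pts.nOp M s γ = ((M.rR s - 1) * M.rR γ).trace := by
  rw [nOp, map_mul, sub_mul, one_mul, Matrix.trace_sub]

/-- **The operator vanishes on the levels prime to the prime.** -/
theorem BasePoints.redAct_nOp (hf : Pts.IsBaseHom M f) {x : ι} {K : Finset ι} (hx : x ∉ K)
    (hqp : Bd.qn x ≠ p) {A : ValuationSubring Qb} (hA : A.LiesOverPrime (Bd.qn x)) {s : GQ}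
    (hs : s ∈ A.inertiaSubgroupIn ℚ) (γ : GQ) : Bd.redAct K (f (Pts.nOp M s γ)) = 0 := by
  have h0 : ∀ a : Bd.alg, Bd.toGood K a = 0 → Bd.redAct K a = 0 := fun a ha => by
    rw [redAct_apply, matAct, AlgHom.comp_apply, algAct_apply, ha, map_zero, map_zero,
      Matrix.map_zero _ (map_zero _)]
  refine h0 _ ?_
  rw [Pts.nOp_eq, Matrix.trace_fin_two, Matrix.mul_apply, Matrix.mul_apply]
  simp only [Fin.sum_univ_two, map_add, map_mul, Pts.toGood_eq_zero hf hx hqp hA hs, zero_mul,
    add_zero]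

/-- The structure map of the carried algebra is local. -/
theorem BasePoints.algebraMap_mem (M : Pts.fam.Model) (c : O) (hc : c ∈ maximalIdeal O) :
    algebraMap O M.R c ∈ maximalIdeal M.R := by
  refine (IsLocalRing.mem_maximalIdeal _).2 fun hu => not_isUnit_zero (M₀ := ResidueField O) ?_
  have h := hu.map M.π
  rwa [show M.π (algebraMap O M.R c) = residue O c from RingHom.congr_fun M.π_algebraMap c,
    (residue_eq_zero_iff c).2 hc] at h

variable (hpO : (p : O) ∈ maximalIdeal O)

/-- Elements of the maximal ideal act nilpotently modulo the maximal ideal. -/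
theorem BasePoints.isNilpotent_redAct (K : Finset ι) (f : M.R →ₐ[O] Bd.alg) {a : M.R}
    (ha : a ∈ maximalIdeal M.R) : IsNilpotent (Bd.redAct K (f a)) := by
  haveI := M.finite
  have hloc : ∀ c ∈ maximalIdeal O, algebraMap O M.R c ∈ maximalIdeal M.R :=
    BasePoints.algebraMap_mem M
  obtain ⟨c, hc⟩ := FA.RT.exists_pow_le_span_pow hloc 1
  refine ⟨c, ?_⟩
  rw [← map_pow, ← map_pow]
  have hI : (maximalIdeal O ^ 1).map (algebraMap O M.R) ≤
      RingHom.ker ((Bd.redAct K).comp f.toRingHom) := by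
    rw [Ideal.map_le_iff_le_comap, pow_one]
    intro r hr
    rw [Ideal.mem_comap, RingHom.mem_ker, RingHom.comp_apply]
    show Bd.redAct K (f (algebraMap O M.R r)) = 0
    rw [AlgHom.commutes, redAct_algebraMap, (residue_eq_zero_iff r).2 hr, map_zero]
  exact RingHom.mem_ker.1 (hI (hc (Ideal.pow_mem_pow ha c)))

/-- An element which is residually non zero does not act as zero. -/
theorem BasePoints.not_mem_ker (K : Finset ι) (hd : 0 < (Bd.frame K).d) (f : M.R →ₐ[O] Bd.alg)
    {y : M.R} (hy : M.π y ≠ 0) : y ∉ RingHom.ker ((Bd.algAct K).comp f).toRingHom := fun h => by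
  haveI : Nonempty (Fin (Bd.frame K).d) := ⟨⟨0, hd⟩⟩
  have hu : IsUnit y := by
    by_contra hu
    refine hy (RingHom.mem_ker.1 ?_)
    rw [eq_maximalIdeal (RingHom.ker_isMaximal_of_surjective _ M.π_surjective)]
    exact (IsLocalRing.mem_maximalIdeal y).2 hu
  have h0 := hu.map ((Bd.algAct K).comp f).toRingHom
  rw [RingHom.mem_ker.1 h, isUnit_zero_iff] at h0
  have h1 := LinearMap.congr_fun h0 (fun _ => (1 : O))
  exact zero_ne_one (congrFun h1 ⟨0, hd⟩)

include hp hpO in
/-- **The trace of inertia is two on a level containing the prime.** -/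
theorem BasePoints.algAct_trace_inertia (hf : Pts.IsBaseHom M f) (ιp : ℤ_[p] →+* O)
    (hpS : (⟨p, hp.out⟩ : Nat.Primes) ∈ Bd.S) {x : ι} {K : Finset ι} (hx : x ∈ K)
    (hqp : Bd.qn x ≠ p) {A : ValuationSubring Qb} (hA : A.LiesOverPrime (Bd.qn x)) {s : GQ}
    (hs : s ∈ A.inertiaSubgroupIn ℚ) : Bd.algAct K (f (M.rR s).trace) = 2 := by
  haveI := M.finite
  have hloc : ∀ c ∈ maximalIdeal O, algebraMap O M.R c ∈ maximalIdeal M.R :=
    BasePoints.algebraMap_mem M
  have hrel := Bd.galFrame_add_inv K hpO hpS f M.rR M.cont hloc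
    (fun ℓ hℓ V hV σ hσ => BasePoints.baseHom_frob hf hℓ hV hσ) s
  have hd : (M.rR s).det = 1 := by
    rw [Pts.det_model hpO ιp, cycP_inertia p (Bd.qn_prime x) hqp hA hs, Units.val_one, map_one,
      map_one]
  rw [hd, map_one, map_one, one_mul] at hrel
  have hqq : ¬ Bd.qn x * Bd.qn x ∣ Bd.lev K := by
    rw [(Bd.isStep hx).eq]
    exact fun h => Bd.qn_not_dvd_lev (Finset.notMem_erase x K)
      ((Nat.mul_dvd_mul_iff_right (Bd.qn_prime x).pos).1 h)
  have hsq : Bd.galFrame K hpO s * Bd.galFrame K hpO s + 1 = 2 * Bd.galFrame K hpO s := by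
    refine LinearMap.ext fun v => Bd.latEmb_injective K ?_
    rw [LinearMap.add_apply, Module.End.mul_apply, Module.End.one_apply, map_add,
      latEmb_galFrame, latEmb_galFrame,
      galR_inertia hpO _ (Bd.qn_prime x) hqp
        (semistableTors_exact _ _ (Bd.qn_prime x) (Bd.qn_dvd_lev hx) hqq) hA hs]
    rw [show (2 * Bd.galFrame K hpO s) v = (2 : O) • Bd.galFrame K hpO s v by
        rw [two_mul, LinearMap.add_apply, two_smul],
      map_smul, latEmb_galFrame]
  have hinv : Bd.galFrame K hpO s⁻¹ * Bd.galFrame K hpO s = 1 := by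
    rw [← map_mul, inv_mul_cancel, map_one]
  have hsinv : Bd.galFrame K hpO s * Bd.galFrame K hpO s⁻¹ = 1 := by
    rw [← map_mul, mul_inv_cancel, map_one]
  have h1 : Bd.algAct K (f (M.rR s).trace) * Bd.galFrame K hpO s = 2 * Bd.galFrame K hpO s := by
    rw [← hrel, add_mul, hinv, hsq]
  have h2 := congrArg (· * Bd.galFrame K hpO s⁻¹) h1
  simp only [mul_assoc, hsinv, mul_one] at h2
  exact h2

include hp hpO in
/-- **The rank of the operator where the prime divides the level.** -/
theorem BasePoints.rank_nOp (hf : Pts.IsBaseHom M f) (ιp : ℤ_[p] →+* O)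
    (hpS : (⟨p, hp.out⟩ : Nat.Primes) ∈ Bd.S) {x : ι} {K : Finset ι} (hx : x ∈ K)
    (hqp : Bd.qn x ≠ p) {A : ValuationSubring Qb} (hA : A.LiesOverPrime (Bd.qn x))
    (hunr : ∀ σ ∈ A.inertiaSubgroupIn ℚ, rb σ = 1) {φ : GQ} (hφ : A.IsFrobeniusAt φ (Bd.qn x))
    (hφ01 : rb φ 0 1 ≠ 0) {s : GQ} (hs : s ∈ A.inertiaSubgroupIn ℚ) {γ : GQ}
    (hγ10 : rb γ 1 0 ≠ 0) (hγ01 : rb γ 0 1 = 0) (hγd : rb γ 0 0 = rb γ 1 1)
    (hmono : (Bd.frame K).d = (blockAct ((Bd.redAct K).comp f.toRingHom) (M.rR s - 1)).rank +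
      2 * (Bd.frame (K.erase x)).d) :
    (Bd.frame K).d ≤ (Bd.redAct K (f (Pts.nOp M s γ))).rank + 2 * (Bd.frame (K.erase x)).d := by
  classical
  rcases Nat.eq_zero_or_pos (Bd.frame K).d with hd0 | hd0
  · omega
  haveI : Nonempty (Fin (Bd.frame K).d) := ⟨⟨0, hd0⟩⟩
  haveI := M.finite
  have hloc : ∀ c ∈ maximalIdeal O, algebraMap O M.R c ∈ maximalIdeal M.R :=
    BasePoints.algebraMap_mem M
  have hker : RingHom.ker M.π = maximalIdeal M.R :=
    eq_maximalIdeal (RingHom.ker_isMaximal_of_surjective _ M.π_surjective)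
  have hπ : ∀ σ i j, M.π (M.rR σ i j) = rb σ i j := fun σ i j =>
    congrFun (congrFun (DFunLike.congr_fun M.lift σ) i) j
  have hunit : ∀ y : M.R, M.π y ≠ 0 → IsUnit y := fun y hy => by
    by_contra h
    exact hy (RingHom.mem_ker.1 (hker ▸ (IsLocalRing.mem_maximalIdeal y).2 h))
  -- the tame relation
  have hres : ∀ σ ∈ A.inertiaSubgroupIn ℚ, ∀ i j, (M.rR σ - 1) i j ∈ maximalIdeal M.R :=
    fun σ hσ i j => by
      rw [← hker, RingHom.mem_ker, Matrix.sub_apply, map_sub, hπ, hunr σ hσ]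
      rcases eq_or_ne i j with rfl | hne <;> simp [*]
  have htame := FA.RT.rep_tame_relation M.rR M.cont
    (by rw [← map_natCast (algebraMap O M.R)]; exact hloc _ hpO) hres hp.out (Bd.qn_prime x)
    (Ne.symm hqp) hA hφ hs
  -- the image on the level
  let actO : M.R →ₐ[O] Module.End O (Fin (Bd.frame K).d → O) := (Bd.algAct K).comp f
  let I : Ideal M.R := RingHom.ker actO.toRingHom
  let mk : M.R →+* M.R ⧸ I := Ideal.Quotient.mk I
  let act' : M.R ⧸ I →+* Module.End O (Fin (Bd.frame K).d → O) := RingHom.kerLift actO.toRingHom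
  have hact' : ∀ y, act' (mk y) = actO y := fun y => RingHom.kerLift_mk _ _
  let Nm : M2 (M.R ⧸ I) := mk.mapMatrix (M.rR s - 1)
  let Fm : M2 (M.R ⧸ I) := mk.mapMatrix (M.rR φ)
  let gm : M2 (M.R ⧸ I) := mk.mapMatrix (M.rR γ)
  have hdets : (M.rR s).det = 1 := by
    rw [Pts.det_model hpO ιp, cycP_inertia p (Bd.qn_prime x) hqp hA hs, Units.val_one, map_one,
      map_one]
  have htr2 : mk (M.rR s).trace = 2 := by
    refine RingHom.kerLift_injective _ ((hact' _).trans (Eq.trans ?_ (map_ofNat act' 2).symm))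
    exact BasePoints.algAct_trace_inertia hpO hf ιp hpS hx hqp hA hs
  have hSm : (mk.mapMatrix (M.rR s)).det = 1 ∧ (mk.mapMatrix (M.rR s)).trace = 2 := by
    refine ⟨?_, ?_⟩
    · rw [← RingHom.map_det, hdets, map_one]
    · rw [RingHom.mapMatrix_apply, ← AddMonoidHom.map_trace mk]
      exact htr2
  have hNm : Nm = mk.mapMatrix (M.rR s) - 1 := by
    show mk.mapMatrix (M.rR s - 1) = _
    rw [map_sub, map_one]
  have hN2 : Nm * Nm = 0 := by
    rw [hNm]
    exact sq_eq_zero_of_unipotent _ hSm.1 hSm.2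
  have hNtr : Nm.trace = 0 := by
    rw [hNm, Matrix.trace_sub, hSm.2, Matrix.trace_one, Fintype.card_fin, Nat.cast_ofNat, sub_self]
  have hFtame : Fm * Nm = (Bd.qn x : M.R ⧸ I) • (Nm * Fm) := by
    have h : Fm * (1 + Nm) = (1 + Nm) ^ Bd.qn x * Fm := by
      rw [hNm, add_sub_cancel]
      show mk.mapMatrix (M.rR φ) * mk.mapMatrix (M.rR s) = _
      rw [← map_mul, htame, map_mul, map_pow]
    rw [one_add_pow_of_sq_zero hN2, mul_add, mul_one, add_mul, one_mul, smul_mul_assoc] at h
    rw [Nat.cast_smul_eq_nsmul]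
    exact add_left_cancel h
  have htf : ∀ (c : O) (T : Module.End O (Fin (Bd.frame K).d → O)), c ≠ 0 → c • T = 0 → T = 0 :=
    fun c T hc h => LinearMap.ext fun v => funext fun i =>
      (mul_eq_zero.1 (congrFun (LinearMap.congr_fun h v) i)).resolve_left hc
  have hcast : ∀ (n : ℕ) (y : M.R ⧸ I), act' ((n : M.R ⧸ I) * y) = (n : O) • act' y := fun n y => by
    rw [map_mul, map_natCast, Nat.cast_smul_eq_nsmul, nsmul_eq_mul]
  have hreg : IsSMulRegular (M.R ⧸ I) ((Bd.qn x : M.R ⧸ I) - 1) := fun a b hab => by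
    simp only [smul_eq_mul] at hab
    refine RingHom.kerLift_injective _ (sub_eq_zero.1 (htf ((Bd.qn x : O) - 1) _ ?_ ?_))
    · rw [← Nat.cast_one, sub_ne_zero, Ne, Nat.cast_inj]
      exact (Bd.qn_prime x).one_lt.ne'
    · have h := congrArg act' hab
      rw [sub_mul, sub_mul, map_sub, map_sub, one_mul, one_mul, hcast, hcast] at h
      show ((Bd.qn x : O) - 1) • (act' a - act' b) = 0
      rw [smul_sub, sub_smul, sub_smul, one_smul, one_smul, ← sub_eq_zero.2 h]
  -- Frobenius on the image of inertia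
  obtain ⟨U, hUc, hUrel⟩ := Bd.exists_frame_U hpO hpS hx hqp hA hφ
  have hdetF : (M.rR φ).det = (Bd.qn x : M.R) := by
    rw [Pts.det_model hpO ιp, cycP_frobenius p (Bd.qn_prime x) hqp hA hφ, map_natCast, map_natCast]
  have hFN : ∀ i j, act' ((Fm * Nm) i j) = ((Bd.qn x : O) • U) * act' (Nm i j) := by
    intro i j
    have hlow : Bd.toGood (K.erase x) (f ((M.rR s - 1) i j)) = 0 :=
      Pts.toGood_eq_zero hf (Finset.notMem_erase x K) hqp hA hs i j
    have hrelF := Bd.galFrame_add_inv K hpO hpS f M.rR M.cont hloc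
      (fun ℓ hℓ V hV σ hσ => BasePoints.baseHom_frob hf hℓ hV hσ) φ
    rw [hdetF, map_natCast, map_natCast] at hrelF
    have hkey : actO (M.rR φ).trace * actO ((M.rR s - 1) i j) =
        ((Bd.qn x : O) + 1) • (U * actO ((M.rR s - 1) i j)) := LinearMap.ext fun v => by
      show Bd.algAct K (f (M.rR φ).trace) (Bd.algAct K (f ((M.rR s - 1) i j)) v) =
        ((Bd.qn x : O) + 1) • U (Bd.algAct K (f ((M.rR s - 1) i j)) v)
      rw [← hrelF, LinearMap.add_apply, Module.End.mul_apply, Module.End.natCast_apply,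
        ← Nat.cast_smul_eq_nsmul O]
      exact hUrel _ hlow v
    have hS := congrFun (congrFun (succ_smul_frob_mul hNtr hFtame hreg) i) j
    rw [Matrix.smul_apply, Matrix.smul_apply, smul_eq_mul, smul_eq_mul] at hS
    have hS' := congrArg act' hS
    have hFtr : Fm.trace = mk (M.rR φ).trace := by
      show ((M.rR φ).map mk).trace = _
      rw [← AddMonoidHom.map_trace mk]
    rw [add_mul, one_mul, map_add, hcast, mul_assoc, hcast, hFtr, map_mul, hact',
      show Nm i j = mk ((M.rR s - 1) i j) from rfl, hact', hkey] at hS'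
    refine sub_eq_zero.1 (htf ((Bd.qn x : O) + 1) _ ?_ ?_)
    · rw [← Nat.cast_succ, Nat.cast_ne_zero]
      omega
    · rw [show Nm i j = mk ((M.rR s - 1) i j) from rfl, hact', smul_sub, smul_mul_assoc, smul_smul,
        mul_comm ((Bd.qn x : O) + 1), ← smul_smul, add_smul, one_smul, hS', sub_self]
  -- modulo the maximal ideal
  let red : Module.End O (Fin (Bd.frame K).d → O) →+*
      Matrix (Fin (Bd.frame K).d) (Fin (Bd.frame K).d) (ResidueField O) :=
    (residue O).mapMatrix.comp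
      (LinearMap.toMatrixAlgEquiv' (R := O) (n := Fin (Bd.frame K).d)).toAlgHom.toRingHom
  let actk : M.R ⧸ I →+* Matrix (Fin (Bd.frame K).d) (Fin (Bd.frame K).d) (ResidueField O) :=
    red.comp act'
  have hactk : ∀ y, actk (mk y) = Bd.redAct K (f y) := fun y => congrArg red (hact' y)
  have hblk : blockAct ((Bd.redAct K).comp f.toRingHom) (M.rR s - 1) = blockAct actk Nm :=
    Matrix.ext fun ⟨i, u⟩ ⟨j, v⟩ => by
      rw [FA.RT.blockAct_apply, FA.RT.blockAct_apply]
      exact congrFun (congrFun (hactk ((M.rR s - 1) i j)).symm u) v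
  have hn : actk (Nm * gm).trace = Bd.redAct K (f (Pts.nOp M s γ)) := by
    rw [← hactk, Pts.nOp_eq, AddMonoidHom.map_trace mk]
    refine congrArg (fun X => actk (Matrix.trace X)) ?_
    exact (map_mul mk.mapMatrix _ _).symm
  rw [← hn]
  rw [hblk] at hmono
  refine hmono.le.trans (Nat.add_le_add_right ?_ _)
  refine rank_blockAct_le_rank_trace actk (fun y hy => ?_) Nm Fm gm (red ((Bd.qn x : O) • U))
    (fun y => ?_) ?_ (fun i j => ?_) ?_ ?_ ?_ ?_
  · obtain ⟨y, rfl⟩ := Ideal.Quotient.mk_surjective y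
    rw [show actk (Ideal.Quotient.mk I y) = _ from hactk y]
    exact BasePoints.isNilpotent_redAct K f ((IsLocalRing.mem_maximalIdeal y).2 fun hu => hy (hu.map mk))
  · obtain ⟨y, rfl⟩ := Ideal.Quotient.mk_surjective y
    show Commute (red (act' (mk y))) _
    rw [hact']
    exact ((hUc (f y)).smul_right (Bd.qn x : O)).map red
  · have h := hNtr
    rw [Matrix.trace_fin_two, add_comm] at h
    exact eq_neg_of_add_eq_zero_left h
  · show red (act' _) = red _ * red (act' _)
    rw [← map_mul red, ← hFN]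
  · exact (hunit _ (by rw [hπ]; exact hφ01)).map mk
  · exact (hunit _ (by rw [hπ]; exact hγ10)).map mk
  · intro h
    obtain ⟨u, hu⟩ := h
    obtain ⟨v, hv⟩ := Ideal.Quotient.mk_surjective (↑u⁻¹ : M.R ⧸ I)
    have h1 : M.rR γ 0 1 * v - 1 ∈ I := by
      rw [← Ideal.Quotient.eq_zero_iff_mem, map_sub, map_mul, map_one, hv]
      show mk (M.rR γ 0 1) * _ - 1 = 0
      rw [show mk (M.rR γ 0 1) = gm 0 1 from rfl, ← hu, Units.mul_inv, sub_self]
    exact BasePoints.not_mem_ker K hd0 f (y := M.rR γ 0 1 * v - 1) (by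
      rw [map_sub, map_mul, map_one, hπ, hγ01, zero_mul, zero_sub]
      exact neg_ne_zero.2 one_ne_zero) h1
  · intro h
    obtain ⟨u, hu⟩ := h
    obtain ⟨v, hv⟩ := Ideal.Quotient.mk_surjective (↑u⁻¹ : M.R ⧸ I)
    have h1 : (M.rR γ 0 0 - M.rR γ 1 1) * v - 1 ∈ I := by
      rw [← Ideal.Quotient.eq_zero_iff_mem, map_sub, map_mul, map_one, hv]
      show mk (M.rR γ 0 0 - M.rR γ 1 1) * _ - 1 = 0
      rw [show mk (M.rR γ 0 0 - M.rR γ 1 1) = gm 0 0 - gm 1 1 from map_sub mk _ _, ← hu,
        Units.mul_inv, sub_self]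
    exact BasePoints.not_mem_ker K hd0 f (y := (M.rR γ 0 0 - M.rR γ 1 1) * v - 1) (by
      rw [map_sub, map_mul, map_one, map_sub, hπ, hπ, hγd, sub_self, zero_mul, zero_sub]
      exact neg_ne_zero.2 one_ne_zero) h1

end BaseData

end FA.Two
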