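import Fermat.Agent.RT.Diamond
import Mathlib.LinearAlgebra.Matrix.Trace

/-!
# Steinberg relations from traces

For a unipotent `s` with tame relation against a Frobenius `F` the two numbers
`tr ((s - 1) g)` and `tr (F (s - 1) g)` determine the eigenvalue on the fixed line.
-/

set_option autoImplicit false

open Matrix

namespace FA.Two

variable {B : Type} [CommRing B]

/-- Polarised Cayley–Hamilton. -/
theorem mul_add_mul_comm (X Y : Matrix (Fin 2) (Fin 2) B) :
    X * Y + Y * X = X.trace • Y + Y.trace • X +
      ((X * Y).trace - X.trace * Y.trace) • (1 : Matrix (Fin 2) (Fin 2) B) := by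
  refine Matrix.ext fun i j => ?_
  fin_cases i <;> fin_cases j <;>
    simp [Matrix.mul_apply, Fin.sum_univ_two, Matrix.trace_fin_two] <;> ring

variable [IsDomain B]

theorem trace_det_of_sq_zero {N : Matrix (Fin 2) (Fin 2) B} (hN : N * N = 0) :
    N.trace = 0 ∧ N.det = 0 := by
  have hdet : N.det = 0 := by
    have := congrArg Matrix.det hN
    rw [Matrix.det_mul, Matrix.det_zero] at this
    exact mul_self_eq_zero.mp this
  refine ⟨?_, hdet⟩
  have h := congrArg Matrix.trace hN
  rw [Matrix.trace_zero, Matrix.trace_fin_two] at h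
  simp only [Matrix.mul_apply, Fin.sum_univ_two] at h
  rw [Matrix.det_fin_two] at hdet
  refine mul_self_eq_zero.mp ?_
  rw [Matrix.trace_fin_two]
  linear_combination h + 2 * hdet

variable {q : ℕ} {F N g : Matrix (Fin 2) (Fin 2) B}

/-- The two traces are proportional. -/
theorem smul_frob_mul (hN : N * N = 0) (htame : F * N = (q : B) • (N * F)) :
    (N * g).trace • (F * N) = (F * N * g).trace • N := by
  obtain ⟨-, hd⟩ := trace_det_of_sq_zero hN
  have h1 : N * g * N = (N * g).trace • N := FA.RT.mul_mul_eq_trace_smul hd g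
  have h2 : N * (F * g) * N = (N * (F * g)).trace • N := FA.RT.mul_mul_eq_trace_smul hd _
  rw [← mul_smul_comm, ← h1, htame, smul_mul_assoc, Matrix.trace_smul, smul_eq_mul,
    show F * (N * g * N) = F * N * (g * N) by simp only [mul_assoc], htame, smul_mul_assoc,
    show N * F * (g * N) = N * (F * g) * N by simp only [mul_assoc], h2, smul_smul, ← mul_assoc N]

/-- Without the first trace the second vanishes. -/
theorem trace_frob_eq_zero (hN : N * N = 0) (htame : F * N = (q : B) • (N * F))
    (h : (N * g).trace = 0) : (F * N * g).trace = 0 := by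
  have h1 := smul_frob_mul (g := g) hN htame
  rw [h, zero_smul] at h1
  by_cases hN0 : N = 0
  · simp [hN0]
  · exact (smul_eq_zero.mp h1.symm).resolve_right hN0

/-- **The Steinberg relations.** -/
theorem steinberg_relations (hN : N * N = 0) (htame : F * N = (q : B) • (N * F))
    (hq : (q : B) ≠ 0) (hn : (N * g).trace ≠ 0) {c : B}
    (hc : (q : B) * c * (N * g).trace = (F * N * g).trace) :
    (F - ((q : B) * c) • 1) * N = 0 ∧ N * (F - c • 1) = 0 ∧
      (F - ((q : B) * c) • 1) * (F - c • 1) = 0 := by
  obtain ⟨htr, -⟩ := trace_det_of_sq_zero hN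
  have h1 := smul_frob_mul (g := g) hN htame
  rw [← hc, mul_comm, ← smul_smul] at h1
  have hFN : F * N = ((q : B) * c) • N := smul_right_injective _ hn h1
  have hNF : N * F = c • N := by
    refine smul_right_injective _ hq ?_
    show (q : B) • (N * F) = (q : B) • (c • N)
    rw [← htame, hFN, smul_smul]
  have e1 : (F - ((q : B) * c) • 1) * N = 0 := by
    rw [sub_mul, smul_mul_assoc, one_mul, hFN, sub_self]
  have e2 : N * (F - c • 1) = 0 := by
    rw [mul_sub, mul_smul_comm, mul_one, hNF, sub_self]
  refine ⟨e1, e2, smul_right_injective _ hn ?_⟩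
  show (N * g).trace • _ = (N * g).trace • (0 : Matrix (Fin 2) (Fin 2) B)
  rw [smul_zero, ← mul_smul_comm]
  have h2 : (N * g).trace • (F - c • 1) = N * g * (F - c • 1) := by
    have h3 := congrArg (· * (F - c • 1)) (mul_add_mul_comm N g)
    rw [htr] at h3
    simp only [add_mul, smul_mul_assoc, one_mul, zero_smul, zero_add, zero_mul, sub_zero,
      mul_assoc g N, e2, mul_zero, add_zero, smul_zero] at h3
    exact h3.symm
  rw [h2, ← mul_assoc, ← mul_assoc, e1, zero_mul, zero_mul]

omit [IsDomain B] in
/-- Frobenius on the image of the unipotent part is a multiple of its trace. -/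
theorem succ_smul_frob_mul (htr : N.trace = 0) (htame : F * N = (q : B) • (N * F))
    (hreg : IsSMulRegular B ((q : B) - 1)) :
    ((q : B) + 1) • (F * N) = ((q : B) * F.trace) • N := by
  have h0 : (F * N).trace = 0 := by
    refine hreg ?_
    have h := congrArg Matrix.trace htame
    rw [Matrix.trace_smul, Matrix.trace_mul_comm N F, smul_eq_mul] at h
    simp only [smul_eq_mul, mul_zero]
    linear_combination -h
  have h := mul_add_mul_comm F N
  rw [htr, zero_smul, add_zero, h0, mul_zero, sub_zero, zero_smul, add_zero] at h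
  rw [add_smul, one_smul, ← smul_smul, ← h, smul_add, ← htame]

end FA.Two
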