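import Fermat.Agent.Two.BaseFamily
import Fermat.Agent.Two.BaseGalRep
import Fermat.Agent.Two.Steinberg
import Fermat.Agent.NebLocal.InertiaTrace
import Fermat.Agent.RT.PointLemmas
import Fermat.Agent.RT.Diamond
import Fermat.Agent.JTorsion.CycloRes

/-!
# Inertia and Frobenius at an auxiliary prime of the base

The lift over the carried algebra has cyclotomic determinant, is trivial on inertia where the level
is prime to the auxiliary prime, and on a level containing the prime the Frobenius element acts on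
the image of inertia minus one as an operator commuting with the algebra.
-/

set_option autoImplicit false
set_option linter.unusedSectionVars false
set_option linter.style.haveILetI false
set_option synthInstance.maxHeartbeats 400000
set_option maxHeartbeats 1600000

noncomputable section

namespace FA.Two

open IsLocalRing Matrix FA.Deform FA.Level FA.JTorsion FA.NebLocal FA.ModField
open scoped TensorProduct

local notation "Qb" => AlgebraicClosure ℚ
local notation "GQ" => AlgebraicClosure ℚ ≃ₐ[ℚ] AlgebraicClosure ℚ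
local notation "M2" => Matrix (Fin 2) (Fin 2)

variable {O : Type} [CommRing O] [IsDomain O] [IsDiscreteValuationRing O]
  [IsAdicComplete (maximalIdeal O) O] [CharZero O] [Finite (ResidueField O)]
  {rb : GQ →* M2 (ResidueField O)} {p : ℕ} [hp : Fact p.Prime]

namespace BaseData

variable {ι : Type} [DecidableEq ι] [Fintype ι] {Bd : BaseData O ι}
  (Pts : Bd.BasePoints rb p) (M : Pts.fam.Model)

/-- The base's own description of the homomorphism to its algebra. -/
def BasePoints.IsBaseHom (f : M.R →ₐ[O] Bd.alg) : Prop :=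
  ∀ x j, (Pts.L j).val (f x) = M.proj j x

variable {Pts M}

/-- Determinants of the points. -/
theorem BasePoints.det_point (hpO : (p : O) ∈ maximalIdeal O) (ιp : ℤ_[p] →+* O) (j : Pts.J)
    (σ : GQ) : ((Pts.L j).r σ).det =
      algebraMap O (Pts.L j).B (ιp ((cycP p σ : ℤ_[p]ˣ) : ℤ_[p])) := by
  have hker : RingHom.ker (Pts.L j).ε = maximalIdeal (Pts.L j).B := Pts.fam.ker_eps j
  haveI : IsLocalHom (algebraMap O (Pts.L j).B) := ⟨fun c hc => by
    have h := hc.map (Pts.L j).ε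
    rw [(Pts.L j).ε_algebraMap] at h
    exact (inferInstance : IsLocalHom (residue O)).map_nonunit c h⟩
  haveI : IsAdicComplete (maximalIdeal (Pts.L j).B) (Pts.L j).B :=
    IsLocalRing.isAdicComplete_of_module_finite (𝒪 := O)
  have hpB : (p : (Pts.L j).B) ∈ maximalIdeal (Pts.L j).B := by
    rw [← hker, RingHom.mem_ker, ← map_natCast (algebraMap O (Pts.L j).B), (Pts.L j).ε_algebraMap,
      residue_eq_zero_iff]
    exact hpO
  refine FA.RT.det_eq_cycP hpB ((algebraMap O (Pts.L j).B).comp ιp) (Pts.L j).cont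
    (Bd.S.image fun l : Nat.Primes => (l : ℕ)) (fun q hq hqS A hA τ hτ => ?_) σ
  exact ((Pts.L j).frob ⟨q, hq⟩ (fun h => hqS (Finset.mem_image.2 ⟨_, h, rfl⟩)) A hA τ hτ).2

/-- **The determinant of the carried lift.** -/
theorem BasePoints.det_model (hpO : (p : O) ∈ maximalIdeal O) (ιp : ℤ_[p] →+* O) (σ : GQ) :
    (M.rR σ).det = algebraMap O M.R (ιp ((cycP p σ : ℤ_[p]ˣ) : ℤ_[p])) := by
  refine sub_eq_zero.1 (M.proj_injective _ fun j => ?_)
  obtain ⟨U, hU, hUσ⟩ := M.proj_rR j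
  have h := congrArg Matrix.det (hUσ σ)
  rw [Matrix.det_mul, Matrix.det_mul, mul_comm U.det] at h
  have h' := (hU.map Matrix.detMonoidHom).mul_right_cancel h
  rw [map_sub, AlgHom.map_det, AlgHom.mapMatrix_apply, ← h', AlgHom.commutes, sub_eq_zero]
  exact Pts.det_point hpO ιp j σ

/-- Inertia is trivial on the levels prime to it. -/
theorem BasePoints.toGood_eq_zero {f : M.R →ₐ[O] Bd.alg} (hf : Pts.IsBaseHom M f) {x : ι}
    {K : Finset ι} (hx : x ∉ K) (hqp : Bd.qn x ≠ p) {A : ValuationSubring Qb}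
    (hA : A.LiesOverPrime (Bd.qn x)) {s : GQ} (hs : s ∈ A.inertiaSubgroupIn ℚ) (i k : Fin 2) :
    Bd.toGood K (f ((M.rR s - 1) i k)) = 0 := by
  refine Pts.separate_level K _ fun j hj => ?_
  have key : ∀ j' : Pts.fam.J, Pts.fam.r j' s = 1 → M.proj j' ((M.rR s - 1) i k) = 0 := by
    intro j' h1
    obtain ⟨U, ⟨u, rfl⟩, hUσ⟩ := M.proj_rR j'
    have h2 := hUσ s
    rw [h1, mul_one] at h2
    have h3 : (M.rR s).map (M.proj j') = 1 := u.mul_left_inj.1 (h2.symm.trans (one_mul _).symm)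
    rw [Matrix.sub_apply, map_sub,
      show M.proj j' (M.rR s i k) = ((M.rR s).map (M.proj j')) i k from rfl, h3]
    rcases eq_or_ne i k with rfl | hne <;> simp [*]
  rw [hf]
  exact key j ((Pts.L j).unr (Bd.qn x) (Bd.qn_prime x)
    (by rw [hj]; exact Bd.qn_not_dvd_lev hx) hqp A hA s hs)

/-- Traces and determinants of Frobenius elements. -/
theorem BasePoints.baseHom_frob {f : M.R →ₐ[O] Bd.alg} (hf : Pts.IsBaseHom M f)
    {ℓ : Nat.Primes} (hℓ : ℓ ∉ Bd.S) {A : ValuationSubring Qb} (hA : A.LiesOverPrime (ℓ : ℕ))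
    {σ : GQ} (hσ : A.IsFrobeniusAt σ (ℓ : ℕ)) :
    f (M.rR σ).trace = Bd.Tl ℓ ∧ f (M.rR σ).det = ((ℓ : ℕ) : Bd.alg) := by
  have hdet : ∀ j' : Pts.fam.J, M.proj j' (M.rR σ).det = (Pts.fam.r j' σ).det := fun j' => by
    obtain ⟨U, hU, hUσ⟩ := M.proj_rR j'
    have h := congrArg Matrix.det (hUσ σ)
    rw [Matrix.det_mul, Matrix.det_mul, mul_comm U.det] at h
    rw [AlgHom.map_det, AlgHom.mapMatrix_apply]
    exact ((hU.map Matrix.detMonoidHom).mul_right_cancel h).symm
  refine ⟨sub_eq_zero.1 (Pts.separate _ fun j => ?_), sub_eq_zero.1 (Pts.separate _ fun j => ?_)⟩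
  · rw [map_sub, sub_eq_zero]
    exact (hf _ j).trans ((M.proj_trace j σ).trans ((Pts.L j).frob ℓ hℓ A hA σ hσ).1.symm)
  · rw [map_sub, map_natCast, sub_eq_zero]
    exact (hf _ j).trans ((hdet j).trans ((Pts.L j).frob ℓ hℓ A hA σ hσ).2)

end BaseData

variable [Algebra Qb ℂ]

/-- The relation at `q` on operators killed at level `M`. -/
theorem exists_U_relation (hpO : (p : O) ∈ maximalIdeal O) {N M q : ℕ} [NeZero N] [NeZero M]
    (hN : N = M * q) [Fact q.Prime] (hqM : ¬ q ∣ M) (hqp : q ≠ p) (S : Finset Nat.Primes)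
    (hpS : (⟨p, hp.out⟩ : Nat.Primes) ∈ S) (hSN : ∀ ℓ : Nat.Primes, ℓ ∉ S → ¬ (ℓ : ℕ) ∣ N)
    (hSM : ∀ ℓ : Nat.Primes, ℓ ∉ S → ¬ (ℓ : ℕ) ∣ M) {A : ValuationSubring Qb}
    (hA : A.LiesOverPrime q) {σ : GQ} (hσ : A.IsFrobeniusAt σ q) :
    ∃ t : HFull N, ∀ Q : MvPolynomial Nat.Primes O, latPoly O M S hSM Q = 0 → ∀ z : LatO O N,
      galR hpO (lvlGamma0 N) σ (latPoly O N S hSN Q z) +
          (q : O) • galR hpO (lvlGamma0 N) σ⁻¹ (latPoly O N S hSN Q z) =
        ((q : O) + 1) • latT O N t (latPoly O N S hSN Q z) := by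
  classical
  subst hN
  haveI : NeZero q := ⟨(Fact.out : q.Prime).ne_zero⟩
  refine ⟨uQ M q, fun Q hQ z => ?_⟩
  let B : Finset ℕ := S.image fun l : Nat.Primes => (l : ℕ)
  have hS : ∀ ℓ : Nat.Primes, ℓ ∉ S → ¬ (ℓ : ℕ) ∣ M * q ∧ (ℓ : ℕ) ∉ B := fun ℓ hℓ =>
    ⟨hSN ℓ hℓ, fun h => by
      obtain ⟨l, hl, e⟩ := Finset.mem_image.1 h
      exact hℓ (Subtype.ext e ▸ hl)⟩
  have hpB : p ∈ B := Finset.mem_image.2 ⟨_, hpS, rfl⟩
  have hbot : pairActBot (dvd_mul_right M q) O (pairPoly O (dvd_mul_right M q) S hS Q) = 0 :=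
    (pairActBot_pairPoly O _ S hS hSM Q).trans hQ
  have key := galR_add_eq_U hpO hqM hpB hqp hA hσ (pairPoly O (dvd_mul_right M q) S hS Q) hbot z
  rw [pairActTop_pairPoly] at key
  exact key

namespace BaseData

variable {ι : Type} [DecidableEq ι] [Fintype ι] (Bd : BaseData O ι)

theorem latEmb_algAct_poly {a : Bd.alg} {P : MvPolynomial Nat.Primes O}
    (hP : ∀ K x, (Bd.frame K).emb (Bd.algAct K a x) =
      (FA.HeckeH1.heckePoly (Bd.lev K) ⊤ O Bd.S P).1 ((Bd.frame K).emb x))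
    (K : Finset ι) (x : Fin (Bd.frame K).d → O) :
    Bd.latEmb K (Bd.algAct K a x) = Bd.levPoly K P (Bd.latEmb K x) :=
  toH1_injective O (Bd.lev K) (by rw [toH1_latEmb, hP, toH1_latPoly, toH1_latEmb])

/-- **Frobenius at an auxiliary prime on the elements vanishing below.** -/
theorem exists_frame_U (hpO : (p : O) ∈ maximalIdeal O)
    (hpS : (⟨p, hp.out⟩ : Nat.Primes) ∈ Bd.S) {x : ι} {K : Finset ι} (hx : x ∈ K)
    (hqp : Bd.qn x ≠ p) {A : ValuationSubring Qb} (hA : A.LiesOverPrime (Bd.qn x)) {σ : GQ}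
    (hσ : A.IsFrobeniusAt σ (Bd.qn x)) :
    ∃ U : Module.End O (Fin (Bd.frame K).d → O), (∀ a, Commute (Bd.algAct K a) U) ∧
      ∀ a : Bd.alg, Bd.toGood (K.erase x) a = 0 → ∀ v,
        Bd.galFrame K hpO σ (Bd.algAct K a v) +
            (Bd.qn x : O) • Bd.galFrame K hpO σ⁻¹ (Bd.algAct K a v) =
          ((Bd.qn x : O) + 1) • U (Bd.algAct K a v) := by
  obtain ⟨t, ht⟩ := exists_U_relation hpO (Bd.isStep hx).eq
    (Bd.qn_not_dvd_lev (Finset.notMem_erase x K)) hqp Bd.S hpS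
    (fun ℓ h => Bd.not_dvd_lev h K) (fun ℓ h => Bd.not_dvd_lev h (K.erase x)) hA hσ
  have hcomm : ∀ z, latT O (Bd.lev K) t (Bd.levPoly K Bd.idemPoly z) =
      Bd.levPoly K Bd.idemPoly (latT O (Bd.lev K) t z) :=
    latT_latPoly O _ _ _ t _
  refine ⟨Bd.frameLat K (latT O (Bd.lev K) t), fun a => ?_, fun a ha v => ?_⟩
  · obtain ⟨P, hP⟩ := Bd.exists_poly a
    refine LinearMap.ext fun v => Bd.latEmb_injective K ?_
    rw [Module.End.mul_apply, Module.End.mul_apply, Bd.latEmb_algAct_poly hP,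
      latEmb_frameLat Bd K _ hcomm, latEmb_frameLat Bd K _ hcomm, Bd.latEmb_algAct_poly hP]
    exact (latT_latPoly O _ _ _ t P _).symm
  · obtain ⟨P, hP⟩ := Bd.exists_poly a
    have hbot : latPoly O (Bd.lev (K.erase x)) Bd.S (fun ℓ h => Bd.not_dvd_lev h (K.erase x))
        (P * Bd.idemPoly) = 0 := LinearMap.ext fun z => by
      rw [map_mul, Module.End.mul_apply, ← latEmb_latCoord, ← Bd.latEmb_algAct_poly hP,
        algAct_apply, ha, map_zero, LinearMap.zero_apply, map_zero]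
      rfl
    refine Bd.latEmb_injective K ?_
    rw [map_add, map_smul, map_smul, latEmb_galFrame, latEmb_galFrame,
      latEmb_frameLat Bd K _ hcomm]
    have e : Bd.latEmb K (Bd.algAct K a v) =
        Bd.levPoly K (P * Bd.idemPoly) (Bd.latEmb K v) := by
      rw [map_mul, Module.End.mul_apply, idemPoly_latEmb, Bd.latEmb_algAct_poly hP]
    rw [e]
    exact ht _ hbot _

end BaseData

end FA.Two
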