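import Mathlib.Algebra.Module.Submodule.Range
import Mathlib.Algebra.Module.Pi
import Mathlib.Algebra.BigOperators.Group.Finset.Basic
import Mathlib.Algebra.BigOperators.Pi
import Mathlib.LinearAlgebra.Span.Basic

/-!
# Old and new parts in a cube of levels

Modules indexed by finite sets of primes with two degeneracy maps in each direction for each
prime, and for each prime `q` an element `n q` of the acting ring whose kernel is the old part at
`q` and whose image is the kernel of the maps down. Then products of the `n q` have the sum of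
the old parts as kernel and the intersection of the kernels as image, and are not zero if the
compositions down after up are nilpotent and the bottom is not zero.
-/

set_option autoImplicit false

namespace FA.Two

variable {ι : Type} [DecidableEq ι] (A : Type) [CommRing A] (V : Finset ι → Type)
  [∀ K, AddCommGroup (V K)] [∀ K, Module A (V K)]

/-- Degeneracy maps on a cube of levels and the operators `n`. -/
structure Cube where
  /-- the maps up -/
  up : ∀ (q : ι) {K K' : Finset ι}, q ∉ K → insert q K = K' → (Fin 2 → V K) →ₗ[A] V K'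
  /-- the maps down -/
  down : ∀ (q : ι) {K K' : Finset ι}, q ∉ K → insert q K = K' → V K' →ₗ[A] (Fin 2 → V K)
  /-- the operators -/
  n : ι → A
  up_injective : ∀ (q : ι) {K K' : Finset ι} (h : q ∉ K) (h' : insert q K = K'),
    Function.Injective (up q h h')
  down_surjective : ∀ (q : ι) {K K' : Finset ι} (h : q ∉ K) (h' : insert q K = K'),
    Function.Surjective (down q h h')
  ker_n : ∀ (q : ι) {K K' : Finset ι} (h : q ∉ K) (h' : insert q K = K') (v : V K'),
    n q • v = 0 ↔ v ∈ LinearMap.range (up q h h')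
  image_n : ∀ (q : ι) {K K' : Finset ι} (h : q ∉ K) (h' : insert q K = K') (w : V K'),
    down q h h' w = 0 ↔ ∃ v, n q • v = w
  down_up : ∀ {p q : ι} {K₀ Kp Kq K : Finset ι} (hp : p ∉ K₀) (hp' : insert p K₀ = Kp)
    (hq : q ∉ K₀) (hq' : insert q K₀ = Kq) (hp₁ : p ∉ Kq) (hp₁' : insert p Kq = K)
    (hq₁ : q ∉ Kp) (hq₁' : insert q Kp = K) (y : Fin 2 → V Kp) (i : Fin 2),
    down p hp₁ hp₁' (up q hq₁ hq₁' y) i = up q hq hq' fun j => down p hp hp' (y j) i
  down_down : ∀ {p q : ι} {K₀ Kp Kq K : Finset ι} (hp : p ∉ K₀) (hp' : insert p K₀ = Kp)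
    (hq : q ∉ K₀) (hq' : insert q K₀ = Kq) (hp₁ : p ∉ Kq) (hp₁' : insert p Kq = K)
    (hq₁ : q ∉ Kp) (hq₁' : insert q Kp = K) (x : V K) (i j : Fin 2),
    down p hp hp' (down q hq₁ hq₁' x j) i = down q hq hq' (down p hp₁ hp₁' x i) j

namespace Cube

variable {A V} (C : Cube A V)

/-- The product of the operators. -/
def prodN (J : Finset ι) : A := ∏ q ∈ J, C.n q

/-- The old part at `q`. -/
def old (K : Finset ι) (q : ι) (hq : q ∈ K) : Submodule A (V K) :=
  LinearMap.range (C.up q (Finset.notMem_erase q K) (Finset.insert_erase hq))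

/-- The old part at a set of primes. -/
def oldSum (J K : Finset ι) (h : J ⊆ K) : Submodule A (V K) :=
  ⨆ q : {q // q ∈ J}, C.old K q.1 (h q.2)

theorem n_up {q : ι} {K K' : Finset ι} (h : q ∉ K) (h' : insert q K = K') (y : Fin 2 → V K) :
    C.n q • C.up q h h' y = 0 :=
  (C.ker_n q h h' _).mpr ⟨y, rfl⟩

theorem range_up_eq_old {q : ι} {K K' : Finset ι} (h : q ∉ K) (h' : insert q K = K')
    (hq : q ∈ K') : LinearMap.range (C.up q h h') = C.old K' q hq := by
  obtain rfl : K = K'.erase q := by rw [← h', Finset.erase_insert h]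
  rfl

theorem up_mem_oldSum {J K' : Finset ι} (hJ : J ⊆ K') {q : ι} (hq : q ∈ J) {K : Finset ι}
    (h : q ∉ K) (h' : insert q K = K') (y : Fin 2 → V K) :
    C.up q h h' y ∈ C.oldSum J K' hJ := by
  refine (le_iSup (fun q : {q // q ∈ J} => C.old K' q.1 (hJ q.2)) ⟨q, hq⟩) ?_
  rw [← C.range_up_eq_old h h' (hJ hq)]
  exact ⟨y, rfl⟩

theorem prodN_oldSum {J K : Finset ι} (h : J ⊆ K) {v : V K} (hv : v ∈ C.oldSum J K h) :
    C.prodN J • v = 0 := by
  refine Submodule.iSup_induction (motive := fun v => C.prodN J • v = 0) _ hv ?_ (smul_zero _)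
    fun x y hx hy => by rw [smul_add, hx, hy, add_zero]
  rintro ⟨q, hq⟩ _ ⟨y, rfl⟩
  rw [prodN, ← Finset.prod_erase_mul J C.n hq, mul_smul, C.n_up, smul_zero]

/-- **Kernels and images of products.** -/
theorem ker_image_prodN (J : Finset ι) :
    (∀ (K : Finset ι) (h : J ⊆ K) (v : V K), C.prodN J • v = 0 → v ∈ C.oldSum J K h) ∧
    ∀ (K : Finset ι), J ⊆ K → ∀ w : V K, (∀ q ∈ J, ∀ (K₁ : Finset ι) (h₁ : q ∉ K₁)
      (h₁' : insert q K₁ = K), C.down q h₁ h₁' w = 0) → ∃ v, C.prodN J • v = w := by
  classical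
  induction J using Finset.induction_on with
  | empty =>
    refine ⟨fun K h v hv => ?_, fun K _ w _ => ⟨w, by rw [prodN, Finset.prod_empty, one_smul]⟩⟩
    rw [prodN, Finset.prod_empty, one_smul] at hv
    rw [hv]; exact zero_mem _
  | @insert q J hqJ ih =>
    obtain ⟨ihP, ihQ⟩ := ih
    have hprod : C.prodN (insert q J) = C.n q * C.prodN J := Finset.prod_insert hqJ
    refine ⟨fun K h v hv => ?_, fun K h w hw => ?_⟩
    · have hJK : J ⊆ K := fun x hx => h (Finset.mem_insert_of_mem hx)
      have hqK : q ∈ K := h (Finset.mem_insert_self q J)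
      rw [hprod, mul_smul] at hv
      obtain ⟨y, hy⟩ :=
        (C.ker_n q (Finset.notMem_erase q K) (Finset.insert_erase hqK) _).mp hv
      have hJK₁ : J ⊆ K.erase q := fun x hx =>
        Finset.mem_erase.mpr ⟨fun e => hqJ (e ▸ hx), hJK hx⟩
      -- `y` is killed by all maps down
      have hdown : ∀ j, ∀ p ∈ J, ∀ (K₀ : Finset ι) (hp : p ∉ K₀)
          (hp' : insert p K₀ = K.erase q), C.down p hp hp' (y j) = 0 := by
        intro j p hp K₀ hp₀ hp₀'
        have hpq : p ≠ q := fun e => hqJ (e ▸ hp)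
        have hqK₀ : q ∉ K₀ := fun e => Finset.notMem_erase q K (hp₀' ▸ Finset.mem_insert_of_mem e)
        have hp₁ : p ∉ insert q K₀ := fun e => (Finset.mem_insert.mp e).elim hpq hp₀
        have hp₁' : insert p (insert q K₀) = K := by
          rw [Finset.insert_comm, hp₀', Finset.insert_erase hqK]
        funext i
        have hz : C.down p hp₁ hp₁' (C.prodN J • v) i = 0 := by
          rw [prodN, ← Finset.mul_prod_erase J C.n hp, mul_smul,
            ((C.image_n p hp₁ hp₁' _).mpr ⟨_, rfl⟩ : _)]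
          rfl
        rw [← hy, C.down_up hp₀ hp₀' hqK₀ rfl hp₁ hp₁' (Finset.notMem_erase q K)
          (Finset.insert_erase hqK)] at hz
        have := C.up_injective q hqK₀ rfl (hz.trans (map_zero _).symm)
        exact congrFun this j
      choose z hz using fun j => ihQ (K.erase q) hJK₁ (y j) (hdown j)
      have hker : v - C.up q (Finset.notMem_erase q K) (Finset.insert_erase hqK) z ∈
          C.oldSum J K hJK := by
        refine ihP K hJK _ ?_
        rw [smul_sub, ← hy, ← map_smul, sub_eq_zero]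
        exact congrArg _ (funext fun j => (hz j).symm)
      rw [← sub_add_cancel v (C.up q (Finset.notMem_erase q K) (Finset.insert_erase hqK) z)]
      refine add_mem ?_ (C.up_mem_oldSum h (Finset.mem_insert_self q J) _ _ _)
      exact (iSup_le fun p : {p // p ∈ J} =>
        le_iSup (fun p : {p // p ∈ insert q J} => C.old K p.1 (h p.2))
          ⟨p.1, Finset.mem_insert_of_mem p.2⟩) hker
    · have hJK : J ⊆ K := fun x hx => h (Finset.mem_insert_of_mem hx)
      have hqK : q ∈ K := h (Finset.mem_insert_self q J)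
      obtain ⟨v, hv⟩ := ihQ K hJK w fun p hp => hw p (Finset.mem_insert_of_mem hp)
      have hJK₁ : J ⊆ K.erase q := fun x hx =>
        Finset.mem_erase.mpr ⟨fun e => hqJ (e ▸ hx), hJK hx⟩
      set d := C.down q (Finset.notMem_erase q K) (Finset.insert_erase hqK) with hd
      have hdv : ∀ i, d v i ∈ C.oldSum J (K.erase q) hJK₁ := fun i => by
        refine ihP _ hJK₁ _ ?_
        have h0 := congrFun (hw q (Finset.mem_insert_self q J) _ (Finset.notMem_erase q K)
          (Finset.insert_erase hqK)) i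
        rw [← hv, map_smul] at h0
        exact h0
      -- old vectors come from old vectors
      have hold : ∀ (i : Fin 2) (u : V (K.erase q)), u ∈ C.oldSum J (K.erase q) hJK₁ →
          ∃ u', u' ∈ C.oldSum J K hJK ∧ d u' = Pi.single i u := by
        intro i u hu
        refine Submodule.iSup_induction
          (motive := fun u => ∃ u', u' ∈ C.oldSum J K hJK ∧ d u' = Pi.single i u) _ hu ?_
          ⟨0, zero_mem _, by rw [map_zero, Pi.single_zero]⟩ ?_
        · rintro ⟨p, hp⟩ _ ⟨y, rfl⟩
          dsimp only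
          have hpq : p ≠ q := fun e => hqJ (e ▸ hp)
          have hq₀ : q ∉ (K.erase q).erase p := fun e =>
            Finset.notMem_erase q K (Finset.erase_subset _ _ e)
          have hp₁ : p ∉ insert q ((K.erase q).erase p) := fun e =>
            (Finset.mem_insert.mp e).elim hpq (Finset.notMem_erase p _)
          have hp₁' : insert p (insert q ((K.erase q).erase p)) = K := by
            rw [Finset.insert_comm, Finset.insert_erase (hJK₁ hp), Finset.insert_erase hqK]
          choose y' hy' using fun j => C.down_surjective q hq₀ rfl (Pi.single i (y j))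
          refine ⟨C.up p hp₁ hp₁' y', C.up_mem_oldSum hJK hp _ _ _, funext fun l => ?_⟩
          rw [hd, C.down_up hq₀ rfl (Finset.notMem_erase p _) (Finset.insert_erase (hJK₁ hp))
            (Finset.notMem_erase q K) (Finset.insert_erase hqK) hp₁ hp₁']
          simp only [hy']
          rcases eq_or_ne l i with rfl | hne
          · simp
          · simp only [Pi.single_eq_of_ne hne]
            exact map_zero _
        · rintro x x' ⟨u, hu, hux⟩ ⟨u', hu', hux'⟩
          exact ⟨u + u', add_mem hu hu', by rw [map_add, hux, hux', Pi.single_add]⟩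
      choose u hu hud using fun i => hold i (d v i) (hdv i)
      have h0 : d (v - ∑ i, u i) = 0 := by
        rw [map_sub, map_sum, sub_eq_zero]
        simp only [hud]
        exact (Finset.univ_sum_single (d v)).symm
      obtain ⟨x, hx⟩ := (C.image_n q (Finset.notMem_erase q K) (Finset.insert_erase hqK) _).mp h0
      refine ⟨x, ?_⟩
      rw [hprod, mul_comm, mul_smul, hx, smul_sub, hv,
        C.prodN_oldSum hJK (sum_mem fun i _ => hu i), sub_zero]

theorem mem_oldSum_of_prodN_eq_zero {J K : Finset ι} (h : J ⊆ K) {v : V K}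
    (hv : C.prodN J • v = 0) : v ∈ C.oldSum J K h := (C.ker_image_prodN J).1 K h v hv

theorem prodN_smul_eq_zero_iff {J K : Finset ι} (h : J ⊆ K) (v : V K) :
    C.prodN J • v = 0 ↔ v ∈ C.oldSum J K h :=
  ⟨C.mem_oldSum_of_prodN_eq_zero h, C.prodN_oldSum h⟩

/-- **New vectors exist.** -/
theorem exists_prodN_ne_zero (hbot : ∃ w : V ∅, w ≠ 0)
    (hnil : ∀ (q : ι) {K K' : Finset ι} (h : q ∉ K) (h' : insert q K = K'), ∃ m : ℕ,
      ∀ y, (fun z => C.down q h h' (C.up q h h' z))^[m] y = 0) (K : Finset ι) :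
    ∃ v : V K, C.prodN K • v ≠ 0 := by
  classical
  suffices h : ∃ w : V K, w ≠ 0 ∧ ∀ q ∈ K, ∀ (K₁ : Finset ι) (h₁ : q ∉ K₁)
      (h₁' : insert q K₁ = K), C.down q h₁ h₁' w = 0 by
    obtain ⟨w, hw0, hw⟩ := h
    obtain ⟨v, hv⟩ := (C.ker_image_prodN K).2 K (Finset.Subset.refl K) w hw
    exact ⟨v, hv ▸ hw0⟩
  induction K using Finset.induction_on with
  | empty =>
    obtain ⟨w, hw⟩ := hbot
    exact ⟨w, hw, fun q hq => absurd hq (Finset.notMem_empty q)⟩
  | @insert q K hqK ih =>
    obtain ⟨w, hw0, hw⟩ := ih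
    let D : (Fin 2 → V K) → Fin 2 → V K := fun z => C.down q hqK rfl (C.up q hqK rfl z)
    let Z : Set (Fin 2 → V K) := {y | ∀ j, ∀ p ∈ K, ∀ (K₁ : Finset ι) (h₁ : p ∉ K₁)
      (h₁' : insert p K₁ = K), C.down p h₁ h₁' (y j) = 0}
    have hup : ∀ y ∈ Z, ∀ p ∈ K, ∀ (K₁ : Finset ι) (h₁ : p ∉ K₁)
        (h₁' : insert p K₁ = insert q K), C.down p h₁ h₁' (C.up q hqK rfl y) = 0 := by
      intro y hy p hp K₁ h₁ h₁'
      have hpq : p ≠ q := fun e => hqK (e ▸ hp)
      obtain rfl : K₁ = insert q (K.erase p) := by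
        rw [← Finset.erase_insert_of_ne hpq.symm, ← h₁', Finset.erase_insert h₁]
      funext i
      rw [C.down_up (Finset.notMem_erase p K) (Finset.insert_erase hp)
        (fun e => hqK (Finset.erase_subset _ _ e)) rfl h₁ h₁' hqK rfl]
      rw [show (fun j => C.down p _ _ (y j) i) = 0 from funext fun j =>
        congrFun (hy j p hp _ _ _) i, map_zero]
      rfl
    have hD : ∀ y ∈ Z, D y ∈ Z := by
      intro y hy j p hp K₁ h₁ h₁'
      have hqK₁ : q ∉ K₁ := fun e => hqK (h₁' ▸ Finset.mem_insert_of_mem e)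
      have hp₁ : p ∉ insert q K₁ := fun e =>
        (Finset.mem_insert.mp e).elim (fun e => hqK (e ▸ hp)) h₁
      have hp₁' : insert p (insert q K₁) = insert q K := by rw [Finset.insert_comm, h₁']
      funext i
      show C.down p h₁ h₁' (C.down q hqK rfl (C.up q hqK rfl y) j) i = 0
      rw [C.down_down h₁ h₁' hqK₁ rfl hp₁ hp₁' hqK rfl, hup y hy p hp _ hp₁ hp₁', Pi.zero_apply,
        map_zero]
      rfl
    have hwZ : (Pi.single 0 w : Fin 2 → V K) ∈ Z := fun j p hp K₁ h₁ h₁' => by
      rcases eq_or_ne j 0 with rfl | hj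
      · rw [Pi.single_eq_same]; exact hw p hp K₁ h₁ h₁'
      · rw [Pi.single_eq_of_ne hj, map_zero]
    obtain ⟨m, hm⟩ := hnil q hqK (rfl : insert q K = insert q K)
    have hlast : ∀ m : ℕ, ∀ y ∈ Z, y ≠ 0 → D^[m] y = 0 → ∃ z ∈ Z, z ≠ 0 ∧ D z = 0 := by
      intro m
      induction m with
      | zero => exact fun y _ hy h0 => absurd h0 hy
      | succ m ihm =>
        intro y hy hy0 h0
        rw [Function.iterate_succ_apply] at h0
        by_cases hDy : D y = 0
        · exact ⟨y, hy, hy0, hDy⟩
        · exact ihm (D y) (hD y hy) hDy h0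
    obtain ⟨z, hz, hz0, hDz⟩ := hlast m _ hwZ (fun e => hw0 (by simpa using congrFun e 0)) (hm _)
    refine ⟨C.up q hqK rfl z, fun e => hz0 (C.up_injective q hqK rfl (e.trans (map_zero _).symm)),
      fun p hp K₁ h₁ h₁' => ?_⟩
    rcases Finset.mem_insert.mp hp with rfl | hpK
    · obtain rfl : K₁ = K := by rw [← Finset.erase_insert h₁, h₁', Finset.erase_insert hqK]
      exact hDz
    · exact hup z hz p hpK K₁ h₁ h₁'

end Cube

end FA.Two
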