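import Fermat.Agent.Two.DepthData
import Fermat.Agent.Two.BaseMaps
import Fermat.Agent.HeckeH1.DepthLevel
import Fermat.Agent.HeckeH1.Parabolic
import Mathlib.RepresentationTheory.Maschke
import Mathlib.RingTheory.Jacobson.Semiprimary
import Mathlib.RingTheory.Ideal.MinimalPrime.Localization

/-!
# The free modules of the pieces at the Taylor-Wiles levels of the base

The pieces as free modules over the group ring of the diamond group, the Hecke operators and the
maps up as matrices reducing to those of the base, and the properties of their algebras.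
-/

set_option autoImplicit false
set_option linter.unusedSectionVars false
set_option linter.style.haveILetI false
set_option synthInstance.maxHeartbeats 400000
set_option maxHeartbeats 1000000

noncomputable section

namespace FA.Two

open IsLocalRing Matrix FA.HeckeH1
open scoped MatrixGroups

/-- Group algebras of finite abelian groups over reduced rings without torsion are reduced. -/
theorem isReduced_monoidAlgebra {A G : Type} [CommRing A] [IsReduced A] [CommGroup G] [Finite G]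
    (hreg : ∀ n : ℕ, n ≠ 0 → (n : A) ∈ nonZeroDivisors A) : IsReduced (MonoidAlgebra A G) := by
  refine ⟨fun x hx => MonoidAlgebra.ext (Finsupp.ext fun g => ?_)⟩
  have h1 : x.coeff g ∈ sInf (⊥ : Ideal A).minimalPrimes := by
    refine Submodule.mem_sInf.2 fun (P : Ideal A) hP => ?_
    haveI : P.IsPrime := hP.1.1
    let f : A →+* FractionRing (A ⧸ P) := (algebraMap (A ⧸ P) _).comp (Ideal.Quotient.mk P)
    have hker : ∀ a, f a = 0 → a ∈ P := fun a ha => Ideal.Quotient.eq_zero_iff_mem.1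
      ((map_eq_zero_iff _ (IsFractionRing.injective (A ⧸ P) (FractionRing (A ⧸ P)))).1 ha)
    haveI : CharZero (FractionRing (A ⧸ P)) := charZero_of_inj_zero fun n hn => by
      by_contra h0
      refine Set.disjoint_left.1 (Ideal.disjoint_nonZeroDivisors_of_mem_minimalPrimes hP)
        (hker _ ?_) (hreg n h0)
      rw [map_natCast]
      exact hn
    haveI : NeZero (Nat.card G : FractionRing (A ⧸ P)) := ⟨Nat.cast_ne_zero.2 Nat.card_pos.ne'⟩
    haveI hs : IsSemisimpleRing (MonoidAlgebra (FractionRing (A ⧸ P)) G) := inferInstance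
    haveI : IsReduced (MonoidAlgebra (FractionRing (A ⧸ P)) G) := inferInstance
    have h2 : MonoidAlgebra.mapRingHom G f x = 0 := (hx.map _).eq_zero
    refine hker _ ?_
    simpa using congrArg (fun y : MonoidAlgebra _ G => y.coeff g) h2
  rw [Ideal.sInf_minimalPrimes] at h1
  exact IsReduced.eq_zero _ (mem_nilradical.1 h1)

variable {O : Type} [CommRing O] [IsDomain O] [IsDiscreteValuationRing O]
  [IsAdicComplete (maximalIdeal O) O] [CharZero O] [CharP (ResidueField O) 2]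
  {ι : Type} [DecidableEq ι]

namespace BaseData

namespace TWData

variable {Bd : BaseData O ι} {r n : ℕ} (T : Bd.TWData r n)

local notation "Λ" => MonoidAlgebra O (TWData.Dgrp T)

/-- The operators of the group. -/
def dHomG (K : Finset ι) : T.Dgrp →* Module.End O (Hom1 (GamH (T.lvl K) (T.H K)) O) :=
  (diaHom (T.lvl K) (T.H K) O).comp (T.iota K).symm.toMonoidHom

theorem dHomG_apply (K : Finset ι) (g : T.Dgrp) :
    T.dHomG K g = diaHom (T.lvl K) (T.H K) O ((T.iota K).symm g) := rfl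

/-- The action of the group ring. -/
def rho (K : Finset ι) :
    MonoidAlgebra O T.Dgrp →ₐ[O] Module.End O (Hom1 (GamH (T.lvl K) (T.H K)) O) :=
  MonoidAlgebra.lift O (Module.End O (Hom1 (GamH (T.lvl K) (T.H K)) O)) T.Dgrp (T.dHomG K)

theorem rho_single (K : Finset ι) (g : T.Dgrp) (z : Hom1 (GamH (T.lvl K) (T.H K)) O) :
    T.rho K (MonoidAlgebra.single g 1) z = T.dHomG K g z := by
  simp [rho]

theorem goodOp_rho (K : Finset ι) (a : pairGood (T.lvl K) (T.H K) O)
    (s : MonoidAlgebra O T.Dgrp) (z : Hom1 (GamH (T.lvl K) (T.H K)) O) :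
    goodOp (T.lvl K) (T.H K) O a (T.rho K s z) =
      T.rho K s (goodOp (T.lvl K) (T.H K) O a z) :=
  lift_intertwine (T.dHomG K) (T.dHomG K) _
    (fun _ x => goodOp_comm _ _ _ a (diaPair_mem _ _ _ _) x) s z

theorem pair_rho (K : Finset ι) {x : PairEnd (T.lvl K) (T.H K) O}
    (hx : x ∈ pairAlg (T.lvl K) (T.H K) O) (s : MonoidAlgebra O T.Dgrp)
    (z : Hom1 (GamH (T.lvl K) (T.H K)) O) : x.1 (T.rho K s z) = T.rho K s (x.1 z) :=
  lift_intertwine (T.dHomG K) (T.dHomG K) _ (fun _ z => pair_dia _ _ _ hx _ z) s z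

/-- The group ring as that of the diamonds. -/
def toQuot (K : Finset ι) :
    MonoidAlgebra O T.Dgrp ≃ₐ[O] MonoidAlgebra O ((ZMod (T.lvl K))ˣ ⧸ T.H K) :=
  MonoidAlgebra.domCongr O O (T.iota K).symm

theorem lift_toQuot (K : Finset ι) (s : MonoidAlgebra O T.Dgrp) :
    MonoidAlgebra.lift O (Module.End O (Hom1 (GamH (T.lvl K) (T.H K)) O)) _
      (diaHom (T.lvl K) (T.H K) O) (T.toQuot K s) = T.rho K s := by
  induction s using MonoidAlgebra.induction_linear with
  | zero => simp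
  | add a b ha hb => rw [map_add, map_add, map_add, ha, hb]
  | single g a => simp [toQuot, rho, dHomG]

/-- The embedding of the coordinates. -/
def embU (K : Finset ι) :
    (Fin (Bd.frame K).d → MonoidAlgebra O T.Dgrp) →ₗ[O] Hom1 (GamH (T.lvl K) (T.H K)) O :=
  ∑ i, (LinearMap.applyₗ ((T.tw K).D.u (Fin.cast (T.tw K).d_eq.symm i))).comp
    ((T.rho K).toLinearMap.comp (LinearMap.proj i))

theorem embU_apply (K : Finset ι) (a : Fin (Bd.frame K).d → MonoidAlgebra O T.Dgrp) :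
    T.embU K a = ∑ i, T.rho K (a i) ((T.tw K).D.u (Fin.cast (T.tw K).d_eq.symm i)) := by
  simp [embU]

theorem embU_eq_combo (K : Finset ι) (a : Fin (Bd.frame K).d → MonoidAlgebra O T.Dgrp) :
    T.embU K a = combo (diaHom (T.lvl K) (T.H K) O) (T.tw K).D.u
      (fun j => T.toQuot K (a (Fin.cast (T.tw K).d_eq j))) := by
  rw [embU_apply, combo_apply]
  refine (Fintype.sum_equiv (finCongr (T.tw K).d_eq) _ _ fun j => ?_).symm
  rw [lift_toQuot]
  simp

theorem embU_injective (K : Finset ι) : Function.Injective (T.embU K) := fun a b hab =>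
  funext fun i => by
    rw [T.embU_eq_combo, T.embU_eq_combo] at hab
    have h1 := congrFun ((T.tw K).D.inj hab) (Fin.cast (T.tw K).d_eq.symm i)
    simpa using (T.toQuot K).injective h1

theorem e_embU (K : Finset ι) (a : Fin (Bd.frame K).d → MonoidAlgebra O T.Dgrp) :
    T.eK K (T.embU K a) = T.embU K a := by
  rw [T.embU_apply, map_sum]
  refine Finset.sum_congr rfl fun i _ => ?_
  rw [eK, T.pair_rho K (pairAway_le _ _ _ _ (T.tw K).e.2)]
  have h1 := (T.tw K).D.e_u (Fin.cast (T.tw K).d_eq.symm i)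
  rw [incl_val] at h1
  rw [h1]

theorem exists_embU (K : Finset ι) (x : Hom1 (GamH (T.lvl K) (T.H K)) O) :
    ∃ a, T.embU K a = T.eK K x := by
  have hfix : (incl (T.lvl K) (T.H K) O Bd.S (T.tw K).e).1.1 (T.eK K x) = T.eK K x := by
    rw [incl_val]
    exact LinearMap.congr_fun
      (congrArg (fun y : pairAway (T.lvl K) (T.H K) O Bd.S => y.1.1) (T.tw K).piece.idem.eq) x
  obtain ⟨a, ha⟩ := (T.tw K).D.span _ hfix
  refine ⟨fun i => (T.toQuot K).symm (a (Fin.cast (T.tw K).d_eq.symm i)),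
    (T.embU_eq_combo K _).trans ((congrArg (combo _ _) (funext fun j => ?_)).trans ha)⟩
  simp

theorem embU_smul (K : Finset ι) (s : MonoidAlgebra O T.Dgrp)
    (a : Fin (Bd.frame K).d → MonoidAlgebra O T.Dgrp) :
    T.embU K (s • a) = T.rho K s (T.embU K a) := by
  rw [T.embU_apply, T.embU_apply, map_sum]
  refine Finset.sum_congr rfl fun i _ => ?_
  exact LinearMap.congr_fun (map_mul (T.rho K) s (a i)) _

/-- The frame of the piece, before fixing its rank. -/
def rawFrame (K : Finset ι) : Frame (T.rho K) :=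
  Frame.ofEmb (Bd.frame K).d (T.embU K) (T.embU_injective K) (T.eK K) (T.e_embU K)
    (T.exists_embU K) (T.embU_smul K)
    (fun s x => T.pair_rho K (pairAway_le _ _ _ _ (T.tw K).e.2) s x)

/-- The frame of the piece, with the rank and the idempotent as given. -/
abbrev tframe (K : Finset ι) : Frame (T.rho K) where
  d := (Bd.frame K).d
  emb := T.embU K
  coord := (T.rawFrame K).coord
  e := T.eK K
  coord_emb := (T.rawFrame K).coord_emb
  emb_coord := (T.rawFrame K).emb_coord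
  emb_smul := (T.rawFrame K).emb_smul
  e_ρ := (T.rawFrame K).e_ρ

theorem tframe_e (K : Finset ι) : (T.tframe K).e = T.eK K := rfl

theorem tframe_emb (K : Finset ι) : (T.tframe K).emb = T.embU K := rfl

theorem goodOp_tframe_e (K : Finset ι) (a : pairGood (T.lvl K) (T.H K) O)
    (z : Hom1 (GamH (T.lvl K) (T.H K)) O) :
    goodOp (T.lvl K) (T.H K) O a ((T.tframe K).e z) =
      (T.tframe K).e (goodOp (T.lvl K) (T.H K) O a z) :=
  goodOp_comm _ _ _ a (pairAway_le _ _ _ _ (T.tw K).e.2) z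

/-- **The pieces are parabolic.** -/
theorem eK_mem_Par (K : Finset ι) (z : Hom1 (GamH (T.lvl K) (T.H K)) O) :
    T.eK K z ∈ Par (GamH (T.lvl K) (T.H K)) O := by
  refine (T.tw K).mem_Par (fun q hq => ?_) (fun N hN => ?_) z
  · obtain ⟨i, rfl⟩ := T.mem_Q.1 hq
    exact T.qv_dvd K i
  · obtain ⟨ℓ, hℓ, hℓ1, hℓc⟩ := Bd.nonEis (N * ∏ s ∈ Bd.S, (s : ℕ))
      (mul_ne_zero hN (Finset.prod_ne_zero_iff.2 fun s _ => s.2.ne_zero))
    refine ⟨ℓ, fun hd => hℓ (hd.mul_right _), ?_, ?_⟩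
    · have h' := congrArg (ZMod.castHom (dvd_mul_right N (∏ s ∈ Bd.S, (s : ℕ))) (ZMod N)) hℓ1
      rwa [map_natCast, map_one] at h'
    · rw [T.chi₀_spec K ℓ fun hs => hℓ ((Finset.dvd_prod_of_mem _ hs).mul_left N)]
      exact hℓc

/-- The action on the coordinates. -/
def actEnd (K : Finset ι) :
    T.alg K →ₐ[O] Module.End (MonoidAlgebra O T.Dgrp)
      (Fin (Bd.frame K).d → MonoidAlgebra O T.Dgrp) :=
  (FA.HeckeH1.goodAct (T.tframe K) (T.goodOp_rho K) (T.goodOp_tframe_e K)).comp (T.awaySub K).val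

/-- **The action as matrices over the group ring.** -/
def act (K : Finset ι) :
    T.alg K →ₐ[O] Matrix (Fin (Bd.frame K).d) (Fin (Bd.frame K).d) (MonoidAlgebra O T.Dgrp) :=
  ((LinearMap.toMatrixAlgEquiv' (R := MonoidAlgebra O T.Dgrp)
    (n := Fin (Bd.frame K).d)).restrictScalars O).toAlgHom.comp (T.actEnd K)

theorem act_mulVec (K : Finset ι) (a : T.alg K)
    (v : Fin (Bd.frame K).d → MonoidAlgebra O T.Dgrp) :
    T.act K a *ᵥ v = T.actEnd K a v :=
  LinearMap.toMatrix'_mulVec (T.actEnd K a) v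

theorem act_injective (K : Finset ι) : Function.Injective (T.act K) :=
  (LinearMap.toMatrixAlgEquiv' (R := MonoidAlgebra O T.Dgrp)
    (n := Fin (Bd.frame K).d)).injective.comp
      ((FA.HeckeH1.goodAct_injective (T.tframe K) (T.goodOp_rho K) (T.goodOp_tframe_e K)).comp
        Subtype.val_injective)

theorem emb_actEnd (K : Finset ι) {b : T.alg K} {a : pairGood (T.lvl K) (T.H K) O}
    (hb : (b : GoodAlg (T.eK K)) = Ideal.Quotient.mk _ a)
    (v : Fin (Bd.frame K).d → MonoidAlgebra O T.Dgrp) :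
    (T.tframe K).emb (T.actEnd K b v) =
      goodOp (T.lvl K) (T.H K) O a ((T.tframe K).emb v) := by
  show (T.tframe K).emb (FA.HeckeH1.goodAct (T.tframe K) (T.goodOp_rho K) (T.goodOp_tframe_e K)
    (b : GoodAlg (T.eK K)) v) = _
  rw [hb]
  exact (T.tframe K).emb_act (goodOp (T.lvl K) (T.H K) O) (T.goodOp_rho K) (T.goodOp_tframe_e K) a v

/-- **The diamonds act by the elements of the group.** -/
theorem act_dia (K : Finset ι) (g : T.Dgrp) :
    T.act K (T.dia K g) =
      Matrix.scalar (Fin (Bd.frame K).d) (MonoidAlgebra.single g 1 : MonoidAlgebra O T.Dgrp) := by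
  refine Matrix.ext_of_mulVec_single fun i => ?_
  rw [T.act_mulVec]
  refine (T.tframe K).emb_injective ?_
  refine (T.emb_actEnd K (a := goodDp (T.lvl K) (T.H K) O ((T.iota K).symm g)) rfl _).trans ?_
  rw [goodOp_goodDp, ← T.dHomG_apply, ← T.rho_single, ← (T.tframe K).emb_smul]
  congr 1
  funext j
  simp [Matrix.scalar_apply, Matrix.mulVec_diagonal]

/-- Corestriction to the base. -/
def corU (K : Finset ι) :
    Hom1 (GamH (T.lvl K) (T.H K)) O →ₗ[O] Hom1 (GamH (Bd.lev K) ⊤) O :=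
  (Corr.cores (Γ := GamH (Bd.lev K) ⊤) (Γ' := GamH (T.lvl K) (T.H K))).actLin

theorem corU_eq (K : Finset ι) (z : Hom1 (GamH (T.lvl K) (T.H K)) O) :
    T.corU K z = (Corr.cores (Γ := GamH (Bd.lev K) ⊤)).act
      ((Corr.cores (Γ := GamH (T.lvl K) ⊤)).act z) :=
  (cores_trans (GamH_top_le_of_dvd (T.base_dvd K)) GamH_le_top z).symm

theorem corU_dHomG (K : Finset ι) (g : T.Dgrp) (z : Hom1 (GamH (T.lvl K) (T.H K)) O) :
    T.corU K (T.dHomG K g z) = T.corU K z := by
  have e := cores_diaHom (T.lvl K) (T.H K) O ((T.iota K).symm g) z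
  rw [T.corU_eq, T.corU_eq]
  exact congrArg _ e

/-- The augmentation. -/
abbrev aug (_T : Bd.TWData r n) : MonoidAlgebra O _T.Dgrp →ₐ[O] O :=
  MonoidAlgebra.lift O O _T.Dgrp 1

theorem corU_rho (K : Finset ι) (s : MonoidAlgebra O T.Dgrp)
    (z : Hom1 (GamH (T.lvl K) (T.H K)) O) :
    T.corU K (T.rho K s z) = T.aug s • T.corU K z :=
  lift_invariant (T.dHomG K) _ (T.corU_dHomG K) s z

theorem corU_Tc (K : Finset ι) {ℓ : ℕ} [Fact ℓ.Prime] (h : ¬ ℓ ∣ T.lvl K)
    (z : Hom1 (GamH (T.lvl K) (T.H K)) O) :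
    T.corU K ((Tc (T.lvl K) (T.H K) ℓ).act z) = (Tc (Bd.lev K) ⊤ ℓ).act (T.corU K z) := by
  rw [T.corU_eq, T.corU_eq]
  refine (congrArg _ (cores_Tc_diamond (M := T.lvl K) (H := T.H K) (ℓ := ℓ) z).symm).trans
    (cores_top_Tc (ℓ := ℓ) T.Q (fun q hq => T.Q_not_dvd K hq) (fun q hq e => ?_) (T.lvl K) rfl _)
  obtain ⟨i, rfl⟩ := T.mem_Q.1 hq
  exact h (e ▸ T.qv_dvd K i)

theorem corU_emb (K : Finset ι) (a : Fin (Bd.frame K).d → MonoidAlgebra O T.Dgrp) :
    T.corU K ((T.tframe K).emb a) = (Bd.frame K).emb (T.aug ∘ a) := by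
  refine Frame.emb_red (T.tframe K) (Bd.frame K) T.aug rfl _ (T.corU_rho K) (fun j => ?_) a
  show T.corU K (T.embU K (Pi.single j 1)) = (Bd.frame K).emb (Pi.single j 1)
  rw [T.embU_apply, Finset.sum_eq_single j]
  · rw [Pi.single_eq_same, map_one, Module.End.one_apply]
    exact ((T.tw K).cores_u _).trans (by simp [baseVec])
  · intro k _ hk
    rw [Pi.single_eq_of_ne hk, map_zero, LinearMap.zero_apply]
  · intro hi
    exact absurd (Finset.mem_univ j) hi

theorem aug_comp_mulVec {m k : ℕ} (M : Matrix (Fin m) (Fin k) (MonoidAlgebra O T.Dgrp))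
    (a : Fin k → MonoidAlgebra O T.Dgrp) :
    M.map T.aug *ᵥ (T.aug ∘ a) = T.aug ∘ (M *ᵥ a) :=
  funext fun i => (RingHom.map_mulVec T.aug.toRingHom M a i).symm

theorem aug_single_one (K : Finset ι) (j : Fin (Bd.frame K).d) :
    T.aug ∘ (Pi.single j 1 : Fin (Bd.frame K).d → MonoidAlgebra O T.Dgrp) = Pi.single j 1 :=
  funext fun i => (Pi.apply_single (fun _ x => T.aug x) (fun _ => map_zero _) j 1 i).trans
    (by rw [map_one])

/-- **The operators reduce to those of the base.** -/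
theorem act_aug_T (K : Finset ι) (ℓ : Nat.Primes) (hℓ : ℓ ∉ Bd.S) (h : ¬ (ℓ : ℕ) ∣ T.lvl K) :
    (T.act K (T.gT K ℓ hℓ h)).map T.aug = Bd.matAct K (Bd.Tl ℓ) := by
  refine Matrix.ext_of_mulVec_single fun j => ?_
  rw [← T.aug_single_one, T.aug_comp_mulVec, Bd.matAct_mulVec]
  refine (Bd.frame K).emb_injective ?_
  rw [← T.corU_emb, T.act_mulVec, Bd.algAct_apply, Bd.toGood_Tl hℓ]
  haveI : Fact (ℓ : ℕ).Prime := ⟨ℓ.2⟩
  refine (congrArg (T.corU K) (T.emb_actEnd K (a := goodTp (T.lvl K) (T.H K) O ⟨ℓ, ℓ.2, h⟩) rfl _)).trans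
    (Eq.trans ?_ (Bd.emb_goodAct K (goodTp (Bd.lev K) ⊤ O ⟨ℓ, ℓ.2, Bd.not_dvd_lev hℓ K⟩) _).symm)
  rw [goodOp_goodTp, goodOp_goodTp, T.corU_Tc K h, T.corU_emb]

theorem kU_unitsMap {U V : Finset ι} (h : T.lvl V ∣ T.lvl U) (u : (ZMod (T.lvl U))ˣ) :
    T.κU V (ZMod.unitsMap h u) = T.κU U u := by
  refine funext fun i => ?_
  show T.logQ i (ZMod.unitsMap _ (ZMod.unitsMap h u)) = T.logQ i (ZMod.unitsMap _ u)
  rw [← MonoidHom.comp_apply (ZMod.unitsMap _), ZMod.unitsMap_comp]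

variable {K : Finset ι} {x : ι} (hx : x ∈ K)

include hx in
/-- Removing one auxiliary prime is a step. -/
theorem isStep :
    IsStep (T.lvl (K.erase x)) (Bd.qn x) (T.H (K.erase x)) (T.lvl K) (T.H K) := by
  have hdvd : T.lvl (K.erase x) ∣ T.lvl K := mul_dvd_mul_right (Bd.isStep hx).dvd _
  refine ⟨fun h => ?_, by rw [lvl, lvl, (Bd.isStep hx).eq]; ring, hdvd, fun u => ?_⟩
  · rcases (Bd.qn_prime x).dvd_mul.1 h with h | h
    · exact (Bd.isStep hx).not_dvd h
    · obtain ⟨q, hq, hd⟩ := (Prime.dvd_finsetProd_iff (Bd.qn_prime x).prime _).1 h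
      obtain ⟨i, rfl⟩ := T.mem_Q.1 hq
      exact T.ne_qn i x ((Nat.prime_dvd_prime_iff_eq (Bd.qn_prime x) (T.prime i)).1 hd).symm
  · have e := T.kU_unitsMap hdvd u
    show u ∈ (T.κU K).ker ↔ ZMod.unitsMap hdvd u ∈ (T.κU (K.erase x)).ker
    rw [MonoidHom.mem_ker, MonoidHom.mem_ker, e]

theorem delta_iota (g : T.Dgrp) :
    (T.isStep hx).delta ((T.iota K).symm g) = (T.iota (K.erase x)).symm g := by
  apply (T.iota (K.erase x)).injective
  rw [MulEquiv.apply_symm_apply]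
  obtain ⟨u, hu⟩ := QuotientGroup.mk_surjective ((T.iota K).symm g)
  rw [← hu, (T.isStep hx).delta_mk, T.iota_mk]
  have hg : T.κU K u = g := by
    rw [← T.iota_mk, hu, MulEquiv.apply_symm_apply]
  rw [← hg]
  exact T.kU_unitsMap _ u

/-- The maps up on cohomology. -/
def homUp (i : Fin 2) : Hom1 (GamH (T.lvl (K.erase x)) (T.H (K.erase x))) O →ₗ[O]
    Hom1 (GamH (T.lvl K) (T.H K)) O :=
  ![(T.isStep hx).res.actLin, (T.isStep hx).I2'.actLin] i

theorem homUp_dHomG (i : Fin 2) (g : T.Dgrp)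
    (z : Hom1 (GamH (T.lvl (K.erase x)) (T.H (K.erase x))) O) :
    T.homUp hx i (T.dHomG (K.erase x) g z) = T.dHomG K g (T.homUp hx i z) := by
  fin_cases i
  · have h := (T.isStep hx).res_diaHom ((T.iota K).symm g) z
    rw [T.delta_iota hx] at h
    exact h.symm
  · have h := (T.isStep hx).I2_diaHom ((T.iota K).symm g) z
    rw [T.delta_iota hx] at h
    exact h.symm

theorem homUp_rho (i : Fin 2) (s : MonoidAlgebra O T.Dgrp)
    (z : Hom1 (GamH (T.lvl (K.erase x)) (T.H (K.erase x))) O) :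
    T.homUp hx i (T.rho (K.erase x) s z) = T.rho K s (T.homUp hx i z) :=
  lift_intertwine (T.dHomG (K.erase x)) (T.dHomG K) _ (T.homUp_dHomG hx i) s z

theorem homUp_Tc (i : Fin 2) {ℓ : ℕ} [Fact ℓ.Prime] (hne : ℓ ≠ Bd.qn x)
    (z : Hom1 (GamH (T.lvl (K.erase x)) (T.H (K.erase x))) O) :
    T.homUp hx i ((Tc (T.lvl (K.erase x)) (T.H (K.erase x)) ℓ).act z) =
      (Tc (T.lvl K) (T.H K) ℓ).act (T.homUp hx i z) := by
  fin_cases i
  · exact ((T.isStep hx).res_Tc hne z).symm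
  · exact ((T.isStep hx).I2_Tc hne z).symm

theorem corU_homUp (i : Fin 2) (z : Hom1 (GamH (T.lvl (K.erase x)) (T.H (K.erase x))) O) :
    T.corU K (T.homUp hx i z) = Bd.homUp hx rfl i (T.corU (K.erase x) z) := by
  fin_cases i
  · exact ((T.isStep hx).res_cores' (Bd.isStep hx) (T.base_dvd (K.erase x)) z).symm
  · exact ((T.isStep hx).I2_cores' (Bd.isStep hx) (T.base_dvd (K.erase x)) z).symm

/-- **Maps commuting with the operators and the group carry pieces to pieces.** -/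
theorem eK_intertwine {U V : Finset ι}
    (f : Hom1 (GamH (T.lvl U) (T.H U)) O →ₗ[O] Hom1 (GamH (T.lvl V) (T.H V)) O)
    (hT : ∀ ℓ : Nat.Primes, ℓ ∉ Bd.S → ∀ z,
      f ((Tc (T.lvl U) (T.H U) (ℓ : ℕ)).act z) = (Tc (T.lvl V) (T.H V) (ℓ : ℕ)).act (f z))
    (hG : ∀ g z, f (T.dHomG U g z) = T.dHomG V g (f z))
    (z : Hom1 (GamH (T.lvl U) (T.H U)) O) : f (T.eK U z) = T.eK V (f z) := by
  have := pairAlg_finite (M := T.lvl U) (H := T.H U) (O := O)
  have := pairAway_finite (T.lvl U) (T.H U) O Bd.S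
  have := pairAlg_finite (M := T.lvl V) (H := T.H V) (O := O)
  have := pairAway_finite (T.lvl V) (T.H V) O Bd.S
  let gen : ∀ W : Finset ι, Nat.Primes ⊕ T.Dgrp → pairAway (T.lvl W) (T.H W) O Bd.S := fun W =>
    Sum.elim (Tp _ _ O Bd.S) fun g => diaP _ _ O Bd.S ((T.iota W).symm g)
  have hgen : ∀ W (y : pairAway (T.lvl W) (T.H W) O Bd.S),
      y ∈ Algebra.adjoin O (Set.range (gen W)) := by
    intro W y
    obtain ⟨y, hy⟩ := y
    induction hy using Algebra.adjoin_induction with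
    | mem w hw =>
      rcases hw with ⟨ℓ, rfl⟩ | ⟨g, rfl⟩
      · exact Algebra.subset_adjoin ⟨.inl ℓ, rfl⟩
      · refine Algebra.subset_adjoin ⟨.inr (T.iota W g), ?_⟩
        show diaP _ _ O Bd.S ((T.iota W).symm (T.iota W g)) = _
        rw [MulEquiv.symm_apply_apply]
        rfl
    | algebraMap c => exact Subalgebra.algebraMap_mem _ c
    | add a b ha' hb' ha hb => exact add_mem ha hb
    | mul a b ha' hb' ha hb => exact mul_mem ha hb
  refine piece_intertwine (gen U) (gen V) (hgen U) (hgen V)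
    ((AlgHom.fst O (Module.End O (Hom1 (GamH (T.lvl U) (T.H U)) O))
      (Module.End O (Hom1 (GamH (T.lvl U) ⊤) O))).comp (pairAway (T.lvl U) (T.H U) O Bd.S).val)
    ((AlgHom.fst O (Module.End O (Hom1 (GamH (T.lvl V) (T.H V)) O))
      (Module.End O (Hom1 (GamH (T.lvl V) ⊤) O))).comp (pairAway (T.lvl V) (T.H V) O Bd.S).val)
    f ?_ ?_ (T.tw U).piece (T.tw V).piece z
  · rintro (ℓ | g) w
    · show f ((Tp _ _ O Bd.S ℓ).1.1 w) = (Tp _ _ O Bd.S ℓ).1.1 (f w)
      by_cases hℓ : ℓ ∈ Bd.S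
      · rw [Tp_of_mem _ _ _ _ hℓ, Tp_of_mem _ _ _ _ hℓ]
        simp
      · rw [Tp_apply _ _ _ _ hℓ, Tp_apply _ _ _ _ hℓ, hT ℓ hℓ]
    · exact hG g w
  · rintro (ℓ | g)
    · show (T.tw U).χ (Tp _ _ O Bd.S ℓ) = (T.tw V).χ (Tp _ _ O Bd.S ℓ)
      by_cases hℓ : ℓ ∈ Bd.S
      · rw [Tp_of_mem _ _ _ _ hℓ, Tp_of_mem _ _ _ _ hℓ, map_zero, map_zero]
      · by_cases hQ : ℓ ∈ T.Q
        · rw [(T.tw U).χ_U ℓ hQ, (T.tw V).χ_U ℓ hQ]
        · rw [(T.tw U).χ_T ℓ hQ, (T.tw V).χ_T ℓ hQ, T.chi₀_spec U ℓ hℓ, T.chi₀_spec V ℓ hℓ]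
    · show (T.tw U).χ (diaP _ _ O Bd.S _) = (T.tw V).χ (diaP _ _ O Bd.S _)
      rw [(T.tw U).χ_dia, (T.tw V).χ_dia]

theorem homUp_stable (i : Fin 2) (z : Hom1 (GamH (T.lvl (K.erase x)) (T.H (K.erase x))) O) :
    T.eK K (T.homUp hx i ((T.tframe (K.erase x)).e z)) =
      T.homUp hx i ((T.tframe (K.erase x)).e z) := by
  have h := fun w => T.eK_intertwine (T.homUp hx i)
    (fun ℓ hℓ => haveI : Fact (ℓ : ℕ).Prime := ⟨ℓ.2⟩; T.homUp_Tc hx i (Bd.ne_qn x hℓ))
    (T.homUp_dHomG hx i) w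
  rw [← h]
  exact congrArg _ ((T.tframe (K.erase x)).e_e z)

/-- The maps up on coordinates. -/
def upEnd (i : Fin 2) : (Fin (Bd.frame (K.erase x)).d → MonoidAlgebra O T.Dgrp) →ₗ[MonoidAlgebra O T.Dgrp]
    (Fin (Bd.frame K).d → MonoidAlgebra O T.Dgrp) :=
  (T.tframe (K.erase x)).transfer (T.tframe K) (T.homUp hx i) (T.homUp_rho hx i)

/-- **The maps up as matrices over the group ring.** -/
def up (i : Fin 2) :
    Matrix (Fin (Bd.frame K).d) (Fin (Bd.frame (K.erase x)).d) (MonoidAlgebra O T.Dgrp) :=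
  LinearMap.toMatrix' (T.upEnd hx i)

theorem up_mulVec (i : Fin 2) (v : Fin (Bd.frame (K.erase x)).d → MonoidAlgebra O T.Dgrp) :
    T.up hx i *ᵥ v = T.upEnd hx i v :=
  LinearMap.toMatrix'_mulVec (T.upEnd hx i) v

/-- The first map up. -/
abbrev up1 : Matrix (Fin (Bd.frame K).d) (Fin (Bd.frame (K.erase x)).d) (MonoidAlgebra O T.Dgrp) :=
  T.up hx 0

/-- The second map up. -/
abbrev up2 : Matrix (Fin (Bd.frame K).d) (Fin (Bd.frame (K.erase x)).d) (MonoidAlgebra O T.Dgrp) :=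
  T.up hx 1

include hx in
theorem lvl_erase_dvd : T.lvl (K.erase x) ∣ T.lvl K := (T.isStep hx).dvd

/-- **The maps up commute with the operators.** -/
theorem up_act (i : Fin 2) (ℓ : Nat.Primes) (hℓ : ℓ ∉ Bd.S) (h : ¬ (ℓ : ℕ) ∣ T.lvl K) :
    T.act K (T.gT K ℓ hℓ h) * T.up hx i =
      T.up hx i * T.act (K.erase x)
        (T.gT (K.erase x) ℓ hℓ fun hd => h (hd.trans (T.lvl_erase_dvd hx))) := by
  refine Matrix.ext_of_mulVec_single fun j => ?_
  rw [← Matrix.mulVec_mulVec, ← Matrix.mulVec_mulVec, T.up_mulVec, T.act_mulVec, T.act_mulVec,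
    T.up_mulVec]
  have hne : (ℓ : ℕ) ≠ Bd.qn x := fun e => h (by
    rw [e]
    exact (Bd.qn_dvd_lev hx).trans (T.base_dvd K))
  haveI : Fact (ℓ : ℕ).Prime := ⟨ℓ.2⟩
  exact (transfer_goodAct (T.tframe (K.erase x)) (T.goodOp_rho (K.erase x))
    (T.goodOp_tframe_e (K.erase x)) (T.tframe K) (T.goodOp_rho K) (T.goodOp_tframe_e K)
    (T.homUp hx i) (T.homUp_rho hx i)
    (goodTp (T.lvl (K.erase x)) (T.H (K.erase x)) O
      ⟨ℓ, ℓ.2, fun hd => h (hd.trans (T.lvl_erase_dvd hx))⟩)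
    (goodTp (T.lvl K) (T.H K) O ⟨ℓ, ℓ.2, h⟩) (fun z => T.homUp_Tc hx i hne z) _).symm

/-- The maps up commute with the diamonds. -/
theorem up_act_dia (i : Fin 2) (g : T.Dgrp) :
    T.act K (T.dia K g) * T.up hx i = T.up hx i * T.act (K.erase x) (T.dia (K.erase x) g) := by
  rw [T.act_dia, T.act_dia]
  refine Matrix.ext fun a b => ?_
  simp only [Matrix.scalar_apply, Matrix.diagonal_mul, Matrix.mul_diagonal]
  exact mul_comm _ _

/-- **The maps up reduce to those of the base.** -/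
theorem aug_up (i : Fin 2) :
    (T.up hx i).map T.aug = LinearMap.toMatrix' (Bd.upT hx rfl i) := by
  refine Matrix.ext_of_mulVec_single fun j => ?_
  rw [LinearMap.toMatrix'_mulVec, ← T.aug_single_one, T.aug_comp_mulVec, T.up_mulVec]
  refine (Bd.frame K).emb_injective ?_
  rw [← T.corU_emb, upEnd, Frame.emb_transfer, T.tframe_e]
  have h := T.homUp_stable hx i ((T.tframe (K.erase x)).emb (Pi.single j 1))
  rw [Frame.e_emb] at h
  erw [h]; rw [T.corU_homUp, T.corU_emb]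
  exact (Bd.emb_trans (Bd.inter_up hx rfl i) _).symm

section algebra

variable (K : Finset ι)

instance algFinite : Module.Finite O (T.alg K) :=
  haveI := GoodAlg.instFinite (T.eK K)
  Module.Finite.of_injective (T.awaySub K).val.toLinearMap Subtype.val_injective

instance algTorsionFree : Module.IsTorsionFree O (T.alg K) :=
  haveI := GoodAlg.instIsTorsionFree (T.eK K)
  .of_smul_eq_zero fun c x h =>
    (smul_eq_zero.1 (congrArg (Subtype.val : T.alg K → GoodAlg (T.eK K)) h)).imp id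
      fun hx => Subtype.ext hx

theorem alg_isReduced : IsReduced (T.alg K) := by
  classical
  haveI : IsReduced (GoodAlg (T.eK K)) := ?_
  · exact isReduced_of_injective (T.awaySub K).val Subtype.val_injective
  refine isReduced_goodAlg (T.eK K) (T.eK_mem_Par K) (Finset.univ.image T.qv) (fun q hq => ?_)
    (fun u hu => ?_)
  · obtain ⟨i, -, rfl⟩ := Finset.mem_image.1 hq
    refine ⟨T.prime i, T.qv_dvd K i, fun hd => ?_⟩
    have hQ : (⟨T.qv i, T.prime i⟩ : Nat.Primes) ∈ T.Q := T.mem_Q.2 ⟨i, rfl⟩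
    have hco : ¬ T.qv i ∣ Bd.lev K := T.Q_not_dvd K hQ
    rw [lvl, ← Finset.mul_prod_erase T.Q _ hQ, mul_left_comm] at hd
    have h1 := Nat.dvd_of_mul_dvd_mul_left (T.prime i).pos hd
    rcases (T.prime i).dvd_mul.1 h1 with h1 | h1
    · exact hco h1
    · obtain ⟨q', hq', hd'⟩ := (Prime.dvd_finsetProd_iff (T.prime i).prime _).1 h1
      exact Finset.ne_of_mem_erase hq'
        (Subtype.ext ((Nat.prime_dvd_prime_iff_eq (T.prime i) q'.2).1 hd').symm)
  · refine MonoidHom.mem_ker.2 (funext fun i => ?_)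
    show T.logQ i (ZMod.unitsMap (T.qv_dvd K i) u) = 1
    have h2 := hu (T.qv i) (Finset.mem_image.2 ⟨i, Finset.mem_univ i, rfl⟩)
    rcases sq_eq_one_iff.1 h2 with h2 | h2
    · rw [show ZMod.unitsMap (T.qv_dvd K i) u = 1 from Units.ext h2, map_one]
    · rw [show ZMod.unitsMap (T.qv_dvd K i) u = -1 from Units.ext h2]
      exact T.logQ_neg_one i

theorem natCast_regular (m : ℕ) (hm : m ≠ 0) : (m : T.alg K) ∈ nonZeroDivisors (T.alg K) := by
  refine mem_nonZeroDivisors_iff_right.2 fun a ha => ?_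
  rw [mul_comm, ← map_natCast (algebraMap O (T.alg K)), ← Algebra.smul_def] at ha
  exact (smul_eq_zero.1 ha).resolve_left (Nat.cast_ne_zero.2 hm)

theorem algGroup_isReduced : IsReduced (MonoidAlgebra (T.alg K) T.Dgrp) :=
  haveI := T.alg_isReduced K
  isReduced_monoidAlgebra (T.natCast_regular K)

theorem algGroup_torsionFree : Module.IsTorsionFree O (MonoidAlgebra (T.alg K) T.Dgrp) :=
  inferInstance

theorem algGroup_finite : Module.Finite O (MonoidAlgebra (T.alg K) T.Dgrp) :=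
  inferInstance

/-- **The algebra is generated by the operators away from the finite set and the diamonds.** -/
theorem adjoin_alg :
    Algebra.adjoin O ({a : T.alg K | ∃ (ℓ : Nat.Primes) (hℓ : ℓ ∉ Bd.S)
      (h : ¬ (ℓ : ℕ) ∣ T.lvl K), T.gT K ℓ hℓ h = a} ∪ Set.range (T.dia K)) = ⊤ := by
  refine Algebra.eq_top_iff.2 fun a => ?_
  obtain ⟨a, ha⟩ := a
  induction ha using Algebra.adjoin_induction with
  | mem w hw =>
    rcases hw with ⟨ℓ, hℓ, h, rfl⟩ | ⟨g, rfl⟩
    · exact Algebra.subset_adjoin (Or.inl ⟨ℓ, hℓ, h, rfl⟩)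
    · refine Algebra.subset_adjoin (Or.inr ⟨T.iota K g, Subtype.ext ?_⟩)
      rw [T.dia_val, MulEquiv.symm_apply_apply]
  | algebraMap c => exact Subalgebra.algebraMap_mem _ c
  | add a b ha' hb' ha hb => exact add_mem ha hb
  | mul a b ha' hb' ha hb => exact mul_mem ha hb

end algebra

end TWData

end BaseData

end FA.Two

end
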