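import Fermat.Agent.Two.PointsOn
import Fermat.Agent.Two.DepthLevels

/-!
# The algebra of the pieces at Taylor-Wiles levels with the twists

The group of diamonds and twists and the shape of the algebra acting on the top piece over its
group ring, separated by the lifts of the pieces and of the base.
-/

set_option autoImplicit false
set_option linter.unusedSectionVars false
set_option linter.style.haveILetI false
set_option synthInstance.maxHeartbeats 400000
set_option maxHeartbeats 1000000

noncomputable section

namespace FA.Two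

open IsLocalRing Matrix FA.Deform

local notation "Qb" => AlgebraicClosure ℚ
local notation "GQ" => AlgebraicClosure ℚ ≃ₐ[ℚ] AlgebraicClosure ℚ

variable {O : Type} [CommRing O] [IsDomain O] [IsDiscreteValuationRing O]
  [IsAdicComplete (maximalIdeal O) O] [CharZero O] [CharP (ResidueField O) 2]
  {ι : Type} [DecidableEq ι] [Fintype ι]

namespace BaseData

namespace TWData

variable {Bd : BaseData O ι} {r n : ℕ} (T : Bd.TWData r n)

/-- The group of diamonds and twists. -/
abbrev G2 (_T : Bd.TWData r n) : Type := FA.RT.DGroup 2 fun _ : Fin r ⊕ Fin r => n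

/-- The diamonds in the group. -/
def diaG : T.Dgrp →* T.G2 where
  toFun a := Sum.rec a fun _ => 1
  map_one' := funext fun i => by cases i <;> rfl
  map_mul' a b := funext fun i => by cases i <;> simp

/-- The twists in the group. -/
def twistG : T.Dgrp →* T.G2 where
  toFun a := Sum.rec (fun _ => 1) a
  map_one' := funext fun i => by cases i <;> rfl
  map_mul' a b := funext fun i => by cases i <;> simp

/-- The augmentation of the group ring. -/
abbrev aug2 (_T : Bd.TWData r n) : MonoidAlgebra O _T.G2 →ₐ[O] O :=
  MonoidAlgebra.lift O O _T.G2 1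

variable {rb : GQ →* Matrix (Fin 2) (Fin 2) (ResidueField O)}

/-- The algebra of the top pieces at a Taylor-Wiles level with the twists, over the base. -/
structure DepthAlg (ιp : ℤ_[2] →+* O) (P : Bd.AuxPlaces rb) (S₀ : SepAlg rb Bd.alg) where
  /-- the algebra -/
  A : Type
  [commRing : CommRing A]
  [algebra : Algebra O A]
  [moduleFinite : Module.Finite O A]
  /-- its lifts -/
  sep : SepAlg rb A
  /-- the map to the base -/
  pr : A →ₐ[O] Bd.alg
  /-- the group -/
  grp : T.G2 →* A
  pr_grp : ∀ g, pr (grp g) = 1
  /-- the action on the top piece -/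
  act : A →ₐ[O] Matrix (Fin (Bd.frame Finset.univ).d) (Fin (Bd.frame Finset.univ).d)
    (MonoidAlgebra O T.G2)
  act_grp : ∀ g, act (grp g) =
    Matrix.scalar (Fin (Bd.frame Finset.univ).d) (MonoidAlgebra.single g 1)
  act_aug : ∀ a, (act a).map T.aug2 = Bd.matAct Finset.univ (pr a)
  /-- the lifts of the base among the lifts -/
  base : S₀.fam.J → sep.fam.J
  /-- their values -/
  toBase : ∀ j, sep.fam.B (base j) →ₐ[O] S₀.fam.B j
  toBase_val : ∀ j a, toBase j (sep.val (base j) a) = S₀.val j (pr a)
  toBase_trace : ∀ j σ, toBase j (sep.fam.r (base j) σ).trace = (S₀.fam.r j σ).trace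
  loc : sep.Local Bd (Set.range T.qv)
  det : ∀ j σ, (sep.fam.r j σ).det =
    algebraMap O (sep.fam.B j) (ιp ((FA.JTorsion.cycP 2 σ : ℤ_[2]ˣ) : ℤ_[2])) *
      sep.val j (grp (T.diaG (T.galD σ) * T.twistG (T.galD σ) ^ 2))
  line : ∀ (j : sep.fam.J) (i : T.Idx) (V : ValuationSubring Qb), V.LiesOverPrime (T.qv i) →
    ∀ φ : GQ, V.IsFrobeniusAt φ (T.qv i) → ∀ s ∈ V.inertiaSubgroupIn ℚ,
      ∃ a : sep.fam.B j, sep.fam.ε j a = residue O (T.α i) ∧
        a * a - (sep.fam.r j φ).trace * a + (sep.fam.r j φ).det = 0 ∧
        (2 * a - (sep.fam.r j φ).trace) * sep.val j (grp (T.twistG (T.galD s))) =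
          (sep.fam.r j φ * sep.fam.r j s).trace -
            ((sep.fam.r j φ).trace - a) * (sep.fam.r j s).trace
  /-- the old part is killed and lifts the old part of the base -/
  old : ∃ W : Matrix (Fin (Bd.frame Finset.univ).d)
      (Σ x : ι, Fin 2 × Fin (Bd.frame (Finset.univ.erase x)).d) (MonoidAlgebra O T.G2),
    act (sep.nAll P) * W = 0 ∧ W.map (fun a => residue O (T.aug2 a)) = BaseData.oldCols Bd

attribute [instance] DepthAlg.commRing DepthAlg.algebra DepthAlg.moduleFinite

end TWData

end BaseData

end FA.Two
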