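import Fermat.Agent.Two.DepthData
import Fermat.Agent.RT.TWPoint.Point
import Fermat.Agent.JTorsion.CycloRes

/-!
# The pieces at Taylor-Wiles levels of the base as pieces with residual constants

The piece at a level satisfies the conditions under which its points have representations;
characters modulo the Taylor-Wiles primes give characters of Galois through the diamond group.
-/

set_option autoImplicit false
set_option linter.unusedSectionVars false
set_option linter.style.haveILetI false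
set_option synthInstance.maxHeartbeats 400000
set_option maxHeartbeats 2000000

noncomputable section

namespace FA.Two

open IsLocalRing Matrix FA.Deform FA.HeckeH1
open FA.JTorsion (cycP cycK)
open FA.Twist (galChar galCharAt)
open scoped MatrixGroups

local notation "Qb" => AlgebraicClosure ℚ
local notation "GQ" => AlgebraicClosure ℚ ≃ₐ[ℚ] AlgebraicClosure ℚ

/-- The residual determinant is the residual cyclotomic character. -/
theorem residual_det_cycP {k : Type} [Field k] {p : ℕ} [Fact p.Prime] (hp : (p : k) = 0)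
    (j : ℤ_[p] →+* k) {rb : GQ →* Matrix (Fin 2) (Fin 2) k}
    (hopen : IsOpen (rb.ker : Set GQ)) (S : Finset ℕ)
    (h : ∀ q : ℕ, q.Prime → q ∉ S → ∀ A : ValuationSubring Qb, A.LiesOverPrime q →
      ∀ τ : GQ, A.IsFrobeniusAt τ q → (rb τ).det = (q : k))
    (σ : GQ) : (rb σ).det = j ((cycP p σ : ℤ_[p]ˣ) : ℤ_[p]) := by
  have hmax : maximalIdeal k = ⊥ := IsLocalRing.isField_iff_maximalIdeal_eq.1 (Field.toIsField k)
  haveI : IsHausdorff (maximalIdeal k) k := ⟨fun x hx => by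
    have h1 := hx 1
    rw [SModEq.zero, pow_one, hmax] at h1
    simpa using h1⟩
  refine FA.RT.det_eq_cycP (p := p) (by rw [hmax]; simpa using hp) j ?_ S h σ
  intro n
  obtain ⟨L, hL, hLle⟩ : ∃ L : IntermediateField ℚ Qb, FiniteDimensional ℚ L ∧
      (L.fixingSubgroup : Set GQ) ⊆ rb.ker := by
    have h1 : (rb.ker : Set GQ) ∈ nhds 1 := hopen.mem_nhds (one_mem _)
    obtain ⟨L, hL, hLs⟩ := (krullTopology_mem_nhds_one_iff ℚ Qb _).1 h1
    exact ⟨L, hL, hLs⟩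
  refine ⟨L, hL, fun σ hσ i j => ?_⟩
  have h1 : rb σ = 1 :=
    MonoidHom.mem_ker.1 (hLle ((IntermediateField.mem_fixingSubgroup_iff L σ).2 hσ))
  rw [h1, sub_self, Matrix.zero_apply]
  exact zero_mem _

variable {O : Type} [CommRing O] [IsDomain O] [IsDiscreteValuationRing O]
  [IsAdicComplete (maximalIdeal O) O] [CharZero O] [CharP (ResidueField O) 2]
  {ι : Type} [DecidableEq ι]

namespace BaseData

variable (Bd : BaseData O ι)

/-- A lift of the residual value at a natural number. -/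
def c0 (ℓ : ℕ) : O := if h : ℓ.Prime then (residue_surjective (Bd.c ⟨ℓ, h⟩)).choose else 0

theorem residue_c0 (ℓ : Nat.Primes) : residue O (Bd.c0 ℓ) = Bd.c ℓ := by
  rw [c0, dif_pos ℓ.2]
  exact (residue_surjective (Bd.c ⟨(ℓ : ℕ), ℓ.2⟩)).choose_spec

/-- The residual determinant. -/
theorem ResidualFrob.det_eq {Bd : BaseData O ι} {rb : GQ →* Matrix (Fin 2) (Fin 2) (ResidueField O)}
    [Finite (ResidueField O)] (hrb : Bd.ResidualFrob rb) (hopen : IsOpen (rb.ker : Set GQ))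
    (ιp : ℤ_[2] →+* O) (σ : GQ) :
    (rb σ).det = residue O (ιp ((cycP 2 σ : ℤ_[2]ˣ) : ℤ_[2])) :=
  residual_det_cycP (p := 2) (CharP.cast_eq_zero _ 2) ((residue O).comp ιp) hopen
    (Bd.S.image fun l : Nat.Primes => (l : ℕ))
    (fun q hq hqS A hA τ hτ => (hrb ⟨q, hq⟩
      (fun h => hqS (Finset.mem_image.2 ⟨_, h, rfl⟩)) A hA τ hτ).2) σ

namespace TWData

variable {Bd} {r n : ℕ} (T : Bd.TWData r n)

/-- The primes as natural numbers. -/
def Qn : Finset ℕ := Finset.univ.image T.qv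

theorem mem_Qn {q : ℕ} : q ∈ T.Qn ↔ ∃ i, T.qv i = q :=
  ⟨fun h => (Finset.mem_image.1 h).imp fun _ hi => hi.2,
    fun ⟨i, hi⟩ => Finset.mem_image.2 ⟨i, Finset.mem_univ i, hi⟩⟩

theorem qv_mem (i : Fin r) : T.qv i ∈ T.Qn := T.mem_Qn.2 ⟨i, rfl⟩

/-- The root at a natural number. -/
def αn (q : ℕ) : O := if h : q.Prime then T.αq ⟨q, h⟩ else 0

theorem αn_qv (i : Fin r) : T.αn (T.qv i) = T.α i := by
  rw [αn, dif_pos (T.prime i)]
  exact T.αq_qv i

/-- The omitted primes at a level. -/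
def T0 : Finset ℕ := (Bd.S.image fun l : Nat.Primes => (l : ℕ)) ∪ T.Qn

theorem notMem_T0 {ℓ : Nat.Primes} (h : (ℓ : ℕ) ∉ T.T0) : ℓ ∉ Bd.S ∧ ℓ ∉ T.Q := by
  refine ⟨fun hS => h (Finset.mem_union_left _ (Finset.mem_image.2 ⟨ℓ, hS, rfl⟩)), fun hQ => ?_⟩
  obtain ⟨i, rfl⟩ := T.mem_Q.1 hQ
  exact h (Finset.mem_union_right _ (T.qv_mem i))

theorem prod_Q : ∏ q ∈ T.Q, (q : ℕ) = ∏ i, T.qv i := by
  unfold Q
  exact Finset.prod_image (f := fun q : Nat.Primes => (q : ℕ)) (g := fun i => ⟨T.qv i, T.prime i⟩)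
    fun i _ j _ h => T.inj (congrArg Subtype.val h)

theorem dvd_lvl {K : Finset ι} {ℓ : ℕ} (hℓ : ℓ.Prime) (h : ℓ ∣ T.lvl K) :
    ℓ ∣ Bd.lev K ∨ ∃ i, ℓ = T.qv i := by
  rcases (Nat.Prime.dvd_mul hℓ).1 h with h | h
  · exact Or.inl h
  · obtain ⟨q, hq, hd⟩ := (Prime.dvd_finsetProd_iff hℓ.prime _).1 h
    obtain ⟨i, rfl⟩ := T.mem_Q.1 hq
    exact Or.inr ⟨i, (Nat.prime_dvd_prime_iff_eq hℓ (T.prime i)).1 hd⟩

theorem not_dvd_lvl {K : Finset ι} {ℓ : Nat.Primes} (hS : ℓ ∉ Bd.S)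
    (hQ : ∀ i, (ℓ : ℕ) ≠ T.qv i) : ¬ (ℓ : ℕ) ∣ T.lvl K := fun h => by
  rcases T.dvd_lvl ℓ.2 h with h | ⟨i, hi⟩
  · exact Bd.not_dvd_lev hS K h
  · exact hQ i hi

theorem qv_not_sq (K : Finset ι) (i : Fin r) : ¬ T.qv i * T.qv i ∣ T.lvl K := by
  intro h
  rw [lvl, prod_Q, ← Finset.mul_prod_erase _ _ (Finset.mem_univ i), mul_left_comm] at h
  have h' := Nat.dvd_of_mul_dvd_mul_left (T.prime i).pos h
  rcases (T.prime i).dvd_mul.1 h' with h' | h'
  · exact T.Q_not_dvd K (T.mem_Q.2 ⟨i, rfl⟩) h'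
  · obtain ⟨j, hj, hd⟩ := (Prime.dvd_finsetProd_iff (T.prime i).prime _).1 h'
    exact (Finset.mem_erase.1 hj).1
      (T.inj ((Nat.prime_dvd_prime_iff_eq (T.prime i) (T.prime j)).1 hd)).symm

theorem κU_apply (K : Finset ι) (u : (ZMod (T.lvl K))ˣ) (i : Fin r) :
    T.κU K u i = T.logQ i (ZMod.unitsMap (T.qv_dvd K i) u) := rfl

/-- The idempotent fixes its image. -/
theorem eK_idem (K : Finset ι) (v : Hom1 (GamH (T.lvl K) (T.H K)) O) :
    T.eK K (T.eK K v) = T.eK K v :=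
  LinearMap.congr_fun (congrArg (fun y : pairAway (T.lvl K) (T.H K) O Bd.S => y.1.1)
    (T.tw K).piece.idem.eq) v

theorem eK_comm (K : Finset ι) (a : pairAlg (T.lvl K) (T.H K) O)
    (v : Hom1 (GamH (T.lvl K) (T.H K)) O) :
    fullOp (T.lvl K) (T.H K) O a (T.eK K v) = T.eK K (fullOp (T.lvl K) (T.H K) O a v) :=
  LinearMap.congr_fun (congrArg Prod.fst
    (setLike_mul_comm a.2 (pairAway_le _ _ _ _ (T.tw K).e.2))) v

theorem piece_eK_mem_Par (K : Finset ι) (v : Hom1 (GamH (T.lvl K) (T.H K)) O) :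
    T.eK K v ∈ Par (GamH (T.lvl K) (T.H K)) O := by
  refine (T.tw K).mem_Par (fun q hq => ?_) (fun L hL => ?_) v
  · obtain ⟨i, rfl⟩ := T.mem_Q.1 hq
    exact T.qv_dvd K i
  · obtain ⟨ℓ, h1, h2, h3⟩ := Bd.nonEis (L * ∏ s ∈ Bd.S, (s : ℕ))
      (mul_ne_zero hL (Finset.prod_ne_zero_iff.2 fun s _ => s.2.ne_zero))
    have hS : ℓ ∉ Bd.S := fun h => h1 ((Finset.dvd_prod_of_mem _ h).mul_left L)
    refine ⟨ℓ, fun hd => h1 (hd.mul_right _), ?_, ?_⟩
    · simpa using congrArg (ZMod.castHom (dvd_mul_right L (∏ s ∈ Bd.S, (s : ℕ))) (ZMod L)) h2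
    · rw [T.chi₀_spec K ℓ hS]
      exact h3

/-- A residual value in the kernel is nilpotent on the piece. -/
theorem nilp_of_chi [Finite (ResidueField O)] (K : Finset ι)
    (x : pairAway (T.lvl K) (T.H K) O Bd.S) (hx : (T.tw K).χ x = 0) :
    FA.RT.Nilp (T.eK K) (incl (T.lvl K) (T.H K) O Bd.S x) := by
  have := pairAlg_finite (M := T.lvl K) (H := T.H K) (O := O)
  have := pairAway_finite (T.lvl K) (T.H K) O Bd.S
  obtain ⟨k, hk⟩ := (T.tw K).piece.pow_mul_mem hx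
  refine ⟨k, fun v => ?_⟩
  let ev : pairAway (T.lvl K) (T.H K) O Bd.S →ₗ[O] Hom1 (GamH (T.lvl K) (T.H K)) O :=
    (LinearMap.applyₗ v).comp (((AlgHom.fst O _ _).comp
      (pairAway (T.lvl K) (T.H K) O Bd.S).val).toLinearMap)
  have h1 := map_mem_smul_top ev hk
  rw [← map_pow]
  exact h1

variable (rb : GQ →* Matrix (Fin 2) (Fin 2) (ResidueField O))

open scoped Classical in
/-- **The piece at a level is a piece with residual constants.** -/
theorem twPiece [Finite (ResidueField O)] (K : Finset ι) (hrb : Bd.ResidualFrob rb)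
    (hp2S : (⟨2, Nat.prime_two⟩ : Nat.Primes) ∈ Bd.S) :
    FA.RT.TWPiece 2 rb T.Qn T.T0 Bd.c0 T.αn (T.eK K) where
  exact q hq := by
    obtain ⟨i, rfl⟩ := T.mem_Qn.1 hq
    exact ⟨T.prime i, T.qv_dvd K i, T.qv_not_sq K i⟩
  dvd_sub q hq := by
    obtain ⟨i, rfl⟩ := T.mem_Qn.1 hq
    exact (dvd_pow_self 2 n.succ_ne_zero).trans (T.dvd i)
  mem_H u hu := by
    refine MonoidHom.mem_ker.2 (funext fun i => ?_)
    rw [T.κU_apply, show ZMod.unitsMap (T.qv_dvd K i) u = 1 from Units.ext (hu _ (T.qv_mem i)),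
      map_one]
    rfl
  neg_one := T.κU_neg_one K
  pgroup := isPGroup_quotient_ker (T.κU_surjective K) T.isPGroup_Dgrp
  idem := T.eK_idem K
  comm := T.eK_comm K
  par := T.piece_eK_mem_Par K
  mem_T0 ℓ hℓ h := by
    rcases h with h | rfl
    · rcases T.dvd_lvl hℓ h with h | ⟨i, rfl⟩
      · refine Finset.mem_union_left _ (Finset.mem_image.2 ⟨⟨ℓ, hℓ⟩, ?_, rfl⟩)
        by_contra hS
        exact Bd.not_dvd_lev hS K h
      · exact Finset.mem_union_right _ (T.qv_mem i)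
    · exact Finset.mem_union_left _ (Finset.mem_image.2 ⟨⟨2, hℓ⟩, hp2S, rfl⟩)
  frob ℓ hℓ hℓT A hA σ hσ := by
    rw [Bd.residue_c0 ⟨ℓ, hℓ⟩, (hrb ⟨ℓ, hℓ⟩ (T.notMem_T0 (ℓ := ⟨ℓ, hℓ⟩) hℓT).1 A hA σ hσ).1]
  nilT ℓ hℓT := by
    obtain ⟨hS, hQ⟩ := T.notMem_T0 hℓT
    rw [← Tp_incl (T.lvl K) (T.H K) O Bd.S hS,
      ← (incl (T.lvl K) (T.H K) O Bd.S).commutes (Bd.c0 ℓ), ← map_sub]
    refine T.nilp_of_chi K _ ?_
    rw [map_sub, AlgHom.commutes, (T.tw K).χ_T ℓ hQ, T.chi₀_spec K ℓ hS, ResidueField.algebraMap_eq,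
      Bd.residue_c0, sub_self]
  nilD x := by
    rw [show (⟨_, diaPair_mem (T.lvl K) (T.H K) O x⟩ : pairAlg (T.lvl K) (T.H K) O) =
      incl (T.lvl K) (T.H K) O Bd.S (diaP (T.lvl K) (T.H K) O Bd.S x) from Subtype.ext rfl,
      ← map_one (incl (T.lvl K) (T.H K) O Bd.S), ← map_sub]
    refine T.nilp_of_chi K _ ?_
    rw [map_sub, map_one, (T.tw K).χ_dia, sub_self]
  nilU q hq := by
    obtain ⟨i, hi⟩ := T.mem_Qn.1 hq
    obtain rfl : (⟨T.qv i, T.prime i⟩ : Nat.Primes) = q := Subtype.ext hi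
    rw [← Tp_incl (T.lvl K) (T.H K) O Bd.S (T.notMem_S i),
      ← (incl (T.lvl K) (T.H K) O Bd.S).commutes (T.αn _), ← map_sub]
    refine T.nilp_of_chi K _ ?_
    rw [map_sub, AlgHom.commutes, (T.tw K).χ_U _ (T.mem_Q.2 ⟨i, rfl⟩), ResidueField.algebraMap_eq,
      T.αq_qv, sub_eq_zero]
    exact congrArg (residue O) (T.αn_qv i).symm
  free := by
    obtain ⟨ϖ, hϖ⟩ := IsDiscreteValuationRing.exists_irreducible O
    let D := (T.tw K).D
    have hfix : ∀ i, T.eK K (D.u i) = D.u i := fun i => by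
      have h := D.e_u i
      rwa [incl_val] at h
    have hcombo : ∀ c : Fin D.d → MonoidAlgebra O ((ZMod (T.lvl K))ˣ ⧸ T.H K),
        combo (diaHom (T.lvl K) (T.H K) O) D.u c =
          ∑ i, ∑ g, (c i).coeff g • diaHom (T.lvl K) (T.H K) O g (D.u i) := fun c => by
      rw [combo_apply]
      refine Finset.sum_congr rfl fun i _ => ?_
      rw [MonoidAlgebra.lift_apply, Finsupp.sum_fintype (c i).coeff
          (fun a b => b • diaHom (T.lvl K) (T.H K) O a) fun g =>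
            zero_smul O (diaHom (T.lvl K) (T.H K) O g),
        LinearMap.sum_apply]
      rfl
    have hspan : ∀ v, ∃ c, combo (diaHom (T.lvl K) (T.H K) O) D.u c = T.eK K v := fun v =>
      D.span _ (by rw [incl_val]; exact T.eK_idem K v)
    refine ⟨D.d, D.u, hfix, fun c hc => ?_, fun v => ?_⟩
    · have hm : maximalIdeal O = Ideal.span {ϖ} := hϖ.maximalIdeal_eq
      rw [hm, Submodule.ideal_span_singleton_smul, Submodule.mem_smul_pointwise_iff_exists] at hc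
      obtain ⟨x, -, hx⟩ := hc
      obtain ⟨a, ha⟩ := hspan x
      let c' : Fin D.d → MonoidAlgebra O ((ZMod (T.lvl K))ˣ ⧸ T.H K) := fun i =>
        .ofCoeff (Finsupp.equivFunOnFinite.symm (c i))
      have hc' : combo (diaHom (T.lvl K) (T.H K) O) D.u c' =
          ∑ i, ∑ g, c i g • diaHom (T.lvl K) (T.H K) O g (D.u i) := by
        rw [hcombo]
        rfl
      have he : combo (diaHom (T.lvl K) (T.H K) O) D.u c' =
          combo (diaHom (T.lvl K) (T.H K) O) D.u (ϖ • a) := by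
        have hz : T.eK K (∑ i, ∑ g, c i g • diaHom (T.lvl K) (T.H K) O g (D.u i)) =
            ∑ i, ∑ g, c i g • diaHom (T.lvl K) (T.H K) O g (D.u i) := by
          simp only [map_sum, map_smul]
          refine Finset.sum_congr rfl fun i _ => Finset.sum_congr rfl fun g _ => ?_
          have h := T.eK_comm K ⟨_, diaPair_mem (T.lvl K) (T.H K) O g⟩ (D.u i)
          rw [hfix i] at h
          exact congrArg (c i g • ·) h.symm
        rw [map_smul, ha, hc', ← hz, ← hx, map_smul]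
      intro i g
      have h := congrFun (D.inj he) i
      rw [hm, Ideal.mem_span_singleton]
      refine ⟨(a i).coeff g, ?_⟩
      exact congrArg (fun z : MonoidAlgebra O ((ZMod (T.lvl K))ˣ ⧸ T.H K) => z.coeff g) h
    · obtain ⟨c, hc⟩ := hspan v
      exact ⟨fun i g => (c i).coeff g, hc.symm.trans (hcombo c)⟩

section chars

variable {A : Type} [CommRing A]

/-- A character modulo `q` from characters modulo the primes. -/
def qChar (φ : ∀ i, (ZMod (T.qv i))ˣ →* Aˣ) (q : ℕ) : MulChar (ZMod q) A :=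
  MulChar.ofUnitHom (∏ i, if h : T.qv i ∣ q then (φ i).comp (ZMod.unitsMap h) else 1)

theorem qChar_qv (φ : ∀ i, (ZMod (T.qv i))ˣ →* Aˣ) (i : Fin r) (v : (ZMod (T.qv i))ˣ) :
    T.qChar φ (T.qv i) v = φ i v := by
  rw [qChar, MulChar.ofUnitHom_coe, MonoidHom.finsetProd_apply, Finset.prod_eq_single i]
  · rw [dif_pos dvd_rfl, MonoidHom.comp_apply,
      show ZMod.unitsMap (dvd_refl (T.qv i)) v = v from Units.ext (by simp [ZMod.unitsMap])]
  · intro j _ hj
    rw [dif_neg fun h => hj (T.inj ((Nat.prime_dvd_prime_iff_eq (T.prime j) (T.prime i)).1 h)),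
      MonoidHom.one_apply]
  · exact fun h => absurd (Finset.mem_univ i) h

theorem galChar_qChar (φ : ∀ i, (ZMod (T.qv i))ˣ →* Aˣ) (σ : GQ) :
    galChar T.Qn (T.qChar φ) σ = ∏ i, φ i (cycK (T.qv i) (ZMod (T.qv i)) σ) := by
  rw [galChar, MonoidHom.finsetProd_apply, Qn, Finset.prod_image fun i _ j _ h => T.inj h]
  refine Finset.prod_congr rfl fun i _ => Units.ext ?_
  rw [galCharAt, dif_pos (T.prime i), MonoidHom.comp_apply, MulChar.coe_toUnitHom, T.qChar_qv]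

theorem galChar_qChar_galD (ψ : T.Dgrp →* Aˣ) (σ : GQ) :
    galChar T.Qn (T.qChar fun i => (ψ.comp (MonoidHom.mulSingle _ i)).comp (T.logQ i)) σ =
      ψ (T.galD σ) := by
  rw [galChar_qChar]
  conv_rhs => rw [← Finset.univ_prod_mulSingle (T.galD σ), map_prod]
  rfl

theorem galD_frobenius {ℓ : ℕ} (hℓ : ℓ.Prime) (hne : ∀ i, ℓ ≠ T.qv i)
    {B : ValuationSubring Qb} (hB : B.LiesOverPrime ℓ) {σ : GQ} (hσ : B.IsFrobeniusAt σ ℓ) :
    T.galD σ = T.kap ℓ := by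
  refine funext fun i => ?_
  have hc : ℓ.Coprime (T.qv i) := (Nat.coprime_primes hℓ (T.prime i)).2 (hne i)
  rw [T.galD_apply, kap, dif_pos hc]
  refine congrArg (T.logQ i) (Units.ext ?_)
  rw [FA.JTorsion.cycK_frobenius (T.qv i) (ZMod (T.qv i)) hℓ (hne i) hB hσ,
    ZMod.coe_unitOfCoprime]

theorem galD_inertia {ℓ : ℕ} (hℓ : ℓ.Prime) (hne : ∀ i, ℓ ≠ T.qv i)
    {B : ValuationSubring Qb} (hB : B.LiesOverPrime ℓ) {σ : GQ}
    (hσ : σ ∈ B.inertiaSubgroupIn ℚ) : T.galD σ = 1 := by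
  refine funext fun i => ?_
  rw [T.galD_apply, FA.JTorsion.cycK_inertia (T.qv i) (ZMod (T.qv i)) hℓ (hne i) hB hσ, map_one]
  rfl

end chars

section neb

variable {A : Type} [CommRing A] [IsDomain A] [CharZero A]

/-- **Square roots of characters of the diamond group.** -/
theorem exists_sqrt (ψ : T.Dgrp →* Aˣ) {ζ : A} (hζ : ζ ^ 2 ^ n = -1) :
    ∃ φ : ∀ i, (ZMod (T.qv i))ˣ →* Aˣ,
      (∀ i v, φ i v * φ i v = ψ (Pi.mulSingle i (T.logQ i v))) ∧
      ∀ i v, φ i v ^ 2 ^ (n + 1) = 1 := by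
  have hu : IsUnit ζ := (isUnit_pow_iff (pow_ne_zero n two_ne_zero)).1 (hζ ▸ isUnit_one.neg)
  obtain ⟨z, rfl⟩ := hu
  have hz1 : z ^ 2 ^ (n + 1) = 1 := Units.ext (by
    rw [pow_succ, pow_mul, Units.val_pow_eq_pow_val, Units.val_pow_eq_pow_val, hζ, Units.val_one]
    ring)
  have hne : ((z : A)) ^ 2 ^ n ≠ 1 := by
    rw [hζ]
    exact fun h => two_ne_zero (α := A) (by linear_combination -h)
  have hord : orderOf ((z : A) ^ 2) = 2 ^ n := by
    have h1 : orderOf (z : A) = 2 ^ (n + 1) :=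
      orderOf_eq_prime_pow hne (by rw [← Units.val_pow_eq_pow_val, hz1, Units.val_one])
    rw [orderOf_pow' _ two_ne_zero, h1, Nat.gcd_eq_right (dvd_pow_self 2 n.succ_ne_zero), pow_succ,
      Nat.mul_div_cancel _ two_pos]
  have hprim : IsPrimitiveRoot ((z : A) ^ 2) (2 ^ n) := hord ▸ IsPrimitiveRoot.orderOf _
  let gi : Fin r → Aˣ := fun i => ψ (Pi.mulSingle i (Multiplicative.ofAdd 1))
  have hgi : ∀ i, ((gi i : Aˣ) : A) ^ 2 ^ n = 1 := fun i => by
    rw [← Units.val_pow_eq_pow_val, ← Units.val_one]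
    refine congrArg Units.val ?_
    show ψ (Pi.mulSingle i (Multiplicative.ofAdd 1)) ^ 2 ^ n = 1
    rw [← map_pow, ← MonoidHom.mulSingle_apply, ← map_pow,
      show (Multiplicative.ofAdd (1 : ZMod (2 ^ n))) ^ 2 ^ n = 1 by
        rw [← ofAdd_nsmul, nsmul_one, ZMod.natCast_self, ofAdd_zero], map_one, map_one]
  choose k hk using fun i =>
    haveI : NeZero (2 ^ n) := ⟨pow_ne_zero n two_ne_zero⟩
    hprim.eq_pow_of_pow_eq_one (hgi i)
  have hk' : ∀ i, (z ^ k i) * (z ^ k i) = gi i := fun i => Units.ext (by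
    rw [← (hk i).2, ← pow_mul, ← pow_add, Units.val_pow_eq_pow_val]
    congr 1
    ring)
  have hval : ∀ (m : ℕ) (_ : m ≠ 0) (a b : ZMod m) (y : Aˣ), y ^ m = 1 →
      y ^ (a + b).val = y ^ a.val * y ^ b.val := fun m hm a b y hy => by
    haveI : NeZero m := ⟨hm⟩
    rw [← pow_add, ZMod.val_add, ← pow_eq_pow_mod _ hy]
  have hzk : ∀ i, (z ^ k i) ^ 2 ^ (n + 1) = 1 := fun i => by
    rw [← pow_mul, mul_comm, pow_mul, hz1, one_pow]
  let φ : ∀ i, (ZMod (T.qv i))ˣ →* Aˣ := fun i => MonoidHom.mk'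
    (fun v => (z ^ k i) ^ (T.logBig i v).toAdd.val) fun a b => by
      rw [map_mul, toAdd_mul]
      exact hval _ (pow_ne_zero _ two_ne_zero) _ _ _ (hzk i)
  refine ⟨φ, fun i v => ?_, fun i v => ?_⟩
  · obtain ⟨m, hm⟩ : ∃ m, (T.logBig i v).toAdd.val = m := ⟨_, rfl⟩
    show (z ^ k i) ^ (T.logBig i v).toAdd.val * (z ^ k i) ^ (T.logBig i v).toAdd.val = _
    rw [hm, ← mul_pow, hk' i]
    show ψ (Pi.mulSingle i (Multiplicative.ofAdd 1)) ^ m = _
    rw [← map_pow, ← MonoidHom.mulSingle_apply, ← map_pow, ← ofAdd_nsmul, nsmul_one]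
    refine congrArg ψ (congrArg (Pi.mulSingle i) (Multiplicative.toAdd.injective ?_))
    show (m : ZMod (2 ^ n)) = ZMod.castHom (pow_dvd_pow 2 n.le_succ) (ZMod (2 ^ n))
      (T.logBig i v).toAdd
    rw [← hm, ZMod.natCast_val]
    rfl
  · show ((z ^ k i) ^ (T.logBig i v).toAdd.val) ^ 2 ^ (n + 1) = 1
    rw [← pow_mul, mul_comm, pow_mul, hzk, one_pow]

end neb

end TWData

end BaseData

end FA.Two
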