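import Fermat.Agent.Two.DepthNew
import Fermat.Agent.Two.DepthPiece
import Fermat.Agent.Root.LiftTW
import Mathlib.RingTheory.Henselian

/-!
# The diamonds and twists in the carried algebra of a level

From inertia at the Taylor-Wiles primes: the twist is read off the line of the eigenvalue lifting
the chosen root, the diamond off the determinant.
-/

set_option autoImplicit false
set_option linter.unusedSectionVars false
set_option linter.style.haveILetI false
set_option synthInstance.maxHeartbeats 400000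
set_option maxHeartbeats 1600000

noncomputable section

namespace FA.Two

open IsLocalRing Matrix FA.Deform

local notation "Qb" => AlgebraicClosure ℚ
local notation "GQ" => AlgebraicClosure ℚ ≃ₐ[ℚ] AlgebraicClosure ℚ

variable {O : Type} [CommRing O] [IsDomain O] [IsDiscreteValuationRing O]
  [IsAdicComplete (maximalIdeal O) O]

section model

variable {rb : GQ →* Matrix (Fin 2) (Fin 2) (ResidueField O)} {Y : Type}

/-- The reductions of the projections are the reduction. -/
theorem Family.Model.eps_proj {F : Family rb Y} (M : F.Model) (j : F.J) (x : M.R) :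
    F.ε j (M.proj j x) = M.π x := by
  have hx : x ∈ Algebra.adjoin O ((Set.range fun σ => (M.rR σ).trace) ∪ Set.range M.al) := by
    rw [M.generated]; exact Algebra.mem_top
  induction hx using Algebra.adjoin_induction with
  | algebraMap c =>
    rw [AlgHom.commutes, F.ε_algebraMap]
    exact (RingHom.congr_fun M.π_algebraMap c).symm
  | add a b _ _ ha hb => rw [map_add, map_add, map_add, ha, hb]
  | mul a b _ _ ha hb => rw [map_mul, map_mul, map_mul, ha, hb]
  | mem z hz =>
    rcases hz with ⟨σ, rfl⟩ | ⟨y, rfl⟩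
    · rw [M.proj_trace, AddMonoidHom.map_trace (F.ε j), AddMonoidHom.map_trace M.π]
      exact congrArg Matrix.trace ((DFunLike.congr_fun (F.lift j) σ).trans
        (DFunLike.congr_fun M.lift σ).symm)
    · rw [M.proj_al, F.ε_al, M.π_al]

/-- Projections know determinants. -/
theorem Family.Model.proj_det {F : Family rb Y} (M : F.Model) (j : F.J) (σ : GQ) :
    M.proj j (M.rR σ).det = (F.r j σ).det := by
  obtain ⟨U, hU, hUσ⟩ := M.proj_rR j
  have h := congrArg Matrix.det (hUσ σ)
  rw [Matrix.det_mul, Matrix.det_mul, mul_comm U.det] at h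
  rw [AlgHom.map_det, AlgHom.mapMatrix_apply]
  exact ((hU.map Matrix.detMonoidHom).mul_right_cancel h).symm

/-- Homomorphisms of a carried algebra are known on traces and distinguished elements. -/
theorem Carried.hom_ext (C : Carried rb Y) {B : Type} [CommRing B] [Algebra O B]
    {f g : C.R →ₐ[O] B} (ht : ∀ σ, f (C.rR σ).trace = g (C.rR σ).trace)
    (ha : ∀ y, f (C.al y) = g (C.al y)) : f = g := by
  refine AlgHom.ext fun x => ?_
  have hx : x ∈ Algebra.adjoin O ((Set.range fun σ => (C.rR σ).trace) ∪ Set.range C.al) := by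
    rw [C.generated]; exact Algebra.mem_top
  induction hx using Algebra.adjoin_induction with
  | algebraMap c => rw [AlgHom.commutes, AlgHom.commutes]
  | add a b _ _ ha hb => rw [map_add, map_add, ha, hb]
  | mul a b _ _ ha hb => rw [map_mul, map_mul, ha, hb]
  | mem z hz =>
    rcases hz with ⟨σ, rfl⟩ | ⟨y, rfl⟩
    · exact ht σ
    · exact ha y

end model

variable [CharZero O] [Finite (ResidueField O)] [CharP (ResidueField O) 2]
  {ι : Type} [DecidableEq ι] [Fintype ι]

/-- The conditions on the further lifts. -/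
structure ExtraOK {rb : GQ →* Matrix (Fin 2) (Fin 2) (ResidueField O)} (Bd : BaseData O ι)
    (ιp : ℤ_[2] →+* O) (E : Family (O := O) rb ι) : Prop where
  unr : ∀ j, ∀ l : ℕ, l.Prime → l ≠ 2 → ¬ l ∣ Bd.D → (∀ x, l ≠ Bd.qn x) →
    ∀ V : ValuationSubring Qb, V.LiesOverPrime l → ∀ σ ∈ V.inertiaSubgroupIn ℚ, E.r j σ = 1
  ram : ∀ j, ∀ l : ℕ, l.Prime → l ∣ Bd.D → ∀ V : ValuationSubring Qb, V.LiesOverPrime l →
    ∀ σ ∈ V.inertiaSubgroupIn ℚ, (E.r j σ - 1) ^ 2 = 0
  det : ∀ j σ, (E.r j σ).det =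
    algebraMap O (E.B j) (ιp ((FA.JTorsion.cycP 2 σ : ℤ_[2]ˣ) : ℤ_[2]))
  flat : ∀ j, ∀ V : ValuationSubring Qb, V.LiesOverPrime 2 →
    FA.TW.HasFlatModels (ofMatrix (E.r j) (E.cont j)) V
  aux : ∀ j, ∀ x, ∀ V : ValuationSubring Qb, V.LiesOverPrime (Bd.qn x) → ∀ φ : GQ,
    V.IsFrobeniusAt φ (Bd.qn x) →
    (E.r j φ - ((Bd.qn x : E.B j) * E.al j x) • 1) * (E.r j φ - E.al j x • 1) = 0 ∧
      ∀ σ ∈ V.inertiaSubgroupIn ℚ,
        (E.r j φ - ((Bd.qn x : E.B j) * E.al j x) • 1) * (E.r j σ - 1) = 0 ∧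
        (E.r j σ - 1) * (E.r j φ - E.al j x • 1) = 0

namespace BaseData

namespace TWData

variable {Bd : BaseData O ι} {r n : ℕ} (T : Bd.TWData r n)

theorem mem_closure_dGen {Y : Type} [Fintype Y] [DecidableEq Y] {e : Y → ℕ}
    (g : FA.RT.DGroup 2 e) : g ∈ Submonoid.closure (Set.range (FA.RT.dGen 2 e)) := by
  classical
  rw [← Finset.univ_prod_mulSingle g]
  refine Submonoid.prod_mem _ fun i _ => ?_
  have h : Pi.mulSingle i (g i) = FA.RT.dGen 2 e i ^ (Multiplicative.toAdd (g i)).val := by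
    rw [FA.RT.dGen, ← Pi.mulSingle_pow]
    congr 1
    refine Multiplicative.toAdd.injective ?_
    rw [toAdd_pow, toAdd_ofAdd, nsmul_eq_mul, mul_one, ZMod.natCast_zmod_val]
  rw [h]
  exact pow_mem (Submonoid.subset_closure (Set.mem_range_self i)) _

theorem dGen_inl (i : Fin r) :
    FA.RT.dGen 2 (fun _ : Fin r ⊕ Fin r => n) (Sum.inl i) =
      T.diaG (FA.RT.dGen 2 (fun _ : Fin r => n) i) := by
  funext j
  rcases j with j | j
  · by_cases h : j = i
    · subst h
      simp [diaG, FA.RT.dGen]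
    · simp [diaG, FA.RT.dGen, h]
  · simp [diaG, FA.RT.dGen]

theorem dGen_inr (i : Fin r) :
    FA.RT.dGen 2 (fun _ : Fin r ⊕ Fin r => n) (Sum.inr i) =
      T.twistG (FA.RT.dGen 2 (fun _ : Fin r => n) i) := by
  funext j
  rcases j with j | j
  · simp [twistG, FA.RT.dGen]
  · by_cases h : j = i
    · subst h
      simp [twistG, FA.RT.dGen]
    · simp [twistG, FA.RT.dGen, h]

/-- Inertia at a Taylor-Wiles prime realises its generator of the diamond group. -/
theorem exists_inertia_gen (i : Fin r) {V : ValuationSubring Qb}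
    (hV : V.LiesOverPrime (T.qv i)) :
    ∃ s ∈ V.inertiaSubgroupIn ℚ, T.galD s = FA.RT.dGen 2 (fun _ : Fin r => n) i := by
  obtain ⟨v, hv⟩ := T.logQ_surjective i (Multiplicative.ofAdd 1)
  obtain ⟨s, hs, hsv⟩ := FA.Root.exists_inertia_cycK hV v
  refine ⟨s, hs, funext fun j => ?_⟩
  rw [T.galD_apply]
  by_cases h : j = i
  · subst h
    rw [hsv, hv, FA.RT.dGen, Pi.mulSingle_eq_same]
  · rw [FA.JTorsion.cycK_inertia (T.qv j) (ZMod (T.qv j)) (T.prime i)
      (fun e => h (T.inj e).symm) hV hs, map_one, FA.RT.dGen, Pi.mulSingle_eq_of_ne h]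

variable {T} {rb : GQ →* Matrix (Fin 2) (Fin 2) (ResidueField O)} {ιp : ℤ_[2] →+* O}
  {P : Bd.AuxPlaces rb} {S₀ : SepAlg rb Bd.alg} {U : Set ℕ} {hH : S₀.Hyp P U}
  {E : Family (O := O) rb ι} {D : T.DepthAlg ιp P S₀} {N₀ : BaseNew hH E}

/-- The value of a carried element at a further lift. -/
abbrev DepthNew.projExtra (L : DepthNew D N₀) (j : E.J) : L.M₁.R →ₐ[O] E.B j :=
  L.M₁.proj (.inr j)

/-- The value of an element of the group at the lifts. -/
def DepthNew.IsVal (L : DepthNew D N₀) (g : T.G2) (y : L.M₁.R) : Prop :=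
  (∀ j : D.sep.New P, SepAlg.projNew (D.hyp hH) L.M₁ j y = D.sep.val j.1 (D.grp g)) ∧
    ∀ j : E.J, L.projExtra j y = 1

theorem DepthNew.IsVal.mul {L : DepthNew D N₀} {g g' : T.G2} {y y' : L.M₁.R}
    (h : L.IsVal g y) (h' : L.IsVal g' y') : L.IsVal (g * g') (y * y') := by
  refine ⟨fun j => ?_, fun j => ?_⟩
  · exact (map_mul _ _ _).trans ((congrArg₂ (· * ·) (h.1 j) (h'.1 j)).trans
      ((congrArg (D.sep.val j.1) (map_mul D.grp g g')).trans (map_mul _ _ _)).symm)
  · exact (map_mul _ _ _).trans ((congrArg₂ (· * ·) (h.2 j) (h'.2 j)).trans (one_mul _))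

theorem DepthNew.isVal_one (L : DepthNew D N₀) : L.IsVal 1 1 :=
  ⟨fun j => (map_one _).trans ((congrArg (D.sep.val j.1) (map_one D.grp)).trans (map_one _)).symm,
    fun _ => map_one _⟩

theorem DepthNew.IsVal.unique {L : DepthNew D N₀} {g : T.G2} {y y' : L.M₁.R}
    (h : L.IsVal g y) (h' : L.IsVal g y') : y = y' := by
  refine sub_eq_zero.1 (L.M₁.proj_injective _ fun j => ?_)
  rw [map_sub, sub_eq_zero]
  rcases j with j | j
  · exact (h.1 j).trans (h'.1 j).symm
  · exact (h.2 j).trans (h'.2 j).symm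

variable (L : DepthNew D N₀) (hE : ExtraOK Bd ιp E) (hrb : Bd.ResidualFrob rb)

include hE hrb

/-- **The twist of a generator.** -/
theorem DepthNew.exists_val_twist (i : Fin r) :
    ∃ y : L.M₁.R, L.IsVal (T.twistG (FA.RT.dGen 2 (fun _ : Fin r => n) i)) y := by
  obtain ⟨V, hV⟩ := FA.Deform.exists_liesOverPrime (T.prime i)
  obtain ⟨φ, hφ⟩ := FA.Deform.exists_isFrobeniusAt (T.prime i) hV
  obtain ⟨s, hs, hsg⟩ := T.exists_inertia_gen i hV
  set M₁ := L.M₁
  haveI : HenselianRing M₁.R (maximalIdeal M₁.R) := inferInstance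
  obtain ⟨h1, h2⟩ := hrb ⟨T.qv i, T.prime i⟩ (T.notMem_S i) V hV φ hφ
  have hπr : ∀ σ, (M₁.rR σ).map M₁.π = rb σ := fun σ => DFunLike.congr_fun M₁.lift σ
  set t := (M₁.rR φ).trace with ht
  set d := (M₁.rR φ).det with hd
  have hπt : M₁.π t = Bd.c ⟨T.qv i, T.prime i⟩ := by
    rw [ht, AddMonoidHom.map_trace M₁.π]
    exact (congrArg Matrix.trace (hπr φ)).trans h1
  have hπd : M₁.π d = 1 := by
    rw [hd, RingHom.map_det]
    exact (congrArg Matrix.det (hπr φ)).trans (h2.trans (T.qv_cast i))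
  have hker : RingHom.ker M₁.π = maximalIdeal M₁.R :=
    eq_maximalIdeal (RingHom.ker_isMaximal_of_surjective _ M₁.π_surjective)
  have hπa : M₁.π (algebraMap O M₁.R (T.α i)) = residue O (T.α i) :=
    RingHom.congr_fun M₁.π_algebraMap _
  have hπ2 : M₁.π 2 = 0 := by rw [map_ofNat]; exact CharTwo.two_eq_zero
  let p : Polynomial M₁.R :=
    Polynomial.X ^ 2 - Polynomial.C t * Polynomial.X + Polynomial.C d
  obtain ⟨e, he, hea⟩ := HenselianRing.is_henselian (I := maximalIdeal M₁.R) p
    (by simp only [p]; monicity!) (algebraMap O M₁.R (T.α i))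
    (by
      rw [← hker, RingHom.mem_ker]
      simp only [p, Polynomial.eval_add, Polynomial.eval_sub, Polynomial.eval_pow,
        Polynomial.eval_mul, Polynomial.eval_X, Polynomial.eval_C, map_add, map_sub, map_pow,
        map_mul, hπa, hπt, hπd]
      exact T.root i)
    (by
      refine (Ideal.Quotient.mk (maximalIdeal M₁.R)).isUnit_map ?_
      by_contra hu
      have hu' := (IsLocalRing.mem_maximalIdeal _).2 hu
      rw [← hker, RingHom.mem_ker] at hu'
      simp only [p, Polynomial.derivative_add, Polynomial.derivative_sub,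
        Polynomial.derivative_X_pow, Polynomial.derivative_C, Polynomial.derivative_mul,
        Polynomial.derivative_X, Polynomial.eval_add, Polynomial.eval_sub, Polynomial.eval_pow,
        Polynomial.eval_mul, Polynomial.eval_X, Polynomial.eval_C, Polynomial.eval_one,
        Polynomial.eval_zero, zero_mul, zero_add, mul_one, add_zero, map_sub, map_mul, hπt] at hu'
      norm_num [hπ2] at hu'
      exact T.simple i hu')
  have hroot : e * e - t * e + d = 0 := by
    have := he
    simp only [p, Polynomial.IsRoot, Polynomial.eval_add, Polynomial.eval_sub,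
      Polynomial.eval_pow, Polynomial.eval_mul, Polynomial.eval_X, Polynomial.eval_C] at this
    linear_combination this
  have hπe : M₁.π e = residue O (T.α i) := by
    rw [← hker, RingHom.mem_ker, map_sub, hπa, sub_eq_zero] at hea
    exact hea
  have hu : IsUnit (2 * e - t) := by
    by_contra hn
    have h' := (IsLocalRing.mem_maximalIdeal _).2 hn
    rw [← hker, RingHom.mem_ker, map_sub, map_mul, hπ2, zero_mul, zero_sub, neg_eq_zero, hπt] at h'
    exact T.simple i h'
  obtain ⟨u, hu⟩ := hu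
  refine ⟨(↑u⁻¹ : M₁.R) * ((M₁.rR (φ * s)).trace - (t - e) * (M₁.rR s).trace),
    fun j => ?_, fun j => ?_⟩
  · let pr : M₁.R →ₐ[O] D.sep.fam.B j.1 := SepAlg.projNew (D.hyp hH) M₁ j
    have ptr : ∀ σ, pr (M₁.rR σ).trace = (D.sep.fam.r j.1 σ).trace := fun σ =>
      M₁.proj_trace (.inl j) σ
    have pdet : ∀ σ, pr (M₁.rR σ).det = (D.sep.fam.r j.1 σ).det := fun σ =>
      M₁.proj_det (.inl j) σ
    have peps : ∀ x, D.sep.fam.ε j.1 (pr x) = M₁.π x := fun x => M₁.eps_proj (.inl j) x
    obtain ⟨a, haε, haroot, haline⟩ := D.line j.1 i V hV φ hφ s hs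
    have hpr : pr e = a := by
      have h0 : (pr e - a) * (pr e + a - (D.sep.fam.r j.1 φ).trace) = 0 := by
        have h3 := congrArg pr hroot
        rw [map_add, map_sub, map_mul, map_mul, map_zero, ht, hd, ptr, pdet] at h3
        linear_combination h3 - haroot
      refine sub_eq_zero.1 ((mul_eq_zero.1 h0).resolve_right fun h4 => T.simple i ?_)
      have h5 := congrArg (D.sep.fam.ε j.1) h4
      rw [map_sub, map_add, peps, hπe, haε, CharTwo.add_self_eq_zero, zero_sub, map_zero,
        neg_eq_zero, ← ptr, peps, ← ht, hπt] at h5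
      exact h5
    have hne : 2 * a - (D.sep.fam.r j.1 φ).trace ≠ 0 := by
      rw [← hpr, ← ptr, ← ht, ← map_ofNat pr 2, ← map_mul, ← map_sub, ← hu]
      exact (u.isUnit.map pr).ne_zero
    rw [hsg] at haline
    refine mul_left_cancel₀ hne ?_
    show _ * pr _ = _
    rw [haline, ← map_mul (D.sep.fam.r j.1), ← hpr, ← ptr, ← ptr, ← ptr, ← ht, ← map_ofNat pr 2,
      ← map_mul, ← map_sub, ← map_mul, ← map_sub, ← map_mul, ← map_sub, ← hu,
      Units.mul_inv_cancel_left]
  · have hne2 : ∀ x, T.qv i ≠ Bd.qn x := T.ne_qn i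
    have hs1 : E.r j s = 1 :=
      hE.unr j _ (T.prime i) (T.qv_ne_two i) (T.not_dvd i) hne2 V hV s hs
    let pe : M₁.R →ₐ[O] E.B j := M₁.proj (.inr j)
    have ptr : ∀ σ, pe (M₁.rR σ).trace = (E.r j σ).trace := fun σ => M₁.proj_trace (.inr j) σ
    show pe _ = 1
    refine (u.isUnit.map pe).mul_left_cancel ?_
    have e1 : pe (M₁.rR (φ * s)).trace = pe t := by rw [ht, ptr, ptr, map_mul, hs1, mul_one]
    have e2 : pe (M₁.rR s).trace = 2 := by
      rw [ptr, hs1, Matrix.trace_one, Fintype.card_fin, Nat.cast_ofNat]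
    rw [← map_mul, Units.mul_inv_cancel_left, mul_one, map_sub, e1, map_mul, e2, hu, map_sub,
      map_sub, map_mul, map_ofNat]
    ring

/-- **Every element of the group has its value.** -/
theorem DepthNew.exists_val (g : T.G2) : ∃ y : L.M₁.R, L.IsVal g y := by
  classical
  let G : Submonoid T.G2 :=
    { carrier := {g | ∃ y, L.IsVal g y}
      one_mem' := ⟨1, L.isVal_one⟩
      mul_mem' := fun ⟨y, hy⟩ ⟨y', hy'⟩ => ⟨y * y', hy.mul hy'⟩ }
  have htw : ∀ a : T.Dgrp, T.twistG a ∈ G := by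
    intro a
    have h := mem_closure_dGen a
    induction h using Submonoid.closure_induction with
    | mem x hx =>
      obtain ⟨i, rfl⟩ := hx
      exact L.exists_val_twist hE hrb i
    | one => rw [map_one]; exact G.one_mem
    | mul a b _ _ ha hb => rw [map_mul]; exact G.mul_mem ha hb
  suffices hg : ∀ g, g ∈ G from hg g
  intro g
  have h := mem_closure_dGen g
  refine Submonoid.closure_le.2 ?_ h
  rintro _ ⟨i | i, rfl⟩
  · rw [T.dGen_inl]
    set a := FA.RT.dGen 2 (fun _ : Fin r => n) i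
    obtain ⟨V, hV⟩ := FA.Deform.exists_liesOverPrime (T.prime i)
    obtain ⟨s, hs, hsg⟩ := T.exists_inertia_gen i hV
    obtain ⟨y, hy⟩ := htw a⁻¹
    have hcyc : ιp ((FA.JTorsion.cycP 2 s : ℤ_[2]ˣ) : ℤ_[2]) = 1 := by
      haveI : Fact (Nat.Prime 2) := ⟨Nat.prime_two⟩
      rw [FA.JTorsion.cycP_inertia 2 (T.prime i) (T.qv_ne_two i) hV hs, Units.val_one, map_one]
    have hd : L.IsVal (T.diaG a * T.twistG a ^ 2) (L.M₁.rR s).det := by
      refine ⟨fun j => ?_, fun j => ?_⟩
      · refine (L.M₁.proj_det (.inl j) s).trans ?_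
        show (D.sep.fam.r j.1 s).det = _
        rw [D.det, hcyc, map_one, one_mul, hsg]
      · refine (L.M₁.proj_det (.inr j) s).trans ?_
        show (E.r j s).det = _
        rw [hE.det, hcyc, map_one]
    refine ⟨(L.M₁.rR s).det * (y * y), ?_⟩
    have h2 : T.diaG a = T.diaG a * T.twistG a ^ 2 * (T.twistG a⁻¹ * T.twistG a⁻¹) := by
      rw [map_inv]; group
    rw [h2]
    exact hd.mul (hy.mul hy)
  · rw [T.dGen_inr]
    exact htw _

/-- **The diamonds and twists of the carried algebra.** -/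
theorem DepthNew.exists_delta : ∃ δ : T.G2 →* L.M₁.R, ∀ g, L.IsVal g (δ g) := by
  choose y hy using L.exists_val hE hrb
  exact ⟨{
    toFun := y
    map_one' := (hy 1).unique L.isVal_one
    map_mul' := fun a b => (hy (a * b)).unique ((hy a).mul (hy b)) }, hy⟩

end TWData

end BaseData

end FA.Two
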