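import Fermat.Agent.Two.BaseNew
import Fermat.Agent.Two.DepthAlgData
import Fermat.Agent.RT.Tower.Algebra

/-!
# The new part at a Taylor-Wiles level

Over the group ring of diamonds and twists the image of the product of the operators is a free
direct summand lifting the one of the base; the carried algebra of the new lifts of the level acts
on it and maps onto that of the base, compatibly with the augmentation.
-/

set_option autoImplicit false
set_option linter.unusedSectionVars false
set_option linter.style.haveILetI false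
set_option synthInstance.maxHeartbeats 400000
set_option maxHeartbeats 1600000

noncomputable section

namespace FA.Two

open IsLocalRing Matrix FA.Deform

local notation "Qb" => AlgebraicClosure ℚ
local notation "GQ" => AlgebraicClosure ℚ ≃ₐ[ℚ] AlgebraicClosure ℚ

variable {O : Type} [CommRing O] [IsDomain O] [IsDiscreteValuationRing O]
  [IsAdicComplete (maximalIdeal O) O] [CharZero O] [Finite (ResidueField O)]
  [CharP (ResidueField O) 2]
  {ι : Type} [DecidableEq ι] [Fintype ι]

namespace BaseData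

namespace TWData

variable {Bd : BaseData O ι} {r n : ℕ} {T : Bd.TWData r n}
  {rb : GQ →* Matrix (Fin 2) (Fin 2) (ResidueField O)} {ιp : ℤ_[2] →+* O} {P : Bd.AuxPlaces rb}
  {S₀ : SepAlg rb Bd.alg}

theorem isPGroup_G2 : IsPGroup 2 T.G2 := fun g => ⟨n, funext fun i => by
  rw [Pi.pow_apply, Pi.one_apply]
  refine Multiplicative.toAdd.injective ?_
  rw [toAdd_pow, nsmul_eq_mul, ZMod.natCast_self, zero_mul, toAdd_one]⟩

namespace DepthAlg

variable (D : T.DepthAlg ιp P S₀)

theorem pr_trace (σ : GQ) : D.pr (D.sep.f (D.sep.M.rR σ).trace) = S₀.f (S₀.M.rR σ).trace := by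
  refine sub_eq_zero.1 (S₀.separate _ fun j => ?_)
  rw [map_sub, sub_eq_zero, ← D.toBase_val, D.sep.val_trace, D.toBase_trace, S₀.val_trace]

theorem pr_op (s γ : GQ) : D.pr (D.sep.op s γ) = S₀.op s γ := by
  rw [SepAlg.op_eq, SepAlg.op_eq, map_sub, D.pr_trace, D.pr_trace]

theorem pr_nAll : D.pr (D.sep.nAll P) = S₀.nAll P := by
  rw [SepAlg.nAll, SepAlg.nAll, map_prod]
  exact Finset.prod_congr rfl fun x _ => D.pr_op (P.s x) P.γ

theorem toBase_injective (j : S₀.fam.J) : Function.Injective (D.toBase j) := by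
  rw [injective_iff_map_eq_zero]
  intro x hx
  by_contra hx0
  obtain ⟨y, hy, hy0⟩ := Submodule.exists_mem_ne_zero_of_ne_bot
    (p := (RingHom.ker (D.toBase j).toRingHom).comap (algebraMap O (D.sep.fam.B (D.base j))))
    (Ideal.comap_ne_bot_of_integral_mem hx0 hx (Algebra.IsIntegral.isIntegral x))
  rw [Ideal.mem_comap, RingHom.mem_ker] at hy
  have h1 : y • (1 : S₀.fam.B j) = 0 := by
    rw [Algebra.smul_def, mul_one, ← (D.toBase j).commutes]
    exact hy
  exact one_ne_zero ((smul_eq_zero.1 h1).resolve_left hy0)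

theorem toBase_nAll (j : S₀.fam.J) :
    D.toBase j (D.sep.val (D.base j) (D.sep.nAll P)) = S₀.val j (S₀.nAll P) := by
  rw [D.toBase_val, D.pr_nAll]

theorem base_new_ne (j : S₀.New P) : D.sep.vals (D.sep.nAll P) (D.base j.1) ≠ 0 := fun h =>
  j.2 (((D.toBase_nAll j.1).symm.trans (congrArg (D.toBase j.1) h)).trans (map_zero _))

/-- A new lift of the base among those of the level. -/
def baseNew (j : S₀.New P) : D.sep.New P := ⟨D.base j.1, D.base_new_ne j⟩

variable {U : Set ℕ}

theorem hyp (hH : S₀.Hyp P U) : D.sep.Hyp P (Set.range T.qv) := ⟨hH.two_mem, hH.det_rb, D.loc⟩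

theorem toBase_al (hH : S₀.Hyp P U) (j : S₀.New P) (x : ι) :
    D.toBase j.1 (SepAlg.al (D.hyp hH) (D.baseNew j) x) = SepAlg.al hH j x := by
  refine SepAlg.eq_al hH j x ?_
  have h := congrArg (D.toBase j.1) (SepAlg.isAl (D.hyp hH) (D.baseNew j) x)
  have e1 : D.toBase j.1 ((D.sep.fam.r (D.base j.1) (P.s x) - 1) *
      D.sep.fam.r (D.base j.1) P.γ).trace =
        ((S₀.fam.r j.1 (P.s x) - 1) * S₀.fam.r j.1 P.γ).trace := by
    rw [← D.sep.val_op, D.toBase_val, D.pr_op, S₀.val_op]
  have e2 : D.toBase j.1 (D.sep.fam.r (D.base j.1) (P.φ x) *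
      (D.sep.fam.r (D.base j.1) (P.s x) - 1) * D.sep.fam.r (D.base j.1) P.γ).trace =
        (S₀.fam.r j.1 (P.φ x) * (S₀.fam.r j.1 (P.s x) - 1) * S₀.fam.r j.1 P.γ).trace := by
    rw [mul_sub, mul_one, sub_mul, ← map_mul, ← map_mul, ← map_mul, Matrix.trace_sub, map_sub,
      D.toBase_trace, D.toBase_trace, mul_sub, mul_one, sub_mul, ← map_mul, ← map_mul, ← map_mul,
      Matrix.trace_sub]
  exact (((map_mul (D.toBase j.1) _ _).trans (congrArg₂ (· * ·)
    ((map_mul (D.toBase j.1) _ _).trans (congrArg (· * _) (map_natCast (D.toBase j.1) _))) e1)).symm.trans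
      h).trans e2

end DepthAlg

variable {U : Set ℕ} {hH : S₀.Hyp P U} {E : Family (O := O) rb ι}

/-- The vectors of the base over the group ring. -/
abbrev liftV (T : Bd.TWData r n) (N₀ : BaseNew hH E) :
    Matrix (Fin (Bd.frame Finset.univ).d) (Fin N₀.ρ) (MonoidAlgebra O T.G2) :=
  N₀.V₀.map (algebraMap O (MonoidAlgebra O T.G2))

/-- The carried algebra of the new lifts of the level with its action and its map to the base. -/
structure DepthNew (D : T.DepthAlg ιp P S₀) (N₀ : BaseNew hH E) where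
  /-- the coordinates on the image -/
  p : Matrix (Fin N₀.ρ) (Fin (Bd.frame Finset.univ).d) (MonoidAlgebra O T.G2)
  p_mul : p * (D.act (D.sep.nAll P) * T.liftV N₀) = 1
  /-- the carried algebra -/
  M₁ : (SepAlg.newFam (D.hyp hH) E).Model
  /-- its action -/
  act : M₁.R →ₐ[O] Matrix (Fin N₀.ρ) (Fin N₀.ρ) (MonoidAlgebra O T.G2)
  act_spec : ∀ (y : M₁.R) (b : D.A),
    (∀ j : D.sep.New P, D.sep.val j.1 b =
      SepAlg.projNew (D.hyp hH) M₁ j y * D.sep.val j.1 (D.sep.nAll P)) →
    (∀ j, D.sep.val j (D.sep.nAll P) = 0 → D.sep.val j b = 0) →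
    D.act b * T.liftV N₀ = D.act (D.sep.nAll P) * T.liftV N₀ * act y
  /-- the map to the base -/
  π : M₁.R →ₐ[O] N₀.M₀.R
  π_surjective : Function.Surjective π
  π_trace : ∀ σ, π (M₁.rR σ).trace = (N₀.M₀.rR σ).trace
  π_al : ∀ x, π (M₁.al x) = N₀.M₀.al x
  act_π : ∀ y, (act y).map T.aug2 = N₀.act₀ (π y)

/-- **The new part at the level exists.** -/
theorem nonempty_depthNew (D : T.DepthAlg ιp P S₀) (N₀ : BaseNew hH E) (Fr : FA.Deform.Frame O)
    (hFr : Fr.Adapted rb) (hup : ∃ σ, rb σ 0 1 ≠ 0) : Nonempty (DepthNew D N₀) := by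
  classical
  let Λ := MonoidAlgebra O T.G2
  let πk : Λ →+* ResidueField O := (residue O).comp (T.aug2 : Λ →ₐ[O] O).toRingHom
  have hπ : Function.Surjective πk := fun c => by
    obtain ⟨a, rfl⟩ := residue_surjective c
    exact ⟨algebraMap O Λ a, congrArg (residue O) (T.aug2.commutes a)⟩
  have hu : ∀ x, πk x ≠ 0 → IsUnit x := fun x hx =>
    FA.RT.isUnit_of_isUnit_aug Nat.prime_two hH.natCast_two isPGroup_G2 (by
      by_contra h
      exact hx ((residue_eq_zero_iff _).2 ((IsLocalRing.mem_maximalIdeal _).2 h)))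
  obtain ⟨W, hW, hWmap⟩ := D.old
  set N := D.act (D.sep.nAll P) with hN
  set V := T.liftV N₀ with hV
  have hVaug : V.map T.aug2 = N₀.V₀ := Matrix.ext fun i j => T.aug2.commutes _
  have hNaug : N.map T.aug2 = Bd.matAct Finset.univ (S₀.nAll P) := by
    rw [hN, D.act_aug, D.pr_nAll]
  have hVk : V.map πk = N₀.V₀.map (residue O) := by
    rw [← hVaug, Matrix.map_map]; rfl
  have hinj : Function.Injective ((N * V).map πk).mulVec := by
    have e : (N * V).map πk =
        (Bd.matAct Finset.univ (S₀.nAll P) * N₀.V₀).map (residue O) := by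
      rw [show (N * V).map πk = ((N * V).map T.aug2).map (residue O) by rw [Matrix.map_map]; rfl,
        Matrix.map_mul, hNaug, hVaug]
    rw [e]
    exact N₀.residual_inj
  obtain ⟨p, hp, hrange⟩ := exists_split_image hπ hu N W hW V hinj (fun v => by
    rw [hVk, show W.map πk = BaseData.oldCols Bd from hWmap]
    exact N₀.residual_span v)
  obtain ⟨F, hF⟩ := exists_newHom D.sep.vals (D.sep.nAll P) D.act V p
    (fun a ha => by rw [D.sep.vals_eq_zero ha, map_zero]) hp hrange
  obtain ⟨M₁⟩ := (SepAlg.newFam (D.hyp hH) E).nonempty_model Fr hFr hup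
  obtain ⟨G, hG⟩ := SepAlg.exists_newMap (D.hyp hH) M₁
  have hact : ∀ (y : M₁.R) (b : D.A), (∀ j : D.sep.New P, D.sep.val j.1 b =
        SepAlg.projNew (D.hyp hH) M₁ j y * D.sep.val j.1 (D.sep.nAll P)) →
      (∀ j, D.sep.val j (D.sep.nAll P) = 0 → D.sep.val j b = 0) →
      D.act b * V = N * V * F (G y) := fun y b hb hb0 =>
    hF (G y) b (fun j => by rw [hG y j]; exact hb j) hb0
  -- the map to the base
  let F₁ := SepAlg.newFam (D.hyp hH) E
  let F₀ := SepAlg.newFam hH E
  let ιm : F₀.J → F₁.J := Sum.map D.baseNew id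
  let fm : ∀ j : F₀.J, F₁.B (ιm j) →ₐ[O] F₀.B j
    | .inl j => D.toBase j.1
    | .inr j => AlgHom.id O (E.B j)
  obtain ⟨π, hπs, hπt, hπa⟩ := Family.Model.exists_restrict M₁ N₀.M₀ ιm fm
    (fun j σ => by
      rcases j with j | j
      · exact D.toBase_trace j.1 σ
      · rfl)
    (fun j x => by
      rcases j with j | j
      · exact D.toBase_al hH j x
      · rfl)
  -- compatibility with the base
  have hactπ : ∀ y, (F (G y)).map T.aug2 = N₀.act₀ (π y) := by
    let a1 : M₁.R →+* Matrix (Fin N₀.ρ) (Fin N₀.ρ) O :=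
      (T.aug2 : Λ →ₐ[O] O).toRingHom.mapMatrix.comp (F.comp G).toRingHom
    let a2 : M₁.R →+* Matrix (Fin N₀.ρ) (Fin N₀.ρ) O := (N₀.act₀.comp π).toRingHom
    suffices a1 = a2 from fun y => RingHom.congr_fun this y
    refine RingHom.ext fun y => ?_
    have hy : y ∈ Algebra.adjoin O ((Set.range fun σ => (M₁.rR σ).trace) ∪ Set.range M₁.al) := by
      rw [M₁.generated]; exact Algebra.mem_top
    induction hy using Algebra.adjoin_induction with
    | algebraMap c =>
      show (F (G (algebraMap O M₁.R c))).map T.aug2 = N₀.act₀ (π (algebraMap O M₁.R c))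
      simp only [AlgHom.commutes, Matrix.algebraMap_eq_diagonal, Matrix.diagonal_map (map_zero _)]
      congr 1
      funext i
      exact T.aug2.commutes c
    | add a b _ _ ha hb => rw [map_add, map_add, ha, hb]
    | mul a b _ _ ha hb => rw [map_mul, map_mul, ha, hb]
    | mem z hz =>
      obtain ⟨b, hb, hb0⟩ := SepAlg.exists_witness (D.hyp hH) M₁ hz
      have h1 : Bd.matAct Finset.univ (D.pr b) * N₀.V₀ =
          Bd.matAct Finset.univ (S₀.nAll P) * N₀.V₀ * a1 z := by
        have e := congrArg (fun X : Matrix _ _ Λ => X.map T.aug2) (hact z b hb hb0)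
        simp only [Matrix.map_mul] at e
        rw [D.act_aug, hVaug, hNaug] at e
        exact e
      have hz' : π z ∈ (Set.range fun σ => (N₀.M₀.rR σ).trace) ∪ Set.range N₀.M₀.al := by
        rcases hz with ⟨σ, rfl⟩ | ⟨x, rfl⟩
        · exact Or.inl ⟨σ, (hπt σ).symm⟩
        · exact Or.inr ⟨x, (hπa x).symm⟩
      have hproj : ∀ j : S₀.New P, D.toBase j.1 (SepAlg.projNew (D.hyp hH) M₁ (D.baseNew j) z) =
          SepAlg.projNew hH N₀.M₀ j (π z) := fun j => by
        rcases hz with ⟨σ, rfl⟩ | ⟨x, rfl⟩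
        · show D.toBase j.1 (M₁.proj (.inl (D.baseNew j)) (M₁.rR σ).trace) =
            N₀.M₀.proj (.inl j) (π (M₁.rR σ).trace)
          exact ((congrArg (D.toBase j.1) (M₁.proj_trace (.inl (D.baseNew j)) σ)).trans
            (D.toBase_trace j.1 σ)).trans
              ((congrArg _ (hπt σ)).trans (N₀.M₀.proj_trace (.inl j) σ)).symm
        · show D.toBase j.1 (M₁.proj (.inl (D.baseNew j)) (M₁.al x)) =
            N₀.M₀.proj (.inl j) (π (M₁.al x))
          exact ((congrArg (D.toBase j.1) (M₁.proj_al (.inl (D.baseNew j)) x)).trans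
            (D.toBase_al hH j x)).trans
              ((congrArg _ (hπa x)).trans (N₀.M₀.proj_al (.inl j) x)).symm
      have h2 : Bd.matAct Finset.univ (D.pr b) * N₀.V₀ =
          Bd.matAct Finset.univ (S₀.nAll P) * N₀.V₀ * a2 z := by
        refine N₀.act₀_spec (π z) (D.pr b) (fun j => ?_) fun j hj => ?_
        · exact (D.toBase_val j.1 b).symm.trans ((congrArg (D.toBase j.1) (hb (D.baseNew j))).trans
            ((map_mul (D.toBase j.1) _ _).trans
              (congrArg₂ (· * ·) (hproj j) (D.toBase_nAll j.1))))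
        · rw [← D.toBase_nAll] at hj
          rw [← D.toBase_val, hb0 _ ((map_eq_zero_iff _ (D.toBase_injective j)).1 hj), map_zero]
      have e3 := congrArg (N₀.p₀ * ·) (h1.symm.trans h2)
      simp only [← Matrix.mul_assoc] at e3
      rw [Matrix.mul_assoc N₀.p₀, N₀.p₀_mul, Matrix.one_mul, Matrix.one_mul] at e3
      exact e3
  exact ⟨{
    p := p
    p_mul := hp
    M₁ := M₁
    act := F.comp G
    act_spec := hact
    π := π
    π_surjective := hπs
    π_trace := hπt
    π_al := hπa
    act_π := hactπ }⟩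

end TWData

end BaseData

end FA.Two
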