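import Fermat.Agent.RT.TraceRep
import Fermat.Agent.RT.HeckeAct
import Fermat.Prelude.Thm_IsLocalRing_isAdicComplete_of_module_finite

/-!
# Families of lifts over finite algebras and the algebras carrying them

The rings of the points are finite over the coefficients, possibly with torsion, the determinant
is free, and besides the traces finitely or infinitely many further elements residually equal to
one are recorded.
-/

set_option autoImplicit false
set_option linter.unusedSectionVars false

noncomputable section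

open IsLocalRing Matrix FA.Deform

namespace FA.Two

local notation "Qb" => AlgebraicClosure ℚ
local notation "GQ" => AlgebraicClosure ℚ ≃ₐ[ℚ] AlgebraicClosure ℚ

variable {O : Type} [CommRing O] [IsDomain O] [IsDiscreteValuationRing O]
  [IsAdicComplete (maximalIdeal O) O]

/-- A finite family of lifts with distinguished elements indexed by `Y`. -/
structure Family (rb : GQ →* Matrix (Fin 2) (Fin 2) (ResidueField O)) (Y : Type) where
  /-- the index type -/
  J : Type
  [finite : Finite J]
  [nonempty : Nonempty J]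
  /-- the coefficient rings -/
  B : J → Type
  [commRing : ∀ j, CommRing (B j)]
  [isLocalRing : ∀ j, IsLocalRing (B j)]
  [algebra : ∀ j, Algebra O (B j)]
  [moduleFinite : ∀ j, Module.Finite O (B j)]
  /-- the representations -/
  r : ∀ j, GQ →* Matrix (Fin 2) (Fin 2) (B j)
  /-- the reductions -/
  ε : ∀ j, B j →+* ResidueField O
  ε_algebraMap : ∀ j c, ε j (algebraMap O (B j) c) = residue O c
  lift : ∀ j, mapRep (ε j) (r j) = rb
  cont : ∀ j, IsContRep (r j)
  /-- the distinguished elements -/
  al : ∀ j, Y → B j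
  ε_al : ∀ j y, ε j (al j y) = 1

attribute [instance] Family.finite Family.nonempty Family.commRing Family.isLocalRing
  Family.algebra Family.moduleFinite

/-- An algebra carrying a lift, generated by its traces and the distinguished elements. -/
structure Carried (rb : GQ →* Matrix (Fin 2) (Fin 2) (ResidueField O)) (Y : Type) where
  /-- the ring -/
  R : Type
  [commRing : CommRing R]
  [isLocalRing : IsLocalRing R]
  [isNoetherianRing : IsNoetherianRing R]
  [algebra : Algebra O R]
  complete : IsAdicComplete (maximalIdeal R) R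
  /-- the reduction -/
  π : R →+* ResidueField O
  π_algebraMap : π.comp (algebraMap O R) = algebraMap O (ResidueField O)
  π_surjective : Function.Surjective π
  /-- the lift -/
  rR : GQ →* Matrix (Fin 2) (Fin 2) R
  lift : mapRep π rR = rb
  cont : IsContRep rR
  /-- the distinguished elements -/
  al : Y → R
  π_al : ∀ y, π (al y) = 1
  generated : Algebra.adjoin O ((Set.range fun σ => (rR σ).trace) ∪ Set.range al) = ⊤

attribute [instance] Carried.commRing Carried.isLocalRing Carried.isNoetherianRing Carried.algebra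
  Carried.complete

variable {rb : GQ →* Matrix (Fin 2) (Fin 2) (ResidueField O)} {Y : Type}

namespace Family

variable (F : Family rb Y)

/-- The generators of the algebra of a family. -/
def gens : Set (∀ j, F.B j) :=
  (Set.range fun σ j => (F.r j σ).trace) ∪ Set.range fun y j => F.al j y

/-- The algebra generated by the traces and the distinguished elements. -/
def alg : Subalgebra O (∀ j, F.B j) := Algebra.adjoin O F.gens

/-- Its projections. -/
def algProj (j : F.J) : F.alg →ₐ[O] F.B j :=
  (Pi.evalAlgHom O F.B j).comp F.alg.val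

/-- Its traces. -/
def algTr (σ : GQ) : F.alg :=
  ⟨fun j => (F.r j σ).trace, Algebra.subset_adjoin (Or.inl ⟨σ, rfl⟩)⟩

/-- Its distinguished elements. -/
def algAl (y : Y) : F.alg := ⟨fun j => F.al j y, Algebra.subset_adjoin (Or.inr ⟨y, rfl⟩)⟩

omit [IsAdicComplete (maximalIdeal O) O] in
theorem algProj_eq_zero {x : F.alg} (h : ∀ j, F.algProj j x = 0) : x = 0 := Subtype.ext (funext h)

instance finite_alg : Module.Finite O F.alg := by
  have : Fintype F.J := Fintype.ofFinite _
  have : IsNoetherian O (∀ j, F.B j) := isNoetherian_of_isNoetherianRing_of_finite O _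
  exact Module.Finite.iff_fg.mpr (IsNoetherian.noetherian F.alg.toSubmodule)

instance isNoetherianRing_alg : IsNoetherianRing F.alg := IsNoetherianRing.of_finite O _

omit [IsAdicComplete (maximalIdeal O) O] in
theorem eps_algProj_eq (x : F.alg) (i j : F.J) :
    F.ε i (F.algProj i x) = F.ε j (F.algProj j x) := by
  obtain ⟨x, hx⟩ := x
  show F.ε i (x i) = F.ε j (x j)
  induction hx using Algebra.adjoin_induction with
  | mem y hy =>
    rcases hy with ⟨σ, rfl⟩ | ⟨y, rfl⟩
    · have h : ∀ l, F.ε l (F.r l σ).trace = (rb σ).trace := fun l => by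
        rw [AddMonoidHom.map_trace]
        exact congrArg Matrix.trace (DFunLike.congr_fun (F.lift l) σ)
      exact (h i).trans (h j).symm
    · exact (F.ε_al i y).trans (F.ε_al j y).symm
  | algebraMap c => simp [F.ε_algebraMap]
  | add y z _ _ hy hz => simp [hy, hz]
  | mul y z _ _ hy hz => simp [hy, hz]

omit [IsAdicComplete (maximalIdeal O) O] in
theorem ker_eps (j : F.J) : RingHom.ker (F.ε j) = maximalIdeal (F.B j) :=
  eq_maximalIdeal (RingHom.ker_isMaximal_of_surjective (F.ε j) fun a => by
    obtain ⟨c, rfl⟩ := residue_surjective a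
    exact ⟨algebraMap O (F.B j) c, F.ε_algebraMap j c⟩)

omit [IsAdicComplete (maximalIdeal O) O] in
theorem isLocalRing_alg : IsLocalRing F.alg ∧
    ∀ j x, x ∈ nonunits F.alg ↔ F.ε j (F.algProj j x) = 0 := by
  have hloc : ∀ (j : F.J) (y : F.B j), F.ε j y = 0 ↔ ¬ IsUnit y := fun j y => by
    rw [← RingHom.mem_ker, F.ker_eps]
    rfl
  have hiff : ∀ (j : F.J) (x : F.alg), x ∈ nonunits F.alg ↔ F.ε j (F.algProj j x) = 0 := by
    intro j x
    rw [hloc]
    refine ⟨fun hx hu => hx ?_, fun hx hu => hx (hu.map (F.algProj j))⟩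
    have hall : IsUnit (x : ∀ j, F.B j) := Pi.isUnit_iff.mpr fun i => by
      by_contra h
      exact (hloc j _).mp ((F.eps_algProj_eq x j i).trans ((hloc i _).mpr h)) hu
    have hint : F.alg.toSubring.subtype.IsIntegral := fun y => by
      obtain ⟨P, hP, hPy⟩ := Algebra.IsIntegral.isIntegral (R := O) y
      refine ⟨P.map (algebraMap O F.alg), hP.map _, ?_⟩
      rw [Polynomial.eval₂_map]
      exact hPy
    exact ((hint.isLocalHom Subtype.val_injective).map_nonunit _ hall)
  obtain ⟨j₀⟩ := F.nonempty
  have : Nontrivial F.alg := ⟨⟨0, 1, fun h => by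
    have := congrArg (fun x => F.ε j₀ (F.algProj j₀ x)) h
    simp at this⟩⟩
  refine ⟨IsLocalRing.of_nonunits_add fun a b ha hb => ?_, hiff⟩
  rw [hiff j₀] at ha hb ⊢
  rw [map_add, map_add, ha, hb, add_zero]

variable [Finite (ResidueField O)]

omit [IsAdicComplete (maximalIdeal O) O] in
/-- Small elements of the product are small in the algebra. -/
theorem exists_pow_mem [IsLocalRing F.alg] (n : ℕ) :
    ∃ N, ∀ x : F.alg, (∀ j, F.algProj j x ∈ maximalIdeal (F.B j) ^ N) →
      x ∈ maximalIdeal F.alg ^ n := by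
  classical
  have : Fintype F.J := Fintype.ofFinite _
  obtain ⟨ϖ, hϖ⟩ := IsDiscreteValuationRing.exists_irreducible O
  have hϖm : ϖ ∈ maximalIdeal O := by rw [hϖ.maximalIdeal_eq]; exact Ideal.mem_span_singleton_self ϖ
  have hloc : ∀ j, ∀ c ∈ maximalIdeal O, algebraMap O (F.B j) c ∈ maximalIdeal (F.B j) :=
    fun j c hc => by
      rw [← F.ker_eps j, RingHom.mem_ker, F.ε_algebraMap, residue_eq_zero_iff]
      exact hc
  have hnoeth : ∀ j, IsNoetherianRing (F.B j) := fun j => IsNoetherianRing.of_finite O _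
  let W : Submodule O (∀ j, F.B j) := Subalgebra.toSubmodule F.alg
  obtain ⟨k, hk⟩ := Ideal.exists_pow_inf_eq_pow_smul (maximalIdeal O) W
  choose c hc using fun j => FA.RT.exists_pow_le_span_pow (hloc j) (k + n)
  have hϖA : algebraMap O F.alg ϖ ∈ maximalIdeal F.alg := by
    rw [mem_maximalIdeal, mem_nonunits_iff]
    intro hu
    obtain ⟨j⟩ := F.nonempty
    exact (IsLocalRing.mem_maximalIdeal _).mp (hloc j ϖ hϖm) (hu.map (F.algProj j))
  refine ⟨Finset.univ.sup c, fun x hx => ?_⟩
  choose y hy using fun j => show ∃ y, algebraMap O (F.B j) (ϖ ^ (k + n)) * y = F.algProj j x from by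
    have h1 : F.algProj j x ∈ Ideal.map (algebraMap O (F.B j)) (maximalIdeal O ^ (k + n)) :=
      hc j (Ideal.pow_le_pow_right (Finset.le_sup (Finset.mem_univ j)) (hx j))
    rw [hϖ.maximalIdeal_eq, Ideal.span_singleton_pow, Ideal.map_span, Set.image_singleton,
      Ideal.mem_span_singleton] at h1
    obtain ⟨y, hy⟩ := h1
    exact ⟨y, hy.symm⟩
  have h2 : (x : ∀ j, F.B j) ∈ maximalIdeal O ^ (k + n) • (⊤ : Submodule O (∀ j, F.B j)) ⊓ W := by
    refine ⟨?_, x.2⟩
    rw [show (x : ∀ j, F.B j) = ϖ ^ (k + n) • (fun j => y j) from funext fun j => by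
      rw [Pi.smul_apply, Algebra.smul_def, hy]; rfl]
    exact Submodule.smul_mem_smul (Ideal.pow_mem_pow hϖm _) Submodule.mem_top
  rw [hk (k + n) (Nat.le_add_right k n), Nat.add_sub_cancel_left] at h2
  have h3 : (x : ∀ j, F.B j) ∈ maximalIdeal O ^ n • W :=
    Submodule.smul_mono le_rfl inf_le_right h2
  rw [hϖ.maximalIdeal_eq, Ideal.span_singleton_pow, Submodule.ideal_span_singleton_smul] at h3
  obtain ⟨z, hz, hxz⟩ := Submodule.mem_smul_pointwise_iff_exists _ _ _ |>.mp h3
  have hx' : x = algebraMap O F.alg (ϖ ^ n) * ⟨z, hz⟩ := Subtype.ext (by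
    rw [← hxz, Algebra.smul_def]
    rfl)
  rw [hx', map_pow]
  exact Ideal.mul_mem_right _ _ (Ideal.pow_mem_pow hϖA n)

end Family

/-- A carried algebra with the projections to the points. -/
structure Family.Model (F : Family rb Y) extends Carried rb Y where
  /-- the projections -/
  proj : ∀ j, R →ₐ[O] F.B j
  proj_injective : ∀ x : R, (∀ j, proj j x = 0) → x = 0
  proj_rR : ∀ j, ∃ U : Matrix (Fin 2) (Fin 2) (F.B j), IsUnit U ∧
    ∀ σ, U * F.r j σ = (rR σ).map (proj j) * U
  proj_al : ∀ j y, proj j (al y) = F.al j y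

omit [IsAdicComplete (maximalIdeal O) O] in
/-- Conjugate matrices have equal traces. -/
theorem trace_eq_of_conj {B : Type} [CommRing B] {U : Matrix (Fin 2) (Fin 2) B} (hU : IsUnit U)
    {a b : Matrix (Fin 2) (Fin 2) B} (h : U * a = b * U) : b.trace = a.trace := by
  obtain ⟨u, rfl⟩ := hU
  rw [show b = (u : Matrix (Fin 2) (Fin 2) B) * a *
      ((u⁻¹ : (Matrix (Fin 2) (Fin 2) B)ˣ) : Matrix (Fin 2) (Fin 2) B) by
    rw [h, Units.mul_inv_cancel_right], Matrix.trace_mul_cycle, Units.inv_mul, one_mul]

omit [IsAdicComplete (maximalIdeal O) O] in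
/-- Projections know traces. -/
theorem Family.Model.proj_trace {F : Family rb Y} (M : F.Model) (j : F.J) (σ : GQ) :
    M.proj j (M.rR σ).trace = (F.r j σ).trace := by
  obtain ⟨U, hU, hUσ⟩ := M.proj_rR j
  rw [AddMonoidHom.map_trace (M.proj j) (M.rR σ)]
  exact trace_eq_of_conj hU (hUσ σ)

variable [Finite (ResidueField O)]

/-- **Every family is carried.** -/
theorem Family.nonempty_model (F : Family rb Y) (Fr : Frame O) (hF : Fr.Adapted rb)
    (hup : ∃ σ, rb σ 0 1 ≠ 0) : Nonempty F.Model := by
  classical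
  obtain ⟨hlocA, hnon⟩ := F.isLocalRing_alg
  obtain ⟨j₀⟩ := F.nonempty
  have : IsLocalHom (algebraMap O F.alg) := ⟨fun c hc => by
    have h := (hc.map (F.algProj j₀)).map (F.ε j₀)
    rw [AlgHom.commutes, F.ε_algebraMap] at h
    exact (inferInstance : IsLocalHom (residue O)).map_nonunit c h⟩
  have hcompl : IsAdicComplete (maximalIdeal F.alg) F.alg :=
    IsLocalRing.isAdicComplete_of_module_finite (𝒪 := O)
  have hlh : ∀ j, IsLocalHom (F.algProj j).toRingHom := fun j => ⟨fun x hx => by
    by_contra h
    exact (hx.map (F.ε j)).ne_zero ((hnon j x).mp h)⟩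
  have hres : ∀ (j : F.J) (a : F.B j), residue (F.B j) a = 0 ↔ F.ε j a = 0 := fun j a => by
    rw [residue_eq_zero_iff, ← RingHom.mem_ker, F.ker_eps j]
  let g : ∀ j, ResidueField (F.B j) →+* ResidueField O := fun j =>
    Ideal.Quotient.lift (maximalIdeal (F.B j)) (F.ε j) fun a ha => (hres j a).mp
      ((residue_eq_zero_iff a).mpr ha)
  have hg : ∀ j a, g j (residue (F.B j) a) = F.ε j a := fun j a => rfl
  have hgalg : ∀ j, (g j).comp (algebraMap O (ResidueField (F.B j))) =
      algebraMap O (ResidueField O) := fun j => RingHom.ext fun c => by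
    show g j (residue (F.B j) (algebraMap O (F.B j) c)) = residue O c
    rw [hg, F.ε_algebraMap]
  have hadapt : ∀ (j : F.J) (r' : GQ →* Matrix (Fin 2) (Fin 2) (F.B j)),
      mapRep (F.ε j) r' = rb → Fr.Adapted (mapRep (residue (F.B j)) r') := by
    intro j r' hr'
    have hinj : Function.Injective
        (g j).mapMatrix (α := Matrix (Fin 2) (Fin 2) (ResidueField (F.B j))) :=
      fun a b h => Matrix.ext fun i l => (g j).injective (congrFun (congrFun h i) l)
    have hrep : mapRep (g j) (mapRep (residue (F.B j)) r') = rb :=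
      (MonoidHom.ext fun σ => Matrix.ext fun i l => rfl).trans hr'
    refine ⟨hinj ?_, hinj ?_⟩ <;> rw [← evalComb_map (g j) (hgalg j), hrep]
    · rw [hF.1]; ext i l; fin_cases i <;> fin_cases l <;> simp
    · rw [hF.2]; ext i l; fin_cases i <;> fin_cases l <;> simp
  have hnorm : ∀ j, ∃ r' : GQ →* Matrix (Fin 2) (Fin 2) (F.B j), IsContRep r' ∧
      mapRep (F.ε j) r' = rb ∧ Fr.IsNormal r' ∧
      ∃ U : Matrix (Fin 2) (Fin 2) (F.B j), IsUnit U ∧ ∀ σ, U * F.r j σ = r' σ * U := by
    intro j
    have : IsLocalHom (algebraMap O (F.B j)) := ⟨fun c hc => by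
      have h := hc.map (F.ε j)
      rw [F.ε_algebraMap] at h
      exact (inferInstance : IsLocalHom (residue O)).map_nonunit c h⟩
    have : IsAdicComplete (maximalIdeal (F.B j)) (F.B j) :=
      IsLocalRing.isAdicComplete_of_module_finite (𝒪 := O)
    obtain ⟨r', hc', he, hres', hn⟩ := exists_isNormal (F.cont j) (hadapt j _ (F.lift j))
    refine ⟨r', hc', ?_, hn, (isEquiv_ofMatrix_iff (F.cont j) hc').mp he⟩
    refine Eq.trans ?_ (F.lift j)
    exact MonoidHom.ext fun σ => Matrix.ext fun i l =>
      congrArg (g j) (congrFun (congrFun (DFunLike.congr_fun hres' σ) i) l)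
  choose r' hc' hr' hn' U hU hUr using hnorm
  obtain ⟨σ₀, hσ₀⟩ := hup
  have := hlh
  obtain ⟨rA, hrA⟩ := FA.RT.exists_rep_of_traces Fr (fun j => (F.algProj j).toRingHom)
    (fun x => F.algProj_eq_zero) (fun j c => (F.algProj j).commutes c) r' hn'
    (fun j => hadapt j _ (hr' j)) F.algTr (fun j σ => by
      show (F.r j σ).trace = _
      exact (trace_eq_of_conj (hU j) (hUr j σ)).symm)
    (σ₀ := σ₀) (fun j => by
      by_contra h
      refine hσ₀ ?_
      rw [← hr' j]
      show F.ε j (r' j σ₀ 0 1) = 0
      exact (hres j _).mp ((residue_eq_zero_iff _).mpr ((IsLocalRing.mem_maximalIdeal _).mpr h)))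
  have hAt : ∀ σ, (rA σ).trace = F.algTr σ := fun σ => Subtype.ext (funext fun j => by
    show (F.algProj j).toRingHom (rA σ).trace = (F.r j σ).trace
    rw [AddMonoidHom.map_trace, show (rA σ).map (F.algProj j).toRingHom = r' j σ from
      DFunLike.congr_fun (hrA j) σ]
    exact trace_eq_of_conj (hU j) (hUr j σ))
  refine ⟨{
    R := ↥F.alg
    complete := hcompl
    π := (F.ε j₀).comp (F.algProj j₀).toRingHom
    π_algebraMap := RingHom.ext fun c => F.ε_algebraMap j₀ c
    π_surjective := fun a => by
      obtain ⟨c, rfl⟩ := residue_surjective a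
      exact ⟨algebraMap O _ c, F.ε_algebraMap j₀ c⟩
    rR := rA
    lift := by
      refine Eq.trans ?_ (hr' j₀)
      rw [← hrA j₀]
      exact MonoidHom.ext fun σ => Matrix.ext fun i l => rfl
    cont := fun n => ?_
    al := F.algAl
    π_al := fun y => F.ε_al j₀ y
    generated := ?_
    proj := F.algProj
    proj_injective := fun x h => F.algProj_eq_zero h
    proj_rR := fun j => ⟨U j, hU j, fun σ => by rw [hUr j σ, ← hrA j]; rfl⟩
    proj_al := fun j y => rfl }⟩
  · obtain ⟨N, hN⟩ := F.exists_pow_mem n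
    choose L hL hLn using fun j => hc' j N
    have : ∀ j, FiniteDimensional ℚ (L j) := hL
    refine ⟨⨆ j, L j, IntermediateField.finiteDimensional_iSup_of_finite, fun σ hσ i l =>
      hN _ fun j => ?_⟩
    have h := hLn j σ (fun x hx => hσ x (le_iSup L j hx)) i l
    rw [← hrA j] at h
    simp only [Matrix.sub_apply, mapRep_apply, map_sub] at h ⊢
    rcases eq_or_ne i l with rfl | hne <;> simp_all
  · have hset : (Set.range fun σ => (rA σ).trace) = Set.range F.algTr := congrArg Set.range (funext hAt)
    rw [hset]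
    refine eq_top_iff.mpr fun x _ => ?_
    obtain ⟨x, hx⟩ := x
    induction hx using Algebra.adjoin_induction with
    | mem y hy =>
      rcases hy with ⟨σ, rfl⟩ | ⟨y, rfl⟩
      · exact Algebra.subset_adjoin (Or.inl ⟨σ, rfl⟩)
      · exact Algebra.subset_adjoin (Or.inr ⟨y, rfl⟩)
    | algebraMap c => exact Subalgebra.algebraMap_mem _ c
    | add y z hy' hz' hy hz => exact add_mem (hy trivial) (hz trivial)
    | mul y z hy' hz' hy hz => exact mul_mem (hy trivial) (hz trivial)

end FA.Two
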