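import Mathlib.RingTheory.Nakayama
import Mathlib.RingTheory.LocalRing.ResidueField.Basic
import Mathlib.LinearAlgebra.Matrix.ToLin
import Mathlib.LinearAlgebra.Matrix.NonsingularInverse

/-!
# The image of an endomorphism of a free module over a local ring

If the residual kernel of an endomorphism of a free module comes from the kernel, the image is a
free direct summand, with basis the images of any vectors whose residual images are a basis of the
residual image; the commutant acts on it.
-/

set_option autoImplicit false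

open IsLocalRing Matrix

namespace FA.Two

variable {S : Type} [CommRing S] [IsLocalRing S] {d ρ : ℕ}

/-- A lift of residual values of a vector. -/
theorem exists_residue_lift {n : Type} (w : n → ResidueField S) :
    ∃ v : n → S, (fun i => residue S (v i)) = w :=
  ⟨fun i => Function.surjInv residue_surjective (w i),
    funext fun _ => Function.surjInv_eq residue_surjective _⟩

theorem residue_mulVec {m n : Type} [Fintype n] (M : Matrix m n S) (v : n → S) :
    (fun i => residue S ((M *ᵥ v) i)) = M.map (residue S) *ᵥ fun i => residue S (v i) := by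
  funext i
  simp [Matrix.mulVec, dotProduct, map_sum]

/-- Injective residual maps have left inverses. -/
theorem exists_leftInverse {m : ℕ} (i : Matrix (Fin m) (Fin ρ) S)
    (hinj : Function.Injective (i.map (residue S)).mulVec) :
    ∃ p : Matrix (Fin ρ) (Fin m) S, p * i = 1 := by
  classical
  obtain ⟨g, hg⟩ := (i.map (residue S)).mulVecLin.exists_leftInverse_of_injective
    (LinearMap.ker_eq_bot.mpr hinj)
  let P : Matrix (Fin ρ) (Fin m) S :=
    (LinearMap.toMatrix' g).map (Function.surjInv residue_surjective)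
  have hP : (P * i).map (residue S) = 1 := by
    rw [Matrix.map_mul, show P.map (residue S) = LinearMap.toMatrix' g from Matrix.ext fun a b =>
      Function.surjInv_eq residue_surjective _,
      show i.map (residue S) = LinearMap.toMatrix' (i.map (residue S)).mulVecLin from
        (LinearMap.toMatrix'_toLin' _).symm, ← LinearMap.toMatrix'_comp, hg,
      LinearMap.toMatrix'_id]
  have hu : IsUnit (P * i).det := by
    refine IsLocalRing.notMem_maximalIdeal.mp fun h => ?_
    have h1 := (residue_eq_zero_iff _).mpr h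
    rw [RingHom.map_det, RingHom.mapMatrix_apply, hP, Matrix.det_one] at h1
    exact one_ne_zero h1
  exact ⟨(P * i)⁻¹ * P, by rw [Matrix.mul_assoc, Matrix.nonsing_inv_mul _ hu]⟩

variable {N : Matrix (Fin d) (Fin d) S} {V : Matrix (Fin d) (Fin ρ) S}

/-- **The image is spanned by the chosen vectors.** -/
theorem exists_mulVec_eq_of_residual
    (hspan : ∀ w : Fin d → ResidueField S, ∃ c : Fin ρ → ResidueField S,
      (N * V).map (residue S) *ᵥ c = N.map (residue S) *ᵥ w)
    (hker : ∀ w : Fin d → ResidueField S, N.map (residue S) *ᵥ w = 0 →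
      w ∈ Submodule.span (ResidueField S)
        {u | ∃ z : Fin d → S, N *ᵥ z = 0 ∧ (fun i => residue S (z i)) = u})
    (x : Fin d → S) : ∃ y, (N * V) *ᵥ y = N *ᵥ x := by
  classical
  let T : Submodule S (Fin d → S) := LinearMap.range V.mulVecLin ⊔ LinearMap.ker N.mulVecLin
  have htop : ⊤ ≤ T := by
    refine Submodule.le_of_le_smul_of_le_jacobson_bot (I := maximalIdeal S) Module.Finite.fg_top
      (maximalIdeal_le_jacobson ⊥) fun v _ => ?_
    obtain ⟨c, hc⟩ := hspan fun i => residue S (v i)
    obtain ⟨c, rfl⟩ := exists_residue_lift c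
    have h0 : N.map (residue S) *ᵥ (fun i => residue S ((v - V *ᵥ c) i)) = 0 := by
      rw [Matrix.map_mul, ← Matrix.mulVec_mulVec, ← residue_mulVec V] at hc
      rw [show (fun i => residue S ((v - V *ᵥ c) i)) =
          (fun i => residue S (v i)) - fun i => residue S ((V *ᵥ c) i) from funext fun i => by simp,
        Matrix.mulVec_sub, hc, sub_self]
    obtain ⟨z, hz, hzv⟩ : ∃ z : Fin d → S, N *ᵥ z = 0 ∧
        (fun i => residue S (z i)) = fun i => residue S ((v - V *ᵥ c) i) := by
      refine Submodule.span_induction (p := fun u _ => ∃ z : Fin d → S, N *ᵥ z = 0 ∧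
        (fun i => residue S (z i)) = u) (fun u hu => hu) ⟨0, by simp, funext fun i => by simp⟩
        ?_ ?_ (hker _ h0)
      · rintro _ _ _ _ ⟨z, hz, rfl⟩ ⟨z', hz', rfl⟩
        exact ⟨z + z', by rw [Matrix.mulVec_add, hz, hz', add_zero], funext fun i => by simp⟩
      · rintro a _ _ ⟨z, hz, rfl⟩
        obtain ⟨a, rfl⟩ := residue_surjective a
        exact ⟨a • z, by rw [Matrix.mulVec_smul, hz, smul_zero], funext fun i => by simp⟩
    have hm : v - (V *ᵥ c + z) ∈ maximalIdeal S • (⊤ : Submodule S (Fin d → S)) := by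
      have hv' : ∀ i, (v - (V *ᵥ c + z)) i ∈ maximalIdeal S := fun i => by
        have := congrFun hzv i
        simp only [Pi.sub_apply, map_sub] at this
        rw [← residue_eq_zero_iff]
        simp only [Pi.sub_apply, Pi.add_apply, map_sub, map_add, this]
        ring
      rw [pi_eq_sum_univ (v - (V *ᵥ c + z))]
      exact Submodule.sum_mem _ fun i _ => Submodule.smul_mem_smul (hv' i) Submodule.mem_top
    rw [show v = V *ᵥ c + z + (v - (V *ᵥ c + z)) by abel]
    exact add_mem (Submodule.mem_sup_left (add_mem (Submodule.mem_sup_left ⟨c, rfl⟩)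
      (Submodule.mem_sup_right hz))) (Submodule.mem_sup_right hm)
  obtain ⟨_, ⟨y, rfl⟩, z, hz, hyz⟩ := Submodule.mem_sup.mp (htop (Submodule.mem_top : x ∈ ⊤))
  refine ⟨y, ?_⟩
  rw [← hyz, Matrix.mulVec_add, ← Matrix.mulVec_mulVec]
  exact ((add_zero _).symm.trans (congrArg₂ (· + ·) rfl (LinearMap.mem_ker.mp hz).symm))

/-- **The commutant acts on the image.** -/
theorem exists_restrict_image {O A : Type} [CommRing O] [Algebra O S] [Ring A] [Algebra O A]
    (φ : A →ₐ[O] Matrix (Fin d) (Fin d) S) (hφ : ∀ a, φ a * N = N * φ a)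
    (hinj : Function.Injective ((N * V).map (residue S)).mulVec)
    (hsp : ∀ x, ∃ y, (N * V) *ᵥ y = N *ᵥ x) :
    ∃ ψ : A →ₐ[O] Matrix (Fin ρ) (Fin ρ) S,
      (∀ a, φ a * (N * V) = N * V * ψ a) ∧ (∀ a, ψ a = 0 ↔ φ a * N = 0) ∧
      ∃ p : Matrix (Fin ρ) (Fin d) S, p * (N * V) = 1 := by
  classical
  obtain ⟨p, hp⟩ := exists_leftInverse (N * V) hinj
  set i := N * V with hi
  have hfix : ∀ {n : ℕ} (M : Matrix (Fin d) (Fin n) S), i * (p * (N * M)) = N * M := by
    intro n M
    refine Matrix.ext fun a b => ?_
    obtain ⟨y, hy⟩ := hsp fun l => M l b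
    have e : ∀ (X : Matrix (Fin d) (Fin d) S), (X * (N * M)) a b = (X *ᵥ (N *ᵥ fun l => M l b)) a :=
      fun X => rfl
    rw [← Matrix.mul_assoc, e, ← hy, Matrix.mulVec_mulVec, Matrix.mul_assoc, hp, Matrix.mul_one, hy]
    rfl
  have key : ∀ a, φ a * i = i * (p * φ a * i) := fun a => by
    rw [Matrix.mul_assoc p, hi, ← Matrix.mul_assoc (φ a), hφ, Matrix.mul_assoc, hfix]
  refine ⟨{
    toFun := fun a => p * φ a * i
    map_one' := by rw [map_one, Matrix.mul_one, hp]
    map_mul' := fun a b => by
      rw [map_mul, ← Matrix.mul_assoc p, Matrix.mul_assoc (p * φ a), key b, ← Matrix.mul_assoc]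
    map_zero' := by rw [map_zero, Matrix.mul_zero, Matrix.zero_mul]
    map_add' := fun a b => by rw [map_add, Matrix.mul_add, Matrix.add_mul]
    commutes' := fun c => by
      rw [AlgHom.commutes, Algebra.algebraMap_eq_smul_one, Matrix.mul_smul, Matrix.mul_one,
        Matrix.smul_mul, hp, ← Algebra.algebraMap_eq_smul_one] }, key, fun a => ?_, p, hp⟩
  show p * φ a * i = 0 ↔ _
  constructor
  · intro h
    have h0 : φ a * i = 0 := by rw [key, h, Matrix.mul_zero]
    refine Matrix.ext fun u b => ?_
    obtain ⟨y, hy⟩ := hsp (Pi.single b 1)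
    have h1 : (φ a * N) *ᵥ Pi.single b 1 = 0 := by
      rw [← Matrix.mulVec_mulVec, ← hy, Matrix.mulVec_mulVec, h0, Matrix.zero_mulVec]
    simpa [Matrix.mulVec_single_one] using congrFun h1 u
  · intro h
    rw [hi, Matrix.mul_assoc, ← Matrix.mul_assoc (φ a), h, Matrix.zero_mul, Matrix.mul_zero]

end FA.Two
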