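import Fermat.Agent.HeckeH1.EigenSystem
import Fermat.Agent.Theta.SignForm

/-!
# Sign-isotypic classes of level `4D` modulo `2`

The periods of a form of level `4D` with a sign under `τ ↦ τ + 1/2` and under the Fricke involution
are multiplied by the sign under conjugation by `[[2, 1], [0, 2]]` and `[[1, 0], [2D, 1]]`. If such
a form is integral and a mod `2` eigenform, the system occurs on homomorphisms to `ℤ/2` fixed by
both conjugations.
-/

set_option autoImplicit false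

noncomputable section

namespace FA.Two.Level4

open Matrix CongruenceSubgroup UpperHalfPlane ModularCurve ModularCurve.Period FA.HeckeH1
open FA.JTorsion (FormPair heckeForm)
open scoped MatrixGroups

/-! ### Conjugations -/

section conj

variable {M : ℕ} {H : Subgroup (ZMod M)ˣ} {J J' : MatZ}

/-- Conjugation by `J` preserves the matrices of determinant `n`. -/
def Stable (M : ℕ) (H : Subgroup (ZMod M)ˣ) (J : MatZ) (n : ℤ) : Prop :=
  ∀ X ∈ Dl M H n, ∃ Y ∈ Dl M H n, J * X = Y * J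

theorem gl_conj {n : ℤ} (hn : n ≠ 0) (hJ : J.det ≠ 0) {X Y : MatZ} (hX : X ∈ Dl M H n)
    (hY : Y ∈ Dl M H n) (e : J * X = Y * J) : gl J * gl X * (gl J)⁻¹ = gl Y := by
  rw [mul_inv_eq_iff_eq_mul, ← gl_mul hJ (Dl.det_ne hn hX), ← gl_mul (Dl.det_ne hn hY) hJ, e]

theorem exists_conj (hJ : J.det ≠ 0) (h : Stable M H J 1) (γ : GamH M H) :
    ∃ δ : GamH M H, glQ (δ : SL(2, ℤ)) = gl J * glQ (γ : SL(2, ℤ)) * (gl J)⁻¹ := by
  obtain ⟨Y, hY, e⟩ := h _ γ.2
  obtain ⟨g, hg, rfl⟩ := Dl.toGamH hY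
  refine ⟨⟨g, hg⟩, ?_⟩
  rw [← gl_coe (γ : SL(2, ℤ)), gl_conj one_ne_zero hJ γ.2 hY e, gl_coe]

/-- Conjugation by `J` on the level. -/
def conjHom (hJ : J.det ≠ 0) (h : Stable M H J 1) : GamH M H →* GamH M H :=
  MonoidHom.mk' (fun γ => (exists_conj hJ h γ).choose) fun γ δ => by
    apply Subtype.ext
    apply glQ_injective
    rw [(exists_conj hJ h (γ * δ)).choose_spec, Subgroup.coe_mul, Subgroup.coe_mul, map_mul,
      map_mul, (exists_conj hJ h γ).choose_spec, (exists_conj hJ h δ).choose_spec]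
    group

theorem glQ_conjHom (hJ : J.det ≠ 0) (h : Stable M H J 1) (γ : GamH M H) :
    glQ (conjHom hJ h γ : SL(2, ℤ)) = gl J * glQ (γ : SL(2, ℤ)) * (gl J)⁻¹ :=
  (exists_conj hJ h γ).choose_spec

theorem gl_conj_cancel {c : ℤ} (hc : c ≠ 0) (hJ : J.det ≠ 0) (hJ' : J'.det ≠ 0)
    (e : J * J' = c • 1) (g : GL (Fin 2) ℚ) :
    gl J * (gl J' * g * (gl J')⁻¹) * (gl J)⁻¹ = g := by
  have hcomm : gl J * gl J' * g = g * (gl J * gl J') := by
    rw [← gl_mul hJ hJ', e]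
    have hd : (c • (1 : MatZ)).det ≠ 0 := by
      rw [det_smul, det_one, mul_one]; exact pow_ne_zero _ hc
    apply Units.ext
    rw [Units.val_mul, Units.val_mul, coe_gl hd]
    have hs : (c • (1 : MatZ)).map (Int.cast : ℤ → ℚ) = (c : ℚ) • (1 : Matrix (Fin 2) (Fin 2) ℚ) := by
      ext i j
      rw [Matrix.map_apply, Matrix.smul_apply, Matrix.smul_apply, Matrix.one_apply, Matrix.one_apply]
      split_ifs <;> simp
    rw [hs, smul_mul_assoc, mul_smul_comm, one_mul, mul_one]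
  calc gl J * (gl J' * g * (gl J')⁻¹) * (gl J)⁻¹
      = gl J * gl J' * g * (gl J * gl J')⁻¹ := by group
    _ = g := by rw [hcomm, mul_inv_cancel_right]

theorem Tc_conjHom {ℓ : ℕ} [Fact ℓ.Prime] {A : Type*} [AddCommGroup A] {c : ℤ} (hc : c ≠ 0)
    (hJ : J.det ≠ 0) (hJ' : J'.det ≠ 0) (e : J * J' = c • 1) (h : Stable M H J 1)
    (h' : Stable M H J' 1) (hℓ : Stable M H J ℓ) (z : Hom1 (GamH M H) A) (γ : GamH M H) :
    hv ((Tc M H ℓ).act (z.comp (MonoidHom.toAdditive (conjHom hJ h)))) γ =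
      hv ((Tc M H ℓ).act z) (conjHom hJ h γ) := by
  have hp : ℓ.Prime := Fact.out
  have h1 : ∀ i : RIdx M ℓ, ∃ k : RIdx M ℓ, ∃ g : GamH M H,
      gl J * gl (rep M ℓ i) * (gl J)⁻¹ = glQ (g : SL(2, ℤ)) * gl (rep M ℓ k) := fun i => by
    obtain ⟨Y, hY, eY⟩ := hℓ _ (rep_mem hp H i)
    obtain ⟨k, g, eg⟩ := exists_class hp hY
    exact ⟨k, g, by rw [gl_conj (by exact_mod_cast hp.ne_zero) hJ (rep_mem hp H i) hY eY, eg]⟩
  choose σ g eg using h1
  have hσ : Function.Injective σ := fun i i' hii => by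
    refine rep_class_inj hp (g := ((conjHom hJ' h' (g i * (g i')⁻¹) : GamH M H) : SL(2, ℤ))) ?_
    have hsymm : ∀ x, gl J' * x * (gl J')⁻¹ = (gl J)⁻¹ * x * gl J := fun x => by
      conv_rhs => rw [← gl_conj_cancel hc hJ hJ' e x]
      group
    rw [glQ_conjHom, hsymm, Subgroup.coe_mul, map_mul, Subgroup.coe_inv, map_inv]
    have e1 := eg i
    rw [hii] at e1
    rw [eq_mul_inv_iff_mul_eq.2 e1.symm, eq_mul_inv_iff_mul_eq.2 (eg i').symm]
    group
  exact Corr.act_conjugate (Tc M H ℓ) (conjHom hJ h) (gl J) (glQ_conjHom hJ h)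
    (Equiv.ofBijective σ (Finite.injective_iff_bijective.1 hσ)) g eg z γ

end conj

/-! ### The two matrices -/

variable (D : ℕ)

/-- `[[2, s], [0, 2]]`. -/
def shiftM (s : ℤ) : MatZ := !![2, s; 0, 2]

/-- `[[1, 0], [2 D s, 1]]`. -/
def lowM (s : ℤ) : MatZ := !![1, 0; 2 * (D : ℤ) * s, 1]

theorem shiftM_det (s : ℤ) : (shiftM s).det = 4 := by simp [shiftM, det_fin_two_of]

theorem lowM_det (s : ℤ) : (lowM D s).det = 1 := by simp [lowM, det_fin_two_of]

variable {D}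

theorem mem_Dl_top {n : ℤ} (hn : IsCoprime n (4 * D : ℕ)) {X : MatZ} :
    X ∈ Dl (4 * D) ⊤ n ↔ X.det = n ∧ ((4 * D : ℕ) : ℤ) ∣ X 1 0 := by
  refine ⟨fun h => ⟨h.1, h.2.1⟩, fun ⟨hd, hc⟩ => ⟨hd, hc, ?_⟩⟩
  have hu : IsUnit ((X 0 0 : ℤ) : ZMod (4 * D)) := by
    obtain ⟨a, b, hab⟩ := hn
    refine IsUnit.of_mul_eq_one (((X 1 1 : ℤ) : ZMod (4 * D)) * (a : ZMod (4 * D))) ?_
    have h1 := congrArg (fun x : ℤ => (x : ZMod (4 * D))) hab
    rw [← hd, det_fin_two] at h1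
    simp only [Int.cast_add, Int.cast_mul, Int.cast_sub, Int.cast_natCast, ZMod.natCast_self,
      mul_zero, add_zero, Int.cast_one, (ZMod.intCast_zmod_eq_zero_iff_dvd _ _).2 hc, sub_zero] at h1
    linear_combination h1
  exact ⟨hu.unit, Subgroup.mem_top _, hu.unit_spec⟩

theorem entries {n : ℤ} (hn : IsCoprime n (4 * D : ℕ)) {X : MatZ} (hX : X ∈ Dl (4 * D) ⊤ n) :
    ∃ k j : ℤ, X 1 0 = 4 * D * k ∧ X 1 1 = X 0 0 + 2 * j := by
  obtain ⟨k, hk⟩ := hX.2.1
  push_cast at hk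
  have hd := hX.1
  rw [det_fin_two, hk] at hd
  have hn2 : ¬ (2 : ℤ) ∣ n := fun h =>
    absurd ((hn.of_isCoprime_of_dvd_left h).isUnit_of_dvd' dvd_rfl
      ⟨2 * D, by push_cast; ring⟩) (by rw [Int.isUnit_iff]; norm_num)
  have h0 : ¬ (2 : ℤ) ∣ X 0 0 := fun h => hn2 (by
    rw [← hd]; exact dvd_sub (h.mul_right _) ⟨X 0 1 * (2 * D * k), by ring⟩)
  have h1 : ¬ (2 : ℤ) ∣ X 1 1 := fun h => hn2 (by
    rw [← hd]; exact dvd_sub (h.mul_left _) ⟨X 0 1 * (2 * D * k), by ring⟩)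
  exact ⟨k, (X 1 1 - X 0 0) / 2, hk, by omega⟩

theorem stable_shiftM {n : ℤ} (hn : IsCoprime n (4 * D : ℕ)) {s : ℤ} (hs : s * s = 1) :
    Stable (4 * D) ⊤ (shiftM s) n := fun X hX => by
  obtain ⟨k, j, hk, hj⟩ := entries hn hX
  have e : shiftM s * X = !![X 0 0 + 2 * s * D * k, X 0 1 + s * j - D * k;
      X 1 0, X 1 1 - 2 * s * D * k] * shiftM s := by
    ext a b
    fin_cases a <;> fin_cases b <;>
      simp [shiftM, Matrix.mul_apply, Fin.sum_univ_two, hk, hj]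
    · ring
    · linear_combination (-2 * (D : ℤ) * k) * hs
    · ring
    · ring
  refine ⟨_, (mem_Dl_top hn).2 ⟨?_, ?_⟩, e⟩
  · have h := congrArg Matrix.det e
    rw [det_mul, det_mul, shiftM_det, hX.1] at h
    linarith
  · simpa using hX.2.1

theorem stable_lowM {n : ℤ} (hn : IsCoprime n (4 * D : ℕ)) (s : ℤ) :
    Stable (4 * D) ⊤ (lowM D s) n := fun X hX => by
  obtain ⟨k, j, hk, hj⟩ := entries hn hX
  have e : lowM D s * X = !![X 0 0 - 2 * D * s * X 0 1, X 0 1;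
      4 * D * (k - s * j - D * s * s * X 0 1), X 1 1 + 2 * D * s * X 0 1] * lowM D s := by
    ext a b
    fin_cases a <;> fin_cases b <;>
      simp [lowM, Matrix.mul_apply, Fin.sum_univ_two, hk, hj] <;> ring
  refine ⟨_, (mem_Dl_top hn).2 ⟨?_, ?_⟩, e⟩
  · have h := congrArg Matrix.det e
    rw [det_mul, det_mul, lowM_det, hX.1] at h
    linarith
  · simp

theorem coprime_one : IsCoprime (1 : ℤ) (4 * D : ℕ) := isCoprime_one_left

theorem coprime_prime {l : ℕ} (hl : l.Prime) (h : ¬ l ∣ 4 * D) :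
    IsCoprime (l : ℤ) (4 * D : ℕ) := by
  exact Nat.isCoprime_iff_coprime.2 (hl.coprime_iff_not_dvd.2 h)

variable (D)

/-- Conjugation by `[[2, 1], [0, 2]]`. -/
def jShift : GamH (4 * D) (⊤ : Subgroup (ZMod (4 * D))ˣ) →* GamH (4 * D) ⊤ :=
  conjHom (J := shiftM 1) (by rw [shiftM_det]; norm_num) (stable_shiftM coprime_one (one_mul 1))

/-- Conjugation by `[[1, 0], [2D, 1]]`. -/
def jLow : GamH (4 * D) (⊤ : Subgroup (ZMod (4 * D))ˣ) →* GamH (4 * D) ⊤ :=
  conjHom (J := lowM D 1) (by rw [lowM_det]; norm_num) (stable_lowM coprime_one 1)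

variable {D}

/-- Multiplied by `ε` under both conjugations. -/
def Signed (ε : ℤ) {A : Type*} [AddCommGroup A]
    (z : Hom1 (GamH (4 * D) (⊤ : Subgroup (ZMod (4 * D))ˣ)) A) : Prop :=
  ∀ γ, hv z (jShift D γ) = ε • hv z γ ∧ hv z (jLow D γ) = ε • hv z γ

theorem Signed.comp {ε : ℤ} {A B : Type*} [AddCommGroup A] [AddCommGroup B]
    {z : Hom1 (GamH (4 * D) (⊤ : Subgroup (ZMod (4 * D))ˣ)) A} (h : Signed ε z) (f : A →+ B) :
    Signed ε (f.comp z) := fun γ => by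
  refine ⟨?_, ?_⟩
  · show f (hv z _) = ε • f (hv z γ); rw [(h γ).1, map_zsmul]
  · show f (hv z _) = ε • f (hv z γ); rw [(h γ).2, map_zsmul]

theorem Signed.Tc {ε : ℤ} {A : Type*} [AddCommGroup A] {l : ℕ} [Fact l.Prime] (hl : ¬ l ∣ 4 * D)
    {z : Hom1 (GamH (4 * D) (⊤ : Subgroup (ZMod (4 * D))ˣ)) A} (h : Signed ε z) :
    Signed ε ((FA.HeckeH1.Tc (4 * D) ⊤ l).act z) := fun γ => by
  have hn := coprime_prime (Fact.out : l.Prime) hl
  constructor
  · rw [jShift, ← Tc_conjHom (J' := shiftM (-1)) (c := 4) (by norm_num) _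
      (by rw [shiftM_det]; norm_num)
      (by ext i j; fin_cases i <;> fin_cases j <;> simp [shiftM, Matrix.mul_apply]) _
      (stable_shiftM coprime_one (by norm_num)) (stable_shiftM hn (one_mul 1)),
      show z.comp (MonoidHom.toAdditive (conjHom _ _)) = ε • z from
        AddMonoidHom.ext fun g => (h g.toMul).1, Corr.act_smul]
    rfl
  · rw [jLow, ← Tc_conjHom (J' := lowM D (-1)) (c := 1) one_ne_zero _
      (by rw [lowM_det]; norm_num)
      (by ext i j; fin_cases i <;> fin_cases j <;> simp [lowM, Matrix.mul_apply]) _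
      (stable_lowM coprime_one (-1)) (stable_lowM hn 1),
      show z.comp (MonoidHom.toAdditive (conjHom _ _)) = ε • z from
        AddMonoidHom.ext fun g => (h g.toMul).2, Corr.act_smul]
    rfl

/-! ### The action on the signed parabolic classes -/

variable [NeZero D]

omit [NeZero D] in
theorem signed_hact {ε : ℤ} {A : Type*} [CommRing A] (r : MvPolynomial (GP (4 * D)) ℤ)
    {z : Par (GamH (4 * D) (⊤ : Subgroup (ZMod (4 * D))ˣ)) A} (h : Signed ε z.1) :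
    Signed ε (hact A (4 * D) ⊤ (4 * D) r z).1 := by
  induction r using MvPolynomial.induction_on generalizing z with
  | C n =>
    rw [hact, evalComm_C, Module.End.intCast_apply]
    intro γ
    refine ⟨?_, ?_⟩
    · show n • hv z.1 _ = ε • n • hv z.1 γ; rw [(h γ).1, smul_comm]
    · show n • hv z.1 _ = ε • n • hv z.1 γ; rw [(h γ).2, smul_comm]
  | add p q hp hq =>
    rw [map_add, LinearMap.add_apply]
    intro γ
    refine ⟨?_, ?_⟩
    · show hv (hact A _ _ _ p z).1 _ + hv (hact A _ _ _ q z).1 _ = ε • (_ + _)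
      rw [((hp h) γ).1, ((hq h) γ).1, smul_add]
    · show hv (hact A _ _ _ p z).1 _ + hv (hact A _ _ _ q z).1 _ = ε • (_ + _)
      rw [((hp h) γ).2, ((hq h) γ).2, smul_add]
  | mul_X p l hp =>
    rw [map_mul, Module.End.mul_apply, hact_X]
    exact hp (z := TPar A (4 * D) ⊤ l.1 z) (Signed.Tc l.2.2 h)

/-- Killing the signed integral classes kills the signed complex ones. -/
theorem complex_eq_zero {ε : ℤ} (r : MvPolynomial (GP (4 * D)) ℤ)
    (h : ∀ x : Par (GamH (4 * D) (⊤ : Subgroup (ZMod (4 * D))ˣ)) ℤ, Signed ε x.1 →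
      hact ℤ (4 * D) ⊤ (4 * D) r x = 0)
    (z : Par (GamH (4 * D) (⊤ : Subgroup (ZMod (4 * D))ˣ)) ℂ) (hz : Signed ε z.1) :
    hact ℂ (4 * D) ⊤ (4 * D) r z = 0 := by
  obtain ⟨n, co, zk, hsum, hfac⟩ := exists_coord z.1
  have hpar : ∀ k, zk k ∈ Par (GamH (4 * D) (⊤ : Subgroup (ZMod (4 * D))ˣ)) ℤ := fun k γ s hs => by
    obtain ⟨f, hf⟩ := hfac k
    have : z.1.rangeRestrict (Additive.ofMul γ) = 0 := Subtype.ext (z.2 γ s hs)
    rw [hf]
    show f (z.1.rangeRestrict (Additive.ofMul γ)) = 0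
    rw [this, map_zero]
  have hsg : ∀ k, Signed ε (zk k) := fun k => by
    obtain ⟨f, hf⟩ := hfac k
    rw [hf]
    exact Signed.comp (fun γ => ⟨Subtype.ext (hz γ).1, Subtype.ext (hz γ).2⟩) f
  have hz' : z = ∑ k, co k •
      (⟨(Int.castAddHom ℂ).comp (zk k), Par_comp _ (hpar k)⟩ :
        Par (GamH (4 * D) (⊤ : Subgroup (ZMod (4 * D))ˣ)) ℂ) := by
    apply Subtype.ext
    rw [hsum, Submodule.coe_sum]
    rfl
  rw [hz', map_sum]
  refine Finset.sum_eq_zero fun k _ => ?_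
  have h0 := h ⟨zk k, hpar k⟩ (hsg k)
  rw [map_smul]
  refine smul_eq_zero_of_right _ (Subtype.ext ?_)
  rw [← hact_comp (Int.castAddHom ℂ) (4 * D) ⊤ (4 * D) r ⟨zk k, hpar k⟩, h0]
  exact AddMonoidHom.comp_zero _

/-! ### Periods -/

/-- Twice the periods. -/
def per : CuspForm (Gamma0 (4 * D)) 2 →ₗ[ℂ] Hom1 (GamH (4 * D) (⊤ : Subgroup (ZMod (4 * D))ˣ)) ℂ :=
  (perP (4 * D) ⊤).comp (LinearMap.prod LinearMap.id LinearMap.id)

theorem per_apply (f : CuspForm (Gamma0 (4 * D)) 2) :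
    per f = resG (4 * D) ⊤ (periodMap (4 * D) f) + resG (4 * D) ⊤ (periodMap (4 * D) f) := by
  obtain ⟨pml, hpml, hdef⟩ := periodHomPair_def (4 * D) FA.Period.existsPeriodMapLinear
  have hval : perP (4 * D) ⊤ (f, f) =
      (resG (4 * D) ⊤ (periodMap (4 * D) f) +
        (resG (4 * D) ⊤ (periodMap (4 * D) f)).comp (MonoidHom.toAdditive (jGam (4 * D) ⊤))) +
      (resG (4 * D) ⊤ (periodMap (4 * D) f) -
        (resG (4 * D) ⊤ (periodMap (4 * D) f)).comp (MonoidHom.toAdditive (jGam (4 * D) ⊤))) := by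
    rw [perP, LinearMap.comp_apply, hdef, ← hpml]
    rfl
  show perP (4 * D) ⊤ (f, f) = _
  rw [hval]
  abel

/-- The half shift. -/
def half (z : ℍ) : ℍ := ⟨(z : ℂ) + 1 / 2, by simpa [Complex.div_re, Complex.div_im] using z.im_pos⟩

theorem coe_half (z : ℍ) : (half z : ℂ) = z + 1 / 2 := rfl

theorem toR_shiftM_smul (z : ℍ) : toR (gl (shiftM 1)) • z = half z := by
  apply UpperHalfPlane.ext
  rw [coe_half, UpperHalfPlane.coe_smul_of_det_pos]
  · simp only [UpperHalfPlane.num, UpperHalfPlane.denom,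
      coe_toR_gl (X := shiftM 1) (by rw [shiftM_det]; norm_num), Matrix.map_apply]
    simp [shiftM]
    ring
  · simp only [Matrix.GeneralLinearGroup.val_det_apply,
      coe_toR_gl (X := shiftM 1) (by rw [shiftM_det]; norm_num)]
    simp [Matrix.det_fin_two, shiftM]

/-- `[[1, 0], [2D, 1]]` in `SL(2, ℤ)`. -/
def low : SL(2, ℤ) := ⟨lowM D 1, lowM_det D 1⟩

omit [NeZero D] in
theorem coe_low_smul (z : ℍ) :
    ((low (D := D) • z : ℍ) : ℂ) = (z : ℂ) / (2 * D * (z : ℂ) + 1) := by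
  rw [UpperHalfPlane.coe_specialLinearGroup_apply]
  simp [low, lowM]

theorem two_D_mul_add_ne (z : ℍ) : 2 * (D : ℂ) * (z : ℂ) + 1 ≠ 0 := fun h => by
  have := congrArg Complex.im h
  simp [NeZero.ne D, z.im_ne_zero] at this

/-- **The periods are signed.** -/
theorem signed_per {ε : ℤ} (hε : ε = 1 ∨ ε = -1) (f : CuspForm (Gamma0 (4 * D)) 2)
    (hshift : ∀ τ w : ℍ, (w : ℂ) = τ + 1 / 2 → f w = ε * f τ)
    (hfricke : ∀ τ w : ℍ, (w : ℂ) = -1 / (4 * D * (τ : ℂ)) →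
      f w = -(4 * D * (τ : ℂ) ^ 2) * f τ) :
    Signed ε (per f) := by
  obtain ⟨P, hP⟩ := FA.Period.exists_hasEquivariantPrimitive f
  have hε2 : (ε : ℂ) * ε = 1 := by rcases hε with rfl | rfl <;> simp
  have h1 : FA.Period.IsPrimitive (fun z => P (half z)) ((ε : ℂ) • ⇑f) := by
    intro τ
    have h := (hP.1 (half τ)).comp (τ : ℂ) ((hasDerivAt_id (τ : ℂ)).add_const (1 / 2 : ℂ))
    rw [show f (half τ) * 1 = ((ε : ℂ) • ⇑f) τ by
      rw [mul_one, hshift τ (half τ) rfl]; rfl] at h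
    refine h.congr_of_eventuallyEq ?_
    filter_upwards [isOpen_upperHalfPlaneSet.mem_nhds τ.im_pos] with u hu
    simp only [Function.comp_apply, id]
    congr 1
    apply UpperHalfPlane.ext
    rw [ofComplex_apply_of_im_pos hu,
      ofComplex_apply_of_im_pos (show 0 < (u + 1 / 2).im by simpa using hu)]
    rfl
  have h2 : FA.Period.IsPrimitive (fun z => P (low (D := D) • z)) ((ε : ℂ) • ⇑f) := by
    have h := FA.Period.IsPrimitive.comp_smul hP.1 (low (D := D))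
    convert h using 1
    funext z
    rw [ModularForm.SL_slash_apply]
    have hden : UpperHalfPlane.denom (low (D := D)) z = 2 * (D : ℂ) * (z : ℂ) + 1 := by
      rw [ModularGroup.denom_apply]
      simp [low, lowM]
    have hne := two_D_mul_add_ne (D := D) z
    have hz : (z : ℂ) ≠ 0 := z.ne_zero
    have hDC : (D : ℂ) ≠ 0 := by exact_mod_cast NeZero.ne D
    let a : ℍ := ⟨-1 / (4 * D * (z : ℂ)), by
      rw [show -1 / (4 * (D : ℂ) * z) = -((4 * D * (z : ℂ))⁻¹) by ring, Complex.neg_im,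
        Complex.inv_im, neg_div, neg_neg]
      have : (0 : ℝ) < D := by exact_mod_cast NeZero.pos D
      refine div_pos ?_ (Complex.normSq_pos.mpr (by simp [hz, hDC]))
      simp
      positivity⟩
    let u : ℍ := ⟨(a : ℂ) - 1 / 2, by simpa [Complex.div_re, Complex.div_im] using a.im_pos⟩
    have ha : (a : ℂ) = -1 / (4 * D * (z : ℂ)) := rfl
    have hu : (u : ℂ) = (a : ℂ) - 1 / 2 := rfl
    have e1 : f a = ε * f u := hshift u a (by rw [hu]; ring)
    have e2 : f a = -(4 * D * (z : ℂ) ^ 2) * f z := hfricke z a ha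
    have hu0 : (u : ℂ) ≠ 0 := u.ne_zero
    have hu4 : 4 * (D : ℂ) * z * u = -(2 * D * z + 1) := by
      rw [hu, ha]
      field_simp
      ring
    have hlow : ((low (D := D) • z : ℍ) : ℂ) = -1 / (4 * D * (u : ℂ)) := by
      rw [coe_low_smul, div_eq_div_iff hne (by simp [hu0, hDC])]
      linear_combination hu4
    have e3 : f (low (D := D) • z) = -(4 * D * (u : ℂ) ^ 2) * f u := hfricke u _ hlow
    rw [hden, _root_.zpow_neg, zpow_two, ← div_eq_mul_inv, eq_div_iff (mul_ne_zero hne hne), Pi.smul_apply,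
      smul_eq_mul, e3]
    have hfu : f u = (ε : ℂ) * (-(4 * D * (z : ℂ) ^ 2) * f z) := by
      rw [← e2, e1, ← mul_assoc, hε2, one_mul]
    rw [hfu]
    linear_combination (-((ε : ℂ) * f z) * (4 * (D : ℂ) * z * u - (2 * D * z + 1))) * hu4
  have hc : ∀ Q : ℍ → ℂ, FA.Period.IsPrimitive Q ((ε : ℂ) • ⇑f) →
      ∃ c : ℂ, ∀ z, Q z = (ε : ℂ) * P z + c := fun Q hQ => by
    obtain ⟨c, hc⟩ := FA.Period.IsPrimitive.exists_eq_add hQ
      (FA.Period.IsPrimitive.const_smul (ε : ℂ) hP.1)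
    exact ⟨c, fun z => by rw [hc]; rfl⟩
  obtain ⟨c₁, hc₁⟩ := hc _ h1
  obtain ⟨c₂, hc₂⟩ := hc _ h2
  let z₀ := resG (4 * D) ⊤ (periodMap (4 * D) f)
  have hval : ∀ (γ : GamH (4 * D) (⊤ : Subgroup (ZMod (4 * D))ˣ)) (z : ℍ),
      hv z₀ γ = P ((γ : SL(2, ℤ)) • z) - P z := fun γ z =>
    FA.Period.periodMap_apply f hP.1 (inclG (4 * D) ⊤ γ) z
  have hkey : ∀ (J : MatZ) (hJ : J.det ≠ 0) (hJs : Stable (4 * D) ⊤ J 1) (g : ℍ → ℍ)
      (_ : ∀ z, toR (gl J) • z = g z) (c : ℂ) (_ : ∀ z, P (g z) = (ε : ℂ) * P z + c)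
      (γ : GamH (4 * D) (⊤ : Subgroup (ZMod (4 * D))ˣ)),
      hv z₀ (conjHom hJ hJs γ) = (ε : ℂ) * hv z₀ γ := by
    intro J hJ hJs g hg c hc γ
    rw [hval _ (g UpperHalfPlane.I), hval γ UpperHalfPlane.I]
    have e : ((conjHom hJ hJs γ : GamH (4 * D) _) : SL(2, ℤ)) • g UpperHalfPlane.I =
        g ((γ : SL(2, ℤ)) • UpperHalfPlane.I) := by
      rw [← hg, ← hg, ← toR_glQ_smul, glQ_conjHom, map_mul, map_mul, mul_smul, mul_smul, map_inv,
        inv_smul_smul, toR_glQ_smul]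
    rw [e, hc, hc]
    ring
  intro γ
  rw [per_apply]
  refine ⟨?_, ?_⟩
  · show hv z₀ _ + hv z₀ _ = ε • (hv z₀ γ + hv z₀ γ)
    rw [jShift, hkey _ _ _ half toR_shiftM_smul c₁ hc₁, zsmul_eq_mul]
    ring
  · show hv z₀ _ + hv z₀ _ = ε • (hv z₀ γ + hv z₀ γ)
    rw [jLow, hkey _ _ _ (fun z => low (D := D) • z) (fun z => by
      rw [show lowM D 1 = ((low (D := D) : SL(2, ℤ)) : MatZ) from rfl, gl_coe, toR_glQ_smul]) c₂ hc₂,
      zsmul_eq_mul]
    ring

theorem per_injective : Function.Injective (per (D := D)) := fun f g h =>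
  congrArg Prod.fst ((perP_injective (M := 4 * D) rfl) h)

/-- Periods as parabolic classes. -/
def perPar (f : CuspForm (Gamma0 (4 * D)) 2) :
    Par (GamH (4 * D) (⊤ : Subgroup (ZMod (4 * D))ˣ)) ℂ :=
  ⟨per f, perP_mem_Par _⟩

/-- The good operators on forms. -/
def opF : MvPolynomial (GP (4 * D)) ℤ →+* Module.End ℂ (CuspForm (Gamma0 (4 * D)) 2) :=
  evalComm (fun l => CuspForm.heckeTLin 2 l.2.1 l.2.2) fun i j => by
    have h : ((CuspForm.heckeAlgebra.T (k := 2) i.2.1 i.2.2 (Set.notMem_empty _) *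
          CuspForm.heckeAlgebra.T (k := 2) j.2.1 j.2.2 (Set.notMem_empty _) :
          CuspForm.heckeAlgebra (4 * D) 2 (∅ : Set ℕ)) :
          Module.End ℂ (CuspForm (Gamma0 (4 * D)) 2)) =
        ((CuspForm.heckeAlgebra.T (k := 2) j.2.1 j.2.2 (Set.notMem_empty _) *
          CuspForm.heckeAlgebra.T (k := 2) i.2.1 i.2.2 (Set.notMem_empty _) :
          CuspForm.heckeAlgebra (4 * D) 2 (∅ : Set ℕ)) :
          Module.End ℂ (CuspForm (Gamma0 (4 * D)) 2)) := congrArg Subtype.val (mul_comm _ _)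
    simpa [Commute, SemiconjBy] using h

theorem per_opF (r : MvPolynomial (GP (4 * D)) ℤ) (f : CuspForm (Gamma0 (4 * D)) 2) :
    perPar (opF r f) = hact ℂ (4 * D) ⊤ (4 * D) r (perPar f) := by
  let φ : CuspForm (Gamma0 (4 * D)) 2 →+
      Par (GamH (4 * D) (⊤ : Subgroup (ZMod (4 * D))ˣ)) ℂ :=
    AddMonoidHom.mk' perPar fun x y => Subtype.ext (map_add per x y)
  refine evalComm_intertwine _ _ _ _ φ (fun l v => Subtype.ext ?_) r f
  haveI : NeZero l.1 := ⟨l.2.1.ne_zero⟩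
  show per (CuspForm.heckeTLin 2 l.2.1 l.2.2 v) = (Tc (4 * D) ⊤ l.1).act (perP (4 * D) ⊤ (v, v))
  rw [perP_Tc (fun h => coprime_mem_top l.2.1 h), heckeForm, dif_neg l.2.2]
  rfl

/-- The system of values of the generators modulo `2`. -/
def valHom (b : ℕ → ℤ) : MvPolynomial (GP (4 * D)) ℤ →+* ZMod 2 :=
  MvPolynomial.eval₂Hom (Int.castRingHom (ZMod 2)) fun l => (b l.1 : ZMod 2)

/-- Coefficients of the operators on an integral eigenform modulo `2`. -/
theorem exists_coeff_opF (b : ℕ → ℤ) (f : CuspForm (Gamma0 (4 * D)) 2) (G : ℕ → ℤ)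
    (hG : ∀ n, FA.Deform.qLin (4 * D) f n = (G n : ℂ))
    (hcong : ∀ l : ℕ, l.Prime → ¬ l ∣ 4 * D → ∀ n, (2 : ℤ) ∣
      G (n * l) + (if l ∣ n then G (n / l) else 0) - b l * G n)
    (r : MvPolynomial (GP (4 * D)) ℤ) :
    ∃ Gr : ℕ → ℤ, (∀ n, FA.Deform.qLin (4 * D) (opF r f) n = (Gr n : ℂ)) ∧
      ∀ n, (Gr n : ZMod 2) = valHom b r * (G n : ZMod 2) := by
  induction r using MvPolynomial.induction_on with
  | C z =>
    refine ⟨fun n => z * G n, fun n => ?_, fun n => ?_⟩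
    · rw [opF, evalComm_C, Module.End.intCast_apply, map_zsmul, Pi.smul_apply, hG, zsmul_eq_mul]
      push_cast
      rfl
    · rw [valHom, MvPolynomial.eval₂Hom_C]
      simp
  | add p q hp hq =>
    obtain ⟨A, hA, hA2⟩ := hp
    obtain ⟨B, hB, hB2⟩ := hq
    refine ⟨A + B, fun n => ?_, fun n => ?_⟩
    · rw [map_add, LinearMap.add_apply, map_add, Pi.add_apply, hA, hB, Pi.add_apply, Int.cast_add]
    · rw [Pi.add_apply, Int.cast_add, hA2, hB2, map_add, add_mul]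
  | mul_X p l hp =>
    obtain ⟨A, hA, hA2⟩ := hp
    refine ⟨fun n => A (n * l.1) + (if l.1 ∣ n then (l.1 : ℤ) * A (n / l.1) else 0), fun n => ?_,
      fun n => ?_⟩
    · rw [mul_comm p, map_mul, opF, evalComm_X, Module.End.mul_apply, ← opF,
        FA.Deform.qLin_heckeT l.2.1 l.2.2, hA, hA]
      split_ifs with hd <;> simp [hd]
    · have hodd : ((l.1 : ℕ) : ZMod 2) = 1 := by
        obtain ⟨j, hj⟩ := l.2.1.odd_of_ne_two fun e => l.2.2 (e ▸ dvd_mul_of_dvd_left (by norm_num) D)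
        rw [hj]
        push_cast
        rw [show (2 : ZMod 2) = 0 by decide, zero_mul, zero_add]
      have h := (ZMod.intCast_zmod_eq_zero_iff_dvd _ 2).2 (hcong l.1 l.2.1 l.2.2 n)
      push_cast at h
      rw [map_mul, valHom, MvPolynomial.eval₂Hom_X', ← valHom]
      split_ifs at h ⊢ with hd
      · simp only [if_pos hd, Int.cast_add, Int.cast_mul, Int.cast_natCast, hA2, hodd]
        linear_combination (valHom b p) * h
      · simp only [if_neg hd, add_zero, hA2]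
        linear_combination (valHom b p) * h

/-- The signed integral parabolic classes. -/
def signedPar (ε : ℤ) : Submodule ℤ (Par (GamH (4 * D) (⊤ : Subgroup (ZMod (4 * D))ˣ)) ℤ) where
  carrier := {x | Signed ε x.1}
  add_mem' := fun {x y} hx hy γ => ⟨by
      show hv x.1 _ + hv y.1 _ = ε • (hv x.1 γ + hv y.1 γ)
      rw [(hx γ).1, (hy γ).1, smul_add], by
      show hv x.1 _ + hv y.1 _ = ε • (hv x.1 γ + hv y.1 γ)
      rw [(hx γ).2, (hy γ).2, smul_add]⟩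
  zero_mem' := fun γ => ⟨(smul_zero ε).symm, (smul_zero ε).symm⟩
  smul_mem' := fun n x hx γ => ⟨by
      show n • hv x.1 _ = ε • n • hv x.1 γ
      rw [(hx γ).1, smul_comm], by
      show n • hv x.1 _ = ε • n • hv x.1 γ
      rw [(hx γ).2, smul_comm]⟩

/-- The good operators on the signed integral classes. -/
def actS (ε : ℤ) : MvPolynomial (GP (4 * D)) ℤ →+* Module.End ℤ (signedPar (D := D) ε) where
  toFun r := (hact ℤ (4 * D) ⊤ (4 * D) r).restrict fun _ hx => signed_hact r hx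
  map_one' := LinearMap.ext fun v =>
    Subtype.ext (LinearMap.congr_fun (map_one (hact ℤ (4 * D) ⊤ (4 * D))) v.1)
  map_mul' r s := LinearMap.ext fun v =>
    Subtype.ext (LinearMap.congr_fun (map_mul (hact ℤ (4 * D) ⊤ (4 * D)) r s) v.1)
  map_zero' := LinearMap.ext fun v =>
    Subtype.ext (LinearMap.congr_fun (map_zero (hact ℤ (4 * D) ⊤ (4 * D))) v.1)
  map_add' r s := LinearMap.ext fun v =>
    Subtype.ext (LinearMap.congr_fun (map_add (hact ℤ (4 * D) ⊤ (4 * D)) r s) v.1)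

omit [NeZero D] in
/-- A maximal ideal containing the annihilator of a finite lattice kills a class modulo `p`. -/
theorem exists_killed_mod {R : Type*} [CommRing R] {L : Type*} [AddCommGroup L]
    [Module.Finite ℤ L] (φ : R →+* Module.End ℤ L) {p : ℕ} (hp : p ≠ 0) (m : Ideal R)
    [hm : m.IsMaximal] (hpm : (p : R) ∈ m) (h : ∀ t, φ t = 0 → t ∈ m) :
    ∃ w : L, (¬ ∃ y, w = p • y) ∧ ∀ r ∈ m, ∃ y, φ r w = p • y := by
  letI : Module R L := Module.compHom _ φ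
  let pL : Submodule R L := LinearMap.range ((p : R) • LinearMap.id)
  have hmemp : ∀ v, v ∈ pL ↔ ∃ y : L, v = p • y := fun v => by
    constructor
    · rintro ⟨y, rfl⟩
      exact ⟨y, by show (p : R) • y = _; exact Nat.cast_smul_eq_nsmul R p y⟩
    · rintro ⟨y, rfl⟩
      exact ⟨y, by show (p : R) • y = _; exact Nat.cast_smul_eq_nsmul R p y⟩
  have : Finite (L ⧸ pL) := by
    have : Module.Finite ℤ (L ⧸ pL) := Module.Finite.of_surjective
      pL.mkQ.toAddMonoidHom.toIntLinearMap pL.mkQ_surjective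
    refine Module.finite_of_fg_torsion (M := L ⧸ pL) fun u => ?_
    refine ⟨⟨(p : ℤ), mem_nonZeroDivisors_of_ne_zero (Int.natCast_ne_zero.2 hp)⟩, ?_⟩
    obtain ⟨v, rfl⟩ := pL.mkQ_surjective u
    show (p : ℤ) • pL.mkQ v = 0
    rw [natCast_zsmul, ← map_nsmul, Submodule.mkQ_apply, Submodule.Quotient.mk_eq_zero, hmemp]
    exact ⟨v, rfl⟩
  obtain ⟨w', hw0, hwk⟩ := exists_killed (Q := L ⧸ pL) m fun r hr => by
    obtain ⟨t₀, ht₀, hback⟩ := exists_zero_of_range (p := p) φ r fun v =>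
      (hmemp _).1 ((Submodule.Quotient.mk_eq_zero pL).1 (hr (pL.mkQ v)))
    exact hback m hm.isPrime hpm (h t₀ ht₀)
  obtain ⟨w, rfl⟩ := pL.mkQ_surjective w'
  exact ⟨w, fun hy => hw0 ((Submodule.Quotient.mk_eq_zero _).2 ((hmemp w).2 hy)),
    fun r hr => (hmemp _).1 ((Submodule.Quotient.mk_eq_zero _).1 (hwk r hr))⟩

/-- **The system occurs on signed classes modulo `2`.** -/
theorem exists_class_mod_two {ε : ℤ} (hε : ε = 1 ∨ ε = -1) (b : ℕ → ℤ)
    (f : CuspForm (Gamma0 (4 * D)) 2) (G : ℕ → ℤ)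
    (hG : ∀ n, FA.Deform.qLin (4 * D) f n = (G n : ℂ)) (hne : ∃ n, ¬ (2 : ℤ) ∣ G n)
    (hcong : ∀ l : ℕ, l.Prime → ¬ l ∣ 4 * D → ∀ n, (2 : ℤ) ∣
      G (n * l) + (if l ∣ n then G (n / l) else 0) - b l * G n)
    (hshift : ∀ τ w : ℍ, (w : ℂ) = τ + 1 / 2 → f w = ε * f τ)
    (hfricke : ∀ τ w : ℍ, (w : ℂ) = -1 / (4 * D * (τ : ℂ)) →
      f w = -(4 * D * (τ : ℂ) ^ 2) * f τ) :
    ∃ x : Par (GamH (4 * D) (⊤ : Subgroup (ZMod (4 * D))ˣ)) (ZMod 2), x ≠ 0 ∧
      (∀ γ, hv x.1 (jShift D γ) = hv x.1 γ ∧ hv x.1 (jLow D γ) = hv x.1 γ) ∧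
      ∀ l : GP (4 * D), (Tc (4 * D) ⊤ l.1).act x.1 = (b l.1 : ZMod 2) • x.1 := by
  have : Fact (Nat.Prime 2) := ⟨Nat.prime_two⟩
  have hm : (RingHom.ker (valHom (D := D) b)).IsMaximal :=
    RingHom.ker_isMaximal_of_surjective _ fun x =>
    ⟨MvPolynomial.C (x.val : ℤ), by
      rw [valHom, MvPolynomial.eval₂Hom_C]
      simp⟩
  have : Module.Finite ℤ (signedPar (D := D) ε) :=
    Module.Finite.of_injective (signedPar (D := D) ε).subtype (Submodule.subtype_injective _)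
  obtain ⟨w, hw, hwk⟩ := exists_killed_mod (p := 2) (actS (D := D) ε) two_ne_zero
    (RingHom.ker (valHom (D := D) b)) (RingHom.mem_ker.2 (by rw [map_natCast]; exact ZMod.natCast_self 2)) fun t₀ ht₀ => by
    have h0 : hact ℂ (4 * D) ⊤ (4 * D) t₀ (perPar f) = 0 :=
      complex_eq_zero t₀ (fun x hx => congrArg Subtype.val
        (LinearMap.congr_fun ht₀ (⟨x, hx⟩ : signedPar (D := D) ε)))
        _ (signed_per hε f hshift hfricke)
    rw [← per_opF] at h0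
    have h1 : opF t₀ f = 0 :=
      per_injective ((congrArg Subtype.val h0).trans (map_zero per).symm)
    obtain ⟨Gr, hGr, hGr2⟩ := exists_coeff_opF b f G hG hcong t₀
    obtain ⟨n₀, hn₀⟩ := hne
    have h2 := hGr n₀
    rw [h1, map_zero, Pi.zero_apply, eq_comm, Int.cast_eq_zero] at h2
    have h3 := hGr2 n₀
    rw [h2, Int.cast_zero, eq_comm, mul_eq_zero] at h3
    exact RingHom.mem_ker.2 (h3.resolve_right fun e =>
      hn₀ ((ZMod.intCast_zmod_eq_zero_iff_dvd _ 2).1 e))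
  let x : Par (GamH (4 * D) (⊤ : Subgroup (ZMod (4 * D))ˣ)) (ZMod 2) :=
    ⟨(Int.castAddHom (ZMod 2)).comp w.1.1, Par_comp _ w.1.2⟩
  refine ⟨x, fun hx => hw ?_, fun γ => ?_, fun l => ?_⟩
  · -- a class with even values is twice a class
    have hev : ∀ γ, (2 : ℤ) ∣ hv w.1.1 γ := fun γ =>
      (ZMod.intCast_zmod_eq_zero_iff_dvd _ 2).1
        (DFunLike.congr_fun (congrArg Subtype.val hx) (Additive.ofMul γ))
    let y : Hom1 (GamH (4 * D) (⊤ : Subgroup (ZMod (4 * D))ˣ)) ℤ :=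
      AddMonoidHom.mk' (fun γ => w.1.1 γ / 2) fun a c => by
        rw [map_add, Int.add_ediv_of_dvd_left (show (2 : ℤ) ∣ w.1.1 a from hev a.toMul)]
    have hy2 : ∀ γ, hv w.1.1 γ = 2 * hv y γ := fun γ => (Int.mul_ediv_cancel' (hev γ)).symm
    have hypar : y ∈ Par (GamH (4 * D) (⊤ : Subgroup (ZMod (4 * D))ˣ)) ℤ := fun γ s hs => by
      have h := hy2 γ
      rw [w.1.2 γ s hs] at h
      omega
    have hysg : Signed ε y := fun γ => by
      obtain ⟨e1, e2⟩ := (show Signed ε w.1.1 from w.2) γ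
      rw [hy2, hy2, zsmul_eq_mul, Int.cast_id, mul_left_comm] at e1 e2
      exact ⟨mul_left_cancel₀ two_ne_zero e1, mul_left_cancel₀ two_ne_zero e2⟩
    refine ⟨⟨⟨y, hypar⟩, hysg⟩, Subtype.ext (Subtype.ext (AddMonoidHom.ext fun γ => ?_))⟩
    show hv w.1.1 γ.toMul = (2 : ℕ) • hv y γ.toMul
    rw [hy2, nsmul_eq_mul]
    rfl
  · obtain ⟨e1, e2⟩ := (show Signed ε w.1.1 from w.2) γ
    have hu : (ε : ZMod 2) = 1 := by rcases hε with rfl | rfl <;> simp [ZMod.neg_eq_self_mod_two]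
    refine ⟨?_, ?_⟩
    · show ((hv w.1.1 _ : ℤ) : ZMod 2) = ((hv w.1.1 γ : ℤ) : ZMod 2)
      rw [e1, zsmul_eq_mul, Int.cast_id, Int.cast_mul, hu, one_mul]
    · show ((hv w.1.1 _ : ℤ) : ZMod 2) = ((hv w.1.1 γ : ℤ) : ZMod 2)
      rw [e2, zsmul_eq_mul, Int.cast_id, Int.cast_mul, hu, one_mul]
  · have hr : MvPolynomial.X l - MvPolynomial.C (b l.1) ∈ RingHom.ker (valHom (D := D) b) := by
      rw [RingHom.mem_ker, map_sub, valHom, MvPolynomial.eval₂Hom_X', MvPolynomial.eval₂Hom_C]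
      simp
    obtain ⟨y, hy⟩ := hwk _ hr
    have hy' : hact ℤ (4 * D) ⊤ (4 * D) (MvPolynomial.X l - MvPolynomial.C (b l.1)) w.1 =
        (2 : ℕ) • y.1 := congrArg Subtype.val hy
    rw [map_sub, hact_X, LinearMap.sub_apply, hact, evalComm_C, Module.End.intCast_apply,
      sub_eq_iff_eq_add] at hy'
    rw [show x.1 = (Int.castAddHom (ZMod 2)).comp w.1.1 from rfl, Corr.act_comp_hom,
      show (Tc (4 * D) ⊤ l.1).act w.1.1 = (TPar ℤ (4 * D) ⊤ l.1 w.1).1 from rfl, hy']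
    refine AddMonoidHom.ext fun γ => ?_
    show (((2 : ℕ) • y.1.1 γ + b l.1 • w.1.1 γ : ℤ) : ZMod 2) =
      (b l.1 : ZMod 2) • ((w.1.1 γ : ℤ) : ZMod 2)
    simp [show (2 : ZMod 2) = 0 from ZMod.natCast_self 2]

end FA.Two.Level4
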