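import Fermat.Agent.Two.Level4
import Fermat.Agent.HeckeH1.DiamondDegeneracy
import Fermat.Agent.HeckeH1.Neat

/-!
# From level `4D` to level `D` modulo `2`

An eigenclass modulo `2` on `Γ₀(4D)` fixed by the conjugations by `[[2, 1], [0, 2]]` and
`[[1, 0], [2D, 1]]` extends to `Γ₀(2D)` and its second trace to `Γ₀(D)` does not vanish.
-/

set_option autoImplicit false

noncomputable section

namespace FA.Two.Level4

open Matrix CongruenceSubgroup ModularCurve FA.HeckeH1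
open scoped MatrixGroups

variable {D : ℕ}

local notation "G₄" => GamH (4 * D) (⊤ : Subgroup (ZMod (4 * D))ˣ)

local notation "G₂" => GamUp D 2 (⊤ : Subgroup (ZMod D)ˣ)

theorem mem_G4 {g : SL(2, ℤ)} : g ∈ G₄ ↔ 4 * (D : ℤ) ∣ g.1 1 0 := by
  rw [GamH_top, Gamma0_mem, ZMod.intCast_zmod_eq_zero_iff_dvd]
  push_cast
  rfl

theorem mem_G2 {g : SL(2, ℤ)} : g ∈ G₂ ↔ 2 * (D : ℤ) ∣ g.1 1 0 := by
  rw [GamUp, eq_top_of_up, GamH_top, Gamma0_mem, ZMod.intCast_zmod_eq_zero_iff_dvd]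
  push_cast
  rw [mul_comm (D : ℤ) 2]

theorem G4_le_G2 : G₄ ≤ G₂ := fun g hg =>
  mem_G2.2 ((show 2 * (D : ℤ) ∣ 4 * D from ⟨2, by ring⟩).trans (mem_G4.1 hg))

/-- The class of `X 1 0 / 2 D` modulo `2`. -/
def psi (D : ℕ) (X : MatZ) : ZMod 2 := ((X 1 0 / (2 * (D : ℤ)) : ℤ) : ZMod 2)

variable [NeZero D]

theorem two_D_ne : (2 * (D : ℤ)) ≠ 0 :=
  mul_ne_zero two_ne_zero (Int.natCast_ne_zero.2 (NeZero.ne D))

theorem psi_eq {X : MatZ} {j : ℤ} (h : X 1 0 = 2 * D * j) : psi D X = (j : ZMod 2) := by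
  rw [psi, h, Int.mul_ediv_cancel_left _ two_D_ne]

theorem psi_mul {X Y : MatZ} (hX : 2 * (D : ℤ) ∣ X 1 0) (hY : 2 * (D : ℤ) ∣ Y 1 0)
    (hXd : Odd X.det) (hYd : Odd Y.det) :
    2 * (D : ℤ) ∣ (X * Y) 1 0 ∧ psi D (X * Y) = psi D X + psi D Y := by
  obtain ⟨i, hi⟩ := hX
  obtain ⟨j, hj⟩ := hY
  have hc : (X * Y) 1 0 = 2 * D * (i * Y 0 0 + X 1 1 * j) := by
    rw [Matrix.mul_apply, Fin.sum_univ_two, hi, hj]; ring
  have h1 : ((X 1 1 : ℤ) : ZMod 2) = 1 := by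
    rw [det_fin_two, hi, show X 0 1 * (2 * (D : ℤ) * i) = 2 * (X 0 1 * D * i) by ring,
      Int.odd_sub] at hXd
    have := hXd.2 (even_two_mul _)
    rw [Int.odd_mul] at this
    exact (ZMod.intCast_eq_one_iff_odd).2 this.2
  have h2 : ((Y 0 0 : ℤ) : ZMod 2) = 1 := by
    rw [det_fin_two, hj, show Y 0 1 * (2 * (D : ℤ) * j) = 2 * (Y 0 1 * D * j) by ring,
      Int.odd_sub] at hYd
    have := hYd.2 (even_two_mul _)
    rw [Int.odd_mul] at this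
    exact (ZMod.intCast_eq_one_iff_odd).2 this.1
  refine ⟨⟨_, hc⟩, ?_⟩
  rw [psi_eq hc, psi_eq hi, psi_eq hj]
  push_cast
  rw [h1, h2, mul_one, one_mul]

theorem psi_gam (γ δ : G₂) :
    psi D ((γ * δ : G₂) : SL(2, ℤ)).1 = psi D (γ : SL(2, ℤ)).1 + psi D (δ : SL(2, ℤ)).1 := by
  rw [Subgroup.coe_mul, Matrix.SpecialLinearGroup.coe_mul]
  exact (psi_mul (mem_G2.1 γ.2) (mem_G2.1 δ.2) (by rw [(γ : SL(2, ℤ)).2]; exact odd_one)
    (by rw [(δ : SL(2, ℤ)).2]; exact odd_one)).2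

theorem mem_G4_iff (γ : G₂) : (γ : SL(2, ℤ)) ∈ G₄ ↔ psi D (γ : SL(2, ℤ)).1 = 0 := by
  obtain ⟨j, hj⟩ := mem_G2.1 γ.2
  rw [mem_G4, psi_eq hj, hj, ZMod.intCast_zmod_eq_zero_iff_dvd,
    show 4 * (D : ℤ) = 2 * D * ((2 : ℕ) : ℤ) by push_cast; ring, mul_dvd_mul_iff_left two_D_ne]

variable (D) in
/-- `[[1, 0], [2 D, 1]]` at level `2 D`. -/
def low2 : G₂ := ⟨low (D := D), mem_G2.2 ⟨1, by simp [low, lowM]⟩⟩

theorem psi_low2 : psi D (low2 D : SL(2, ℤ)).1 = 1 := by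
  rw [psi_eq (j := 1) (by simp [low2, low, lowM]), Int.cast_one]

theorem zmod2_cases (a : ZMod 2) : a = 0 ∨ a = 1 := by revert a; decide

theorem low2_inv_mem (γ : G₂) (h : psi D (γ : SL(2, ℤ)).1 ≠ 0) :
    ((γ * (low2 D)⁻¹ : G₂) : SL(2, ℤ)) ∈ G₄ := by
  rw [mem_G4_iff]
  have h1 := psi_gam (γ * (low2 D)⁻¹) (low2 D)
  rw [inv_mul_cancel_right, psi_low2, (zmod2_cases _).resolve_left h] at h1
  simpa using h1

/-- The component at level `4 D`. -/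
def part (γ : G₂) : G₄ :=
  if h : psi D (γ : SL(2, ℤ)).1 = 0 then ⟨γ, (mem_G4_iff γ).2 h⟩
  else ⟨_, low2_inv_mem γ h⟩

theorem part_zero {γ : G₂} (h : psi D (γ : SL(2, ℤ)).1 = 0) :
    (part γ : SL(2, ℤ)) = γ := by rw [part, dif_pos h]

theorem part_one {γ : G₂} (h : psi D (γ : SL(2, ℤ)).1 = 1) :
    (part γ : SL(2, ℤ)) = γ * (low (D := D))⁻¹ := by
  rw [part, dif_neg (by rw [h]; exact one_ne_zero)]
  rfl

omit [NeZero D] in
theorem coe_jLow (h : G₄) :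
    (jLow D h : SL(2, ℤ)) = low (D := D) * h * (low (D := D))⁻¹ := by
  apply glQ_injective
  rw [jLow, glQ_conjHom, map_mul, map_mul, map_inv, ← gl_coe (low (D := D))]
  rfl

omit [NeZero D] in
theorem low_sq_mem : low (D := D) * low (D := D) ∈ G₄ :=
  mem_G4.2 ⟨1, by
    rw [Matrix.SpecialLinearGroup.coe_mul]
    simp [low, lowM, Matrix.mul_apply, Fin.sum_univ_two]
    ring⟩

section ext

variable {A : Type*} [CommRing A]

omit [NeZero D] in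
theorem hv_low_sq {x : Par G₄ A} : hv x.1 ⟨_, low_sq_mem⟩ = 0 := by
  refine x.2 _ ((0 : ℚ) : P1) ?_
  rw [OnePoint.smul_some_eq_ite]
  simp only [glQ_apply, Matrix.SpecialLinearGroup.coe_mul]
  simp [low, lowM, Matrix.mul_apply, Fin.sum_univ_two]

/-- The extension of a class invariant under `[[1, 0], [2 D, 1]]` to level `2 D`. -/
def extend (x : Par G₄ A) (hinv : ∀ γ, hv x.1 (jLow D γ) = hv x.1 γ) : Hom1 G₂ A :=
  AddMonoidHom.mk' (fun γ => hv x.1 (part γ.toMul)) fun γ δ => by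
    show hv x.1 (part (γ.toMul * δ.toMul)) = hv x.1 (part γ.toMul) + hv x.1 (part δ.toMul)
    generalize γ.toMul = γ
    generalize δ.toMul = δ
    have hs := psi_gam γ δ
    rcases zmod2_cases (psi D (γ : SL(2, ℤ)).1) with hγ | hγ <;>
      rcases zmod2_cases (psi D (δ : SL(2, ℤ)).1) with hδ | hδ <;>
      rw [hγ, hδ] at hs
    · rw [add_zero] at hs
      rw [← hv_mul]
      refine congrArg _ (Subtype.ext ?_)
      rw [Subgroup.coe_mul, part_zero hs, part_zero hγ, part_zero hδ]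
      rfl
    · rw [zero_add] at hs
      rw [← hv_mul]
      refine congrArg _ (Subtype.ext ?_)
      rw [Subgroup.coe_mul, part_one hs, part_zero hγ, part_one hδ, Subgroup.coe_mul, mul_assoc]
    · rw [add_zero] at hs
      rw [← hinv (part δ), ← hv_mul]
      refine congrArg _ (Subtype.ext ?_)
      rw [Subgroup.coe_mul, coe_jLow, part_one hs, part_one hγ, part_zero hδ, Subgroup.coe_mul]
      group
    · rw [show (1 : ZMod 2) + 1 = 0 from by decide] at hs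
      rw [← hinv (part δ), ← hv_mul, ← add_zero (hv x.1 (part γ * jLow D (part δ))),
        ← hv_low_sq (x := x), ← hv_mul]
      refine congrArg _ (Subtype.ext ?_)
      rw [Subgroup.coe_mul, Subgroup.coe_mul, coe_jLow, part_zero hs, part_one hγ, part_one hδ,
        Subgroup.coe_mul]
      group

theorem extend_hv {x : Par G₄ A} {hinv : ∀ γ, hv x.1 (jLow D γ) = hv x.1 γ} (γ : G₄) :
    hv (extend x hinv) ⟨γ, G4_le_G2 γ.2⟩ = hv x.1 γ :=
  congrArg _ (Subtype.ext (part_zero (γ := ⟨γ, G4_le_G2 γ.2⟩) ((mem_G4_iff _).1 γ.2)))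

end ext

omit [NeZero D] in
theorem Dl_G2 {X : MatZ} {n : ℤ} (hX : X ∈ Dl (4 * D) ⊤ n) (hn : IsCoprime n (4 * D : ℕ)) :
    X ∈ Dl (D * 2) (Hup D 2 ⊤) n := by
  obtain ⟨hd, hc, -⟩ := hX
  have hu : IsUnit ((X 0 0 : ℤ) : ZMod (4 * D)) := by
    obtain ⟨-, -, u, -, hu⟩ := (mem_Dl_top hn).2 ⟨hd, hc⟩
    exact hu ▸ u.isUnit
  have h2 : ((D * 2 : ℕ) : ℤ) ∣ ((4 * D : ℕ) : ℤ) := by
    exact_mod_cast (⟨2, by ring⟩ : D * 2 ∣ 4 * D)
  refine ⟨hd, h2.trans hc, ?_⟩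
  have h3 := hu.map (ZMod.castHom (⟨2, by ring⟩ : D * 2 ∣ 4 * D) (ZMod (D * 2)))
  rw [map_intCast] at h3
  exact ⟨h3.unit, by rw [eq_top_of_up]; trivial, h3.unit_spec⟩

omit [NeZero D] in
theorem res_G4_Tc {A : Type*} [AddCommGroup A] {l : ℕ} [Fact l.Prime] (hl : ¬ l ∣ 4 * D)
    (z : Hom1 G₂ A) :
    (Tc (4 * D) ⊤ l).act ((Corr.res (G4_le_G2 (D := D))).act z) =
      (Corr.res (G4_le_G2 (D := D))).act ((Tc (D * 2) (Hup D 2 ⊤) l).act z) := by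
  rw [← Corr.comp_act, ← Corr.comp_act]
  have h1 : gl (1 : MatZ) = 1 := by
    apply Units.ext; rw [coe_gl (by simp)]; simp
  obtain ⟨e, he⟩ := Tc_natural (H := Hup D 2 (⊤ : Subgroup (ZMod D)ˣ))
    (H' := (⊤ : Subgroup (ZMod (4 * D))ˣ)) (ℓ := l) (1 : MatZ)
    (not_dvd_det_one Fact.out det_one)
    (iff_of_false (fun h => hl (h.trans ⟨2, by ring⟩)) hl)
    (fun γ hγ => ⟨γ, G4_le_G2 hγ, by rw [h1, one_mul, mul_one]⟩)
    (fun i => ⟨_, Dl_G2 (rep_mem Fact.out _ i) (coprime_prime Fact.out hl),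
      by rw [Matrix.one_mul, Matrix.mul_one]⟩)
  refine Corr.Same.act_eq (C := (Corr.res (G4_le_G2 (D := D))).comp (Tc (4 * D) ⊤ l))
    (D := (Tc (D * 2) (Hup D 2 ⊤) l).comp (Corr.res (G4_le_G2 (D := D)))) ⟨e, fun x => ?_⟩ z
  obtain ⟨h, hh⟩ := he x
  refine ⟨h, ?_⟩
  have hh' : gl (1 : MatZ) * gl (rep (4 * D) l x.2) =
      glQ (h : SL(2, ℤ)) * (gl (rep (D * 2) l (e x).1) * gl (1 : MatZ)) := hh
  exact (congrArg (· * gl (rep (4 * D) l x.2)) h1).symm.trans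
    (hh'.trans (congrArg (fun t => glQ (h : SL(2, ℤ)) * (gl (rep (D * 2) l (e x).1) * t)) h1))

section chi

variable (k : Type*) [CommRing k] [CharP k 2]

variable (D) in
/-- The quotient character of level `4 D` in level `2 D`. -/
def chi : Hom1 G₂ k :=
  AddMonoidHom.mk' (fun γ => ZMod.castHom (dvd_refl 2) k (psi D (γ.toMul : SL(2, ℤ)).1))
    fun γ δ => by rw [toMul_add, psi_gam, map_add]

theorem Tc_chi {l : ℕ} [Fact l.Prime] (hl : ¬ l ∣ D * 2) :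
    (Tc (D * 2) (Hup D 2 ⊤) l).act (chi D k) = 0 := by
  have hlp : l.Prime := Fact.out
  have hodd : Odd (l : ℤ) := by
    exact_mod_cast hlp.odd_of_ne_two fun e => hl (e ▸ dvd_mul_left 2 D)
  refine AddMonoidHom.ext fun γ => ?_
  show hv ((Tc (D * 2) (Hup D 2 ⊤) l).act (chi D k)) γ.toMul = 0
  generalize γ.toMul = γ
  rw [Corr.act_apply]
  let P : RIdx (D * 2) l → k := fun i => ZMod.castHom (dvd_refl 2) k (psi D (rep (D * 2) l i))
  have hr : ∀ i : RIdx (D * 2) l, 2 * (D : ℤ) ∣ rep (D * 2) l i 1 0 := fun i => by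
    have := (rep_mem hlp (Hup D 2 (⊤ : Subgroup (ZMod D)ˣ)) i).2.1
    push_cast at this
    rwa [mul_comm (2 : ℤ)]
  have hrd : ∀ i : RIdx (D * 2) l, Odd (rep (D * 2) l i).det := fun i => by
    rw [rep_det hlp]; exact hodd
  have key : ∀ i, hv (chi D k) ((Tc (D * 2) (Hup D 2 ⊤) l).fac γ i) +
      P ((Tc (D * 2) (Hup D 2 ⊤) l).perm γ i) = P i + hv (chi D k) γ := fun i => by
    have e := mul_glQ_eq (rep_det hlp i) (rep_det hlp _) ((Tc (D * 2) (Hup D 2 ⊤) l).fac_spec γ i)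
    have e1 := (psi_mul (hr i) (mem_G2.1 γ.2) (hrd i)
      (by rw [(γ : SL(2, ℤ)).2]; exact odd_one)).2
    have e2 := (psi_mul (mem_G2.1 ((Tc (D * 2) (Hup D 2 ⊤) l).fac γ i).2)
      (hr ((Tc (D * 2) (Hup D 2 ⊤) l).perm γ i))
      (by rw [((Tc (D * 2) (Hup D 2 ⊤) l).fac γ i : SL(2, ℤ)).2]; exact odd_one)
      (hrd ((Tc (D * 2) (Hup D 2 ⊤) l).perm γ i))).2
    have e' := (e1.symm.trans (congrArg (psi D) e)).trans e2
    exact (map_add (ZMod.castHom (dvd_refl 2) k) _ _).symm.trans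
      ((congrArg _ e'.symm).trans (map_add _ _ _))
  have hsum := (Finset.sum_add_distrib.symm.trans (Fintype.sum_congr _ _ key)).trans
    Finset.sum_add_distrib
  have hperm : ∑ i, P ((Tc (D * 2) (Hup D 2 ⊤) l).perm γ i) = ∑ i, P i :=
    Equiv.sum_comp ((Tc (D * 2) (Hup D 2 ⊤) l).perm γ) P
  have hcard : ((Fintype.card (RIdx (D * 2) l) : ℕ) : k) = 0 := by
    rw [card_RIdx hl, CharP.cast_eq_zero_iff k 2]
    obtain ⟨j, hj⟩ := (Int.odd_coe_nat l).1 hodd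
    exact ⟨j + 1, by omega⟩
  rw [Finset.sum_const, Finset.card_univ, nsmul_eq_mul,
    show ((Fintype.card (Tc (D * 2) (Hup D 2 ⊤) l).ι : ℕ) : k) = 0 from hcard, zero_mul,
    add_zero] at hsum
  exact add_right_cancel ((hperm ▸ hsum).trans (zero_add _).symm)

variable {k}

theorem eq_smul_chi {e : Hom1 G₂ k} (h : ∀ γ : G₄, hv e ⟨γ, G4_le_G2 γ.2⟩ = 0) :
    e = hv e (low2 D) • chi D k := by
  refine AddMonoidHom.ext fun γ => ?_
  show hv e γ.toMul = hv e (low2 D) * ZMod.castHom (dvd_refl 2) k (psi D (γ.toMul : SL(2, ℤ)).1)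
  generalize γ.toMul = γ
  rcases zmod2_cases (psi D (γ : SL(2, ℤ)).1) with hγ | hγ <;> rw [hγ]
  · rw [map_zero, mul_zero]
    exact h ⟨γ, (mem_G4_iff γ).2 hγ⟩
  · rw [map_one, mul_one]
    have h1 := h ⟨_, low2_inv_mem γ (by rw [hγ]; exact one_ne_zero)⟩
    change hv e (γ * (low2 D)⁻¹) = 0 at h1
    rwa [hv_mul, hv_inv, add_neg_eq_zero] at h1

end chi

/-- **An eigenclass at level `2 D`.** -/
theorem exists_class_two {k : Type*} [CommRing k] [CharP k 2] (x : Par G₄ k)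
    (hinv : ∀ γ, hv x.1 (jLow D γ) = hv x.1 γ) (b : ℕ → ℤ)
    (heig : ∀ l : GP (4 * D), (Tc (4 * D) ⊤ l.1).act x.1 = (b l.1 : k) • x.1)
    (l₀ : GP (4 * D)) (hl₀ : Odd (b l₀.1)) :
    ∃ y : Hom1 G₂ k, (∀ γ : G₄, hv y ⟨γ, G4_le_G2 γ.2⟩ = hv x.1 γ) ∧
      ∀ l : GP (4 * D), (Tc (D * 2) (Hup D 2 ⊤) l.1).act y = (b l.1 : k) • y := by
  let y₁ := extend x hinv
  have hdvd : ∀ l : GP (4 * D), ¬ l.1 ∣ D * 2 := fun l h => l.2.2 (h.trans ⟨2, by ring⟩)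
  have hres : (Corr.res (G4_le_G2 (D := D))).act y₁ = x.1 := AddMonoidHom.ext fun γ => by
    show hv ((Corr.res (G4_le_G2 (D := D))).act y₁) γ.toMul = hv x.1 γ.toMul
    rw [Corr.res_act]
    exact extend_hv _
  have hT : ∀ (l : GP (4 * D)) (γ : G₄),
      hv ((Tc (D * 2) (Hup D 2 ⊤) l.1).act y₁) ⟨γ, G4_le_G2 γ.2⟩ = (b l.1 : k) * hv x.1 γ :=
    fun l γ => by
      rw [← Corr.res_act (G4_le_G2 (D := D)), ← res_G4_Tc l.2.2, hres, heig l]
      rfl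
  refine ⟨(Tc (D * 2) (Hup D 2 ⊤) l₀.1).act y₁, fun γ => ?_, fun l => ?_⟩
  · rw [hT, show ((b l₀.1 : ℤ) : k) = 1 by
      obtain ⟨j, hj⟩ := hl₀
      rw [hj]; push_cast; rw [CharTwo.two_eq_zero, zero_mul, zero_add], one_mul]
  · have h1 := eq_smul_chi (e := (Tc (D * 2) (Hup D 2 ⊤) l.1).act y₁ - (b l.1 : k) • y₁)
      fun γ => by
        show hv ((Tc (D * 2) (Hup D 2 ⊤) l.1).act y₁) _ - (b l.1 : k) * hv y₁ _ = 0
        rw [hT, show hv y₁ _ = hv x.1 γ from extend_hv γ, sub_self]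
    rw [sub_eq_iff_eq_add] at h1
    have hcomm : (Tc (D * 2) (Hup D 2 ⊤) l.1).act ((Tc (D * 2) (Hup D 2 ⊤) l₀.1).act y₁) =
        (Tc (D * 2) (Hup D 2 ⊤) l₀.1).act ((Tc (D * 2) (Hup D 2 ⊤) l.1).act y₁) := by
      rcases eq_or_ne l l₀ with rfl | hne
      · rfl
      · exact Tc_comm _ _ (fun e => hne (Subtype.ext e)) _
    rw [hcomm, h1, map_add, Corr.act_smul, Corr.act_smul, Tc_chi k (hdvd l₀), smul_zero, zero_add]

/-! ### The trace to level `D` -/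

omit [NeZero D] in
theorem jShift_spec (h : G₄) :
    shiftM 1 * (h : SL(2, ℤ)).1 = (jShift D h : SL(2, ℤ)).1 * shiftM 1 := by
  have h4 : (shiftM 1).det ≠ 0 := by rw [shiftM_det]; norm_num
  have e := glQ_conjHom h4 (stable_shiftM coprime_one (one_mul 1)) h
  change glQ (jShift D h : SL(2, ℤ)) = _ at e
  rw [eq_mul_inv_iff_mul_eq] at e
  refine gl_inj (by rw [det_mul, (h : SL(2, ℤ)).2, mul_one]; exact h4)
    (by rw [det_mul, (jShift D h : SL(2, ℤ)).2, one_mul]; exact h4) ?_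
  rw [gl_mul h4 (by rw [(h : SL(2, ℤ)).2]; exact one_ne_zero),
    gl_mul (by rw [(jShift D h : SL(2, ℤ)).2]; exact one_ne_zero) h4, gl_coe, gl_coe, e]

omit [NeZero D] in
theorem lowM_spec (h : G₄) :
    lowM D 1 * (h : SL(2, ℤ)).1 = (jLow D h : SL(2, ℤ)).1 * lowM D 1 := by
  have e : (jLow D h : SL(2, ℤ)) * low (D := D) = low (D := D) * h := by
    rw [coe_jLow, inv_mul_cancel_right]
  exact (congrArg Subtype.val e).symm

omit [NeZero D] in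
/-- **The trace does not vanish.** -/
theorem J2_ne_zero {k : Type*} [CommRing k] [CharP k 2] (hD : ¬ 2 ∣ D) (x : Par G₄ k)
    (hx : x ≠ 0) (hinv : ∀ γ, hv x.1 (jShift D γ) = hv x.1 γ ∧ hv x.1 (jLow D γ) = hv x.1 γ)
    {y : Hom1 G₂ k} (hy : ∀ γ : G₄, hv y ⟨γ, G4_le_G2 γ.2⟩ = hv x.1 γ) :
    (J2 (⊤ : Subgroup (ZMod D)ˣ) hD).act y ≠ 0 := by
  classical
  obtain ⟨h, hh⟩ : ∃ h : G₄, hv x.1 h ≠ 0 := by
    by_contra hcon
    push Not at hcon
    exact hx (Subtype.ext (AddMonoidHom.ext fun γ => hcon γ.toMul))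
  intro h0
  obtain ⟨j, hj⟩ := mem_G4.1 h.2
  have hdet := (h : SL(2, ℤ)).2
  rw [det_fin_two, hj] at hdet
  let γ₀ : SL(2, ℤ) := ⟨!![(h : SL(2, ℤ)).1 0 0, 2 * (h : SL(2, ℤ)).1 0 1;
    2 * D * j, (h : SL(2, ℤ)).1 1 1], by rw [det_fin_two_of]; linear_combination hdet⟩
  have hγ₀ : γ₀ ∈ GamH D (⊤ : Subgroup (ZMod D)ˣ) := by
    rw [GamH_top, Gamma0_mem, ZMod.intCast_zmod_eq_zero_iff_dvd]
    exact ⟨2 * j, by simp [γ₀]; ring⟩
  have hdel : del 2 * γ₀.1 = (h : SL(2, ℤ)).1 * del 2 := by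
    ext r s
    fin_cases r <;> fin_cases s <;>
      simp [γ₀, del, Matrix.mul_apply, Fin.sum_univ_two, hj] <;> ring
  have hT : ∀ n : ℤ, ModularGroup.T ^ n ∈ G₄ := fun n => zpow_mem T_mem_GamH n
  have key : ∀ i : RIdx D 2, ∃ g : G₄,
      rep D 2 i * γ₀.1 = (g : SL(2, ℤ)).1 * rep D 2 i ∧ hv x.1 g = hv x.1 h := by
    rintro ⟨_ | ⟨m, hm⟩, hi⟩
    · have hbz := bezout_eq Nat.prime_two hD
      obtain ⟨n, hn⟩ : ∃ n : ℤ, -Nat.gcdB 2 D = 1 + 2 * n := by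
        obtain ⟨u, hu⟩ : Odd (Nat.gcdB 2 D) := by
          have : Odd ((D : ℤ) * Nat.gcdB 2 D) := ⟨-Nat.gcdA 2 D, by push_cast at hbz; linarith⟩
          exact (Int.odd_mul.1 this).2
        exact ⟨-u - 1, by rw [hu]; ring⟩
      let t : G₄ := ⟨_, hT n⟩
      refine ⟨t * jShift D (jLow D h) * t⁻¹, ?_, ?_⟩
      · have e2 : (2 : ℤ) • rep D 2 ⟨none, hi⟩ =
            (t : SL(2, ℤ)).1 * shiftM 1 * lowM D 1 * del 2 := by
          show _ = ((ModularGroup.T ^ n : SL(2, ℤ)) : MatZ) * _ * _ * _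
          rw [ModularGroup.coe_T_zpow]
          push_cast at hbz
          ext r s
          fin_cases r <;> fin_cases s <;>
            simp [rep, shiftM, lowM, del, Matrix.mul_apply, Fin.sum_univ_two]
          · linear_combination 2 * hbz + 2 * (D : ℤ) * hn
          · linear_combination 2 * hn
          · ring
        refine smul_right_injective MatZ (two_ne_zero (α := ℤ)) ?_
        show (2 : ℤ) • (rep D 2 ⟨none, hi⟩ * γ₀.1) = (2 : ℤ) • _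
        rw [← smul_mul_assoc, ← mul_smul_comm, e2]
        simp only [Subgroup.coe_mul, Subgroup.coe_inv, Matrix.SpecialLinearGroup.coe_mul,
          Matrix.mul_assoc]
        rw [hdel, ← Matrix.mul_assoc (lowM D 1), lowM_spec, Matrix.mul_assoc,
          ← Matrix.mul_assoc (shiftM 1), jShift_spec, Matrix.mul_assoc,
          ← Matrix.mul_assoc ((t : SL(2, ℤ))⁻¹).1,
          ← Matrix.SpecialLinearGroup.coe_mul, inv_mul_cancel, Matrix.SpecialLinearGroup.coe_one,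
          Matrix.one_mul]
      · rw [hv_mul, hv_mul, hv_inv, (hinv _).1, (hinv h).2]
        abel
    · interval_cases m
      · refine ⟨h, ?_, rfl⟩
        rw [show rep D 2 ⟨some ⟨0, hm⟩, hi⟩ = del 2 by simp [rep, del], hdel]
      · refine ⟨jShift D h, ?_, (hinv h).1⟩
        have e2 : (2 : ℤ) • rep D 2 ⟨some ⟨1, hm⟩, hi⟩ = shiftM 1 * del 2 := by
          ext r s
          fin_cases r <;> fin_cases s <;>
            simp [rep, shiftM, del, Matrix.mul_apply, Fin.sum_univ_two]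
        refine smul_right_injective MatZ (two_ne_zero (α := ℤ)) ?_
        show (2 : ℤ) • (rep D 2 ⟨some ⟨1, hm⟩, hi⟩ * γ₀.1) = (2 : ℤ) • _
        rw [← smul_mul_assoc, ← mul_smul_comm, e2, Matrix.mul_assoc, hdel, ← Matrix.mul_assoc,
          jShift_spec, Matrix.mul_assoc]
  choose g hg hgx using key
  refine hh ?_
  have hd : ∀ i, (rep D 2 i).det ≠ 0 := fun i => by rw [rep_det Nat.prime_two]; norm_num
  have h1 := Corr.act_eq (J2 (⊤ : Subgroup (ZMod D)ˣ) hD) y ⟨γ₀, hγ₀⟩ 1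
    (fun i => ⟨g i, G4_le_G2 (g i).2⟩) fun i => by
      show gl (rep D 2 i) * glQ γ₀ = glQ (g i : SL(2, ℤ)) * gl (rep D 2 i)
      rw [← gl_coe, ← gl_coe, ← gl_mul (hd i) (by rw [γ₀.2]; exact one_ne_zero),
        ← gl_mul (by rw [(g i : SL(2, ℤ)).2]; exact one_ne_zero) (hd i)]
      exact congrArg gl (hg i)
  rw [h0] at h1
  have h2 : (0 : k) = ∑ i : RIdx D 2, hv y ⟨g i, G4_le_G2 (g i).2⟩ := h1
  simp only [hy, hgx] at h2
  rw [Finset.sum_const, Finset.card_univ, card_RIdx hD, nsmul_eq_mul] at h2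
  have h3 : 2 + 1 ≡ 1 [MOD 2] := rfl
  rw [(CharP.natCast_eq_natCast k 2 (a := 2 + 1) (b := 1)).2 h3, Nat.cast_one, one_mul] at h2
  exact h2.symm

/-- **An eigenclass at level `D`.** -/
theorem exists_class_down {R k : Type} [CommRing R] [IsAddTorsionFree R] [CommRing k] [CharP k 2]
    (π : R →+* k) (hπ : Function.Surjective π) (hn : IsNeatOn R G₂) (hD : ¬ 2 ∣ D)
    (x : Par G₄ k) (hx : x ≠ 0)
    (hinv : ∀ γ, hv x.1 (jShift D γ) = hv x.1 γ ∧ hv x.1 (jLow D γ) = hv x.1 γ) (b : ℕ → ℤ)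
    (heig : ∀ l : GP (4 * D), (Tc (4 * D) ⊤ l.1).act x.1 = (b l.1 : k) • x.1)
    (l₀ : GP (4 * D)) (hl₀ : Odd (b l₀.1)) :
    ∃ z : Hom1 (GamH D (⊤ : Subgroup (ZMod D)ˣ)) R, π.toAddMonoidHom.comp z ≠ 0 ∧
      ∀ l : GP (4 * D), π.toAddMonoidHom.comp ((Tc D ⊤ l.1).act z) =
        (b l.1 : k) • π.toAddMonoidHom.comp z := by
  obtain ⟨y, hy, hyT⟩ := exists_class_two x (fun γ => (hinv γ).2) b heig l₀ hl₀
  have hneg : (-1 : SL(2, ℤ)) ∈ G₄ := mem_G4.2 (by simp)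
  have hy1 : hv y ⟨-1, G4_le_G2 hneg⟩ = 0 := by
    rw [show hv y ⟨-1, G4_le_G2 hneg⟩ = hv x.1 ⟨-1, hneg⟩ from hy ⟨-1, hneg⟩]
    refine x.2 _ cinf ?_
    rw [OnePoint.smul_infty_eq_self_iff]
    simp
  obtain ⟨z, -, hz⟩ := El_lift π hπ hn (G4_le_G2 hneg)
    ((mem_El_iff_neat (hn.map π) (G4_le_G2 hneg)).2 hy1)
  refine ⟨(J2 ⊤ hD).act z, ?_, fun l => ?_⟩
  · rw [← Corr.act_comp_hom, hz]
    exact J2_ne_zero hD x hx hinv hy
  · have hl2 : l.1 ≠ 2 := fun e => l.2.2 (e ▸ dvd_mul_of_dvd_left (by norm_num) D)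
    rw [← J2_Tc (H := (⊤ : Subgroup (ZMod D)ˣ)) hD hl2 z, ← Corr.act_comp_hom,
      ← Corr.act_comp_hom, hz, ← Corr.act_comp_hom, hz,
      hyT l, Corr.act_smul]

end FA.Two.Level4
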