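import Fermat.Agent.GalCoh.AuxChar

/-!
# The invariant of an unramified character times a ramified one

At an odd prime the product of the unramified quadratic character and a ramified one is not zero.
-/

set_option autoImplicit false
set_option linter.unusedSectionVars false

noncomputable section

namespace FA.Two

open FA.GalCoh IntermediateField

variable {q : ℕ} [hq : Fact q.Prime]

theorem zmod_two_eq : ∀ x : ZMod 2, x = 0 ∨ x = 1 := by decide

theorem exists_norm_zpow (a : fixUM (LG q) (PadicAlgCl q)) :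
    ∃ m : ℤ, ‖a.1.val‖ = (q : ℝ) ^ m := by
  have hbot : a.1.val ∈ (⊥ : IntermediateField ℚ_[q] (PadicAlgCl q)) := by
    have h : a.1.val ∈ fixedField ((⊥ : IntermediateField ℚ_[q] (PadicAlgCl q)).fixingSubgroup) :=
      fun g => congrArg UM.val (a.2 g.1)
    have : IsGalois ℚ_[q] (PadicAlgCl q) := inferInstance
    rwa [InfiniteGalois.fixedField_fixingSubgroup] at h
  obtain ⟨m, hm⟩ := norm_pow_finrank (⊥ : IntermediateField ℚ_[q] (PadicAlgCl q)) a.1.val hbot
    a.1.val_ne_zero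
  rw [IntermediateField.finrank_bot, pow_one] at hm
  exact ⟨m, hm⟩

/-- The quadratic character of a unit is unramified. -/
theorem kc_inert_eq_zero [Fact (Nat.Prime 2)] (hq2 : q ≠ 2) (h1 : ∀ g, (cycL 2 q).χ g = 1)
    {u : fixUM (LG q) (PadicAlgCl q)} (hu : ‖u.1.val‖ = 1) {ι : LG q} (hι : ι ∈ inertL q) :
    ((cycL 2 q).kumTop h1).kc u ι = 0 := by
  set K := (cycL 2 q).kumTop h1
  set A := (K.kroot u.1).val
  have hA : A ^ 2 = u.1.val := by rw [← UM.val_nsmul, K.nsmul_kroot]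
  have hA1 : ‖A‖ = 1 := by
    have h := congrArg norm hA
    rw [norm_pow, hu] at h
    exact (pow_eq_one_iff_of_nonneg (norm_nonneg _) two_ne_zero).1 h
  have h := congrArg UM.val (K.eps_kc u (K.nsmul_kroot u.1) ι)
  rw [K.eps_val, UM.val_sub, UM.val_smul] at h
  by_contra hne
  have h2 : K.kc u ι = 1 := (zmod_two_eq _).resolve_left hne
  rw [h2, ZMod.val_one, pow_one, K.prim.eq_neg_one_of_two_right, eq_div_iff (UM.val_ne_zero _)] at h
  have hlt := sub_lt_of_mem_inertL' hι hA1.le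
  change ‖ι • A - A‖ < 1 at hlt
  rw [← h, show (-1 : PadicAlgCl q) * A - A = -(((2 : ℕ) : PadicAlgCl q) * A) by push_cast; ring,
    norm_neg, norm_mul, hA1, mul_one, norm_natCast_eq_one] at hlt
  · exact lt_irrefl _ hlt
  · exact fun h => hq2 ((Nat.prime_dvd_prime_iff_eq hq.out Nat.prime_two).1 h)

/-- **The product of the unramified and a ramified character has nonzero invariant.** -/
theorem localInv_unr_mul_ne_zero [Fact (Nat.Prime 2)] (hq2 : q ≠ 2) {w : LG q → ZMod 2}
    (hlc : LC₁ (LL q) w) (hom : ∀ g h, w (g * h) = w g + w h)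
    (hram : ∃ ι ∈ inertL q, w ι ≠ 0) (Z : ↥(Z2 (LL q) (chr (cycL 2 q).χ)))
    (hZ : ∀ g h, Z.1 (g, h) = unrChar 2 g * w h) :
    localInv (cycL 2 q) (mk2 (LL q) (chr (cycL 2 q).χ) Z) ≠ 0 := by
  have h1 : ∀ g, (cycL 2 q).χ g = 1 := fun g => Subsingleton.elim _ _
  set K := (cycL 2 q).kumTop h1
  have hw : w ∈ Z1 (LL q) (triv (LG q) 2) := ⟨hlc, fun g h => by rw [hom, add_comm]; rfl⟩
  obtain ⟨a, ha⟩ := K.kum_surjective (mk1 (LL q) (triv (LG q) 2) ⟨w, hw⟩)
  have hcup : mk2 (LL q) (chr (cycL 2 q).χ) Z = -unrCup (cycL 2 q) a := by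
    refine (cycL 2 q).map2_top_injective h1 ?_
    rw [map_neg, unrCup, (cycL 2 q).map2_top_cup h1, (cycL 2 q).map1_kum_top, ha, ← symb_comm, symb,
      unrClass, Bil.cup_mk1, map2_mk2]
    refine congrArg (mk2 (LL q) (triv (LG q) 2)) (Subtype.ext (funext fun x => ?_))
    show Z.1 (x.1, x.2) = unrChar 2 x.1 * w x.2
    exact hZ _ _
    all_goals exact h1
  obtain ⟨m, hm⟩ := exists_norm_zpow a
  -- split off the power of `q`
  set u : fixUM (LG q) (PadicAlgCl q) := a + m • qUnit with hu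
  have hu1 : ‖u.1.val‖ = 1 := by
    rw [hu, AddSubgroup.coe_add, UM.val_add, norm_mul, hm, AddSubgroupClass.coe_zsmul,
      UM.norm_zsmul, show (qUnit (q := q)).1.val = (q : PadicAlgCl q) from rfl, norm_q,
      ← mul_zpow, mul_inv_cancel₀ (Nat.cast_ne_zero.2 hq.out.ne_zero), one_zpow]
  have hinv : localInv (cycL 2 q) (unrCup (cycL 2 q) a) = -(m : ZMod 2) := by
    let F : fixUM (LG q) (PadicAlgCl q) →+ ZMod 2 :=
      AddMonoidHom.mk' (fun x => localInv (cycL 2 q) (unrCup (cycL 2 q) x)) fun x y => by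
        rw [show unrCup (cycL 2 q) (x + y) = unrCup (cycL 2 q) x + unrCup (cycL 2 q) y by
          rw [unrCup, (cycL 2 q).kum_add, map_add, LinearMap.add_apply]; rfl, map_add]
    show F a = _
    have hFu : F u = 0 := localInv_unit (cycL 2 q) hu1
    have hFq : F qUnit = 1 := localInv_unrCup (cycL 2 q)
    rw [hu, map_add, map_zsmul, hFq, zsmul_one] at hFu
    exact eq_neg_of_add_eq_zero_left hFu
  rw [hcup, map_neg, hinv, neg_neg]
  intro hm0
  obtain ⟨ι, hι, hwι⟩ := hram
  apply hwι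
  have hkum : K.kum u = mk1 (LL q) (triv (LG q) 2) ⟨w, hw⟩ := by
    rw [hu, map_add, map_zsmul, ← Int.cast_smul_eq_zsmul (ZMod 2), hm0, zero_smul, add_zero, ha]
  have : K.kc u = w := congrArg (fun z : ↥(Z1 (LL q) (triv (LG q) 2)) => z.1)
    (mk1_triv_injective hkum)
  rw [← this]
  exact kc_inert_eq_zero hq2 h1 hu1 hι

end FA.Two
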