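import Mathlib.Algebra.Algebra.Pi
import Mathlib.RingTheory.IntegralClosure.IsIntegral.Basic
import Mathlib.RingTheory.Polynomial.Basic
import Mathlib.LinearAlgebra.Matrix.NonsingularInverse
import Mathlib.RingTheory.Finiteness.Basic
import Mathlib.RingTheory.IntegralClosure.Algebra.Basic

/-!
# The algebra of the new part

An algebra `A` acts on a free module and has points separating the action; `n` is an element whose
image is a direct summand. On this image acts every tuple of values at the points where `n` does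
not vanish which after multiplication by the values of `n` comes from `A` and vanishes elsewhere.
-/

set_option autoImplicit false

open Matrix Polynomial

namespace FA.Two

variable {O A Λ : Type} [CommRing O] [IsDomain O] [CommRing A] [Algebra O A] [Module.Finite O A]
  [CommRing Λ] [Algebra O Λ] [Module.IsTorsionFree O Λ]
  {J : Type} {B : J → Type} [∀ j, CommRing (B j)] [∀ j, IsDomain (B j)] [∀ j, Algebra O (B j)]
  (f : A →ₐ[O] ∀ j, B j) (n : A)

/-- The values at the points where `n` does not vanish. -/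
abbrev NewVals : Type := ∀ j : {j // f n j ≠ 0}, B j.1

/-- Restriction to the points where `n` does not vanish. -/
def newVals : A →ₐ[O] NewVals f n :=
  AlgHom.pi fun j : {j // f n j ≠ 0} => (Pi.evalAlgHom O B j.1).comp f

omit [IsDomain O] [Module.Finite O A] [∀ j, IsDomain (B j)] in
theorem newVals_apply (a : A) (j : {j // f n j ≠ 0}) : newVals f n a j = f a j.1 := rfl

omit [IsDomain O] [∀ j, IsDomain (B j)] in
/-- The elements coming from `A` after multiplication by `n`, vanishing elsewhere. -/
def newGens : Set (NewVals f n) :=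
  {x | ∃ b : A, (∀ j : {j // f n j ≠ 0}, f b j.1 = x j * f n j.1) ∧
    ∀ j, f n j = 0 → f b j = 0}

/-- `n` is invertible up to scalars at the points where it does not vanish. -/
theorem exists_mul_eq_scalar :
    ∃ (a : A) (s : O), s ≠ 0 ∧ ∀ j : {j // f n j ≠ 0}, f (a * n) j.1 = algebraMap O (B j.1) s := by
  classical
  set c := newVals f n n with hc
  have hint : IsIntegral O c := (Algebra.IsIntegral.isIntegral n).map (newVals f n)
  obtain ⟨P, hmon, hP⟩ := hint
  suffices h : ∀ (d : ℕ) (P : O[X]), P.natDegree = d → P ≠ 0 → aeval c P = 0 →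
      ∃ (a : A) (s : O), s ≠ 0 ∧ ∀ j : {j // f n j ≠ 0}, f (a * n) j.1 = algebraMap O (B j.1) s from
    h _ P rfl hmon.ne_zero hP
  intro d
  induction d using Nat.strong_induction_on with
  | _ d ih =>
    intro P hd hP0 hPc
    by_cases h0 : P.coeff 0 = 0
    · obtain ⟨Q, rfl⟩ := X_dvd_iff.2 h0
      have hQ0 : Q ≠ 0 := fun h => hP0 (by rw [h, mul_zero])
      refine ih Q.natDegree ?_ Q rfl hQ0 (funext fun j => ?_)
      · rw [← hd, natDegree_X_mul hQ0]; omega
      · have h1 := congrFun hPc j
        rw [map_mul, aeval_X, Pi.mul_apply, Pi.zero_apply] at h1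
        exact (mul_eq_zero.1 h1).resolve_left j.2
    · refine ⟨-aeval n P.divX, P.coeff 0, h0, fun j => ?_⟩
      have h1 := congrFun (congrArg (aeval c) (P.X_mul_divX_add)) j
      rw [map_add, map_mul, aeval_X, aeval_C, hPc] at h1
      have h2 : aeval c P.divX = newVals f n (aeval n P.divX) := aeval_algHom_apply _ _ _
      rw [h2] at h1
      simp only [Pi.add_apply, Pi.mul_apply, Pi.zero_apply, Pi.algebraMap_apply, c, newVals_apply]
        at h1
      rw [map_mul, map_neg, Pi.mul_apply, Pi.neg_apply]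
      linear_combination -h1

variable {d ρ : ℕ} (act : A →ₐ[O] Matrix (Fin d) (Fin d) Λ)
  (V : Matrix (Fin d) (Fin ρ) Λ) (p : Matrix (Fin ρ) (Fin d) Λ)

/-- **The new part.** -/
theorem exists_newHom (hker : ∀ a, f a = 0 → act a = 0) (hp : p * (act n * V) = 1)
    (hrange : ∀ x : Fin d → Λ, ∃ y, (act n * V) *ᵥ y = act n *ᵥ x) :
    ∃ F : Algebra.adjoin O (newGens f n) →ₐ[O] Matrix (Fin ρ) (Fin ρ) Λ,
      ∀ (x : Algebra.adjoin O (newGens f n)) (b : A),
        (∀ j : {j // f n j ≠ 0}, f b j.1 = (x : NewVals f n) j * f n j.1) →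
        (∀ j, f n j = 0 → f b j = 0) → act b * V = act n * V * F x := by
  classical
  set i := act n * V with hi
  have htf : ∀ {u v : ℕ} (M : Matrix (Fin u) (Fin v) Λ) {s : O}, s ≠ 0 → s • M = 0 → M = 0 :=
    fun M s hs h => Matrix.ext fun a b =>
      (smul_eq_zero.1 (congrFun (congrFun h a) b)).resolve_left hs
  have hmem : ∀ {v : ℕ} (M : Matrix (Fin d) (Fin v) Λ), i * (p * (act n * M)) = act n * M := by
    intro v M
    refine Matrix.ext fun a b => ?_
    obtain ⟨y, hy⟩ := hrange fun l => M l b
    have e : ∀ X : Matrix (Fin d) (Fin d) Λ,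
        (X * (act n * M)) a b = (X *ᵥ (act n *ᵥ fun l => M l b)) a := fun X => rfl
    rw [← Matrix.mul_assoc, e, ← hy, Matrix.mulVec_mulVec, Matrix.mul_assoc, hp, Matrix.mul_one, hy]
    rfl
  let actM : A → Matrix (Fin ρ) (Fin ρ) Λ := fun a => p * act a * i
  have key : ∀ a, act a * i = i * actM a := fun a => by
    show _ = i * (p * act a * i)
    rw [Matrix.mul_assoc p, hi, ← Matrix.mul_assoc (act a), ← map_mul, mul_comm, map_mul,
      Matrix.mul_assoc, hmem]
  have hactmul : ∀ a b, actM (a * b) = actM a * actM b := fun a b => by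
    show p * act (a * b) * i = p * act a * i * actM b
    rw [map_mul, ← Matrix.mul_assoc p, Matrix.mul_assoc (p * act a), key b, ← Matrix.mul_assoc]
  have hact0 : ∀ a, (∀ j : {j // f n j ≠ 0}, f a j.1 = 0) → actM a = 0 := fun a ha => by
    have h0 : act (a * n) = 0 := hker _ (funext fun j => by
      rw [map_mul, Pi.mul_apply, Pi.zero_apply]
      by_cases hj : f n j = 0
      · rw [hj, mul_zero]
      · rw [ha ⟨j, hj⟩, zero_mul])
    have h1 : act a * i = 0 := by rw [hi, ← Matrix.mul_assoc, ← map_mul, h0, Matrix.zero_mul]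
    show p * act a * i = 0
    rw [Matrix.mul_assoc, h1, Matrix.mul_zero]
  let R : NewVals f n → Matrix (Fin ρ) (Fin ρ) Λ → Prop := fun x X =>
    ∃ (a : A) (s : O), s ≠ 0 ∧ (∀ j : {j // f n j ≠ 0}, f a j.1 = s • x j) ∧ actM a = s • X
  have huniq : ∀ x X X', R x X → R x X' → X = X' := by
    rintro x X X' ⟨a, s, hs, hax, haX⟩ ⟨a', s', hs', hax', haX'⟩
    have h0 : actM (s' • a - s • a') = 0 := hact0 _ fun j => by
      simp only [map_sub, map_smul, Pi.sub_apply, Pi.smul_apply, hax, hax', smul_smul,
        mul_comm s', sub_self]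
    have h1 : actM (s' • a - s • a') =
        s' • actM a - s • actM a' := by
      simp only [actM, map_sub, map_smul, Matrix.mul_sub,
        Matrix.sub_mul, Matrix.mul_smul, Matrix.smul_mul]
    rw [h1, haX, haX', smul_smul, smul_smul, mul_comm s', ← smul_sub] at h0
    exact sub_eq_zero.1 (htf _ (mul_ne_zero hs hs') h0)
  have hadd : ∀ x X x' X', R x X → R x' X' → R (x + x') (X + X') := by
    rintro x X x' X' ⟨a, s, hs, hax, haX⟩ ⟨a', s', hs', hax', haX'⟩
    refine ⟨s' • a + s • a', s * s', mul_ne_zero hs hs',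
      fun j => ?_, ?_⟩
    · simp only [map_add, map_smul, Pi.add_apply, Pi.smul_apply, hax, hax', smul_smul,
        mul_comm s', smul_add]
    · simp only [actM, map_add, map_smul, Matrix.mul_add,
        Matrix.add_mul, Matrix.mul_smul, Matrix.smul_mul]
      show s' • actM a + s • actM a' = _
      rw [haX, haX', smul_smul, smul_smul, mul_comm s', ← smul_add]
  have hmul : ∀ x X x' X', R x X → R x' X' → R (x * x') (X * X') := by
    rintro x X x' X' ⟨a, s, hs, hax, haX⟩ ⟨a', s', hs', hax', haX'⟩
    refine ⟨a * a', s * s', mul_ne_zero hs hs', fun j => ?_, ?_⟩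
    · rw [map_mul, Pi.mul_apply, hax, hax', smul_mul_smul_comm]; rfl
    · rw [hactmul, haX, haX', smul_mul_smul_comm]
  have halg : ∀ c : O, R (algebraMap O _ c) (algebraMap O _ c) := fun c => by
    refine ⟨algebraMap O A c, 1, one_ne_zero, fun j => ?_, ?_⟩
    · rw [AlgHom.commutes, one_smul]; rfl
    · show p * act (algebraMap O A c) * i = _
      rw [AlgHom.commutes, one_smul, Algebra.algebraMap_eq_smul_one, Matrix.mul_smul,
        Matrix.smul_mul, Matrix.mul_one, hi, hp, ← Algebra.algebraMap_eq_smul_one]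
  -- the value at a generator
  obtain ⟨a₀, s₀, hs₀, ha₀⟩ := exists_mul_eq_scalar f n
  have hgen : ∀ (x : NewVals f n) (b : A), (∀ j : {j // f n j ≠ 0}, f b j.1 = x j * f n j.1) →
      (∀ j, f n j = 0 → f b j = 0) → act b * V = i * (p * (act b * V)) ∧
        R x (p * (act b * V)) := by
    intro x b hb hb0
    have h1 : s₀ • (act b * V) = act n * (act (a₀ * b) * V) := by
      have h := hker (algebraMap O A s₀ * b - n * (a₀ * b)) (funext fun j => by
        rw [map_sub, map_mul, map_mul, map_mul, AlgHom.commutes, Pi.sub_apply, Pi.mul_apply,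
          Pi.mul_apply, Pi.mul_apply, Pi.zero_apply]
        by_cases hj : f n j = 0
        · rw [hb0 j hj]; simp
        · have := ha₀ ⟨j, hj⟩
          rw [map_mul, Pi.mul_apply] at this
          rw [Pi.algebraMap_apply, ← this]
          ring)
      rw [map_sub, map_mul, map_mul, AlgHom.commutes, ← Algebra.smul_def, sub_eq_zero] at h
      rw [← Matrix.smul_mul, h, Matrix.mul_assoc]
    refine ⟨?_, a₀ * b, s₀, hs₀, fun j => ?_, ?_⟩
    · refine (sub_eq_zero.1 (htf _ hs₀ ?_)).symm
      rw [smul_sub, ← Matrix.mul_smul, ← Matrix.mul_smul p, h1, hmem, sub_self]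
    · have := ha₀ j
      rw [map_mul, Pi.mul_apply] at this
      rw [map_mul, Pi.mul_apply, hb, Algebra.smul_def, ← this]
      ring
    · show p * act (a₀ * b) * i = _
      rw [← Matrix.mul_smul p, h1, hi, Matrix.mul_assoc p, ← Matrix.mul_assoc (act (a₀ * b)),
        ← map_mul, mul_comm, map_mul, Matrix.mul_assoc]
  have hex : ∀ x : Algebra.adjoin O (newGens f n), ∃ X, R (x : NewVals f n) X := by
    rintro ⟨x, hx⟩
    induction hx using Algebra.adjoin_induction with
    | mem x hx => obtain ⟨b, hb, hb0⟩ := hx; exact ⟨_, (hgen x b hb hb0).2⟩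
    | algebraMap c => exact ⟨_, halg c⟩
    | add x y _ _ hx hy =>
      obtain ⟨⟨X, hX⟩, ⟨Y, hY⟩⟩ := And.intro hx hy
      exact ⟨_, hadd _ _ _ _ hX hY⟩
    | mul x y _ _ hx hy =>
      obtain ⟨⟨X, hX⟩, ⟨Y, hY⟩⟩ := And.intro hx hy
      exact ⟨_, hmul _ _ _ _ hX hY⟩
  choose F hF using hex
  have hF' : ∀ (x : Algebra.adjoin O (newGens f n)) X, R (x : NewVals f n) X → F x = X :=
    fun x X h => huniq _ _ _ (hF x) h
  refine ⟨{
    toFun := F
    map_one' := hF' _ _ (by simpa using halg 1)
    map_zero' := hF' _ _ (by simpa using halg 0)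
    map_add' := fun x y => hF' _ _ (hadd _ _ _ _ (hF x) (hF y))
    map_mul' := fun x y => hF' _ _ (hmul _ _ _ _ (hF x) (hF y))
    commutes' := fun c => hF' _ _ (halg c) }, fun x b hb hb0 => ?_⟩
  obtain ⟨h1, h2⟩ := hgen x b hb hb0
  exact h1.trans (congrArg (i * ·) (hF' x _ h2).symm)

end FA.Two
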