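import Fermat.Agent.Two.PointsOn
import Fermat.Agent.Two.NewPart
import Fermat.Agent.TW.Frobenius
import Fermat.Agent.RT.TWPoint.Line

/-!
# The family of the new lifts

Among the lifts separating an algebra those at which the product of the operators of the auxiliary
primes does not vanish satisfy the Steinberg relations at every place above each auxiliary prime;
together with further lifts they form a family whose carried algebra maps to the algebra of the new
part.
-/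

set_option autoImplicit false
set_option linter.unusedSectionVars false
set_option linter.style.haveILetI false

noncomputable section

namespace FA.Two

open IsLocalRing Matrix FA.Deform
open scoped Pointwise

local notation "Qb" => AlgebraicClosure ℚ
local notation "GQ" => AlgebraicClosure ℚ ≃ₐ[ℚ] AlgebraicClosure ℚ

section places

variable {B : Type} [CommRing B] [IsDomain B]

/-- **The relations at one place give those at all places.** -/
theorem steinberg_all_places (r : GQ →* Matrix (Fin 2) (Fin 2) B) {q : ℕ} (hq : q.Prime)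
    {A₀ : ValuationSubring Qb} (hA₀ : A₀.LiesOverPrime q) {φ₀ : GQ}
    (hφ₀ : A₀.IsFrobeniusAt φ₀ q) {c : B} (hc : c ≠ 0) (hq1 : (q : B) - 1 ≠ 0)
    (h0 : (r φ₀ - ((q : B) * c) • 1) * (r φ₀ - c • 1) = 0)
    (h1 : ∀ σ ∈ A₀.inertiaSubgroupIn ℚ, (r φ₀ - ((q : B) * c) • 1) * (r σ - 1) = 0 ∧
      (r σ - 1) * (r φ₀ - c • 1) = 0)
    {A : ValuationSubring Qb} (hA : A.LiesOverPrime q) {φ : GQ} (hφ : A.IsFrobeniusAt φ q) :
    (r φ - ((q : B) * c) • 1) * (r φ - c • 1) = 0 ∧ ∀ σ ∈ A.inertiaSubgroupIn ℚ,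
      (r φ - ((q : B) * c) • 1) * (r σ - 1) = 0 ∧ (r σ - 1) * (r φ - c • 1) = 0 := by
  set X := r φ₀ with hX
  have hX1 : ∀ σ ∈ A₀.inertiaSubgroupIn ℚ, X * (r σ - 1) = ((q : B) * c) • (r σ - 1) :=
    fun σ hσ => by
      have h := (h1 σ hσ).1
      rw [sub_mul, smul_mul_assoc, one_mul, sub_eq_zero] at h
      exact h
  have hX2 : ∀ σ ∈ A₀.inertiaSubgroupIn ℚ, (r σ - 1) * X = c • (r σ - 1) := fun σ hσ => by
    have h := (h1 σ hσ).2
    rw [mul_sub, mul_smul_comm, mul_one, sub_eq_zero] at h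
    exact h
  have hNN : ∀ σ ∈ A₀.inertiaSubgroupIn ℚ, ∀ τ ∈ A₀.inertiaSubgroupIn ℚ,
      (r σ - 1) * (r τ - 1) = 0 := fun σ hσ τ hτ => by
    have e1 : (r σ - 1) * X * (r τ - 1) = ((q : B) * c) • ((r σ - 1) * (r τ - 1)) := by
      rw [mul_assoc, hX1 τ hτ, mul_smul_comm]
    rw [hX2 σ hσ, smul_mul_assoc] at e1
    have e2 : (((q : B) - 1) * c) • ((r σ - 1) * (r τ - 1)) = 0 := by
      rw [sub_mul, one_mul, sub_smul, ← e1, sub_self]
    exact (smul_eq_zero.1 e2).resolve_left (mul_ne_zero hq1 hc)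
  -- at the chosen place
  have hloc : ∀ ψ : GQ, A₀.IsFrobeniusAt ψ q →
      (r ψ - ((q : B) * c) • 1) * (r ψ - c • 1) = 0 ∧ ∀ σ ∈ A₀.inertiaSubgroupIn ℚ,
        (r ψ - ((q : B) * c) • 1) * (r σ - 1) = 0 ∧ (r σ - 1) * (r ψ - c • 1) = 0 := by
    intro ψ hψ
    obtain ⟨i, hi, rfl⟩ : ∃ i ∈ A₀.inertiaSubgroupIn ℚ, φ₀ * i = ψ :=
      ⟨φ₀⁻¹ * ψ, FA.TW.inv_mul_mem_inertia hq hA₀ hψ hφ₀, mul_inv_cancel_left _ _⟩
    set N := r i - 1 with hN
    have hri : r (φ₀ * i) = X + X * N := by rw [map_mul, hN, mul_sub, mul_one, ← hX]; abel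
    have eXN : X * N = ((q : B) * c) • N := hX1 i hi
    refine ⟨?_, fun σ hσ => ⟨?_, ?_⟩⟩
    · rw [hri, eXN,
        show X + ((q : B) * c) • N - ((q : B) * c) • 1 =
          (X - ((q : B) * c) • 1) + ((q : B) * c) • N by abel,
        show X + ((q : B) * c) • N - c • 1 = (X - c • 1) + ((q : B) * c) • N by abel,
        add_mul, mul_add, mul_add, h0, mul_smul_comm, smul_mul_assoc, smul_mul_assoc,
        mul_smul_comm, (h1 i hi).1, (h1 i hi).2, hNN i hi i hi]
      simp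
    · rw [hri, eXN,
        show X + ((q : B) * c) • N - ((q : B) * c) • 1 =
          (X - ((q : B) * c) • 1) + ((q : B) * c) • N by abel,
        add_mul, (h1 σ hσ).1, smul_mul_assoc, hNN i hi σ hσ]
      simp
    · rw [hri, eXN, show X + ((q : B) * c) • N - c • 1 = (X - c • 1) + ((q : B) * c) • N by abel,
        mul_add, (h1 σ hσ).2, mul_smul_comm, hNN σ hσ i hi]
      simp
  -- transport
  obtain ⟨τ, hτ⟩ := FA.TW.exists_smul_eq_of_liesOver hq hA₀ hA
  have hψ₀ : A₀.IsFrobeniusAt (τ⁻¹ * φ * τ) q := by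
    have h := FA.Density.isFrobeniusAt_smul hφ τ⁻¹
    rw [← hτ, inv_smul_smul, inv_inv] at h
    exact h
  obtain ⟨k0, k1⟩ := hloc _ hψ₀
  let μ : Matrix (Fin 2) (Fin 2) B → Matrix (Fin 2) (Fin 2) B := fun Y => r τ * Y * r τ⁻¹
  have hTinv : r τ⁻¹ * r τ = 1 := by rw [← map_mul, inv_mul_cancel, map_one]
  have hTinv' : r τ * r τ⁻¹ = 1 := by rw [← map_mul, mul_inv_cancel, map_one]
  have hμ : ∀ Y Z, μ (Y * Z) = μ Y * μ Z := fun Y Z => by
    show r τ * (Y * Z) * r τ⁻¹ = r τ * Y * r τ⁻¹ * (r τ * Z * r τ⁻¹)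
    simp only [mul_assoc]
    rw [← mul_assoc (r τ⁻¹) (r τ), hTinv, one_mul]
  have hμs : ∀ (ψ : GQ) (a : B), μ (r ψ - a • 1) = r (τ * ψ * τ⁻¹) - a • 1 := fun ψ a => by
    show r τ * (r ψ - a • 1) * r τ⁻¹ = _
    rw [mul_sub, sub_mul, ← map_mul, ← map_mul, mul_smul_comm, mul_one, smul_mul_assoc, hTinv']
  have hμ1 : ∀ ψ : GQ, μ (r ψ - 1) = r (τ * ψ * τ⁻¹) - 1 := fun ψ => by
    rw [← one_smul B (1 : Matrix (Fin 2) (Fin 2) B), hμs]
  have hφe : τ * (τ⁻¹ * φ * τ) * τ⁻¹ = φ := by group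
  have hμ0 : μ 0 = 0 := by simp [μ]
  refine ⟨?_, fun σ hσ => ?_⟩
  · have e := congrArg μ k0
    rw [hμ, hμs, hμs, hφe, hμ0] at e
    exact e
  · have hσ₀ : τ⁻¹ * σ * τ ∈ A₀.inertiaSubgroupIn ℚ := by
      have h := FA.Density.isFrobeniusAt_smul (FA.RT.isFrobeniusAt_mul hφ hσ) τ⁻¹
      rw [← hτ, inv_smul_smul, inv_inv] at h
      have := FA.TW.inv_mul_mem_inertia hq hA₀ h hψ₀
      rwa [show (τ⁻¹ * φ * τ)⁻¹ * (τ⁻¹ * (φ * σ) * τ) = τ⁻¹ * σ * τ by group] at this
    have hσe : τ * (τ⁻¹ * σ * τ) * τ⁻¹ = σ := by group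
    obtain ⟨e1, e2⟩ := k1 _ hσ₀
    have e1' := congrArg μ e1
    have e2' := congrArg μ e2
    rw [hμ, hμs, hμ1, hφe, hσe, hμ0] at e1'
    rw [hμ, hμs, hμ1, hφe, hσe, hμ0] at e2'
    exact ⟨e1', e2'⟩

end places

variable {O : Type} [CommRing O] [IsDomain O] [IsDiscreteValuationRing O]
  [IsAdicComplete (maximalIdeal O) O] [CharZero O] [Finite (ResidueField O)]
  [CharP (ResidueField O) 2]
  {ι : Type} [DecidableEq ι] [Fintype ι] {Bd : BaseData O ι}
  {rb : GQ →* Matrix (Fin 2) (Fin 2) (ResidueField O)}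
  {A : Type} [CommRing A] [Algebra O A]

namespace SepAlg

variable (S : SepAlg rb A) (P : Bd.AuxPlaces rb)

/-- The lifts at which the product of the operators does not vanish. -/
abbrev New : Type := {j : S.fam.J // S.vals (S.nAll P) j ≠ 0}

theorem val_nAll (j : S.fam.J) :
    S.val j (S.nAll P) = ∏ x, ((S.fam.r j (P.s x) - 1) * S.fam.r j P.γ).trace := by
  rw [nAll, map_prod]
  exact Finset.prod_congr rfl fun x _ => S.val_op j (P.s x) P.γ

theorem new_op_ne (j : S.New P) (x : ι) :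
    ((S.fam.r j.1 (P.s x) - 1) * S.fam.r j.1 P.γ).trace ≠ 0 := by
  intro h
  refine j.2 ((S.val_nAll P j.1).trans (Finset.prod_eq_zero (Finset.mem_univ x) h))

/-- What is assumed on the lifts. -/
structure Hyp (S : SepAlg rb A) (_P : Bd.AuxPlaces rb) (U : Set ℕ) : Prop where
  two_mem : (2 : O) ∈ maximalIdeal O
  det_rb : ∀ σ, (rb σ).det = 1
  loc : S.Local Bd U

variable {U : Set ℕ}

theorem Hyp.natCast_two {S : SepAlg rb A} {P : Bd.AuxPlaces rb} (h : S.Hyp P U) : ((2 : ℕ) : O) ∈ maximalIdeal O := by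
  exact_mod_cast h.two_mem

theorem natCast_ne (j : S.fam.J) {m : ℕ} (hm : m ≠ 1) : (m : S.fam.B j) - 1 ≠ 0 := by
  intro h
  have h2 : ((m : O) - 1) • (1 : S.fam.B j) = 0 := by
    rw [Algebra.smul_def, mul_one, map_sub, map_natCast, map_one, h]
  rcases smul_eq_zero.1 h2 with h3 | h3
  · rw [sub_eq_zero, Nat.cast_eq_one] at h3
    exact hm h3
  · exact one_ne_zero h3

theorem eps_natCast (P : Bd.AuxPlaces rb) (j : S.fam.J) (x : ι) : S.fam.ε j (Bd.qn x : S.fam.B j) = 1 := by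
  rw [map_natCast]
  have h : Bd.qn x % 4 = 1 := P.one_mod x
  rw [show Bd.qn x = 2 * (Bd.qn x / 2) + 1 by omega, Nat.cast_add, Nat.cast_one, Nat.cast_mul,
    CharP.cast_eq_zero (ResidueField O) 2, zero_mul, zero_add]

theorem isUnit_qn (P : Bd.AuxPlaces rb) (j : S.fam.J) (x : ι) : IsUnit (Bd.qn x : S.fam.B j) := by
  by_contra h
  have := (IsLocalRing.mem_maximalIdeal _).2 h
  rw [← S.fam.ker_eps j, RingHom.mem_ker, S.eps_natCast P j x] at this
  exact one_ne_zero this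

theorem qn_ne_two (P : Bd.AuxPlaces rb) (x : ι) : Bd.qn x ≠ 2 := fun h => by
  have h1 : Bd.qn x % 4 = 1 := P.one_mod x
  omega

/-- Inertia at the chosen places satisfies the tame relations. -/
theorem tame_facts (h : S.Hyp P U) (j : S.fam.J) (x : ι) :
    (S.fam.r j (P.s x) - 1) * (S.fam.r j (P.s x) - 1) = 0 ∧
      S.fam.r j (P.φ x) * (S.fam.r j (P.s x) - 1) =
        (Bd.qn x : S.fam.B j) • ((S.fam.r j (P.s x) - 1) * S.fam.r j (P.φ x)) ∧
      S.fam.ε j (S.fam.r j (P.φ x)).trace = 0 ∧ S.fam.ε j (S.fam.r j (P.φ x)).det = 1 := by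
  have hN : (S.fam.r j (P.s x) - 1) * (S.fam.r j (P.s x) - 1) = 0 := by
    rw [← pow_two]
    exact h.loc.unip j _ (Bd.qn_prime x) (qn_ne_two P x) (Or.inr ⟨x, rfl⟩) _ (P.lies x) _
      (P.tame x).1
  have hloc : ∀ c ∈ maximalIdeal O, algebraMap O (S.fam.B j) c ∈ maximalIdeal (S.fam.B j) :=
    fun c hc => by
      rw [← S.fam.ker_eps j, RingHom.mem_ker, S.fam.ε_algebraMap, residue_eq_zero_iff]
      exact hc
  haveI : IsLocalHom (algebraMap O (S.fam.B j)) := ⟨fun c hc => by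
    by_contra hn
    exact (IsLocalRing.mem_maximalIdeal _).1
      (hloc c ((IsLocalRing.mem_maximalIdeal _).2 hn)) hc⟩
  haveI : IsAdicComplete (maximalIdeal (S.fam.B j)) (S.fam.B j) :=
    IsLocalRing.isAdicComplete_of_module_finite (𝒪 := O)
  have hlift : ∀ σ, (S.fam.r j σ).map (S.fam.ε j) = rb σ := fun σ =>
    DFunLike.congr_fun (S.fam.lift j) σ
  have hres : ∀ σ ∈ (P.A x).inertiaSubgroupIn ℚ, ∀ a b,
      (S.fam.r j σ - 1) a b ∈ maximalIdeal (S.fam.B j) := fun σ hσ a b => by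
    rw [← S.fam.ker_eps j, RingHom.mem_ker, Matrix.sub_apply, map_sub,
      show S.fam.ε j (S.fam.r j σ a b) = (1 : Matrix (Fin 2) (Fin 2) (ResidueField O)) a b from
        (congrFun (congrFun (hlift σ) a) b).trans (by rw [P.unr x σ hσ])]
    rcases eq_or_ne a b with rfl | hne <;> simp [*]
  have ht := FA.RT.rep_tame_relation (S.fam.r j) (S.fam.cont j)
    (by rw [← map_natCast (algebraMap O (S.fam.B j))]; exact hloc _ h.natCast_two) hres
    Nat.prime_two (Bd.qn_prime x) (Ne.symm (qn_ne_two P x)) (P.lies x) (P.frob x) (P.tame x).1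
  obtain ⟨N, hN', hs⟩ : ∃ N, S.fam.r j (P.s x) - 1 = N ∧ S.fam.r j (P.s x) = 1 + N :=
    ⟨_, rfl, by abel⟩
  rw [hN'] at hN ⊢
  rw [hs, one_add_pow_of_sq_zero hN, mul_add, mul_one, add_mul, one_mul,
    smul_mul_assoc] at ht
  refine ⟨hN, (add_left_cancel ht).trans (Nat.cast_smul_eq_nsmul _ _ _).symm, ?_, ?_⟩
  · rw [AddMonoidHom.map_trace (S.fam.ε j)]
    exact (congrArg Matrix.trace (hlift _)).trans (P.φtr x)
  · rw [RingHom.map_det]
    exact (congrArg Matrix.det (hlift _)).trans (h.det_rb _)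

/-- The defining equation of the eigenvalue. -/
def IsAl (j : S.fam.J) (x : ι) (c : S.fam.B j) : Prop :=
  (Bd.qn x : S.fam.B j) * c * ((S.fam.r j (P.s x) - 1) * S.fam.r j P.γ).trace =
    (S.fam.r j (P.φ x) * (S.fam.r j (P.s x) - 1) * S.fam.r j P.γ).trace

theorem exists_new_al (h : S.Hyp P U) (j : S.New P) (x : ι) :
    ∃ c : S.fam.B j.1, S.fam.ε j.1 c = 1 ∧ S.IsAl P j.1 x c ∧
      ∀ V : ValuationSubring Qb, V.LiesOverPrime (Bd.qn x) → ∀ φ : GQ,
        V.IsFrobeniusAt φ (Bd.qn x) →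
        (S.fam.r j.1 φ - ((Bd.qn x : S.fam.B j.1) * c) • 1) * (S.fam.r j.1 φ - c • 1) = 0 ∧
          ∀ σ ∈ V.inertiaSubgroupIn ℚ,
            (S.fam.r j.1 φ - ((Bd.qn x : S.fam.B j.1) * c) • 1) * (S.fam.r j.1 σ - 1) = 0 ∧
            (S.fam.r j.1 σ - 1) * (S.fam.r j.1 φ - c • 1) = 0 := by
  obtain ⟨hN, htame, htr, hdet⟩ := S.tame_facts P h j.1 x
  obtain ⟨c, hc1, hc2, h3, h4, h5⟩ := S.eigenLine j.1 (Bd.qn x) _ _ _ hN htame
    (S.isUnit_qn P j.1 x) (S.new_op_ne P j x) htr hdet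
  have hc0 : c ≠ 0 := fun e => one_ne_zero (hc1.symm.trans (by rw [e, map_zero]))
  have hloc : ∀ c ∈ maximalIdeal O, algebraMap O (S.fam.B j.1) c ∈ maximalIdeal (S.fam.B j.1) :=
    fun c hc => by
      rw [← S.fam.ker_eps j.1, RingHom.mem_ker, S.fam.ε_algebraMap, residue_eq_zero_iff]
      exact hc
  haveI : IsLocalHom (algebraMap O (S.fam.B j.1)) := ⟨fun c hc => by
    by_contra hn
    exact (IsLocalRing.mem_maximalIdeal _).1
      (hloc c ((IsLocalRing.mem_maximalIdeal _).2 hn)) hc⟩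
  haveI : IsAdicComplete (maximalIdeal (S.fam.B j.1)) (S.fam.B j.1) :=
    IsLocalRing.isAdicComplete_of_module_finite (𝒪 := O)
  have hres : ∀ σ ∈ (P.A x).inertiaSubgroupIn ℚ, ∃ m : ℕ, ∀ a b,
      (S.fam.r j.1 σ ^ 2 ^ m - 1 : Matrix (Fin 2) (Fin 2) (S.fam.B j.1)) a b ∈ maximalIdeal (S.fam.B j.1) := fun σ hσ => ⟨0, fun a b => by
    rw [pow_zero, pow_one, ← S.fam.ker_eps j.1, RingHom.mem_ker, Matrix.sub_apply, map_sub,
      show S.fam.ε j.1 (S.fam.r j.1 σ a b) = (1 : Matrix (Fin 2) (Fin 2) (ResidueField O)) a b from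
        (congrFun (congrFun (DFunLike.congr_fun (S.fam.lift j.1) σ) a) b).trans
          (by rw [P.unr x σ hσ])]
    rcases eq_or_ne a b with rfl | hne <;> simp [*]⟩
  have h2B : ((2 : ℕ) : S.fam.B j.1) ∈ maximalIdeal (S.fam.B j.1) := by
    rw [← map_natCast (algebraMap O (S.fam.B j.1))]
    exact hloc _ h.natCast_two
  refine ⟨c, hc1, hc2, fun V hV φ hφ => steinberg_all_places (S.fam.r j.1) (Bd.qn_prime x)
    (P.lies x) (P.frob x) hc0 (S.natCast_ne j.1 (Bd.qn_prime x).one_lt.ne') h3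
    (fun σ hσ => ⟨?_, ?_⟩) hV hφ⟩
  · exact eq_zero_on_inertia (S.fam.r j.1) (S.fam.cont j.1) h2B (P.tame x).2 hres hN
      (LinearMap.mulLeft (S.fam.B j.1) (S.fam.r j.1 (P.φ x) - ((Bd.qn x : S.fam.B j.1) * c) • 1))
      h4 hσ
  · exact eq_zero_on_inertia (S.fam.r j.1) (S.fam.cont j.1) h2B (P.tame x).2 hres hN
      (LinearMap.mulRight (S.fam.B j.1) (S.fam.r j.1 (P.φ x) - c • 1)) h5 hσ

variable {S P} (h : S.Hyp P U)

/-- The eigenvalues at the new lifts. -/
def al (j : S.New P) (x : ι) : S.fam.B j.1 := (S.exists_new_al P h j x).choose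

theorem eps_al (j : S.New P) (x : ι) : S.fam.ε j.1 (al h j x) = 1 :=
  (S.exists_new_al P h j x).choose_spec.1

theorem isAl (j : S.New P) (x : ι) : S.IsAl P j.1 x (al h j x) :=
  (S.exists_new_al P h j x).choose_spec.2.1

theorem steinberg (j : S.New P) (x : ι) {V : ValuationSubring Qb}
    (hV : V.LiesOverPrime (Bd.qn x)) {φ : GQ} (hφ : V.IsFrobeniusAt φ (Bd.qn x)) :
    (S.fam.r j.1 φ - ((Bd.qn x : S.fam.B j.1) * al h j x) • 1) *
        (S.fam.r j.1 φ - al h j x • 1) = 0 ∧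
      ∀ σ ∈ V.inertiaSubgroupIn ℚ,
        (S.fam.r j.1 φ - ((Bd.qn x : S.fam.B j.1) * al h j x) • 1) *
            (S.fam.r j.1 σ - 1) = 0 ∧
        (S.fam.r j.1 σ - 1) * (S.fam.r j.1 φ - al h j x • 1) = 0 :=
  (S.exists_new_al P h j x).choose_spec.2.2 V hV φ hφ

theorem eq_al (j : S.New P) (x : ι) {c : S.fam.B j.1} (hc : S.IsAl P j.1 x c) : c = al h j x :=
  mul_left_cancel₀ (S.isUnit_qn P j.1 x).ne_zero
    (mul_right_cancel₀ (S.new_op_ne P j x) (hc.trans (isAl h j x).symm))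

/-- The rings of the new family. -/
abbrev NewB (E : Family (O := O) rb ι) : S.New P ⊕ E.J → Type :=
  Sum.elim (fun j => S.fam.B j.1) E.B

instance newCommRing (E : Family (O := O) rb ι) :
    ∀ j : S.New P ⊕ E.J, CommRing (NewB (P := P) E j)
  | .inl j => inferInstanceAs (CommRing (S.fam.B j.1))
  | .inr j => inferInstanceAs (CommRing (E.B j))

instance newIsLocalRing (E : Family (O := O) rb ι) :
    ∀ j : S.New P ⊕ E.J, IsLocalRing (NewB (P := P) E j)
  | .inl j => inferInstanceAs (IsLocalRing (S.fam.B j.1))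
  | .inr j => inferInstanceAs (IsLocalRing (E.B j))

instance newAlgebra (E : Family (O := O) rb ι) :
    ∀ j : S.New P ⊕ E.J, Algebra O (NewB (P := P) E j)
  | .inl j => inferInstanceAs (Algebra O (S.fam.B j.1))
  | .inr j => inferInstanceAs (Algebra O (E.B j))

/-- **The new lifts with further lifts.** -/
def newFam (E : Family (O := O) rb ι) : Family (O := O) rb ι where
  J := S.New P ⊕ E.J
  nonempty := ⟨.inr E.nonempty.some⟩
  B := NewB (P := P) E
  moduleFinite
    | .inl j => inferInstanceAs (Module.Finite O (S.fam.B j.1))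
    | .inr j => inferInstanceAs (Module.Finite O (E.B j))
  r
    | .inl j => S.fam.r j.1
    | .inr j => E.r j
  ε
    | .inl j => S.fam.ε j.1
    | .inr j => E.ε j
  ε_algebraMap
    | .inl j => S.fam.ε_algebraMap j.1
    | .inr j => E.ε_algebraMap j
  lift
    | .inl j => S.fam.lift j.1
    | .inr j => E.lift j
  cont
    | .inl j => S.fam.cont j.1
    | .inr j => E.cont j
  al
    | .inl j => al h j
    | .inr j => E.al j
  ε_al
    | .inl j => eps_al h j
    | .inr j => E.ε_al j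

variable {E : Family (O := O) rb ι}

/-- The value of a carried element at a new lift. -/
abbrev projNew (M₁ : (newFam h E).Model) (j : S.New P) : M₁.R →ₐ[O] S.fam.B j.1 :=
  M₁.proj (.inl j)

/-- **The generators of the carried algebra come from the algebra** after multiplication by the
product of the operators. -/
theorem exists_witness (M₁ : (newFam h E).Model) {z : M₁.R}
    (hz : z ∈ (Set.range fun σ => (M₁.rR σ).trace) ∪ Set.range M₁.al) :
    ∃ b : A, (∀ j : S.New P, S.val j.1 b = projNew h M₁ j z * S.val j.1 (S.nAll P)) ∧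
      ∀ j, S.val j (S.nAll P) = 0 → S.val j b = 0 := by
  classical
  rcases hz with ⟨σ, rfl⟩ | ⟨x, rfl⟩
  · refine ⟨S.f (S.M.rR σ).trace * S.nAll P, fun j => ?_, fun j hj => ?_⟩
    · rw [map_mul, S.val_trace]
      exact congrArg (· * _) (M₁.proj_trace (.inl j) σ).symm
    · rw [map_mul, hj, mul_zero]
  · obtain ⟨u, hu⟩ : IsUnit ((Bd.qn x : ℕ) : O) := by
      by_contra hn
      have := (residue_eq_zero_iff _).2 ((IsLocalRing.mem_maximalIdeal _).2 hn)
      obtain ⟨j₁⟩ := S.fam.nonempty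
      rw [← S.fam.ε_algebraMap j₁, map_natCast, S.eps_natCast P j₁ x] at this
      exact one_ne_zero this
    have hu' : ∀ j : S.fam.J, algebraMap O (S.fam.B j) (↑u⁻¹ : O) * (Bd.qn x : S.fam.B j) = 1 :=
      fun j => by
        rw [← map_natCast (algebraMap O (S.fam.B j)), ← map_mul, ← hu, Units.inv_mul, map_one]
    have hm : ∀ j, S.val j (S.f (S.M.rR (P.φ x) * (S.M.rR (P.s x) - 1) * S.M.rR P.γ).trace) =
        (S.fam.r j (P.φ x) * (S.fam.r j (P.s x) - 1) * S.fam.r j P.γ).trace := fun j => by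
      rw [mul_sub, mul_one, sub_mul, ← map_mul, ← map_mul, ← map_mul, Matrix.trace_sub,
        map_sub, map_sub, S.val_trace, S.val_trace, mul_sub, mul_one, sub_mul, ← map_mul,
        ← map_mul, ← map_mul, Matrix.trace_sub]
    let rest : A := ∏ y ∈ Finset.univ.erase x, S.nOp P y
    have hn : S.nAll P = S.nOp P x * rest :=
      (Finset.mul_prod_erase _ _ (Finset.mem_univ x)).symm
    refine ⟨algebraMap O A (↑u⁻¹ : O) *
      S.f (S.M.rR (P.φ x) * (S.M.rR (P.s x) - 1) * S.M.rR P.γ).trace * rest,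
      fun j => ?_, fun j hj => ?_⟩
    · have hnj : S.val j.1 (S.nAll P) =
          ((S.fam.r j.1 (P.s x) - 1) * S.fam.r j.1 P.γ).trace * S.val j.1 rest :=
        (congrArg (S.val j.1) hn).trans
          ((map_mul _ _ _).trans (congrArg (· * _) (S.val_op j.1 _ _)))
      rw [map_mul, map_mul, AlgHom.commutes, hm, hnj,
        show projNew h M₁ j (M₁.al x) = al h j x from M₁.proj_al (.inl j) x,
        ← isAl h j x]
      linear_combination (al h j x * ((S.fam.r j.1 (P.s x) - 1) * S.fam.r j.1 P.γ).trace *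
        S.val j.1 rest) * hu' j.1
    · rw [hn, map_mul] at hj
      rw [map_mul, map_mul, hm]
      rcases mul_eq_zero.1 hj with hj | hj
      · obtain ⟨hN, htame, -, -⟩ := S.tame_facts P h j x
        rw [nOp, S.val_op] at hj
        rw [trace_frob_eq_zero hN htame hj, mul_zero, zero_mul]
      · rw [hj, mul_zero]

/-- **The carried algebra maps to the algebra of the new part.** -/
theorem exists_newMap (M₁ : (newFam h E).Model) :
    ∃ G : M₁.R →ₐ[O] Algebra.adjoin O (newGens S.vals (S.nAll P)),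
      ∀ y (j : S.New P), (G y : NewVals S.vals (S.nAll P)) j = projNew h M₁ j y := by
  classical
  let G₀ : M₁.R →ₐ[O] NewVals S.vals (S.nAll P) :=
    AlgHom.pi fun j : S.New P => projNew h M₁ j
  have hmem : ∀ y, G₀ y ∈ Algebra.adjoin O (newGens S.vals (S.nAll P)) := by
    intro y
    have hy : y ∈ Algebra.adjoin O ((Set.range fun σ => (M₁.rR σ).trace) ∪ Set.range M₁.al) := by
      rw [M₁.generated]; exact Algebra.mem_top
    induction hy using Algebra.adjoin_induction with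
    | algebraMap c => rw [AlgHom.commutes]; exact Subalgebra.algebraMap_mem _ c
    | add a b _ _ ha hb => rw [map_add]; exact add_mem ha hb
    | mul a b _ _ ha hb => rw [map_mul]; exact mul_mem ha hb
    | mem z hz =>
      obtain ⟨b, hb, hb0⟩ := exists_witness h M₁ hz
      exact Algebra.subset_adjoin ⟨b, hb, hb0⟩
  exact ⟨G₀.codRestrict _ hmem, fun y j => rfl⟩

end SepAlg

end FA.Two
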