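import Fermat.Agent.Two.BaseSide
import Fermat.Agent.Two.FromPoints
import Fermat.Agent.Two.EigenLine

/-!
# Algebras separated by lifts

An algebra with finitely many lifts separating it, on which the carried algebra of the lifts acts,
and the operators of the auxiliary primes on it.
-/

set_option autoImplicit false
set_option linter.unusedSectionVars false

noncomputable section

namespace FA.Two

open IsLocalRing Matrix FA.Deform

local notation "Qb" => AlgebraicClosure ℚ
local notation "GQ" => AlgebraicClosure ℚ ≃ₐ[ℚ] AlgebraicClosure ℚ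

variable {O : Type} [CommRing O] [IsDomain O] [IsDiscreteValuationRing O]
  [IsAdicComplete (maximalIdeal O) O]

/-- An algebra with lifts separating it and the action of their carried algebra. -/
structure SepAlg (rb : GQ →* Matrix (Fin 2) (Fin 2) (ResidueField O)) (A : Type) [CommRing A]
    [Algebra O A] where
  /-- the lifts -/
  fam : Family (O := O) rb Empty
  [isDomain : ∀ j, IsDomain (fam.B j)]
  [torsionFree : ∀ j, Module.IsTorsionFree O (fam.B j)]
  /-- the values -/
  val : ∀ j, A →ₐ[O] fam.B j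
  separate : ∀ a, (∀ j, val j a = 0) → a = 0
  eigenLine : ∀ j, HasEigenLine (fam.ε j)
  /-- the carried algebra -/
  M : fam.Model
  /-- its action -/
  f : M.R →ₐ[O] A
  val_f : ∀ x j, val j (f x) = M.proj j x

attribute [instance] SepAlg.isDomain SepAlg.torsionFree

variable {rb : GQ →* Matrix (Fin 2) (Fin 2) (ResidueField O)} {A : Type} [CommRing A] [Algebra O A]
  (S : SepAlg rb A)

namespace SepAlg

/-- All values at once. -/
def vals : A →ₐ[O] ∀ j, S.fam.B j := AlgHom.pi S.val

theorem vals_eq_zero {a : A} (h : S.vals a = 0) : a = 0 := S.separate a fun j => congrFun h j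

theorem val_trace (j : S.fam.J) (σ : GQ) :
    S.val j (S.f (S.M.rR σ).trace) = (S.fam.r j σ).trace := by
  rw [S.val_f, S.M.proj_trace]

/-- The trace of `(ρ(s) - 1) ρ(γ)`. -/
def op (s γ : GQ) : A := S.f ((S.M.rR s - 1) * S.M.rR γ).trace

theorem op_eq (s γ : GQ) :
    S.op s γ = S.f (S.M.rR (s * γ)).trace - S.f (S.M.rR γ).trace := by
  rw [op, sub_mul, one_mul, ← map_mul, Matrix.trace_sub, map_sub]

theorem val_op (j : S.fam.J) (s γ : GQ) :
    S.val j (S.op s γ) = ((S.fam.r j s - 1) * S.fam.r j γ).trace := by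
  rw [S.op_eq, map_sub, S.val_trace, S.val_trace, sub_mul, one_mul, ← map_mul, Matrix.trace_sub]

variable [CharZero O] {ι : Type} [DecidableEq ι] [Fintype ι] {Bd : BaseData O ι}
  (P : Bd.AuxPlaces rb)

/-- The operator of an auxiliary prime. -/
def nOp (x : ι) : A := S.op (P.s x) P.γ

/-- The product of the operators. -/
def nAll : A := ∏ x, S.nOp P x

/-- The local conditions on the lifts; `U` is the set of further primes of ramification. -/
structure Local (S : SepAlg rb A) (Bd : BaseData O ι) (U : Set ℕ) : Prop where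
  unr : ∀ j, ∀ l : ℕ, l.Prime → l ≠ 2 → ¬ l ∣ Bd.D → (∀ x, l ≠ Bd.qn x) → l ∉ U →
    ∀ V : ValuationSubring Qb, V.LiesOverPrime l → ∀ σ ∈ V.inertiaSubgroupIn ℚ, S.fam.r j σ = 1
  unip : ∀ j, ∀ l : ℕ, l.Prime → l ≠ 2 → (l ∣ Bd.D ∨ ∃ x, l = Bd.qn x) →
    ∀ V : ValuationSubring Qb, V.LiesOverPrime l → ∀ σ ∈ V.inertiaSubgroupIn ℚ,
      (S.fam.r j σ - 1) ^ 2 = 0
  det_two : ∀ V : ValuationSubring Qb, V.LiesOverPrime 2 → ∀ σ ∈ V.inertiaSubgroupIn ℚ,
    ∃ a : O, ∀ j, (S.fam.r j σ).det = algebraMap O (S.fam.B j) a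
  flat : ∀ j, ∀ V : ValuationSubring Qb, V.LiesOverPrime 2 →
    FA.TW.HasFlatModels (ofMatrix (S.fam.r j) (S.fam.cont j)) V

end SepAlg

end FA.Two
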