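import Fermat.Agent.Two.QuadField
import Mathlib.LinearAlgebra.FiniteDimensional.Lemmas

/-!
# Counting quadratic characters of an imaginary quadratic field

Characters unramified outside auxiliary split primes `qᵢ` and with trivial value at the squared
Frobenius elements of some inert primes.  Each `qᵢ` is a nonresidue exactly at its own prime among
the ramified and the inert primes, so that the exponents at the conjugate places above `qᵢ` have
the same parity; the characters with even exponents come from `-1` and the ramified primes.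
-/

set_option autoImplicit false
set_option linter.unusedSectionVars false

noncomputable section

open FA.LocalDef FA.Deform
open scoped Pointwise

namespace FA.Two

local notation "Qb" => AlgebraicClosure ℚ
local notation "GQ" => AlgebraicClosure ℚ ≃ₐ[ℚ] AlgebraicClosure ℚ

namespace Quad

variable (Q : Quad)

/-- Auxiliary split primes with their own residue conditions. -/
structure SplitPrimes (Q0 : Finset ℕ) (r : ℕ) where
  qv : Fin r → ℕ
  own : Fin r → ℕ
  prime : ∀ i, (qv i).Prime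
  inj : Function.Injective qv
  not_dvd : ∀ i, ¬ qv i ∣ Q.D
  not_mem : ∀ i, qv i ∉ Q0
  own_mem : ∀ i, own i ∈ Q.D.primeFactors ∪ Q0
  nonsq : ∀ i, ¬ IsSquare (qv i : ZMod (own i))
  sq : ∀ i j, i ≠ j → IsSquare (qv j : ZMod (own i))

/-- The characters which are counted. -/
structure IsGood (Q0 : Finset ℕ) (U : Set ℕ) (χ : Q.H → ZMod 2) : Prop where
  hom : ∀ σ τ, χ (σ * τ) = χ σ + χ τ
  lc : ∃ N : Subgroup GQ, IsOpen (N : Set GQ) ∧ ∀ σ : Q.H, (σ : GQ) ∈ N → χ σ = 0
  unr : ∀ l : ℕ, l.Prime → l ∉ U → ∀ A : ValuationSubring Qb, A.LiesOverPrime l →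
    ∀ σ ∈ A.inertiaSubgroupIn ℚ, ∀ h : σ ∈ Q.H, χ ⟨σ, h⟩ = 0
  frob : ∀ q ∈ Q0, ∀ A : ValuationSubring Qb, A.LiesOverPrime q → ∀ φ : GQ,
    A.IsFrobeniusAt φ q → ∀ h : φ * φ ∈ Q.H, χ ⟨φ * φ, h⟩ = 0

lemma exists_pow_of_inK {l : ℕ} (hl : l.Prime) (hD : ¬ l ∣ Q.D) {A : ValuationSubring Qb}
    (hA : A.LiesOverPrime l) {a : Qb} (ha : Q.InK a) (h0 : a ≠ 0) :
    ∃ n : ℤ, A.valuation a = A.valuation (l : Qb) ^ n :=
  exists_zpow_of_mem_kur hl hA (mem_kur.mpr fun σ hσ => ha σ (Q.unr l hl hD A hA σ hσ)) h0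

/-- The character of `-1` is ramified at two. -/
lemma not_isGood_neg_one (h2 : ¬ 2 ∣ Q.D) {Q0 : Finset ℕ} {U : Set ℕ} (hU : 2 ∉ U) :
    ¬ Q.IsGood Q0 U (Q.chi (-1)) := fun hg => by
  obtain ⟨A, hA⟩ := exists_liesOverPrime Nat.prime_two
  set i := sqrtQ (-1 : Qb)
  have hi : i ^ 2 = -1 := sqrtQ_sq _
  have hfix : ∀ σ ∈ A.inertiaSubgroupIn ℚ, σ (1 + i) = 1 + i := fun σ hσ => by
    have h := hg.unr 2 Nat.prime_two hU A hA σ hσ (Q.unr 2 Nat.prime_two h2 A hA σ hσ)
    rw [map_add, map_one, chi_eq_zero_iff.mp h]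
  have hy0 : (1 + i) ≠ 0 := fun h => by
    rw [show i = -1 by linear_combination h] at hi
    norm_num at hi
  obtain ⟨k, hk⟩ := exists_zpow_of_mem_kur Nat.prime_two hA (mem_kur.mpr hfix) hy0
  have hvi : A.valuation i = 1 := by
    have h := congrArg A.valuation hi
    rw [map_pow, Valuation.map_neg, map_one] at h
    exact (pow_eq_one_iff_of_nonneg zero_le two_ne_zero).mp h
  have h := congrArg A.valuation (show (1 + i) ^ 2 = (2 : ℕ) * i by push_cast; linear_combination hi)
  rw [map_pow, map_mul, hk, hvi, mul_one, ← zpow_natCast, ← zpow_mul] at h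
  have := zpow_val_injective Nat.prime_two hA (j := 1) (by rw [h, zpow_one])
  omega

/-- The positive rational numbers with even exponents are squares. -/
lemma exists_sq_of_pos {c : ℚ} (hc : 0 < c) (h : ∀ l : ℕ, l.Prime → 2 ∣ padicValRat l c) :
    ∃ s : ℚ, c = s ^ 2 := by
  obtain ⟨s, hs | hs⟩ := FA.Mazur.exists_pow_of_dvd_padicValRat Nat.prime_two hc.ne' h
  · exact ⟨s, hs⟩
  · nlinarith [sq_nonneg s]

lemma padicValRat_prod_primes {l : ℕ} (hl : l.Prime) {ι : Type*} (S : Finset ι) (f : ι → ℕ)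
    (hf : ∀ i ∈ S, (f i).Prime) :
    padicValRat l (∏ i ∈ S, (f i : ℚ)) = ∑ i ∈ S, if f i = l then (1 : ℤ) else 0 := by
  classical
  have := Fact.mk hl
  induction S using Finset.induction_on with
  | empty => simp
  | insert a S ha ih =>
    have h := fun i hi => hf i (Finset.mem_insert_of_mem hi)
    have hp := hf a (Finset.mem_insert_self _ _)
    rw [Finset.prod_insert ha, Finset.sum_insert ha, padicValRat.mul (by exact_mod_cast hp.ne_zero)
      (Finset.prod_ne_zero_iff.mpr fun i hi => by exact_mod_cast (h i hi).ne_zero), ih h,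
      padicValRat.of_nat]
    congr 1
    split_ifs with e
    · rw [e, padicValNat_self]; rfl
    · have := Fact.mk hp
      rw [padicValNat_primes (Ne.symm e)]; rfl

/-- **The bound on quadratic characters.** -/
theorem finrank_good_le (h2 : ¬ 2 ∣ Q.D) (hD1 : 1 < Q.D) {Q0 : Finset ℕ}
    (hQ0 : ∀ q ∈ Q0, q.Prime ∧ ¬ q ∣ Q.D ∧ ∀ A : ValuationSubring Qb, A.LiesOverPrime q →
      ∀ φ : GQ, A.IsFrobeniusAt φ q → φ ∉ Q.H)
    {r : ℕ} (P : Q.SplitPrimes Q0 r) (h2q : ∀ i, P.qv i ≠ 2)
    (W : Submodule (ZMod 2) (Q.H → ZMod 2)) (hW : ∀ χ ∈ W, Q.IsGood Q0 (Set.range P.qv) χ) :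
    FiniteDimensional (ZMod 2) W ∧
      Module.finrank (ZMod 2) W + 1 ≤ r + Q.D.primeFactors.card := by
  classical
  have h2U : 2 ∉ Set.range P.qv := fun ⟨i, hi⟩ => h2q i hi
  choose aχ haK ha0 haχ using fun χ : W => exists_chi (hW χ.1 χ.2).hom (hW χ.1 χ.2).lc
  choose A hA using fun i => exists_liesOverPrime (P.prime i)
  -- exponents at the chosen places
  choose e he using fun (i : Fin r) (a : {a : Qb // Q.InK a ∧ a ≠ 0}) =>
    Q.exists_pow_of_inK (P.prime i) (P.not_dvd i) (hA i) a.2.1 a.2.2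
  have hpar : ∀ i (a b : {a : Qb // Q.InK a ∧ a ≠ 0}), Q.chi a.1 = Q.chi b.1 →
      ((e i a : ℤ) : ZMod 2) = ((e i b : ℤ) : ZMod 2) := by
    intro i a b hab
    set y := sqrtQ (a.1 * b.1)
    have hyK : Q.InK y := fun σ hσ => by
      have h : Q.chi (a.1 * b.1) ⟨σ, hσ⟩ = 0 := by
        rw [chi_mul a.2.1 b.2.1 a.2.2 b.2.2, hab, Pi.add_apply]
        exact CharTwo.add_self_eq_zero _
      exact chi_eq_zero_iff.mp h
    have hy0 : y ≠ 0 := sqrtQ_ne_zero (mul_ne_zero a.2.2 b.2.2)
    obtain ⟨n, hn⟩ := Q.exists_pow_of_inK (P.prime i) (P.not_dvd i) (hA i) hyK hy0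
    have h := congrArg (A i).valuation (sqrtQ_sq (a.1 * b.1))
    rw [map_pow, hn, map_mul, he, he, ← zpow_natCast, ← zpow_mul,
      ← zpow_add₀ (valuation_p_pos (P.prime i)).ne'] at h
    have hn' := zpow_val_injective (P.prime i) (hA i) h
    rw [← sub_eq_zero, ← Int.cast_sub, ZMod.intCast_zmod_eq_zero_iff_dvd]
    exact ⟨n - e i b, by push_cast at hn' ⊢; omega⟩
  let A₀ : W → {a : Qb // Q.InK a ∧ a ≠ 0} := fun χ => ⟨aχ χ, haK χ, ha0 χ⟩
  have hadd : ∀ χ χ' i, ((e i (A₀ (χ + χ')) : ℤ) : ZMod 2) =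
      (e i (A₀ χ) : ℤ) + (e i (A₀ χ') : ℤ) := by
    intro χ χ' i
    have h := hpar i (A₀ (χ + χ')) ⟨aχ χ * aχ χ', (haK χ).mul (haK χ'),
      mul_ne_zero (ha0 χ) (ha0 χ')⟩ (by
        rw [chi_mul (haK χ) (haK χ') (ha0 χ) (ha0 χ'), ← haχ, ← haχ, ← haχ]; rfl)
    rw [h, ← Int.cast_add]
    congr 1
    refine zpow_val_injective (P.prime i) (hA i) ?_
    rw [← he, zpow_add₀ (valuation_p_pos (P.prime i)).ne', ← he, ← he, map_mul]
  let Ψ : W →ₗ[ZMod 2] (Fin r → ZMod 2) :=
    (AddMonoidHom.mk' (fun χ i => ((e i (A₀ χ) : ℤ) : ZMod 2))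
      fun χ χ' => funext fun i => hadd χ χ' i).toZModLinearMap 2
  -- the kernel
  obtain ⟨q₀, hq₀⟩ : ∃ q, q ∈ Q.D.primeFactors := by
    obtain ⟨p, hp, hpd⟩ := Nat.exists_prime_and_dvd hD1.ne'
    exact ⟨p, Nat.mem_primeFactors.mpr ⟨hp, hpd, Q.pos.ne'⟩⟩
  let gens : Finset (Q.H → ZMod 2) :=
    insert (Q.chi (-1)) ((Q.D.primeFactors.erase q₀).image fun q : ℕ => Q.chi (q : Qb))
  let S : Submodule (ZMod 2) (Q.H → ZMod 2) := Submodule.span (ZMod 2) (gens : Set (Q.H → ZMod 2))
  have hm1 : Q.chi (-1) ∈ S := Submodule.subset_span (Finset.mem_insert_self _ _)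
  have hpf : ∀ q ∈ Q.D.primeFactors, Q.InK ((q : ℕ) : Qb) ∧ ((q : ℕ) : Qb) ≠ 0 := fun q hq =>
    ⟨InK.natCast q, Nat.cast_ne_zero.mpr (Nat.prime_of_mem_primeFactors hq).ne_zero⟩
  have hgen : ∀ q ∈ Q.D.primeFactors, Q.chi (q : Qb) ∈ S := by
    intro q hq
    by_cases hqq : q = q₀
    · subst hqq
      have h : Q.chi (-1) + ∑ l ∈ Q.D.primeFactors, Q.chi (l : Qb) = 0 := by
        rw [← chi_prod _ _ hpf, ← chi_mul (fun σ _ => by rw [map_neg, map_one])
          (fun σ _ => by
            rw [map_prod]; exact Finset.prod_congr rfl fun l _ => map_natCast σ l)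
          (neg_ne_zero.mpr one_ne_zero) (Finset.prod_ne_zero_iff.mpr fun l hl => (hpf l hl).2),
          ← Nat.cast_prod, Nat.prod_primeFactors_of_squarefree Q.sqf,
          show (-1 : Qb) * (Q.D : Qb) = Q.s ^ 2 by rw [Q.sq]; ring]
        exact chi_sq InK.s Q.s_ne_zero
      rw [← Finset.add_sum_erase _ _ hq, ← add_assoc, add_comm (Q.chi (-1)), add_assoc,
        add_eq_zero_iff_eq_neg] at h
      rw [h]
      exact S.neg_mem (S.add_mem hm1 (S.sum_mem fun l hl => Submodule.subset_span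
        (Finset.mem_insert_of_mem (Finset.mem_image_of_mem _ hl))))
    · exact Submodule.subset_span (Finset.mem_insert_of_mem
        (Finset.mem_image_of_mem _ (Finset.mem_erase.mpr ⟨hqq, hq⟩)))
  have hker : ∀ χ : W, Ψ χ = 0 → (χ : Q.H → ZMod 2) ∈ S := by
    intro χ hχ
    set a := aχ χ
    have hev : ∀ i, 2 ∣ e i (A₀ χ) := fun i =>
      (ZMod.intCast_zmod_eq_zero_iff_dvd _ 2).mp (congrFun hχ i)
    have hχa : ∀ σ : Q.H, (χ : Q.H → ZMod 2) σ = 0 → (σ : GQ) (sqrtQ a) = sqrtQ a := fun σ h => by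
      rw [haχ χ] at h
      exact chi_eq_zero_iff.mp h
    have hfix : ∀ l : ℕ, l.Prime → l ∉ Set.range P.qv → ∀ B : ValuationSubring Qb,
        B.LiesOverPrime l → ∀ σ ∈ B.inertiaSubgroupIn ℚ, σ ∈ Q.H → σ (sqrtQ a) = sqrtQ a :=
      fun l hl hlU B hB σ hσ hσH => hχa ⟨σ, hσH⟩ ((hW χ.1 χ.2).unr l hl hlU B hB σ hσ hσH)
    obtain ⟨m, hm, hN⟩ := (haK χ).exists_norm (ha0 χ)
    -- the norm is a square times some of the auxiliary primes
    let T : Finset (Fin r) := Finset.univ.filter fun i => ¬ (2 : ℤ) ∣ padicValRat (P.qv i) m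
    set M : ℕ := ∏ i ∈ T, P.qv i with hM
    have hMpos : (0 : ℚ) < M := by
      rw [hM, Nat.cast_pos]; exact Finset.prod_pos fun i _ => (P.prime i).pos
    obtain ⟨s, hs⟩ := exists_sq_of_pos (div_pos hm hMpos) fun l hl => by
      have := Fact.mk hl
      rw [padicValRat.div hm.ne' hMpos.ne', hM, Nat.cast_prod,
        padicValRat_prod_primes hl _ _ fun i _ => P.prime i]
      by_cases hlU : l ∈ Set.range P.qv
      · obtain ⟨i, rfl⟩ := hlU
        rw [Finset.sum_ite, Finset.sum_const_zero, add_zero, Finset.sum_const, nsmul_eq_mul,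
          mul_one]
        by_cases hi : i ∈ T
        · rw [show (T.filter fun x => P.qv x = P.qv i) = {i} by
            ext x
            simp only [Finset.mem_filter, Finset.mem_singleton]
            exact ⟨fun h => P.inj h.2, fun h => by subst h; exact ⟨hi, rfl⟩⟩,
            Finset.card_singleton]
          have := (Finset.mem_filter.mp hi).2
          omega
        · rw [show (T.filter fun x => P.qv x = P.qv i) = ∅ by
            ext x
            simp only [Finset.mem_filter, Finset.notMem_empty, iff_false, not_and]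
            exact fun hx h => hi (P.inj h ▸ hx), Finset.card_empty]
          simp only [T, Finset.mem_filter, Finset.mem_univ, true_and, not_not] at hi
          simpa using hi
      · rw [Finset.sum_eq_zero fun i _ => if_neg fun h => hlU ⟨i, h⟩, sub_zero]
        exact even_norm hl (hfix l hl hlU) hm hN
    have hms : m = s ^ 2 * M := by rw [← hs, div_mul_cancel₀ _ hMpos.ne']
    have hs0 : s ≠ 0 := fun h => hm.ne' (by rw [hms, h]; simp)
    have hT : T = ∅ := by
      by_contra hne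
      obtain ⟨i, hi⟩ := Finset.nonempty_iff_ne_empty.mpr hne
      have hl : (P.own i).Prime := by
        rcases Finset.mem_union.mp (P.own_mem i) with h | h
        · exact Nat.prime_of_mem_primeFactors h
        · exact (hQ0 _ h).1
      have := Fact.mk hl
      have hne' : ∀ j, ((P.qv j : ℕ) : ZMod (P.own i)) ≠ 0 := fun j h0 => by
        rw [ZMod.natCast_eq_zero_iff, Nat.prime_dvd_prime_iff_eq hl (P.prime j)] at h0
        rcases Finset.mem_union.mp (P.own_mem i) with h | h
        · exact P.not_dvd j (h0 ▸ Nat.dvd_of_mem_primeFactors h)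
        · exact P.not_mem j (h0 ▸ h)
      have hdvd : ¬ P.own i ∣ M := fun h => by
        obtain ⟨j, -, hj⟩ := (Prime.dvd_finsetProd_iff hl.prime _).mp h
        exact hne' j ((ZMod.natCast_eq_zero_iff _ _).mpr hj)
      have hsqM : IsSquare (M : ZMod (P.own i)) := by
        have hN' : ∀ σ ∉ Q.H, a * σ a = (s : Qb) ^ 2 * (M : Qb) := fun σ hσ => by
          rw [hN σ hσ, hms]; push_cast; rfl
        rcases Finset.mem_union.mp (P.own_mem i) with h | h
        · exact isSquare_of_ram hl (Nat.dvd_of_mem_primeFactors h) (haK χ) hdvd hs0 hN'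
        · obtain ⟨B, hB⟩ := exists_liesOverPrime hl
          obtain ⟨φ, hφ⟩ := exists_isFrobeniusAt hl hB
          have hφH := (hQ0 _ h).2.2 B hB φ hφ
          exact isSquare_of_inert hl hB hφ hφH
            (hχa ⟨_, Q.mul_mem_of_not_mem hφH hφH⟩ ((hW χ.1 χ.2).frob _ h B hB φ hφ _)) hdvd hs0 hN'
      rw [hM, ← Finset.mul_prod_erase _ _ hi, Nat.cast_mul, Nat.cast_prod] at hsqM
      have hrest : IsSquare (∏ j ∈ T.erase i, ((P.qv j : ℕ) : ZMod (P.own i))) :=
        Finset.prod_induction _ IsSquare (fun _ _ h h' => h.mul h') IsSquare.one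
          fun j hj => P.sq i j (Finset.ne_of_mem_erase hj).symm
      have h := hsqM.mul hrest.inv
      rw [mul_inv_cancel_right₀ (Finset.prod_ne_zero_iff.mpr fun j _ => hne' j)] at h
      exact P.nonsq i h
    obtain ⟨τ, hτ⟩ := Q.exists_not_mem
    have hM1 : M = 1 := by rw [hM, hT, Finset.prod_empty]
    obtain ⟨c, w, hc, hwK, hw0, hacw⟩ := (haK χ).exists_of_norm_eq_sq (ha0 χ) hτ (m := s)
      (by rw [hN τ hτ, hms, hM1]; push_cast; ring)
    -- the rational factor
    let T' : Finset ℕ := Q.D.primeFactors.filter fun l => ¬ (2 : ℤ) ∣ padicValRat l c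
    set C : ℚ := ∏ l ∈ T', (l : ℚ) with hC
    have hC0 : C ≠ 0 := Finset.prod_ne_zero_iff.mpr fun l hl => by
      exact_mod_cast (Nat.prime_of_mem_primeFactors (Finset.filter_subset _ _ hl)).ne_zero
    obtain ⟨u, hu⟩ := FA.Mazur.exists_pow_of_dvd_padicValRat Nat.prime_two (div_ne_zero hc hC0)
      fun l hl => by
      have := Fact.mk hl
      rw [padicValRat.div hc hC0, hC, padicValRat_prod_primes hl _ (fun x => x) fun x hx =>
        Nat.prime_of_mem_primeFactors (Finset.filter_subset _ _ hx), Finset.sum_ite_eq']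
      by_cases hlD : l ∣ Q.D
      · have hl' : l ∈ Q.D.primeFactors := Nat.mem_primeFactors.mpr ⟨hl, hlD, Q.pos.ne'⟩
        simp only [T', Finset.mem_filter, hl', true_and]
        split_ifs with h <;> omega
      · rw [if_neg fun h => hlD (Nat.dvd_of_mem_primeFactors (Finset.filter_subset _ _ h)), sub_zero]
        by_cases hlU : l ∈ Set.range P.qv
        · obtain ⟨i, rfl⟩ := hlU
          obtain ⟨n, hn⟩ := Q.exists_pow_of_inK hl hlD (hA i) hwK hw0
          have h := congrArg (A i).valuation hacw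
          rw [show (A i).valuation a = _ from he i (A₀ χ), map_mul, map_pow, hn,
            val_ratCast hl (hA i) hc, ← zpow_natCast, ← zpow_mul,
            ← zpow_add₀ (valuation_p_pos hl).ne'] at h
          have h' := zpow_val_injective hl (hA i) h
          have := hev i
          push_cast at h' ⊢
          omega
        · obtain ⟨B, hB⟩ := exists_liesOverPrime hl
          refine even_of_sq hl hB hc (y := sqrtQ a / w)
            (by rw [div_pow, sqrtQ_sq, show a = (c : Qb) * w ^ 2 from hacw,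
              mul_div_cancel_right₀ _ (pow_ne_zero 2 hw0)])
            fun σ hσ => ?_
          have hσH := Q.unr l hl hlD B hB σ hσ
          rw [map_div₀, hfix l hl hlU B hB σ hσ hσH, hwK σ hσH]
    have hu0 : u ≠ 0 := fun h => by
      rcases hu with hu | hu <;> rw [h] at hu <;> simp [hc, hC0] at hu
    have hCK : Q.InK (C : Qb) := InK.ratCast C
    have hCmem : Q.chi (C : Qb) ∈ S := by
      rw [hC, Rat.cast_prod, chi_prod _ _ fun l hl => ⟨InK.ratCast _, by
        exact_mod_cast (Nat.prime_of_mem_primeFactors (Finset.filter_subset _ _ hl)).ne_zero⟩]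
      refine S.sum_mem fun l hl => ?_
      rw [Rat.cast_natCast]
      exact hgen l (Finset.filter_subset _ _ hl)
    have hC0' : (C : Qb) ≠ 0 := Rat.cast_ne_zero.mpr hC0
    have hzK : Q.InK ((u : Qb) * w) := (InK.ratCast u).mul hwK
    have hz0 : (u : Qb) * w ≠ 0 := mul_ne_zero (Rat.cast_ne_zero.mpr hu0) hw0
    have hzz : Q.InK (((u : Qb) * w) ^ 2) := by rw [pow_two]; exact hzK.mul hzK
    rw [haχ χ]
    rcases hu with hu | hu <;> rw [div_eq_iff hC0] at hu
    · rw [show aχ χ = (C : Qb) * ((u : Qb) * w) ^ 2 by rw [hacw, hu]; push_cast; ring,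
        chi_mul hCK hzz hC0' (pow_ne_zero 2 hz0), chi_sq hzK hz0, add_zero]
      exact hCmem
    · have hn1 : Q.InK (-1 : Qb) := fun σ _ => by rw [map_neg, map_one]
      rw [show aχ χ = ((-1 : Qb) * (C : Qb)) * ((u : Qb) * w) ^ 2 by
          rw [hacw, hu]; push_cast; ring,
        chi_mul (hn1.mul hCK) hzz (mul_ne_zero (neg_ne_zero.mpr one_ne_zero) hC0')
          (pow_ne_zero 2 hz0), chi_sq hzK hz0, add_zero,
        chi_mul hn1 hCK (neg_ne_zero.mpr one_ne_zero) hC0']
      exact S.add_mem hm1 hCmem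
  -- counting
  have : FiniteDimensional (ZMod 2) S := FiniteDimensional.span_finset _ gens
  let K' : Submodule (ZMod 2) (Q.H → ZMod 2) := (LinearMap.ker Ψ).map W.subtype
  have hK'le : K' ≤ S := by
    rintro _ ⟨χ, hχ, rfl⟩
    exact hker χ hχ
  have hK'lt : K' < S := lt_of_le_of_ne hK'le fun h => by
    have hmem : Q.chi (-1) ∈ K' := h.symm ▸ hm1
    obtain ⟨χ, -, hχ⟩ := hmem
    exact Q.not_isGood_neg_one h2 (U := Set.range P.qv) (Q0 := Q0) h2U (hχ ▸ hW χ.1 χ.2)
  have : FiniteDimensional (ZMod 2) K' := Submodule.finiteDimensional_of_le hK'le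
  have hlt := Submodule.finrank_lt_finrank_of_lt hK'lt
  have eK := Submodule.equivMapOfInjective W.subtype (Submodule.subtype_injective W) (LinearMap.ker Ψ)
  have : FiniteDimensional (ZMod 2) (LinearMap.ker Ψ) := Module.Finite.equiv eK.symm
  have : FiniteDimensional (ZMod 2) (W ⧸ LinearMap.ker Ψ) :=
    Module.Finite.equiv Ψ.quotKerEquivRange.symm
  have hWfin : FiniteDimensional (ZMod 2) W := Module.Finite.of_submodule_quotient (LinearMap.ker Ψ)
  refine ⟨hWfin, ?_⟩
  have hrk := LinearMap.finrank_range_add_finrank_ker Ψ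
  have hrle := Submodule.finrank_le (LinearMap.range Ψ)
  rw [Module.finrank_pi, Fintype.card_fin] at hrle
  have hkey : Module.finrank (ZMod 2) (LinearMap.ker Ψ) = Module.finrank (ZMod 2) K' :=
    eK.finrank_eq
  have hcard : Module.finrank (ZMod 2) S ≤ Q.D.primeFactors.card := by
    refine (finrank_span_finset_le_card gens).trans ((Finset.card_insert_le _ _).trans ?_)
    have := Finset.card_erase_of_mem hq₀
    have h1 : 0 < Q.D.primeFactors.card := Finset.card_pos.mpr ⟨q₀, hq₀⟩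
    have h3 : ((Q.D.primeFactors.erase q₀).image fun q : ℕ => Q.chi (q : Qb)).card ≤
      (Q.D.primeFactors.erase q₀).card := Finset.card_image_le
    omega
  omega

end Quad

end FA.Two
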