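import Fermat.Agent.Two.QuadField
import Fermat.Agent.Two.AdSplit
import Fermat.Agent.LocalDef.TangentTwoLine
import Fermat.Agent.TW.Frobenius
import Fermat.Agent.TW.LocalQ
import Fermat.Prelude.Def_GaloisRep_ComplexConjugation

/-!
# The residual setting at `p = 2` and the classes with values in the two dimensional part
-/

set_option autoImplicit false
set_option linter.unusedSectionVars false

noncomputable section

open Matrix FA.LocalDef FA.Deform
open scoped Pointwise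

namespace FA.Two

local notation "Qb" => AlgebraicClosure ℚ
local notation "GQ" => AlgebraicClosure ℚ ≃ₐ[ℚ] AlgebraicClosure ℚ
local notation "M2" k:max => Matrix (Fin 2) (Fin 2) k

/-- The residual representation, with image all of `GL₂(𝔽₂)`, and its quadratic field. -/
structure Setting (k : Type) [Field k] [Fintype k] [CharP k 2] where
  r0 : GQ →* M2 (ZMod 2)
  ker_open : IsOpen (r0.ker : Set GQ)
  surj : ∀ M : M2 (ZMod 2), M.det ≠ 0 → ∃ σ, r0 σ = M
  Q : Quad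
  odd : ¬ 2 ∣ Q.D
  one_lt : 1 < Q.D
  sgn_iff : ∀ σ, sgn (r0 σ) = 0 ↔ σ ∈ Q.H
  unr : ∀ l : ℕ, l.Prime → l ≠ 2 → ¬ l ∣ Q.D → ∀ A : ValuationSubring Qb, A.LiesOverPrime l →
    ∀ σ ∈ A.inertiaSubgroupIn ℚ, r0 σ = 1
  unip : ∀ l : ℕ, l.Prime → l ∣ Q.D → ∀ A : ValuationSubring Qb, A.LiesOverPrime l →
    ∀ σ ∈ A.inertiaSubgroupIn ℚ, (r0 σ - 1) ^ 2 = 0
  ss2 : ∀ A : ValuationSubring Qb, A.LiesOverPrime 2 →
    ∃ g ∈ A.inertiaSubgroupIn ℚ, (r0 g).trace = 1
  flat2 : ∀ A : ValuationSubring Qb, A.LiesOverPrime 2 → IsFlatRes A (repTwo k r0)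

lemma unip_cases {M : M2 (ZMod 2)} (hd : M.det ≠ 0) (h : (M - 1) ^ 2 = 0) :
    M = 1 ∨ IsTransp M := by
  rcases six_cases hd with rfl | rfl | rfl | rfl | rfl | rfl <;> revert h <;> decide

lemma sgn_facts {M : M2 (ZMod 2)} (hd : M.det ≠ 0) :
    (sgn M = 1 ↔ IsTransp M) ∧ (sgn M = 0 ∨ sgn M = 1) ∧ (sgn M = 0 → (M - 1) ^ 2 = 0 → M = 1) := by
  refine ⟨(unit_facts M hd).1, ?_, ?_⟩ <;>
    rcases six_cases hd with rfl | rfl | rfl | rfl | rfl | rfl <;> decide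

lemma line_cases {T N : M2 (ZMod 2)} (hT : IsTransp T) (hd : N.det ≠ 0)
    (hc : N * T = T * N) : N = 1 ∨ N = T := by
  rcases transp_cases hT with rfl | rfl | rfl <;>
    rcases six_cases hd with rfl | rfl | rfl | rfl | rfl | rfl <;> revert hc <;> decide

namespace Setting

variable {k : Type} [Field k] [Fintype k] [CharP k 2] (S : Setting k)

/-- The representation over `k`. -/
abbrev r : GQ →* M2 k := repTwo k S.r0

lemma r_apply (σ : GQ) : S.r σ = ext2 k (S.r0 σ) := rfl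

lemma mul_inv (σ : GQ) : S.r0 σ * S.r0 σ⁻¹ = 1 := by rw [← map_mul, mul_inv_cancel, map_one]

lemma inv_mul (σ : GQ) : S.r0 σ⁻¹ * S.r0 σ = 1 := by rw [← map_mul, inv_mul_cancel, map_one]

lemma det_ne (σ : GQ) : (S.r0 σ).det ≠ 0 := fun h0 => by
  have h := congrArg Matrix.det (S.mul_inv σ)
  rw [Matrix.det_mul, h0, zero_mul, Matrix.det_one] at h
  exact zero_ne_one h

/-- Conjugation by the representation. -/
def act (σ : GQ) : (M2 k) →ₗ[k] M2 k where
  toFun X := S.r σ * X * S.r σ⁻¹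
  map_add' X Y := by rw [mul_add, add_mul]
  map_smul' c X := by rw [mul_smul_comm, smul_mul_assoc]; rfl

lemma act_apply (σ : GQ) (X : M2 k) : S.act σ X = ext2 k (S.r0 σ) * X * ext2 k (S.r0 σ⁻¹) := rfl

lemma act_mul (σ τ : GQ) (X : M2 k) : S.act (σ * τ) X = S.act σ (S.act τ X) := by
  simp only [act_apply, _root_.map_mul, _root_.mul_inv_rev, mul_assoc]

lemma act_one (X : M2 k) : S.act 1 X = X := by simp [act_apply]

lemma act_of_one {σ : GQ} (h : S.r0 σ = 1) (X : M2 k) : S.act σ X = X := by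
  have h' : S.r0 σ⁻¹ = 1 := by simpa [h] using S.mul_inv σ
  simp [act_apply, h, h']

lemma act_of_transp {σ : GQ} (h : IsTransp (S.r0 σ)) (X : M2 k) :
    S.act σ X = ext2 k (S.r0 σ) * X * ext2 k (S.r0 σ) := by
  rw [act_apply, left_inv_eq_right_inv (S.inv_mul σ) h.2]

lemma vPart_act (σ : GQ) (X : M2 k) : vPart (S.act σ X) = S.act σ (vPart X) :=
  (conj_facts (S.mul_inv σ) X).2.2

lemma inV_act {σ : GQ} {X : M2 k} (h : InV X) : InV (S.act σ X) := by
  rw [← h.vPart_eq, ← S.vPart_act]; exact inV_vPart _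

lemma trace_act (σ : GQ) (X : M2 k) : (S.act σ X).trace = X.trace :=
  (conj_facts (S.mul_inv σ) X).2.1

lemma scalarPart_act (σ : GQ) (X : M2 k) : scalarPart (S.act σ X) =
    scalarPart X + ZMod.castHom (dvd_refl 2) k (sgn (S.r0 σ)) * X.trace :=
  (conj_facts (S.mul_inv σ) X).1

lemma scalarPart_act_mem {σ : GQ} (hσ : σ ∈ S.Q.H) (X : M2 k) :
    scalarPart (S.act σ X) = scalarPart X := by
  rw [scalarPart_act, (S.sgn_iff σ).mpr hσ, map_zero, zero_mul, add_zero]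

lemma transp_iff (σ : GQ) : IsTransp (S.r0 σ) ↔ σ ∉ S.Q.H := by
  rw [← (sgn_facts (S.det_ne σ)).1, ← S.sgn_iff]
  rcases (sgn_facts (S.det_ne σ)).2.1 with h | h <;> rw [h] <;> decide

lemma mem_H_of_one {σ : GQ} (h : S.r0 σ = 1) : σ ∈ S.Q.H :=
  (S.sgn_iff σ).mp (by rw [h]; decide)

lemma transp_conj {σ : GQ} (h : IsTransp (S.r0 σ)) (τ : GQ) : IsTransp (S.r0 (τ * σ * τ⁻¹)) := by
  rw [S.transp_iff] at h ⊢
  exact fun hm => h (by simpa [mul_assoc] using S.Q.conj_mem τ⁻¹ hm)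

/-- Inertia at a ramified prime has image of order two. -/
lemma exists_inertia_transp {l : ℕ} (hl : l.Prime) (hD : l ∣ S.Q.D) {A : ValuationSubring Qb}
    (hA : A.LiesOverPrime l) : ∃ t ∈ A.inertiaSubgroupIn ℚ, IsTransp (S.r0 t) ∧
      ∀ σ ∈ A.inertiaSubgroupIn ℚ, S.r0 σ = 1 ∨ S.r0 σ = S.r0 t := by
  obtain ⟨t, ht, hts⟩ := S.Q.ram l hl hD A hA
  have hT : IsTransp (S.r0 t) := (S.transp_iff t).mpr hts
  refine ⟨t, ht, hT, fun σ hσ => ?_⟩
  rcases unip_cases (S.det_ne σ) (S.unip l hl hD A hA σ hσ) with h | h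
  · exact Or.inl h
  · refine Or.inr ?_
    have hst : S.r0 (σ * t) = 1 := (sgn_facts (S.det_ne _)).2.2
      ((S.sgn_iff _).mpr (S.Q.mul_mem_of_not_mem ((S.transp_iff σ).mp h) hts))
      (S.unip l hl hD A hA _ (mul_mem hσ ht))
    rw [map_mul] at hst
    calc S.r0 σ = S.r0 σ * (S.r0 t * S.r0 t) := by rw [hT.2, mul_one]
      _ = _ := by rw [← mul_assoc, hst, one_mul]

lemma conj_not_mem : complexConjugation ∉ S.Q.H := fun h => by
  have h' := complexEmbedding_complexConjugation S.Q.s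
  rw [show complexConjugation S.Q.s = S.Q.s from h] at h'
  have him : (complexEmbedding S.Q.s).im = 0 := Complex.conj_eq_iff_im.mp h'.symm
  have hsq : complexEmbedding S.Q.s ^ 2 = -(S.Q.D : ℂ) := by
    rw [← map_pow, S.Q.sq, map_neg, map_natCast]
  have hre := congrArg Complex.re hsq
  simp [pow_two, Complex.mul_re, him] at hre
  have : (0 : ℝ) < S.Q.D := by exact_mod_cast S.Q.pos
  nlinarith [mul_self_nonneg (complexEmbedding S.Q.s).re]

/-- A cocycle with values in the adjoint. -/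
def IsCoc (z : GQ → M2 k) : Prop := ∀ g h, z (g * h) = z g + S.act g (z h)

variable {S}

lemma IsCoc.map_one {z : GQ → M2 k} (hz : S.IsCoc z) : z 1 = 0 := by
  have h := hz 1 1
  rw [mul_one, act_one, left_eq_add] at h
  exact h

lemma IsCoc.map_inv {z : GQ → M2 k} (hz : S.IsCoc z) (g : GQ) : z g⁻¹ = -S.act g⁻¹ (z g) := by
  have h := hz g⁻¹ g
  rw [inv_mul_cancel, hz.map_one] at h
  exact eq_neg_of_add_eq_zero_left h.symm

lemma IsCoc.map_conj {z : GQ → M2 k} (hz : S.IsCoc z) (x g : GQ) :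
    z (x * g * x⁻¹) = z x + S.act x (z g) - S.act (x * g * x⁻¹) (z x) := by
  rw [hz (x * g) x⁻¹, hz x g, hz.map_inv, map_neg, ← act_mul, sub_eq_add_neg]

lemma IsCoc.map_mul_mem {z : GQ → M2 k} (hz : S.IsCoc z) {g n : GQ} (h : z n = 0) :
    z (g * n) = z g := by
  rw [hz, h, map_zero, add_zero]

lemma IsCoc.cob (X : M2 k) : S.IsCoc fun g => S.act g X - X := fun g h => by
  simp only [act_mul, map_sub]
  abel

lemma IsCoc.isDecompCocycle {z : GQ → M2 k} (hz : S.IsCoc z) (A : ValuationSubring Qb) :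
    IsDecompCocycle A S.r z := fun σ _ τ _ => hz σ τ

variable (S)

/-- The fixed line of a transposition. -/
def line (g : GQ) : Submodule k (M2 k) := Submodule.span k {ext2 k (S.r0 g)}

/-- A coboundary from vanishing on the kernel. -/
theorem exists_cob_of_ker {z : GQ → M2 k} (hV : ∀ g, InV (z g)) (hz : S.IsCoc z)
    (hker : ∀ h, S.r0 h = 1 → z h = 0) : ∃ X, InV X ∧ ∀ g, z g = S.act g X - X := by
  obtain ⟨γ, hγ⟩ := S.surj !![0, 1; 1, 1] (by decide)
  have htr : S.r0 γ 0 0 + S.r0 γ 1 1 = 1 := by rw [hγ]; decide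
  obtain ⟨X, hX, hXe⟩ := exists_cob (k := k) (S.mul_inv γ) htr (hV γ)
  refine ⟨X, hX, fun g => sub_eq_zero.mp ?_⟩
  set w : GQ → M2 k := fun g => z g - (S.act g X - X) with hw
  show w g = 0
  have hwV : ∀ g, InV (w g) := fun g => by
    show InV (z g - (S.act g X - X))
    rw [CharTwo.sub_eq_add, CharTwo.sub_eq_add]
    exact (hV g).add ((S.inV_act hX).add hX)
  have hwc : S.IsCoc w := fun g h => by
    simp only [hw, hz g h, (IsCoc.cob (S := S) X) g h, map_sub]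
    abel
  have hwker : ∀ h, S.r0 h = 1 → w h = 0 := fun h hh => by
    simp only [hw, hker h hh, S.act_of_one hh, sub_self]
  have hwγ : w γ = 0 := by
    show z γ - (S.act γ X - X) = 0
    rw [sub_eq_zero]; exact hXe.symm
  have heq : ∀ a b : GQ, S.r0 a = S.r0 b → w a = w b := fun a b hab => by
    have h1 : S.r0 (b⁻¹ * a) = 1 := by rw [map_mul, hab, S.inv_mul]
    rw [show a = b * (b⁻¹ * a) by rw [mul_inv_cancel_left], hwc.map_mul_mem (hwker _ h1)]
  have hγ2 : w (γ * γ) = 0 := by rw [hwc γ γ, hwγ, map_zero, add_zero]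
  -- a transposition
  obtain ⟨τ, hτ⟩ := S.surj !![0, 1; 1, 0] (by decide)
  have e1 : S.r0 (τ * γ) = S.r0 (γ * γ * τ) := by
    rw [map_mul, map_mul, map_mul, hγ, hτ]; decide
  have hwτ : w τ = 0 := by
    have h := heq _ _ e1
    rw [hwc τ γ, hwγ, map_zero, add_zero, hwc (γ * γ) τ, hγ2, zero_add] at h
    have h2 : S.r0 (γ * γ) 0 0 + S.r0 (γ * γ) 1 1 = 1 := by rw [map_mul, hγ]; decide
    exact eq_zero_of_fixed (S.mul_inv (γ * γ)) h2 (hwV τ) h.symm
  rcases six_cases (S.det_ne g) with e | e | e | e | e | e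
  · exact hwker g e
  · rw [heq g γ (by rw [e, hγ]), hwγ]
  · rw [heq g (γ * γ) (by rw [e, map_mul, hγ]; decide), hγ2]
  · rw [heq g τ (by rw [e, hτ]), hwτ]
  · rw [heq g (γ * γ * τ) (by rw [e, map_mul, map_mul, hγ, hτ]; decide), hwc, hγ2, hwτ, map_zero,
      add_zero]
  · rw [heq g (γ * τ) (by rw [e, map_mul, hγ, hτ]; decide), hwc γ τ, hwγ, hwτ, map_zero, add_zero]

/-- Classes with values in the two dimensional part and auxiliary conditions at `Q`. -/
structure IsV (Q : Finset ℕ) (z : GQ → M2 k) : Prop where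
  inV : ∀ g, InV (z g)
  coc : S.IsCoc z
  lc : ∃ N : Subgroup GQ, IsOpen (N : Set GQ) ∧ ∀ g, ∀ n ∈ N, z (g * n) = z g
  unr : ∀ l : ℕ, l.Prime → l ≠ 2 → ¬ l ∣ S.Q.D → l ∉ Q → ∀ A : ValuationSubring Qb,
    A.LiesOverPrime l → ∀ σ ∈ A.inertiaSubgroupIn ℚ, z σ = 0
  ram : ∀ l : ℕ, l.Prime → l ∣ S.Q.D → ∀ A : ValuationSubring Qb, A.LiesOverPrime l →
    ∃ X, InV X ∧ ∀ σ ∈ A.inertiaSubgroupIn ℚ, z σ = S.act σ X - X
  two : ∀ A : ValuationSubring Qb, A.LiesOverPrime 2 → ∃ c : GQ → M2 k,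
    IsFlatTwo A S.r c ∧ ∀ σ ∈ A.decompositionSubgroup ℚ, z σ = vPart (c σ)
  aux : ∀ q ∈ Q, ∀ A : ValuationSubring Qb, A.LiesOverPrime q → ∀ φ : GQ, A.IsFrobeniusAt φ q →
    z φ ∈ S.line φ ∧ ∀ σ ∈ A.inertiaSubgroupIn ℚ, z σ ∈ S.line φ

variable {S}

lemma act_line {g : GQ} (hg : IsTransp (S.r0 g)) {h : GQ}
    (hc : S.r0 h = 1 ∨ S.r0 h = S.r0 g) {X : M2 k} (hX : X ∈ S.line g) : S.act h X = X := by
  rcases hc with hc | hc
  · exact S.act_of_one hc X
  · obtain ⟨a, rfl⟩ := Submodule.mem_span_singleton.mp hX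
    rw [S.act_of_transp (hc ▸ hg), hc, mul_smul_comm, smul_mul_assoc, transp_sq hg, one_mul]

/-- Whether a value at a transposition lies in its line is invariant under conjugation. -/
lemma IsCoc.line_conj {z : GQ → M2 k} (hz : S.IsCoc z) (hV : ∀ g, InV (z g)) {g : GQ}
    (hg : IsTransp (S.r0 g)) (x : GQ) (h : z g ∈ S.line g) :
    z (x * g * x⁻¹) ∈ S.line (x * g * x⁻¹) := by
  have hg' := S.transp_conj hg x
  rw [hz.map_conj, add_sub_right_comm]
  refine Submodule.add_mem _ ?_ ?_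
  · rw [← neg_sub, CharTwo.neg_eq, S.act_of_transp hg']
    exact cob_mem_line hg' (hV x)
  · obtain ⟨a, ha⟩ := Submodule.mem_span_singleton.mp h
    rw [← ha, map_smul]
    refine Submodule.smul_mem _ _ ?_
    refine Submodule.subset_span ?_
    rw [Set.mem_singleton_iff, act_apply, ← map_mul, ← map_mul, map_mul S.r0, map_mul S.r0]

/-- The values on a decomposition group at an auxiliary prime lie in the line. -/
lemma IsV.mem_line {Q : Finset ℕ} {z : GQ → M2 k} (hz : S.IsV Q z) {q : ℕ} (hq : q.Prime)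
    (hqQ : q ∈ Q) (hq2 : q ≠ 2) (hqD : ¬ q ∣ S.Q.D) {A : ValuationSubring Qb}
    (hA : A.LiesOverPrime q) {φ : GQ} (hφ : A.IsFrobeniusAt φ q) (hT : IsTransp (S.r0 φ))
    {g : GQ} (hg : g ∈ A.decompositionSubgroup ℚ) :
    (S.r0 g = 1 ∨ S.r0 g = S.r0 φ) ∧ z g ∈ S.line φ := by
  obtain ⟨N, hN, hlc⟩ := hz.lc
  obtain ⟨i, ι, hι, n, hn, rfl⟩ := FA.TW.exists_frobenius_decomp hq hA hφ (N ⊓ S.r0.ker)
    (by rw [Subgroup.coe_inf]; exact hN.inter S.ker_open) hg
  obtain ⟨h1, h2⟩ := hz.aux q hqQ A hA φ hφ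
  have hι1 := S.unr q hq hq2 hqD A hA ι hι
  have hn1 : S.r0 n = 1 := hn.2
  have hpow : ∀ j : ℕ, (S.r0 (φ ^ j) = 1 ∨ S.r0 (φ ^ j) = S.r0 φ) ∧ z (φ ^ j) ∈ S.line φ := by
    intro j
    induction j with
    | zero => simp [hz.coc.map_one]
    | succ j ih =>
      refine ⟨?_, ?_⟩
      · rw [pow_succ, map_mul]
        rcases ih.1 with h | h <;> rw [h]
        · exact Or.inr (one_mul _)
        · exact Or.inl hT.2
      · rw [pow_succ, hz.coc (φ ^ j) φ, act_line hT ih.1 h1]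
        exact Submodule.add_mem _ ih.2 h1
  refine ⟨?_, ?_⟩
  · rw [map_mul, map_mul, hι1, hn1, mul_one, mul_one]
    exact (hpow i).1
  · rw [hlc _ n hn.1, hz.coc (φ ^ i) ι, act_line hT (hpow i).1 (h2 ι hι)]
    exact Submodule.add_mem _ (hpow i).2 (h2 ι hι)

end Setting

end FA.Two
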