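import Fermat.Agent.Two.Bound
import Fermat.Agent.Two.Family
import Fermat.Agent.TW.Translate
import Fermat.Agent.Patch.Surject
import Fermat.Agent.Patch.LevelData
import Fermat.Agent.RT.LocalFromPoints
import Mathlib.RingTheory.Finiteness.Basic

/-!
# Tangent vectors of a carried algebra at `p = 2`

The local conditions on a carried algebra linearise to the conditions of the classes, so it is
generated by as many elements as allowed by the bound on classes and the auxiliary eigenvalues.
-/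

set_option autoImplicit false
set_option linter.unusedSectionVars false

noncomputable section

open IsLocalRing Matrix FA.LocalDef FA.Deform FA.TW

namespace FA.Two

local notation "Qb" => AlgebraicClosure ℚ
local notation "GQ" => AlgebraicClosure ℚ ≃ₐ[ℚ] AlgebraicClosure ℚ
local notation "M2" k:max => Matrix (Fin 2) (Fin 2) k

section algebra

variable {k : Type} [Field k] [CharP k 2]

/-- Matrices anticommuting with `T + 1` after multiplication by `T`. -/
theorem exists_span_of_anti {T : M2 (ZMod 2)} (hT : IsTransp T) {C : M2 k}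
    (h : (ext2 k T - 1) * (C * ext2 k T) + (C * ext2 k T) * (ext2 k T - 1) = 0) :
    ∃ a b : k, C = a • 1 + b • ext2 k T := by
  have e00 := congrFun (congrFun h 0) 0
  have e01 := congrFun (congrFun h 0) 1
  have e10 := congrFun (congrFun h 1) 0
  have e11 := congrFun (congrFun h 1) 1
  simp only [Matrix.add_apply, Matrix.mul_apply, Fin.sum_univ_two, Matrix.sub_apply,
    Matrix.zero_apply, Matrix.one_apply_eq, Matrix.one_apply_ne zero_ne_one,
    Matrix.one_apply_ne one_ne_zero] at e00 e01 e10 e11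
  rcases transp_cases hT with rfl | rfl | rfl
  all_goals simp [ext2] at e00 e01 e10 e11
  · refine ⟨C 0 0, C 0 1, Matrix.ext fun i j => ?_⟩
    fin_cases i <;> fin_cases j <;> simp [ext2] <;> grind [two_eq_zero (k := k)]
  · refine ⟨C 0 0 - C 0 1, C 0 1, Matrix.ext fun i j => ?_⟩
    fin_cases i <;> fin_cases j <;> simp [ext2] <;> grind [two_eq_zero (k := k)]
  · refine ⟨C 0 0 - C 1 0, C 1 0, Matrix.ext fun i j => ?_⟩
    fin_cases i <;> fin_cases j <;> simp [ext2] <;> grind [two_eq_zero (k := k)]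

/-- Combinations of `1` and `T` are coboundaries at a transposition. -/
theorem exists_cob_of_span {T : M2 (ZMod 2)} (hT : IsTransp T) (a b : k) :
    ∃ X : M2 k, a • 1 + b • ext2 k T = ext2 k T * X * ext2 k T - X := by
  rcases transp_cases hT with rfl | rfl | rfl
  · refine ⟨!![a, b; 0, 0], Matrix.ext fun i j => ?_⟩
    fin_cases i <;> fin_cases j <;> simp [ext2, Matrix.mul_apply, Fin.sum_univ_two] <;>
      grind [two_eq_zero (k := k)]
  · refine ⟨!![a, 0; a + b, 0], Matrix.ext fun i j => ?_⟩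
    fin_cases i <;> fin_cases j <;> simp [ext2, Matrix.mul_apply, Fin.sum_univ_two] <;>
      grind [two_eq_zero (k := k)]
  · refine ⟨!![0, a + b; 0, a], Matrix.ext fun i j => ?_⟩
    fin_cases i <;> fin_cases j <;> simp [ext2, Matrix.mul_apply, Fin.sum_univ_two] <;>
      grind [two_eq_zero (k := k)]

/-- Matrices killed by `T + 1` on both sides. -/
theorem exists_smul_of_killed {T : M2 (ZMod 2)} (hT : IsTransp T) {C : M2 k}
    (hl : (ext2 k T - 1) * C = 0) (hr : C * (ext2 k T - 1) = 0) :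
    ∃ u : k, C = u • (1 + ext2 k T) := by
  have l00 := congrFun (congrFun hl 0) 0
  have l01 := congrFun (congrFun hl 0) 1
  have l10 := congrFun (congrFun hl 1) 0
  have l11 := congrFun (congrFun hl 1) 1
  have r00 := congrFun (congrFun hr 0) 0
  have r01 := congrFun (congrFun hr 0) 1
  have r10 := congrFun (congrFun hr 1) 0
  have r11 := congrFun (congrFun hr 1) 1
  simp only [Matrix.mul_apply, Fin.sum_univ_two, Matrix.sub_apply,
    Matrix.zero_apply, Matrix.one_apply_eq, Matrix.one_apply_ne zero_ne_one,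
    Matrix.one_apply_ne one_ne_zero] at l00 l01 l10 l11 r00 r01 r10 r11
  rcases transp_cases hT with rfl | rfl | rfl
  all_goals simp [ext2] at l00 l01 l10 l11 r00 r01 r10 r11
  · refine ⟨C 0 1, Matrix.ext fun i j => ?_⟩
    fin_cases i <;> fin_cases j <;> simp [ext2] <;> grind [two_eq_zero (k := k)]
  · refine ⟨C 0 1, Matrix.ext fun i j => ?_⟩
    fin_cases i <;> fin_cases j <;> simp [ext2] <;> grind [two_eq_zero (k := k)]
  · refine ⟨C 1 0, Matrix.ext fun i j => ?_⟩
    fin_cases i <;> fin_cases j <;> simp [ext2] <;> grind [two_eq_zero (k := k)]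

/-- Scalars disappear from anticommutators in characteristic two. -/
theorem anti_shift (N M : M2 k) (a : k) :
    N * (M - a • 1) + (M - a • 1) * N = N * M + M * N := by
  ext i j
  fin_cases i <;> fin_cases j <;> simp [Matrix.mul_apply, Fin.sum_univ_two] <;>
    grind [two_eq_zero (k := k)]

end algebra

variable {O : Type} [CommRing O] [IsDomain O] [IsDiscreteValuationRing O]
  [IsAdicComplete (maximalIdeal O) O] [Fintype (ResidueField O)] [CharP (ResidueField O) 2]

local notation "k" => ResidueField O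

variable (S : Setting (ResidueField O)) (Q0 : Finset ℕ)

/-- The local conditions on a carried algebra. -/
structure Setting.Conds (U : Set ℕ) (C : Carried (O := O) S.r ↥Q0) : Prop where
  unr : ∀ l : ℕ, l.Prime → l ≠ 2 → ¬ l ∣ S.Q.D → l ∉ Q0 → l ∉ U → ∀ A : ValuationSubring Qb,
    A.LiesOverPrime l → ∀ σ ∈ A.inertiaSubgroupIn ℚ, C.rR σ = 1
  ram : ∀ l : ℕ, l.Prime → l ∣ S.Q.D → ∀ A : ValuationSubring Qb, A.LiesOverPrime l →
    ∀ σ ∈ A.inertiaSubgroupIn ℚ, (C.rR σ - 1) ^ 2 = 0
  det_two : ∀ A : ValuationSubring Qb, A.LiesOverPrime 2 → ∀ σ ∈ A.inertiaSubgroupIn ℚ,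
    ∃ a : O, (C.rR σ).det = algebraMap O C.R a
  flat : ∀ A : ValuationSubring Qb, A.LiesOverPrime 2 →
    HasFlatModels (ofMatrix C.rR C.cont) A
  aux : ∀ q : ↥Q0, ∀ A : ValuationSubring Qb, A.LiesOverPrime q.1 → ∀ φ : GQ,
    A.IsFrobeniusAt φ q.1 →
    (C.rR φ - ((q.1 : C.R) * C.al q) • (1 : M2 C.R)) * (C.rR φ - C.al q • (1 : M2 C.R)) = 0 ∧
      ∀ σ ∈ A.inertiaSubgroupIn ℚ,
        (C.rR φ - ((q.1 : C.R) * C.al q) • (1 : M2 C.R)) * (C.rR σ - 1) = 0 ∧
        (C.rR σ - 1) * (C.rR φ - C.al q • (1 : M2 C.R)) = 0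

variable {S Q0} {U : Set ℕ} {C : Carried (O := O) S.r ↥Q0}

theorem tgVal_one (d : ↥(tangent C.π O)) {σ : GQ} (h : C.rR σ = 1) :
    tgVal C.rR S.r d σ = 0 := by
  have : (C.rR σ).map d.1 = 0 := by
    rw [h]
    refine Matrix.ext fun i l => ?_
    rcases eq_or_ne i l with rfl | hne
    · rw [Matrix.map_apply, Matrix.one_apply_eq, ← map_one (algebraMap O C.R), d.2.2.2]; rfl
    · rw [Matrix.map_apply, Matrix.one_apply_ne hne, ← map_zero (algebraMap O C.R), d.2.2.2]; rfl
  rw [tgVal, this, Matrix.zero_mul]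

theorem map_tangent_one (d : ↥(tangent C.π O)) : (1 : M2 C.R).map d.1 = 0 := by
  refine Matrix.ext fun i l => ?_
  rcases eq_or_ne i l with rfl | hne
  · rw [Matrix.map_apply, Matrix.one_apply_eq, ← map_one (algebraMap O C.R), d.2.2.2]; rfl
  · rw [Matrix.map_apply, Matrix.one_apply_ne hne, ← map_zero (algebraMap O C.R), d.2.2.2]; rfl

theorem map_tangent_sub_smul (d : ↥(tangent C.π O)) (σ : GQ) (a : C.R) :
    (C.rR σ - a • (1 : M2 C.R)).map d.1 = tgVal C.rR S.r d σ * S.r σ - d.1 a • 1 := by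
  rw [tgVal_mul_rb]
  refine Matrix.ext fun i l => ?_
  simp only [Matrix.map_apply, Matrix.sub_apply, Matrix.smul_apply, smul_eq_mul]
  rw [← tangentHom_apply, map_sub, tangentHom_apply, tangentHom_apply, d.2.2.1]
  rcases eq_or_ne i l with rfl | hne
  · rw [Matrix.one_apply_eq, Matrix.one_apply_eq, map_one, ← map_one (algebraMap O C.R), d.2.2.2]
    ring
  · rw [Matrix.one_apply_ne hne, Matrix.one_apply_ne hne, map_zero,
      ← map_zero (algebraMap O C.R), d.2.2.2]
    ring

theorem tangent_apply_one (d : ↥(tangent C.π O)) : d.1 1 = 0 := by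
  rw [← map_one (algebraMap O C.R)]
  exact d.2.2.2 1

theorem map_tangent_sub_one (d : ↥(tangent C.π O)) (σ : GQ) :
    (C.rR σ - 1).map d.1 = tgVal C.rR S.r d σ * S.r σ := by
  have e := map_tangent_sub_smul d σ 1
  rwa [one_smul, tangent_apply_one, zero_smul, sub_zero] at e

theorem map_pi_sub_smul (σ : GQ) (a : C.R) :
    (C.rR σ - a • (1 : M2 C.R)).map C.π = S.r σ - C.π a • 1 := by
  rw [← map_lift C.lift σ]
  refine Matrix.ext fun i l => ?_
  simp only [Matrix.map_apply, Matrix.sub_apply, Matrix.smul_apply, smul_eq_mul, map_sub, map_mul]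
  rcases eq_or_ne i l with rfl | hne
  · rw [Matrix.one_apply_eq, Matrix.one_apply_eq, map_one]
  · rw [Matrix.one_apply_ne hne, Matrix.one_apply_ne hne, map_zero]

theorem map_pi_sub_one (σ : GQ) : (C.rR σ - 1).map C.π = S.r σ - 1 := by
  have e := map_pi_sub_smul (C := C) σ 1
  rwa [one_smul, map_one, one_smul] at e

theorem natCast_eq_one {q : ℕ} (hq : q.Prime) (hq2 : q ≠ 2) : (q : k) = 1 := by
  obtain ⟨i, rfl⟩ := hq.odd_of_ne_two hq2
  push_cast
  rw [two_eq_zero, zero_mul, zero_add]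

theorem Setting.Conds.aux_class (h : S.Conds Q0 U C) (hQ0 : S.IsAuxSet ∅ Q0)
    (d : ↥(tangent C.π O)) (q : ↥Q0) (A : ValuationSubring Qb) (hA : A.LiesOverPrime q.1)
    (φ : GQ) (hφ : A.IsFrobeniusAt φ q.1) :
    (∃ a b : k, tgVal C.rR S.r d φ = a • 1 + b • ext2 k (S.r0 φ)) ∧
      ∀ σ ∈ A.inertiaSubgroupIn ℚ, ∃ u : k, tgVal C.rR S.r d σ = u • (1 + ext2 k (S.r0 φ)) := by
  obtain ⟨hq, hq2, hqD, -, hT⟩ := hQ0 q.1 q.2
  obtain ⟨hΦ, hI⟩ := h.aux q A hA φ hφ
  have hq1 : (q.1 : k) = 1 := natCast_eq_one hq hq2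
  have hal : C.π (C.al q) = 1 := C.π_al q
  have hqal : C.π ((q.1 : C.R) * C.al q) = 1 := by rw [map_mul, map_natCast, hq1, one_mul, hal]
  have hdq : d.1 ((q.1 : C.R) * C.al q) = d.1 (C.al q) := by
    rw [d.2.2.1, map_natCast, hq1, one_mul, hal, ← map_natCast (algebraMap O C.R), d.2.2.2]
    ring
  refine ⟨?_, fun σ hσ => ?_⟩
  · have h1 := congrArg (fun M : M2 C.R => M.map d.1) hΦ
    simp only [map_tangent_mul, map_tangent_sub_smul, map_pi_sub_smul, hqal, hal, hdq, one_smul]
      at h1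
    rw [Matrix.map_zero _ (by rw [← map_zero (algebraMap O C.R), d.2.2.2])] at h1
    refine exists_span_of_anti (hT A hA φ hφ) ?_
    refine Eq.trans ?_ h1
    exact (anti_shift _ _ _).symm
  · obtain ⟨h1, h2⟩ := hI σ hσ
    have hr1 : S.r σ = 1 := by rw [Setting.r_apply, S.unr q.1 hq hq2 hqD A hA σ hσ, map_one]
    have hsub : (C.rR σ - 1).map d.1 = tgVal C.rR S.r d σ := by
      rw [map_tangent_sub_one, hr1, mul_one]
    have hsubπ : (C.rR σ - 1).map C.π = 0 := by
      rw [map_pi_sub_one, hr1, sub_self]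
    have e1 := congrArg (fun M : M2 C.R => M.map d.1) h1
    have e2 := congrArg (fun M : M2 C.R => M.map d.1) h2
    simp only [map_tangent_mul, hsub, hsubπ, map_pi_sub_smul, hqal, hal, one_smul, mul_zero,
      zero_mul, add_zero, zero_add] at e1 e2
    rw [Matrix.map_zero _ (by rw [← map_zero (algebraMap O C.R), d.2.2.2])] at e1 e2
    exact exists_smul_of_killed (hT A hA φ hφ) e1 e2

theorem Setting.Conds.ram_class (h : S.Conds Q0 U C) (d : ↥(tangent C.π O)) {l : ℕ} (hl : l.Prime)
    (hlD : l ∣ S.Q.D) {A : ValuationSubring Qb} (hA : A.LiesOverPrime l) :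
    ∃ X, ∀ σ ∈ A.inertiaSubgroupIn ℚ, tgVal C.rR S.r d σ = S.act σ X - X := by
  have hl2 : l ≠ 2 := fun e => S.odd (e ▸ hlD)
  let f : GQ →* M2 (DualNumber k) := mapRep (tgPoint C.π_algebraMap d : C.R →+* DualNumber k) C.rR
  have hfo : IsOpen (f.ker : Set GQ) := by
    obtain ⟨L, hL, hn⟩ := C.cont 2
    refine Subgroup.isOpen_mono (H₁ := L.fixingSubgroup) (fun τ hτ => ?_)
      (IntermediateField.fixingSubgroup_isOpen L)
    refine MonoidHom.mem_ker.mpr (Matrix.ext fun i j => ?_)
    have h2 := hn τ ((IntermediateField.mem_fixingSubgroup_iff L τ).mp hτ) i j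
    have h0 : tgPoint C.π_algebraMap d ((C.rR τ - 1) i j) = 0 := by
      refine TrivSqZeroExt.ext ?_ ?_
      · rw [fst_tgPoint, TrivSqZeroExt.fst_zero, ← RingHom.mem_ker,
          ker_eq_maximalIdeal C.π_surjective]
        exact Ideal.pow_le_self two_ne_zero h2
      · rw [snd_tgPoint, TrivSqZeroExt.snd_zero, tangent_eq_zero_of_pow_two C.π_surjective d h2]
    rw [Matrix.sub_apply, map_sub, sub_eq_zero] at h0
    show tgPoint C.π_algebraMap d (C.rR τ i j) = _
    rw [h0]
    rcases eq_or_ne i j with rfl | hne <;> simp [*]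
  have hsq : ∀ σ ∈ A.inertiaSubgroupIn ℚ, f σ ^ 2 = 1 := by
    intro σ hσ
    have e : (f σ - 1) ^ 2 = 0 := by
      show ((tgPoint C.π_algebraMap d).toRingHom.mapMatrix (C.rR σ) - 1) ^ 2 = 0
      rw [← map_one ((tgPoint C.π_algebraMap d).toRingHom.mapMatrix (m := Fin 2)), ← map_sub,
        ← map_pow, h.ram l hl hlD A hA σ hσ, map_zero]
    have h20 : (2 : M2 (DualNumber k)) = 0 := by
      rw [← map_ofNat (algebraMap k (M2 (DualNumber k))) 2, two_eq_zero, map_zero]
    calc f σ ^ 2 = (f σ - 1) ^ 2 + 2 * f σ - 1 := by noncomm_ring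
      _ = 1 := by rw [e, h20, zero_mul, zero_add, zero_sub]; rw [← sub_eq_zero]
                  rw [show (-1 : M2 (DualNumber k)) - 1 = -(2 * 1) by noncomm_ring, h20, zero_mul,
                    neg_zero]
  obtain ⟨t, ht, hgen⟩ := FA.TW.exists_gen_inertia_image Nat.prime_two hl (Ne.symm hl2) hA f hfo
    fun σ hσ => ⟨1, by rw [pow_one]; exact hsq σ hσ⟩
  have hcases : ∀ σ ∈ A.inertiaSubgroupIn ℚ, f σ = 1 ∨ f σ = f t := by
    intro σ hσ
    obtain ⟨i, hi⟩ := hgen σ hσ
    rw [hi]
    obtain ⟨j, rfl | rfl⟩ := Nat.even_or_odd' i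
    · exact Or.inl (by rw [pow_mul, hsq t ht, one_pow])
    · exact Or.inr (by rw [pow_succ, pow_mul, hsq t ht, one_pow, one_mul])
  have hval : ∀ σ τ : GQ, f σ = f τ → S.r σ = S.r τ ∧
      tgVal C.rR S.r d σ = tgVal C.rR S.r d τ := by
    intro σ τ hστ
    have he : ∀ i j, tgPoint C.π_algebraMap d (C.rR σ i j) = tgPoint C.π_algebraMap d (C.rR τ i j) :=
      fun i j => congrFun (congrFun hστ i) j
    have hr : S.r σ = S.r τ := by
      rw [← map_lift C.lift σ, ← map_lift C.lift τ]
      refine Matrix.ext fun i j => ?_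
      have := congrArg TrivSqZeroExt.fst (he i j)
      rwa [fst_tgPoint, fst_tgPoint] at this
    refine ⟨hr, ?_⟩
    have hm : (C.rR σ).map d.1 = (C.rR τ).map d.1 := Matrix.ext fun i j => by
      have := congrArg TrivSqZeroExt.snd (he i j)
      rwa [snd_tgPoint, snd_tgPoint] at this
    have hi : S.r σ⁻¹ = S.r τ⁻¹ :=
      left_inv_eq_right_inv (a := S.r σ) (by rw [← map_mul, inv_mul_cancel, map_one])
        (by rw [hr, ← map_mul, mul_inv_cancel, map_one])
    rw [tgVal, tgVal, hm, hi]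
  obtain ⟨t₀, ht₀, hT₀, -⟩ := S.exists_inertia_transp hl hlD hA
  have hinj : Function.Injective (ext2 k) := fun a b e => Matrix.ext fun i j =>
    (ZMod.castHom (dvd_refl 2) k).injective (congrFun (congrFun e i) j)
  have hT : IsTransp (S.r0 t) := by
    rcases hcases t₀ ht₀ with e | e
    · exfalso
      have h1 := (hval t₀ 1 (e.trans (map_one f).symm)).1
      rw [map_one, Setting.r_apply, ← map_one (ext2 k)] at h1
      exact hT₀.1 (hinj h1)
    · rw [← hinj (hval t₀ t e).1]
      exact hT₀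
  have hM : (ext2 k (S.r0 t) - 1) * (tgVal C.rR S.r d t * ext2 k (S.r0 t)) +
      tgVal C.rR S.r d t * ext2 k (S.r0 t) * (ext2 k (S.r0 t) - 1) = 0 := by
    have h1 := congrArg (fun M : M2 C.R => M.map d.1) (h.ram l hl hlD A hA t ht)
    simp only [pow_two] at h1
    simp only [map_tangent_mul, map_tangent_sub_one, map_pi_sub_one] at h1
    rw [Matrix.map_zero _ (by rw [← map_zero (algebraMap O C.R), d.2.2.2])] at h1
    exact h1
  obtain ⟨a, b, hab⟩ := exists_span_of_anti hT hM
  obtain ⟨X, hX⟩ := exists_cob_of_span hT a b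
  refine ⟨X, fun σ hσ => ?_⟩
  rcases hcases σ hσ with e | e
  · obtain ⟨hr, hc⟩ := hval σ 1 (e.trans (map_one f).symm)
    rw [hc, tgVal_one d (map_one _)]
    have hσ1 : S.r0 σ = 1 := hinj (by rw [← Setting.r_apply, hr, map_one, map_one])
    rw [S.act_of_one hσ1, sub_self]
  · obtain ⟨hr, hc⟩ := hval σ t e
    have hσt : S.r0 σ = S.r0 t := hinj hr
    rw [hc, S.act_of_transp (hσt ▸ hT), hσt, hab, hX]

theorem Setting.Conds.isClass (h : S.Conds Q0 U C) (hQ0 : S.IsAuxSet ∅ Q0)
    (d : ↥(tangent C.π O)) : S.IsClass Q0 U (tgVal C.rR S.r d) where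
  coc g g' := by
    rw [tgVal_mul C.lift, add_comm]
    rfl
  lc := by
    obtain ⟨L, hL, hn⟩ := C.cont 2
    refine ⟨L.fixingSubgroup, IntermediateField.fixingSubgroup_isOpen L, fun g s hs => ?_⟩
    have hs0 : tgVal C.rR S.r d s = 0 := by
      have hmap : (C.rR s).map d.1 = 0 := by
        refine Matrix.ext fun i j => ?_
        have h1 := tangent_eq_zero_of_pow_two C.π_surjective d
          (hn s ((IntermediateField.mem_fixingSubgroup_iff L s).mp hs) i j)
        have hone : d.1 ((1 : M2 C.R) i j) = 0 := congrFun (congrFun (map_tangent_one d) i) j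
        rw [Matrix.sub_apply, ← tangentHom_apply, map_sub, tangentHom_apply, tangentHom_apply,
          hone, sub_zero] at h1
        exact h1
      rw [tgVal, hmap, Matrix.zero_mul]
    rw [tgVal_mul C.lift, hs0, mul_zero, zero_mul, zero_add]
  unr l hl hl2 hlD hlQ hlU A hA σ hσ := tgVal_one d (h.unr l hl hl2 hlD hlQ hlU A hA σ hσ)
  ram l hl hlD A hA := h.ram_class d hl hlD hA
  two A hA := by
    refine ⟨fun σ _ τ _ => by rw [tgVal_mul C.lift, add_comm], fun σ hσ => ?_, ?_⟩
    · obtain ⟨a, ha⟩ := h.det_two A hA σ hσ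
      have hd0 : d.1 ((C.rR σ).det) = 0 := by rw [ha, d.2.2.2]
      rw [Matrix.det_fin_two, ← tangentHom_apply, map_sub, tangentHom_apply, tangentHom_apply,
        d.2.2.1, d.2.2.1] at hd0
      have hb : ∀ i j, C.π (C.rR σ i j) = S.r σ i j := fun i j =>
        congrFun (congrFun (map_lift C.lift σ) i) j
      simp only [hb] at hd0
      rw [tgVal, Setting.r_apply]
      have hd1 : (S.r0 σ).det = 1 := by
        rcases six_cases (S.det_ne σ) with e | e | e | e | e | e <;> rw [e] <;> decide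
      have hinv : S.r0 σ⁻¹ = (S.r0 σ).adjugate :=
        left_inv_eq_right_inv (S.inv_mul σ)
          (by rw [Matrix.mul_adjugate, hd1, one_smul])
      rw [hinv, show ext2 k (S.r0 σ).adjugate = (ext2 k (S.r0 σ)).adjugate from
        RingHom.map_adjugate (ZMod.castHom (dvd_refl 2) k) (S.r0 σ),
        Matrix.adjugate_fin_two, Matrix.trace_fin_two]
      simp [Matrix.mul_apply, Fin.sum_univ_two]
      simp only [Setting.r_apply] at hd0
      linear_combination hd0
    · by_cases hd : d = 0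
      · have : tgVal C.rR S.r d = 0 := funext fun σ => by
          rw [tgVal, hd, show (C.rR σ).map (0 : ↥(tangent C.π O)).1 = 0 from Matrix.ext fun i j => rfl,
            Matrix.zero_mul]
          rfl
        rw [this]
        exact isFlatClass_zero (S.flat2 A hA)
      · have hmat : matrixOf (ofMatrix C.rR C.cont) (Pi.basisFun C.R (Fin 2)) = C.rR :=
          matrixOf_ofMatrix C.rR C.cont
        have := isFlatClass_tgVal (ρ := ofMatrix C.rR C.cont) (A := A) C.π_algebraMap
          residue_surjective (b := Pi.basisFun C.R (Fin 2)) (rb := S.r) (by rw [hmat]; exact C.lift)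
          (h.flat A hA) hd
        rwa [hmat] at this
  aux q hq A hA φ hφ := h.aux_class hQ0 d ⟨q, hq⟩ A hA φ hφ

theorem tangent_eq_zero_of_al_of_cob (d : ↥(tangent C.π O)) (hal : ∀ q, d.1 (C.al q) = 0)
    (X : M2 k) (hX : ∀ g, tgVal C.rR S.r d g = S.act g X - X) : d = 0 := by
  have htr : ∀ σ, d.1 (C.rR σ).trace = 0 := by
    intro σ
    have h1 : (C.rR σ).map d.1 = S.r σ * X - X * S.r σ := by
      rw [← tgVal_mul_rb C.rR S.r d σ, hX σ]
      show (S.r σ * X * S.r σ⁻¹ - X) * S.r σ = _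
      rw [sub_mul, mul_assoc _ (S.r σ⁻¹), map_inv_mul_map, mul_one]
    have h2 := congrArg Matrix.trace h1
    rw [Matrix.trace_sub, Matrix.trace_mul_comm (S.r σ), sub_self, Matrix.trace_fin_two] at h2
    rw [Matrix.trace_fin_two, d.2.1]
    exact h2
  have hall : ∀ x ∈ Algebra.adjoin O ((Set.range fun σ => (C.rR σ).trace) ∪ Set.range C.al),
      d.1 x = 0 := by
    intro x hx
    induction hx using Algebra.adjoin_induction with
    | mem y hy =>
      rcases hy with ⟨σ, rfl⟩ | ⟨q, rfl⟩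
      · exact htr σ
      · exact hal q
    | algebraMap c => exact d.2.2.2 c
    | add y z _ _ hy hz => rw [d.2.1, hy, hz, add_zero]
    | mul y z _ _ hy hz => rw [d.2.2.1, hy, hz, mul_zero, mul_zero, add_zero]
  exact Subtype.ext (funext fun x => hall x (C.generated ▸ Algebra.mem_top))

/-- **Generators of the carried algebra.** -/
theorem Setting.Conds.exists_generators (h : S.Conds Q0 U C)
    (hQ0 : S.IsAuxSet ∅ Q0) {r : ℕ}
    (hbound : ∀ (W : Type) [AddCommGroup W] [Module k W] (κ : W →ₗ[k] (GQ → M2 k)),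
      (∀ t, S.IsClass Q0 U (κ t)) → (∀ t X, (∀ g, κ t g = S.act g X - X) → t = 0) →
      FiniteDimensional k W ∧ Module.finrank k W + Q0.card ≤ 2 * r) :
    ∃ x : Fin (2 * r) → C.R, ∃ hx : ∀ i, x i ∈ maximalIdeal C.R,
      Function.Surjective (FA.Patch.evalHom (maximalIdeal C.R) (algebraMap O C.R) x hx :
        MvPowerSeries (Fin (2 * r)) O →+* C.R) := by
  classical
  let ev : ↥(tangent C.π O) →ₗ[k] (↥Q0 → k) :=
    { toFun := fun d q => d.1 (C.al q)
      map_add' := fun _ _ => rfl
      map_smul' := fun _ _ => rfl }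
  let W := LinearMap.ker ev
  let κ : W →ₗ[k] (GQ → M2 k) :=
    { toFun := fun d => tgVal C.rR S.r d.1
      map_add' := fun d d' => funext fun σ => by
        show (C.rR σ).map (d.1.1 + d'.1.1) * _ = (C.rR σ).map d.1.1 * _ + (C.rR σ).map d'.1.1 * _
        rw [← Matrix.add_mul]
        rfl
      map_smul' := fun c d => funext fun σ => by
        show (C.rR σ).map (c • d.1.1) * _ = c • ((C.rR σ).map d.1.1 * _)
        rw [← Matrix.smul_mul]
        rfl }
  obtain ⟨hfd, hle⟩ := hbound W κ (fun t => h.isClass hQ0 t.1) fun t X hX =>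
    Subtype.ext (tangent_eq_zero_of_al_of_cob t.1 (fun q => congrFun t.2 q) X hX)
  have : Module.Finite k (↥(tangent C.π O) ⧸ W) := Module.Finite.equiv ev.quotKerEquivRange.symm
  have : FiniteDimensional k ↥(tangent C.π O) := Module.Finite.of_submodule_quotient W
  have hdim : Module.finrank k (⊤ : Submodule k ↥(tangent C.π O)) ≤ 2 * r := by
    rw [finrank_top, ← ev.finrank_range_add_finrank_ker]
    have := Submodule.finrank_le (LinearMap.range ev)
    rw [Module.finrank_pi, Fintype.card_coe] at this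
    have hW : Module.finrank k W = Module.finrank k (LinearMap.ker ev) := rfl
    omega
  obtain ⟨ϖ, hϖ⟩ := IsDiscreteValuationRing.exists_irreducible O
  obtain ⟨x, hx, hsurj⟩ := FA.Patch.exists_extra_generators C.π (red := algebraMap O k)
    residue_surjective C.π_algebraMap
    (ϖ := ϖ) (by rw [show algebraMap O k = residue O from rfl, ker_residue, hϖ.maximalIdeal_eq])
    (Fin.elim0 : Fin 0 → C.R) (fun i => i.elim0) ⊤ hdim (fun _ _ => Submodule.mem_top)
  have hx' : ∀ i, x i ∈ maximalIdeal C.R := fun i => by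
    simpa using hx (Fin.natAdd 0 i)
  refine ⟨x, hx', fun y => ?_⟩
  obtain ⟨s, rfl⟩ := hsurj y
  let e := MvPowerSeries.renameEquiv O (finCongr (Nat.zero_add (2 * r)))
  have hloc : ∀ i, (MvPowerSeries.X (finCongr (Nat.zero_add (2 * r)) i) :
      MvPowerSeries (Fin (2 * r)) O) ∈ maximalIdeal (MvPowerSeries (Fin (2 * r)) O) := fun i =>
    FA.Patch.mem_maximalIdeal_iff_coeff.mpr (by simp)
  let g := FA.Patch.evalHom (maximalIdeal (MvPowerSeries (Fin (2 * r)) O))
    (MvPowerSeries.C (σ := Fin (2 * r)) (R := O))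
    (fun i => MvPowerSeries.X (finCongr (Nat.zero_add (2 * r)) i)) hloc
  refine ⟨g s, RingHom.congr_fun (FA.Patch.mvPowerSeries_hom_ext (maximalIdeal C.R)
    (f := (FA.Patch.evalHom (maximalIdeal C.R) (algebraMap O C.R) x hx').comp g)
    (fun c => ?_) (fun i => ?_) fun i => ?_) s⟩
  · simp only [g, RingHom.coe_comp, Function.comp_apply, FA.Patch.evalHom_C]
  · simp only [g, RingHom.coe_comp, Function.comp_apply, FA.Patch.evalHom_X]
    induction i using Fin.addCases with
    | left i => exact i.elim0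
    | right i =>
      rw [Fin.append_right]
      congr 1
      ext
      simp
  · simp only [g, RingHom.coe_comp, Function.comp_apply, FA.Patch.evalHom_X]
    exact hx' _

end FA.Two
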