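import Fermat.Agent.Two.Setting
import Fermat.Agent.Two.LocalInv
import Fermat.Agent.GalCoh.Reciprocity

/-!
# The pairing of two classes with values in the two dimensional part

An element ramified at a new auxiliary prime at which the other class is not in the line has a
pairing with exactly one nonzero local invariant, against the reciprocity law.
-/

set_option autoImplicit false
set_option linter.unusedSectionVars false

noncomputable section

open Matrix FA.GalCoh
open scoped Pointwise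

namespace FA.Two

local notation "Qb" => AlgebraicClosure ℚ
local notation "M2" k:max => Matrix (Fin 2) (Fin 2) k

variable {k : Type} [Field k] [Fintype k] [CharP k 2] [Algebra (ZMod 2) k] (S : Setting k)

/-- The adjoint over `𝔽₂`. -/
def Setting.rho : Representation (ZMod 2) GQ (M2 k) where
  toFun g := (S.act g).restrictScalars (ZMod 2)
  map_one' := LinearMap.ext fun X => S.act_one X
  map_mul' g h := LinearMap.ext fun X => S.act_mul g h X

lemma rho_apply (g : GQ) (X : M2 k) : S.rho g X = S.act g X := rfl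

/-- The trace form followed by a functional. -/
def pairE (e : k →ₗ[ZMod 2] ZMod 2) : (M2 k) →ₗ[ZMod 2] (M2 k) →ₗ[ZMod 2] ZMod 2 :=
  LinearMap.mk₂ (ZMod 2) (fun X Y => e (X * Y).trace)
    (fun X X' Y => by rw [add_mul, trace_add, map_add])
    (fun c X Y => by rw [smul_mul_assoc, trace_smul, map_smul])
    (fun X Y Y' => by rw [mul_add, trace_add, map_add])
    fun c X Y => by rw [mul_smul_comm, trace_smul, map_smul]

lemma pairE_apply (e : k →ₗ[ZMod 2] ZMod 2) (X Y : M2 k) : pairE e X Y = e (X * Y).trace := rfl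

lemma Setting.trace_act_mul (g : GQ) (X Y : M2 k) :
    (S.act g X * S.act g Y).trace = (X * Y).trace := by
  have h : S.act g X * S.act g Y = S.act g (X * Y) := by
    have e : ext2 k (S.r0 g⁻¹) * ext2 k (S.r0 g) = 1 := by rw [← map_mul, S.inv_mul, map_one]
    simp only [Setting.act_apply]
    calc _ = ext2 k (S.r0 g) * X * (ext2 k (S.r0 g⁻¹) * ext2 k (S.r0 g)) * (Y * ext2 k (S.r0 g⁻¹)) := by
          noncomm_ring
      _ = _ := by rw [e]; noncomm_ring
  rw [h, S.trace_act]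

lemma bil_pairE (e : k →ₗ[ZMod 2] ZMod 2) : Bil S.rho S.rho (chr (cycQ 2).χ) (pairE e) :=
  fun g X Y => by
  rw [chr_apply, show (cycQ 2).χ g = 1 from Subsingleton.elim _ _, Units.val_one, one_mul,
    pairE_apply, pairE_apply, rho_apply, rho_apply, S.trace_act_mul]

lemma bil_pairE_loc (l : ℕ) [Fact l.Prime] (e : k →ₗ[ZMod 2] ZMod 2) :
    Bil (S.rho.comp (loc l)) (S.rho.comp (loc l)) (chr (cycL 2 l).χ) (pairE e) :=
  fun g X Y => bil_pairE S e (loc l g) X Y

lemma smooth_rho : Smooth LQ S.rho :=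
  ⟨S.r0.ker, mem_LQ_iff_isOpen.2 S.ker_open, fun s hs => LinearMap.ext fun X => S.act_of_one hs X⟩

lemma smooth_rho_loc (l : ℕ) [Fact l.Prime] : Smooth (LL l) (S.rho.comp (loc l)) :=
  smooth_resq (smooth_rho S) l

namespace Setting

variable {S} {Q : Finset ℕ}

/-- A class as a cocycle. -/
def IsV.toZ1 {z : GQ → M2 k} (hz : S.IsV Q z) : ↥(Z1 LQ S.rho) :=
  ⟨z, (by obtain ⟨N, hN, h⟩ := hz.lc; exact ⟨N, mem_LQ_iff_isOpen.2 hN, h⟩), fun g h => by
    rw [hz.coc g h, rho_apply, add_comm]⟩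

/-- The restriction to a decomposition group. -/
def IsV.locZ1 {z : GQ → M2 k} (hz : S.IsV Q z) (l : ℕ) [Fact l.Prime] :
    ↥(Z1 (LL l) (S.rho.comp (loc l))) :=
  mapZ1 compat_loc (Equi.res (loc l) S.rho) hz.toZ1

lemma IsV.locZ1_apply {z : GQ → M2 k} (hz : S.IsV Q z) (l : ℕ) [Fact l.Prime] (g : LG l) :
    (hz.locZ1 l).1 g = z (loc l g) := rfl

variable (S) in
/-- The class of the pairing. -/
def pairing (e : k →ₗ[ZMod 2] ZMod 2) (a b : ↥(Z1 LQ S.rho)) : H2 LQ (chr (cycQ 2).χ) :=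
  (bil_pairE S e).cupz (smooth_rho S) a b

lemma invQ_pairing (e : k →ₗ[ZMod 2] ZMod 2) (l : ℕ) [Fact l.Prime] {x z : GQ → M2 k}
    (hx : S.IsV Q x) {Q' : Finset ℕ} (hz : S.IsV Q' z) :
    invQ 2 l (S.pairing e hx.toZ1 hz.toZ1) = localInv (cycL 2 l)
      ((bil_pairE_loc S l e).cupz (smooth_rho_loc S l) (hx.locZ1 l) (hz.locZ1 l)) := by
  show localInv (cycL 2 l) (map2 compat_loc (equi_loc_chr l) _) = _
  exact congrArg (localInv (cycL 2 l)) <| (bil_pairE S e).map2_cup (smooth_rho S)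
    (bil_pairE_loc S l e) (smooth_rho_loc S l) compat_loc (Equi.res (loc l) S.rho)
    (Equi.res (loc l) S.rho) (equi_loc_chr l) (fun _ _ => rfl) (mk1 LQ S.rho hx.toZ1)
    (mk1 LQ S.rho hz.toZ1)

/-- The self pairing is a coboundary: `det` is a quadratic refinement. -/
lemma cupz_self {l : ℕ} [Fact l.Prime] (e : k →ₗ[ZMod 2] ZMod 2)
    (a : ↥(Z1 (LL l) (S.rho.comp (loc l)))) (htr : ∀ g, (a.1 g).trace = 0) :
    (bil_pairE_loc S l e).cupz (smooth_rho_loc S l) a a = 0 := by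
  refine (mk2_eq_zero (LL l) (chr (cycL 2 l).χ) _).2
    ⟨fun g => e (a.1 g).det, a.2.1.comp fun X => e X.det, funext fun ⟨g, h⟩ => ?_⟩
  rw [d1_apply, chr_apply, show (cycL 2 l).χ g = 1 from Subsingleton.elim _ _, Units.val_one,
    one_mul]
  show _ = e (a.1 g * S.act (loc l g) (a.1 h)).trace
  rw [← map_sub, ← map_add, a.2.2 g h]
  congr 1
  show (a.1 h).det - (S.act (loc l g) (a.1 h) + a.1 g).det + (a.1 g).det = _
  set Y := S.act (loc l g) (a.1 h) with hY
  have hdY : Y.det = (a.1 h).det := by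
    rw [hY, act_apply, det_mul, det_mul, mul_right_comm, ← det_mul, ← map_mul, S.mul_inv, map_one,
      det_one, one_mul]
  have htY : Y.trace = 0 := by rw [hY, S.trace_act, htr]
  rw [← hdY]
  have htg := htr g
  rw [trace_fin_two] at htg htY ⊢
  simp only [det_fin_two, Matrix.add_apply, Matrix.mul_apply, Fin.sum_univ_two]
  grind [two_eq_zero (k := k)]

/-- A relation over `k` between two classes makes their pairing vanish. -/
lemma cupz_of_dep {l : ℕ} [Fact l.Prime] (e : k →ₗ[ZMod 2] ZMod 2)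
    (a b : ↥(Z1 (LL l) (S.rho.comp (loc l)))) (htr : ∀ g, (a.1 g).trace = 0) {c d : k}
    (hcd : (c, d) ≠ 0) {X : M2 k} (h : ∀ g, c • a.1 g + d • b.1 g = S.act (loc l g) X - X) :
    (bil_pairE_loc S l e).cupz (smooth_rho_loc S l) a b = 0 := by
  by_cases hd : d = 0
  · have hc : c ≠ 0 := fun hc => hcd (by rw [hc, hd]; rfl)
    refine (bil_pairE_loc S l e).cupz_d0_left _ (c⁻¹ • X) a (funext fun g => ?_) b
    show S.act (loc l g) (c⁻¹ • X) - c⁻¹ • X = a.1 g
    rw [map_smul, ← smul_sub, ← h g, hd, zero_smul, add_zero, smul_smul, inv_mul_cancel₀ hc, one_smul]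
  · let dX : ↥(Z1 (LL l) (S.rho.comp (loc l))) := ⟨d0 (S.rho.comp (loc l)) (d⁻¹ • X),
      ((smooth_rho_loc S l).lc_apply _).comp (fun v => v - d⁻¹ • X), fun g h => by
        simp only [d0_apply, map_mul, Module.End.mul_apply, map_sub]
        abel⟩
    have hb : ∀ g, b.1 g = (d⁻¹ * c) • a.1 g + dX.1 g := fun g => by
      show _ = _ + (S.act (loc l g) (d⁻¹ • X) - d⁻¹ • X)
      rw [map_smul, ← smul_sub, ← h g, smul_add, smul_smul, smul_smul, inv_mul_cancel₀ hd, one_smul,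
        ← add_assoc, ← two_smul k ((d⁻¹ * c) • a.1 g), two_eq_zero, zero_smul, zero_add]
    set e' : k →ₗ[ZMod 2] ZMod 2 := e.comp (LinearMap.mulLeft (ZMod 2) (d⁻¹ * c)) with he'
    have key : (bil_pairE_loc S l e).cupz (smooth_rho_loc S l) a b =
        (bil_pairE_loc S l e').cupz (smooth_rho_loc S l) a a +
          (bil_pairE_loc S l e).cupz (smooth_rho_loc S l) a dX := by
      refine (congrArg (mk2 (LL l) (chr (cycL 2 l).χ)) (Subtype.ext (funext fun x => ?_))).trans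
        (map_add (mk2 (LL l) (chr (cycL 2 l).χ)) _ _)
      show e (a.1 x.1 * S.act (loc l x.1) (b.1 x.2)).trace =
        e' (a.1 x.1 * S.act (loc l x.1) (a.1 x.2)).trace +
          e (a.1 x.1 * S.act (loc l x.1) (dX.1 x.2)).trace
      rw [hb x.2, map_add, mul_add, trace_add, map_add, map_smul, mul_smul_comm, trace_smul]
      rfl
    rw [key, cupz_self e' a htr, (bil_pairE_loc S l e).cupz_d0_right _ a (d⁻¹ • X) dX rfl,
      add_zero]

/-- Classes whose values lie in a common line pair to zero. -/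
lemma cupz_line {l : ℕ} [Fact l.Prime] (e : k →ₗ[ZMod 2] ZMod 2)
    (a b : ↥(Z1 (LL l) (S.rho.comp (loc l)))) {t : GQ} (hT : IsTransp (S.r0 t))
    (hfix : ∀ g : LG l, S.r0 (loc l g) = 1 ∨ S.r0 (loc l g) = S.r0 t)
    (ha : ∀ g, a.1 g ∈ S.line t) (hb : ∀ g, b.1 g ∈ S.line t) :
    (bil_pairE_loc S l e).cupz (smooth_rho_loc S l) a b = 0 := by
  refine (mk2_eq_zero (LL l) (chr (cycL 2 l).χ) _).2 ⟨0, LC₁.const 0, ?_⟩
  rw [map_zero]
  funext x
  show (0 : ZMod 2) = e (a.1 x.1 * S.act (loc l x.1) (b.1 x.2)).trace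
  rw [act_line hT (hfix x.1) (hb x.2)]
  obtain ⟨c, hc⟩ := Submodule.mem_span_singleton.1 (ha x.1)
  obtain ⟨d, hd⟩ := Submodule.mem_span_singleton.1 (hb x.2)
  rw [← hc, ← hd, smul_mul_smul_comm, transp_sq hT, trace_smul, trace_one, Fintype.card_fin,
    Nat.cast_ofNat, two_eq_zero, smul_zero, map_zero]

lemma IsV.trace_eq {z : GQ → M2 k} (hz : S.IsV Q z) (g : GQ) : (z g).trace = 0 := (hz.inV g).trace_eq

variable {x z : GQ → M2 k} {Q' : Finset ℕ}

/-- At two. -/
lemma invQ_two [Fact (Nat.Prime 2)] (e : k →ₗ[ZMod 2] ZMod 2) (hx : S.IsV Q x) (hz : S.IsV Q' z) :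
    invQ 2 2 (S.pairing e hx.toZ1 hz.toZ1) = 0 := by
  rw [invQ_pairing]
  have hA := liesOverPrime_padicPlace 2
  obtain ⟨c₁, hc₁, e₁⟩ := hx.two _ hA
  obtain ⟨c₂, hc₂, e₂⟩ := hz.two _ hA
  obtain ⟨TD⟩ := LocalDef.exists_twoData hA (S.ss2 _ hA) (S.flat2 _ hA)
  obtain ⟨a, b, hab, X, -, -, hX⟩ := LocalDef.flat_two_line hA TD c₁ c₂ hc₁ hc₂
  rw [cupz_of_dep e _ _ (fun g => hx.trace_eq _) hab (X := X) fun g => ?_, map_zero]
  have hg : loc 2 g ∈ (padicPlace 2).decompositionSubgroup ℚ := by rw [← range_loc]; exact ⟨g, rfl⟩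
  rw [IsV.locZ1_apply, IsV.locZ1_apply, e₁ _ hg, e₂ _ hg, ← map_smul, ← map_smul, ← map_add]
  exact hX _ hg

/-- At a ramified prime. -/
lemma invQ_ram (e : k →ₗ[ZMod 2] ZMod 2) {l : ℕ} [hl : Fact l.Prime] (hD : l ∣ S.Q.D)
    (hx : S.IsV Q x) (hz : S.IsV Q' z) : invQ 2 l (S.pairing e hx.toZ1 hz.toZ1) = 0 := by
  rw [invQ_pairing]
  have hA := liesOverPrime_padicPlace l
  obtain ⟨t, ht, hT, himg⟩ := S.exists_inertia_transp hl.out hD hA
  let dC : M2 k → ↥(Z1 (LL l) (S.rho.comp (loc l))) := fun X => ⟨d0 (S.rho.comp (loc l)) X,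
    ((smooth_rho_loc S l).lc_apply _).comp (fun v => v - X), fun g h => by
      simp only [d0_apply, map_mul, Module.End.mul_apply, map_sub]
      abel⟩
  have hfix : ∀ g : LG l, S.r0 (loc l g) = 1 ∨ S.r0 (loc l g) = S.r0 t := fun g => by
    have hg : loc l g ∈ (padicPlace l).decompositionSubgroup ℚ := by rw [← range_loc]; exact ⟨g, rfl⟩
    have hconj := LocalDef.conj_mem_inertia hl.out hA hg ht
    have hTc := S.transp_conj hT (loc l g)
    refine line_cases hT (S.det_ne _) ?_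
    rcases himg _ hconj with h | h
    · exact absurd h hTc.1
    · rw [← S.r0.map_mul, ← S.r0.map_mul, show loc l g * t = loc l g * t * (loc l g)⁻¹ * loc l g by
        group, map_mul S.r0 _ (loc l g), h, map_mul]
  have key : ∀ {w : GQ → M2 k} {Qw : Finset ℕ} (hw : S.IsV Qw w),
      ∃ X : M2 k, ∀ g, (hw.locZ1 l - dC X).1 g ∈ S.line t := fun {w Qw} hw => by
    obtain ⟨X, hXV, hX⟩ := hw.ram l hl.out hD _ hA
    refine ⟨X, fun g => ?_⟩
    set w' : GQ → M2 k := fun g => w g - (S.act g X - X) with hw'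
    show w' (loc l g) ∈ S.line t
    have hc : S.IsCoc w' := fun g h => by
      simp only [hw', hw.coc g h, (IsCoc.cob (S := S) X) g h, map_sub]; abel
    have hI : ∀ σ ∈ (padicPlace l).inertiaSubgroupIn ℚ, w' σ = 0 := fun σ hσ => by
      rw [hw', sub_eq_zero]; exact hX σ hσ
    have hg : loc l g ∈ (padicPlace l).decompositionSubgroup ℚ := by rw [← range_loc]; exact ⟨g, rfl⟩
    have hV : InV (w' (loc l g)) := by
      show InV (w (loc l g) - (S.act (loc l g) X - X))
      rw [CharTwo.sub_eq_add, CharTwo.sub_eq_add]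
      exact (hw.inV _).add ((S.inV_act hXV).add hXV)
    refine mem_line_of_commute hT hV ?_
    rw [← S.act_of_transp hT]
    have h1 := hc t (loc l g)
    rw [hI t ht, zero_add] at h1
    rw [← h1, show t * loc l g = loc l g * ((loc l g)⁻¹ * t * loc l g) by group,
      hc.map_mul_mem (hI _ (LocalDef.conj_inv_mem_inertia hl.out hA hg ht))]
  obtain ⟨X, hX⟩ := key hx
  obtain ⟨Y, hY⟩ := key hz
  have hsplit : (bil_pairE_loc S l e).cupz (smooth_rho_loc S l) (hx.locZ1 l) (hz.locZ1 l) =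
      (bil_pairE_loc S l e).cupz (smooth_rho_loc S l) (hx.locZ1 l - dC X) (hz.locZ1 l - dC Y) := by
    rw [eq_comm]
    simp only [map_sub, LinearMap.sub_apply]
    rw [(bil_pairE_loc S l e).cupz_d0_left _ X (dC X) rfl (hz.locZ1 l),
      (bil_pairE_loc S l e).cupz_d0_left _ X (dC X) rfl (dC Y),
      (bil_pairE_loc S l e).cupz_d0_right _ (hx.locZ1 l) Y (dC Y) rfl, sub_zero, sub_zero,
      sub_zero]
  rw [hsplit, cupz_line e _ _ hT hfix hX hY, map_zero]

/-- Where both are unramified. -/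
lemma invQ_unr (e : k →ₗ[ZMod 2] ZMod 2) {l : ℕ} [hl : Fact l.Prime] (hl2 : l ≠ 2)
    (hD : ¬ l ∣ S.Q.D) (hlQ : l ∉ Q) (hlQ' : l ∉ Q') (hx : S.IsV Q x) (hz : S.IsV Q' z) :
    invQ 2 l (S.pairing e hx.toZ1 hz.toZ1) = 0 := by
  rw [invQ_pairing]
  have hA := liesOverPrime_padicPlace l
  have hunr : UnrRep (S.rho.comp (loc l)) := fun ι hι =>
    LinearMap.ext fun X => S.act_of_one (S.unr l hl.out hl2 hD _ hA _ hι) X
  have hunr' : UnrRep (chr (cycL 2 l).χ) := fun ι _ => LinearMap.ext fun v => by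
    rw [chr_apply, show (cycL 2 l).χ ι = 1 from Subsingleton.elim _ _, Units.val_one, one_mul]; rfl
  have h := cupc_eq_zero_of_unr (bil_pairE_loc S l e) hunr hunr' (smooth_rho_loc S l)
    (smooth_rho_loc S l) (cycL 2 l).smooth_chr
    (x := mk1 (LL l) (S.rho.comp (loc l)) (hx.locZ1 l))
    (y := mk1 (LL l) (S.rho.comp (loc l)) (hz.locZ1 l))
    ⟨_, fun ι hι => hx.unr l hl.out hl2 hD hlQ _ hA _ hι, rfl⟩
    ⟨_, fun ι hι => hz.unr l hl.out hl2 hD hlQ' _ hA _ hι, rfl⟩
  rw [Bil.cup_mk1] at h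
  exact (congrArg (localInv (cycL 2 l)) h).trans (map_zero _)

/-- At an old auxiliary prime. -/
lemma invQ_aux (e : k →ₗ[ZMod 2] ZMod 2) {l : ℕ} [hl : Fact l.Prime] (hl2 : l ≠ 2)
    (hD : ¬ l ∣ S.Q.D) (hlQ : l ∈ Q) (hlQ' : l ∈ Q')
    (hT : ∀ φ : GQ, (padicPlace l).IsFrobeniusAt φ l → IsTransp (S.r0 φ))
    (hx : S.IsV Q x) (hz : S.IsV Q' z) : invQ 2 l (S.pairing e hx.toZ1 hz.toZ1) = 0 := by
  rw [invQ_pairing]
  have hA := liesOverPrime_padicPlace l
  have hφ := frobL_spec l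
  have hg : ∀ g : LG l, loc l g ∈ (padicPlace l).decompositionSubgroup ℚ := fun g => by
    rw [← range_loc]; exact ⟨g, rfl⟩
  rw [cupz_line e _ _ (hT _ hφ) (fun g => (hx.mem_line hl.out hlQ hl2 hD hA hφ (hT _ hφ) (hg g)).1)
    (fun g => (hx.mem_line hl.out hlQ hl2 hD hA hφ (hT _ hφ) (hg g)).2)
    (fun g => (hz.mem_line hl.out hlQ' hl2 hD hA hφ (hT _ hφ) (hg g)).2), map_zero]

/-- At infinity. -/
lemma invInf_pairing (e : k →ₗ[ZMod 2] ZMod 2) (hx : S.IsV Q x) (hz : S.IsV Q' z) :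
    invInf 2 (S.pairing e hx.toZ1 hz.toZ1) = 0 := by
  show (if (2 : ℕ) = 2 then 1 else 0) * (e (x complexConjugation *
    S.act complexConjugation (z complexConjugation)).trace - e (x 1 * S.act 1 (z 1)).trace) = 0
  have hT : IsTransp (S.r0 complexConjugation) := (S.transp_iff _).2 S.conj_not_mem
  have key : ∀ {w : GQ → M2 k} {Qw : Finset ℕ}, S.IsV Qw w →
      w complexConjugation ∈ S.line complexConjugation := fun {w Qw} hw => by
    refine mem_line_of_commute hT (hw.inV _) ?_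
    rw [← S.act_of_transp hT]
    have h := hw.coc complexConjugation complexConjugation
    rw [complexConjugation_mul_self, hw.coc.map_one, eq_comm] at h
    rw [eq_neg_of_add_eq_zero_right h, CharTwo.neg_eq]
  rw [act_line hT (Or.inr rfl) (key hz)]
  obtain ⟨c, hc⟩ := Submodule.mem_span_singleton.1 (key hx)
  obtain ⟨d, hd⟩ := Submodule.mem_span_singleton.1 (key hz)
  rw [← hc, ← hd, smul_mul_smul_comm, transp_sq hT, trace_smul, trace_one, Fintype.card_fin,
    Nat.cast_ofNat, two_eq_zero, smul_zero, hx.coc.map_one, zero_mul, trace_zero, map_zero,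
    sub_zero, mul_zero]

/-- **The reciprocity law forces a class to be unramified at the new prime.** -/
theorem unramified_at_new {q : ℕ} [hq : Fact q.Prime] (hq2 : q ≠ 2) (hD : ¬ q ∣ S.Q.D)
    (hqQ : q ∉ Q) (hQ : ∀ l ∈ Q, ∀ A : ValuationSubring Qb, A.LiesOverPrime l → ∀ φ : GQ,
      A.IsFrobeniusAt φ l → IsTransp (S.r0 φ))
    (hQ' : ∀ l ∈ Q, l ≠ 2 ∧ ¬ l ∣ S.Q.D)
    (hT : IsTransp (S.r0 (loc q (frobL q)))) (hx : S.IsV Q x)
    (hxφ : x (loc q (frobL q)) ∉ S.line (loc q (frobL q))) (hz : S.IsV (insert q Q) z)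
    {ι : LG q} (hι : ι ∈ inertL q) : z (loc q ι) = 0 := by
  by_contra hne
  have hA := liesOverPrime_padicPlace q
  have hφ := frobL_spec q
  have hgD : ∀ g : LG q, loc q g ∈ (padicPlace q).decompositionSubgroup ℚ := fun g => by
    rw [← range_loc]; exact ⟨g, rfl⟩
  set t := loc q (frobL q)
  have hzl : ∀ g : LG q, (S.r0 (loc q g) = 1 ∨ S.r0 (loc q g) = S.r0 t) ∧ z (loc q g) ∈ S.line t :=
    fun g => hz.mem_line hq.out (Finset.mem_insert_self q Q) hq2 hD hA hφ hT (hgD g)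
  choose b hb using fun g : LG q => Submodule.mem_span_singleton.1 (hzl g).2
  have hT0 : ext2 k (S.r0 t) ≠ 0 := fun h0 => by
    have h := transp_sq (k := k) hT
    rw [h0, zero_mul] at h
    exact zero_ne_one h
  have hbhom : ∀ g h, b (g * h) = b g + b h := fun g h => by
    refine smul_left_injective k hT0 ?_
    show b (g * h) • ext2 k (S.r0 t) = (b g + b h) • ext2 k (S.r0 t)
    rw [add_smul, hb, hb, hb, map_mul, hz.coc, act_line hT (hzl g).1 (hzl h).2]
  set u : LG q → k := fun g => (x (loc q g) * ext2 k (S.r0 t)).trace with hu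
  have huhom : ∀ g h, u (g * h) = u g + u h := fun g h => by
    have hfix : S.act (loc q g) (ext2 k (S.r0 t)) = ext2 k (S.r0 t) :=
      act_line hT (hzl g).1 (Submodule.mem_span_singleton_self _)
    simp only [hu, map_mul, hx.coc (loc q g), add_mul, trace_add]
    congr 1
    conv_lhs => rw [← hfix, S.trace_act_mul]
  have hu1 : u 1 = 0 := by
    show (x (loc q 1) * ext2 k (S.r0 t)).trace = 0
    rw [map_one, hx.coc.map_one, zero_mul, trace_zero]
  have hlam : u (frobL q) ≠ 0 := fun h => hxφ ((trace_mul_line hT (hx.inV _)).1 h)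
  have hbι : b ι ≠ 0 := fun h => hne (by rw [← hb ι, h, zero_smul])
  obtain ⟨e, he⟩ : ∃ e : k →ₗ[ZMod 2] ZMod 2, e (u (frobL q) * b ι) ≠ 0 := by
    by_contra h
    push Not at h
    exact mul_ne_zero hlam hbι ((Module.forall_dual_apply_eq_zero_iff (ZMod 2) _).1 h)
  -- the cochain at `q`
  have hu_eq : ∀ g, u g = ZMod.castHom (dvd_refl 2) k (unrChar 2 g) * u (frobL q) := by
    obtain ⟨N, hN, hlc⟩ := hx.lc
    have hN' : N.comap (loc q) ∈ (LL q).carrier := by
      obtain ⟨M, hM, h⟩ := compat_loc (q := q) N (mem_LQ_iff_isOpen.2 hN)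
      exact level_of_le hM h
    obtain ⟨M₁, hM₁, hunr₁⟩ := (unrChar_lc (q := q) (p := 2))
    intro g
    obtain ⟨i, j, hj, m, hm, rfl⟩ := exists_frobL_decomp ((LL q).inf_mem hN' hM₁) g
    have hp : ∀ i : ℕ, u (frobL q ^ i) = (i : k) * u (frobL q) := fun i => by
      induction i with
      | zero => rw [pow_zero, hu1, Nat.cast_zero, zero_mul]
      | succ i ih => rw [pow_succ, huhom, ih, Nat.cast_succ]; ring
    have hpu : ∀ i : ℕ, unrChar 2 (frobL q ^ i) = (i : ZMod 2) := fun i => by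
      induction i with
      | zero => rw [pow_zero, unrChar_inertL (inertL q).one_mem, Nat.cast_zero]
      | succ i ih => rw [pow_succ, unrChar_mul, ih, unrChar_frobL, Nat.cast_succ]
    have hj0 : u j = 0 := by
      show (x (loc q j) * ext2 k (S.r0 t)).trace = 0
      rw [hx.unr q hq.out hq2 hD hqQ _ hA _ hj, zero_mul, trace_zero]
    have hum : u (frobL q ^ i * j * m) = u (frobL q ^ i * j) := by
      show (x (loc q (frobL q ^ i * j * m)) * _).trace = _
      rw [map_mul, hlc _ _ hm.1]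
    rw [hum, huhom, hp, hj0, add_zero, hunr₁ _ _ hm.2, unrChar_mul, hpu, unrChar_inertL hj,
      add_zero, map_natCast]
  set w : LG q → ZMod 2 := fun h => e (u (frobL q) * b h) with hw
  have hwhom : ∀ g h, w (g * h) = w g + w h := fun g h => by simp only [hw, hbhom, mul_add, map_add]
  have hwlc : LC₁ (LL q) w := by
    obtain ⟨N, hN, hlc⟩ := (hz.locZ1 q).2.1
    refine ⟨N, hN, fun g s hs => ?_⟩
    have hbs : b (g * s) = b g := smul_left_injective k hT0 (by
      show b (g * s) • _ = b g • _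
      rw [hb, hb]; exact hlc g s hs)
    simp only [hw, hbs]
  have hinvq : invQ 2 q (S.pairing e hx.toZ1 hz.toZ1) ≠ 0 := by
    rw [invQ_pairing]
    refine localInv_unr_mul_ne_zero hq2 hwlc hwhom ⟨ι, hι, he⟩ _ fun g h => ?_
    show e (x (loc q g) * S.act (loc q g) (z (loc q h))).trace = _
    rw [act_line hT (hzl g).1 (hzl h).2, ← hb h, mul_smul_comm, trace_smul, smul_eq_mul]
    show e (b h * u g) = unrChar 2 g * e (u (frobL q) * b h)
    rw [hu_eq g, mul_comm (b h), mul_assoc]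
    rcases zmod_two_eq (unrChar 2 g) with hc | hc <;> rw [hc] <;> simp
  -- the other invariants vanish
  have hrec := reciprocity (p := 2) (S.pairing e hx.toZ1 hz.toZ1)
  rw [invTot_apply, invInf_pairing, add_zero] at hrec
  refine hinvq ((finsum_eq_single (fun l : Nat.Primes => invQ 2 (l : ℕ) (S.pairing e hx.toZ1 hz.toZ1))
    ⟨q, hq.out⟩ fun l hl => ?_).symm.trans hrec)
  have hlq : (l : ℕ) ≠ q := fun h => hl (Subtype.ext h)
  by_cases h2 : (l : ℕ) = 2
  · obtain ⟨l, hlp⟩ := l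
    subst h2
    exact invQ_two e hx hz
  by_cases hlD : (l : ℕ) ∣ S.Q.D
  · exact invQ_ram e hlD hx hz
  by_cases hlQ : (l : ℕ) ∈ Q
  · exact invQ_aux e h2 hlD hlQ (Finset.mem_insert_of_mem hlQ)
      (fun φ hφ => hQ _ hlQ _ (liesOverPrime_padicPlace _) φ hφ) hx hz
  · exact invQ_unr e h2 hlD hlQ (fun h => (Finset.mem_insert.1 h).elim hlq hlQ) hx hz

end Setting

end FA.Two
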